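import Fermat.Agent.PT.F.Plan

/-!
# PT-F / F0 (helper68): the dictionary between level cochains on `G` and cochains of the finite
quotients `G ⧸ U` with values in the invariants `X^U` (`Rep.quotientToInvariants`).
-/

set_option autoImplicit false

noncomputable section

open CategoryTheory groupCohomology Fermat.Agent.PT

namespace Fermat.Agent.PT.F

section Tower

variable {G : Type} [Group G] (𝒯 : Tower G)

/-- Finite intersections of levels are levels. -/
theorem tower_finset_inf_mem {α : Type*} (s : Finset α) (f : α → Subgroup G)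
    (hf : ∀ a ∈ s, f a ∈ 𝒯.lev) : s.inf f ∈ 𝒯.lev := by
  classical
  induction s using Finset.induction_on with
  | empty => simpa using 𝒯.top_mem
  | insert a s ha ih =>
    rw [Finset.inf_insert]
    exact 𝒯.inf_mem _ _ (hf a (Finset.mem_insert_self a s))
      (ih fun b hb => hf b (Finset.mem_insert_of_mem hb))

/-- Below two levels there is a normal level. -/
theorem tower_exists_normal_le₂ {U V : Subgroup G} (hU : U ∈ 𝒯.lev) (hV : V ∈ 𝒯.lev) :
    ∃ W ∈ 𝒯.lev, W ≤ U ∧ W ≤ V ∧ W.Normal := by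
  obtain ⟨W, hW, hle, hn⟩ := 𝒯.exists_normal (U ⊓ V) (𝒯.inf_mem U V hU hV)
  exact ⟨W, hW, hle.trans inf_le_left, hle.trans inf_le_right, hn⟩

/-- A module is discrete for the tower: every element is fixed by a level. -/
def IsDiscrete {k : Type} [CommRing k] (X : Rep.{0} k G) : Prop :=
  ∀ x : X.V, ∃ U ∈ 𝒯.lev, ∀ s ∈ U, X.ρ s x = x

variable {𝒯} in
/-- Finitely many elements of a discrete module are fixed by a common level. -/
theorem IsDiscrete.exists_level_of_finite {k : Type} [CommRing k] {X : Rep.{0} k G}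
    (hX : IsDiscrete 𝒯 X) {S : Set X.V} (hS : S.Finite) :
    ∃ U ∈ 𝒯.lev, ∀ x ∈ S, ∀ s ∈ U, X.ρ s x = x := by
  classical
  choose V hV hVx using hX
  refine ⟨hS.toFinset.inf V, tower_finset_inf_mem 𝒯 _ _ fun a _ => hV a, fun x hx s hs => ?_⟩
  have hle : hS.toFinset.inf V ≤ V x := Finset.inf_le (hS.mem_toFinset.2 hx)
  exact hVx x s (hle hs)

variable {𝒯} in
/-- A level function takes finitely many values. -/
theorem isLevel₁_finite_range {Y : Type*} {f : G → Y} (hf : IsLevel₁ 𝒯 f) :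
    (Set.range f).Finite := by
  obtain ⟨U, hU, h⟩ := hf
  have := 𝒯.finiteIndex U hU
  have : Finite (G ⧸ U) := Subgroup.finite_quotient_of_finiteIndex
  have : Set.range f ⊆ Set.range (fun q : G ⧸ U => f q.out) := by
    rintro _ ⟨g, rfl⟩
    refine ⟨(g : G ⧸ U), ?_⟩
    obtain ⟨s, hs⟩ := QuotientGroup.mk_out_eq_mul U g
    show f (Quotient.out (g : G ⧸ U)) = f g
    rw [hs]
    exact h g s s.2
  exact (Set.finite_range _).subset this

variable {𝒯} in
theorem isLevel₂_finite_range {Y : Type*} {f : G × G → Y} (hf : IsLevel₂ 𝒯 f) :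
    (Set.range f).Finite := by
  obtain ⟨U, hU, h⟩ := hf
  have := 𝒯.finiteIndex U hU
  have : Finite (G ⧸ U) := Subgroup.finite_quotient_of_finiteIndex
  have : Set.range f ⊆ Set.range (fun q : (G ⧸ U) × (G ⧸ U) => f (q.1.out, q.2.out)) := by
    rintro _ ⟨⟨g, g'⟩, rfl⟩
    refine ⟨((g : G ⧸ U), (g' : G ⧸ U)), ?_⟩
    obtain ⟨s, hs⟩ := QuotientGroup.mk_out_eq_mul U g
    obtain ⟨s', hs'⟩ := QuotientGroup.mk_out_eq_mul U g'
    show f (Quotient.out (g : G ⧸ U), Quotient.out (g' : G ⧸ U)) = f (g, g')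
    rw [hs, hs']
    exact h g g' s s' s.2 s'.2
  exact (Set.finite_range _).subset this

end Tower

section Desc

variable {k : Type} [CommRing k] {G : Type} [Group G] (X : Rep.{0} k G)

/-- The 1-cochain `t` is defined at level `U`: right-`U`-invariant with `U`-invariant values. -/
def Desc₁ (U : Subgroup G) (t : G → X.V) : Prop :=
  (∀ g s : G, s ∈ U → t (g * s) = t g) ∧ ∀ g : G, ∀ s ∈ U, X.ρ s (t g) = t g

/-- The 2-cochain `y` is defined at level `U`. -/
def Desc₂ (U : Subgroup G) (y : G × G → X.V) : Prop :=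
  (∀ g g' s s' : G, s ∈ U → s' ∈ U → y (g * s, g' * s') = y (g, g')) ∧
    ∀ gg : G × G, ∀ s ∈ U, X.ρ s (y gg) = y gg

variable {X}

theorem Desc₁.mono {U U' : Subgroup G} (h : U' ≤ U) {t : G → X.V} (ht : Desc₁ X U t) :
    Desc₁ X U' t :=
  ⟨fun g s hs => ht.1 g s (h hs), fun g s hs => ht.2 g s (h hs)⟩

theorem Desc₂.mono {U U' : Subgroup G} (h : U' ≤ U) {y : G × G → X.V} (hy : Desc₂ X U y) :
    Desc₂ X U' y :=
  ⟨fun g g' s s' hs hs' => hy.1 g g' s s' (h hs) (h hs'), fun gg s hs => hy.2 gg s (h hs)⟩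

theorem exists_desc₁ {𝒯 : Tower G} (hX : IsDiscrete 𝒯 X) {t : G → X.V} (ht : IsLevel₁ 𝒯 t) :
    ∃ U ∈ 𝒯.lev, Desc₁ X U t := by
  obtain ⟨V, hV, hVt⟩ := hX.exists_level_of_finite (isLevel₁_finite_range ht)
  obtain ⟨U, hU, h⟩ := ht
  exact ⟨U ⊓ V, 𝒯.inf_mem U V hU hV, fun g s hs => h g s hs.1,
    fun g s hs => hVt (t g) ⟨g, rfl⟩ s hs.2⟩

theorem exists_desc₂ {𝒯 : Tower G} (hX : IsDiscrete 𝒯 X) {y : G × G → X.V} (hy : IsLevel₂ 𝒯 y) :
    ∃ U ∈ 𝒯.lev, Desc₂ X U y := by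
  obtain ⟨V, hV, hVt⟩ := hX.exists_level_of_finite (isLevel₂_finite_range hy)
  obtain ⟨U, hU, h⟩ := hy
  exact ⟨U ⊓ V, 𝒯.inf_mem U V hU hV, fun g g' s s' hs hs' => h g g' s s' hs.1 hs'.1,
    fun gg s hs => hVt (y gg) ⟨gg, rfl⟩ s hs.2⟩

theorem Desc₁.isLevel₁ {𝒯 : Tower G} {U : Subgroup G} (hU : U ∈ 𝒯.lev) {t : G → X.V}
    (ht : Desc₁ X U t) : IsLevel₁ 𝒯 t := ⟨U, hU, ht.1⟩

theorem Desc₂.isLevel₂ {𝒯 : Tower G} {U : Subgroup G} (hU : U ∈ 𝒯.lev) {y : G × G → X.V}
    (hy : Desc₂ X U y) : IsLevel₂ 𝒯 y := ⟨U, hU, hy.1⟩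

variable (X) (U : Subgroup G) [U.Normal]

/-- Inflation of 1-cochains of `G ⧸ U` with values in `X^U`. -/
def infl₁ (t : G ⧸ U → (X.quotientToInvariants U).V) : G → X.V :=
  fun g => (t (g : G ⧸ U)).1

/-- Inflation of 2-cochains of `G ⧸ U` with values in `X^U`. -/
def infl₂ (y : (G ⧸ U) × (G ⧸ U) → (X.quotientToInvariants U).V) : G × G → X.V :=
  fun gg => (y ((gg.1 : G ⧸ U), (gg.2 : G ⧸ U))).1

variable {X U}

@[simp] theorem infl₁_apply (t : G ⧸ U → (X.quotientToInvariants U).V) (g : G) :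
    infl₁ X U t g = (t (g : G ⧸ U)).1 := rfl

@[simp] theorem infl₂_apply (y : (G ⧸ U) × (G ⧸ U) → (X.quotientToInvariants U).V) (g g' : G) :
    infl₂ X U y (g, g') = (y ((g : G ⧸ U), (g' : G ⧸ U))).1 := rfl

theorem infl₁_injective : Function.Injective (infl₁ X U) := by
  intro t t' h
  funext q
  obtain ⟨g, rfl⟩ := QuotientGroup.mk_surjective q
  exact Subtype.ext (congrFun h g)

theorem infl₂_injective : Function.Injective (infl₂ X U) := by
  intro y y' h
  funext ⟨q, q'⟩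
  obtain ⟨g, rfl⟩ := QuotientGroup.mk_surjective q
  obtain ⟨g', rfl⟩ := QuotientGroup.mk_surjective q'
  exact Subtype.ext (congrFun h (g, g'))

theorem infl₁_add (t t' : G ⧸ U → (X.quotientToInvariants U).V) :
    infl₁ X U (t + t') = infl₁ X U t + infl₁ X U t' := rfl

theorem infl₂_add (y y' : (G ⧸ U) × (G ⧸ U) → (X.quotientToInvariants U).V) :
    infl₂ X U (y + y') = infl₂ X U y + infl₂ X U y' := rfl

theorem infl₂_sub (y y' : (G ⧸ U) × (G ⧸ U) → (X.quotientToInvariants U).V) :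
    infl₂ X U (y - y') = infl₂ X U y - infl₂ X U y' := rfl

theorem infl₂_nsmul (n : ℕ) (y : (G ⧸ U) × (G ⧸ U) → (X.quotientToInvariants U).V) :
    infl₂ X U (n • y) = n • infl₂ X U y := rfl

theorem desc₁_infl₁ (t : G ⧸ U → (X.quotientToInvariants U).V) : Desc₁ X U (infl₁ X U t) := by
  refine ⟨fun g s hs => ?_, fun g s hs => ?_⟩
  · have : ((g * s : G) : G ⧸ U) = (g : G ⧸ U) := by
      rw [QuotientGroup.eq]; simpa using hs
    simp only [infl₁_apply, this]
  · exact (t (g : G ⧸ U)).2 ⟨s, hs⟩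

theorem desc₂_infl₂ (y : (G ⧸ U) × (G ⧸ U) → (X.quotientToInvariants U).V) :
    Desc₂ X U (infl₂ X U y) := by
  refine ⟨fun g g' s s' hs hs' => ?_, fun gg s hs => ?_⟩
  · have h1 : ((g * s : G) : G ⧸ U) = (g : G ⧸ U) := by
      rw [QuotientGroup.eq]; simpa using hs
    have h2 : ((g' * s' : G) : G ⧸ U) = (g' : G ⧸ U) := by
      rw [QuotientGroup.eq]; simpa using hs'
    simp only [infl₂_apply, h1, h2]
  · exact (y ((gg.1 : G ⧸ U), (gg.2 : G ⧸ U))).2 ⟨s, hs⟩

/-- Descent of a 1-cochain defined at level `U`. -/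
def descend₁ (t : G → X.V) (ht : Desc₁ X U t) :
    G ⧸ U → (X.quotientToInvariants U).V :=
  fun q => ⟨t q.out, fun s => ht.2 q.out s.1 s.2⟩

/-- Descent of a 2-cochain defined at level `U`. -/
def descend₂ (y : G × G → X.V) (hy : Desc₂ X U y) :
    (G ⧸ U) × (G ⧸ U) → (X.quotientToInvariants U).V :=
  fun q => ⟨y (q.1.out, q.2.out), fun s => hy.2 _ s.1 s.2⟩

theorem infl₁_descend₁ (t : G → X.V) (ht : Desc₁ X U t) : infl₁ X U (descend₁ t ht) = t := by
  funext g
  obtain ⟨s, hs⟩ := QuotientGroup.mk_out_eq_mul U g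
  show t (Quotient.out (g : G ⧸ U)) = t g
  rw [hs]
  exact ht.1 g s s.2

theorem infl₂_descend₂ (y : G × G → X.V) (hy : Desc₂ X U y) :
    infl₂ X U (descend₂ y hy) = y := by
  funext ⟨g, g'⟩
  obtain ⟨s, hs⟩ := QuotientGroup.mk_out_eq_mul U g
  obtain ⟨s', hs'⟩ := QuotientGroup.mk_out_eq_mul U g'
  show y (Quotient.out (g : G ⧸ U), Quotient.out (g' : G ⧸ U)) = y (g, g')
  rw [hs, hs']
  exact hy.1 g g' s s' s.2 s'.2

theorem infl₂_d₁₂ (t : G ⧸ U → (X.quotientToInvariants U).V) :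
    infl₂ X U ((d₁₂ (X.quotientToInvariants U)).hom t) = (d₁₂ X).hom (infl₁ X U t) := by
  funext ⟨g, g'⟩
  simp only [infl₂_apply, infl₁_apply, d₁₂_hom_apply]
  rfl

theorem infl₂_mem_cocycles₂_iff (y : (G ⧸ U) × (G ⧸ U) → (X.quotientToInvariants U).V) :
    infl₂ X U y ∈ cocycles₂ X ↔ y ∈ cocycles₂ (X.quotientToInvariants U) := by
  rw [mem_cocycles₂_iff, mem_cocycles₂_iff]
  constructor
  · intro h q q' q''
    obtain ⟨g, rfl⟩ := QuotientGroup.mk_surjective q
    obtain ⟨g', rfl⟩ := QuotientGroup.mk_surjective q'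
    obtain ⟨g'', rfl⟩ := QuotientGroup.mk_surjective q''
    exact Subtype.ext (h g g' g'')
  · intro h g g' g''
    exact congrArg Subtype.val (h (g : G ⧸ U) (g' : G ⧸ U) (g'' : G ⧸ U))

theorem infl₁_mem_cocycles₁_iff (t : G ⧸ U → (X.quotientToInvariants U).V) :
    infl₁ X U t ∈ cocycles₁ X ↔ t ∈ cocycles₁ (X.quotientToInvariants U) := by
  rw [mem_cocycles₁_iff, mem_cocycles₁_iff]
  constructor
  · intro h q q'
    obtain ⟨g, rfl⟩ := QuotientGroup.mk_surjective q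
    obtain ⟨g', rfl⟩ := QuotientGroup.mk_surjective q'
    exact Subtype.ext (h g g')
  · intro h g g'
    exact congrArg Subtype.val (h (g : G ⧸ U) (g' : G ⧸ U))

/-- A level coboundary at level `U` is the inflation of a coboundary. -/
theorem infl₂_mem_coboundaries₂ {𝒯 : Tower G} (hU : U ∈ 𝒯.lev)
    (y : (G ⧸ U) × (G ⧸ U) → (X.quotientToInvariants U).V)
    (hy : y ∈ coboundaries₂ (X.quotientToInvariants U)) :
    infl₂ X U y ∈ levCoboundaries₂ 𝒯 X := by
  obtain ⟨t, rfl⟩ := hy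
  exact (mem_levCoboundaries₂_iff 𝒯 X _).2
    ⟨infl₁ X U t, (desc₁_infl₁ t).isLevel₁ hU, (infl₂_d₁₂ t).symm⟩

end Desc

section Trans

variable {k : Type} [CommRing k] {G : Type} [Group G] (X : Rep.{0} k G)
  {U U' : Subgroup G} [U.Normal] [U'.Normal] (h : U' ≤ U)

/-- The transition homomorphism `G ⧸ U' → G ⧸ U`. -/
def transHom : G ⧸ U' →* G ⧸ U := QuotientGroup.map U' U (MonoidHom.id G) h

@[simp] theorem transHom_mk (g : G) : transHom h (g : G ⧸ U') = (g : G ⧸ U) := rfl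

theorem transHom_surjective : Function.Surjective (transHom h) := fun q => by
  obtain ⟨g, rfl⟩ := QuotientGroup.mk_surjective q
  exact ⟨(g : G ⧸ U'), rfl⟩

/-- The inclusion `X^U → X^{U'}` as a morphism of `G ⧸ U'`-modules. -/
def transRep : Rep.res (transHom h) (X.quotientToInvariants U) ⟶ X.quotientToInvariants U' :=
  Rep.ofHom ⟨
    { toFun := fun x => ⟨x.1, fun s => x.2 ⟨s.1, h s.2⟩⟩
      map_add' := fun _ _ => rfl
      map_smul' := fun _ _ => rfl }, fun q => by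
      obtain ⟨g, rfl⟩ := QuotientGroup.mk_surjective q
      rfl⟩

@[simp] theorem transRep_apply_coe (x : (X.quotientToInvariants U).V) :
    (((transRep X h).hom x : (X.quotientToInvariants U').V) : X.V) = x.1 := rfl

/-- transition of 2-cochains -/
def trans₂ (y : (G ⧸ U) × (G ⧸ U) → (X.quotientToInvariants U).V) :
    (G ⧸ U') × (G ⧸ U') → (X.quotientToInvariants U').V :=
  fun qq => (transRep X h).hom (y (transHom h qq.1, transHom h qq.2))

theorem infl₂_trans₂ (y : (G ⧸ U) × (G ⧸ U) → (X.quotientToInvariants U).V) :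
    infl₂ X U' (trans₂ X h y) = infl₂ X U y := rfl

theorem trans₂_mem_cocycles₂ (y : (G ⧸ U) × (G ⧸ U) → (X.quotientToInvariants U).V)
    (hy : y ∈ cocycles₂ (X.quotientToInvariants U)) :
    trans₂ X h y ∈ cocycles₂ (X.quotientToInvariants U') := by
  rw [← infl₂_mem_cocycles₂_iff, infl₂_trans₂, infl₂_mem_cocycles₂_iff]
  exact hy

/-- `groupCohomology.map` along the transition is the transition of cocycles. -/
theorem map_trans_H2π (y : cocycles₂ (X.quotientToInvariants U)) :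
    (groupCohomology.map (transHom h) (transRep X h) 2).hom (H2π _ y) =
      H2π _ ⟨trans₂ X h y, trans₂_mem_cocycles₂ X h y y.2⟩ := by
  have := H2π_comp_map_apply (transHom h) (transRep X h) y
  rw [this]
  rfl

end Trans

section Inj

variable {G : Type} [Group G] (𝒯 : Tower G) (X : Rep.{0} ℤ G)

/-- `X^U` has a `p`-fundamental class at every normal level `U`
(the datum axioms `cm_glob`, `cm_loc`). -/
def HasPFund (p : ℕ) : Prop :=
  ∀ (U : Subgroup G) [U.Normal], U ∈ 𝒯.lev →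
    ∃ u : H2 (X.quotientToInvariants U), IsPFundClass p (X.quotientToInvariants U) u

variable {𝒯 X}

/-- **F1a, level form**: a `p`-primary class of `H²(G ⧸ U, X^U)` whose inflation to `G` is a level
coboundary is zero. -/
theorem infl_injective_pPrimary (hInj : StmtInflInjFin) (p : ℕ) [Fact p.Prime]
    (hX : IsDiscrete 𝒯 X) (hcm : HasPFund 𝒯 X p) {U : Subgroup G} [U.Normal] (hU : U ∈ 𝒯.lev)
    (y : cocycles₂ (X.quotientToInvariants U)) (hp : IsPTors p (H2π _ y))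
    (hy : infl₂ X U y ∈ levCoboundaries₂ 𝒯 X) : H2π _ y = 0 := by
  obtain ⟨t, ht, hty⟩ := (mem_levCoboundaries₂_iff 𝒯 X _).1 hy
  obtain ⟨V, hV, hVt⟩ := exists_desc₁ hX ht
  obtain ⟨U', hU', hle1, hle2, hn⟩ := tower_exists_normal_le₂ 𝒯 hU hV
  have htd : Desc₁ X U' t := hVt.mono hle2
  have hfin := 𝒯.finiteIndex U' hU'
  have : Finite (G ⧸ U') := Subgroup.finite_quotient_of_finiteIndex
  have h1 : trans₂ X hle1 y = (d₁₂ (X.quotientToInvariants U')).hom (descend₁ t htd) := by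
    apply infl₂_injective
    rw [infl₂_trans₂, infl₂_d₁₂, infl₁_descend₁, hty]
  have h2 : (groupCohomology.map (transHom hle1) (transRep X hle1) 2).hom (H2π _ y) = 0 := by
    rw [map_trans_H2π, H2π_eq_zero_iff]
    exact ⟨descend₁ t htd, h1.symm⟩
  obtain ⟨u, hu⟩ := hcm U' hU'
  refine hInj p (G ⧸ U') (G ⧸ U) (transHom hle1) (transHom_surjective hle1)
    (X.quotientToInvariants U') (X.quotientToInvariants U) (transRep X hle1) ?_ ?_ hu.h1
    (H2π _ y) hp h2
  · intro a b hab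
    have hab' : (a.1 : X.V) = b.1 :=
      congrArg (fun z : (X.quotientToInvariants U').V => (z.1 : X.V)) hab
    exact Subtype.ext hab'
  · intro c hc
    refine ⟨⟨c.1, fun s => ?_⟩, rfl⟩
    have h3 : transHom hle1 ((s : G) : G ⧸ U') = 1 := by
      rw [transHom_mk]
      exact (QuotientGroup.eq_one_iff _).2 s.2
    exact congrArg Subtype.val (hc _ h3)

/-- every class of `levH2` is the class of a level cocycle -/
theorem levH2_exists_rep {k : Type} [CommRing k] {Y : Rep.{0} k G} (x : levH2 𝒯 Y) :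
    ∃ a : ↥(levCocycles₂ 𝒯 Y), levH2π 𝒯 Y a = x :=
  Submodule.Quotient.mk_surjective _ x

/-- **F1b, level form**: the `p`-torsion of `levH2 𝒯 X` is cyclic. -/
theorem levH2_pTorsion_cyclic (hCyc : StmtH2pCyclic) (p : ℕ)
    [Fact p.Prime] (hX : IsDiscrete 𝒯 X) (hcm : HasPFund 𝒯 X p)
    (x y : levH2 𝒯 X) (hx : p • x = 0) (hy : p • y = 0) (hx0 : x ≠ 0) :
    ∃ n : ℕ, y = n • x := by
  obtain ⟨a, rfl⟩ := levH2_exists_rep x
  obtain ⟨b, rfl⟩ := levH2_exists_rep y
  rw [← map_nsmul, levH2π_eq_zero_iff] at hx hy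
  obtain ⟨s, hs, hsa⟩ := (mem_levCoboundaries₂_iff 𝒯 X _).1 hx
  obtain ⟨s', hs', hsb⟩ := (mem_levCoboundaries₂_iff 𝒯 X _).1 hy
  obtain ⟨Ua, hUa, hda⟩ := exists_desc₂ hX a.2.2
  obtain ⟨Ub, hUb, hdb⟩ := exists_desc₂ hX b.2.2
  obtain ⟨Us, hUs, hds⟩ := exists_desc₁ hX hs
  obtain ⟨Us', hUs', hds'⟩ := exists_desc₁ hX hs'
  obtain ⟨U₁, hU₁, h1a, h1b, -⟩ := tower_exists_normal_le₂ 𝒯 hUa hUb
  obtain ⟨U₂, hU₂, h2s, h2s', -⟩ := tower_exists_normal_le₂ 𝒯 hUs hUs'
  obtain ⟨U, hU, hle1, hle2, hn⟩ := tower_exists_normal_le₂ 𝒯 hU₁ hU₂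
  have hda' : Desc₂ X U (a : G × G → X.V) := hda.mono (hle1.trans h1a)
  have hdb' : Desc₂ X U (b : G × G → X.V) := hdb.mono (hle1.trans h1b)
  have hdsU : Desc₁ X U s := hds.mono (hle2.trans h2s)
  have hdsU' : Desc₁ X U s' := hds'.mono (hle2.trans h2s')
  have hfin := 𝒯.finiteIndex U hU
  have : Finite (G ⧸ U) := Subgroup.finite_quotient_of_finiteIndex
  have hac : descend₂ (a : G × G → X.V) hda' ∈ cocycles₂ (X.quotientToInvariants U) := by
    rw [← infl₂_mem_cocycles₂_iff, infl₂_descend₂]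
    exact a.2.1
  have hbc : descend₂ (b : G × G → X.V) hdb' ∈ cocycles₂ (X.quotientToInvariants U) := by
    rw [← infl₂_mem_cocycles₂_iff, infl₂_descend₂]
    exact b.2.1
  set a' : cocycles₂ (X.quotientToInvariants U) := ⟨_, hac⟩ with ha'
  set b' : cocycles₂ (X.quotientToInvariants U) := ⟨_, hbc⟩ with hb'
  have hpa : p • (H2π _ a' : H2 (X.quotientToInvariants U)) = 0 := by
    rw [← map_nsmul, H2π_eq_zero_iff]
    refine ⟨descend₁ s hdsU, ?_⟩
    apply infl₂_injective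
    rw [infl₂_d₁₂, infl₁_descend₁, hsa]
    show _ = infl₂ X U (p • descend₂ (a : G × G → X.V) hda')
    rw [infl₂_nsmul, infl₂_descend₂]
    rfl
  have hpb : p • (H2π _ b' : H2 (X.quotientToInvariants U)) = 0 := by
    rw [← map_nsmul, H2π_eq_zero_iff]
    refine ⟨descend₁ s' hdsU', ?_⟩
    apply infl₂_injective
    rw [infl₂_d₁₂, infl₁_descend₁, hsb]
    show _ = infl₂ X U (p • descend₂ (b : G × G → X.V) hdb')
    rw [infl₂_nsmul, infl₂_descend₂]
    rfl
  have hne : (H2π _ a' : H2 (X.quotientToInvariants U)) ≠ 0 := by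
    intro h0
    apply hx0
    rw [levH2π_eq_zero_iff]
    have := infl₂_mem_coboundaries₂ hU a'.1 ((H2π_eq_zero_iff _).1 h0)
    rwa [infl₂_descend₂] at this
  obtain ⟨u, hu⟩ := hcm U hU
  obtain ⟨n, hn⟩ := hCyc p (G ⧸ U) (X.quotientToInvariants U) u hu _ _ hpa hpb hne
  refine ⟨n, ?_⟩
  have h5 : (H2π _ (b' - n • a') : H2 (X.quotientToInvariants U)) = 0 := by
    rw [map_sub, map_nsmul, hn, sub_self]
  rw [H2π_eq_zero_iff] at h5
  have h6 := infl₂_mem_coboundaries₂ hU _ h5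
  rw [← sub_eq_zero, ← map_nsmul, ← map_sub, levH2π_eq_zero_iff]
  have h7 : infl₂ X U ((b' - n • a' : cocycles₂ (X.quotientToInvariants U)) :
      (G ⧸ U) × (G ⧸ U) → (X.quotientToInvariants U).V) = ((b - n • a : ↥(levCocycles₂ 𝒯 X)) :
        G × G → X.V) := by
    show infl₂ X U (descend₂ (b : G × G → X.V) hdb' - n • descend₂ (a : G × G → X.V) hda') = _
    rw [infl₂_sub, infl₂_nsmul, infl₂_descend₂, infl₂_descend₂]
    rfl
  rw [← h7]
  exact h6

/-- the subgroup of elements killed by `p` -/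
def pTors (p : ℕ) (Y : Type*) [AddCommGroup Y] : AddSubgroup Y :=
  (nsmulAddMonoidHom (α := Y) p).ker

theorem mem_pTors {p : ℕ} {Y : Type*} [AddCommGroup Y] {x : Y} : x ∈ pTors p Y ↔ p • x = 0 :=
  Iff.rfl

/-- A group of exponent `p` in which every nonzero element generates embeds into `ZMod p`. -/
theorem exists_injective_to_zmod (p : ℕ) [Fact p.Prime] {T : Type*} [AddCommGroup T]
    (hp : ∀ x : T, p • x = 0) (hc : ∀ x y : T, x ≠ 0 → ∃ n : ℕ, y = n • x) :
    ∃ f : T →+ ZMod p, Function.Injective f := by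
  by_cases h : ∀ x : T, x = 0
  · exact ⟨0, fun x y _ => (h x).trans (h y).symm⟩
  push Not at h
  obtain ⟨x₀, hx₀⟩ := h
  let g : ZMod p →+ T := ZMod.lift p ⟨zmultiplesHom T x₀, by
    simpa using hp x₀⟩
  have hg : ∀ n : ℤ, g (n : ZMod p) = n • x₀ := fun n => by
    simp [g]
  have hsurj : Function.Surjective g := fun y => by
    obtain ⟨n, rfl⟩ := hc x₀ y hx₀
    exact ⟨((n : ℤ) : ZMod p), by rw [hg]; simp⟩
  have hinj : Function.Injective g := by
    rw [injective_iff_map_eq_zero]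
    intro z hz
    by_contra hz0
    apply hx₀
    obtain ⟨n, rfl⟩ := ZMod.intCast_surjective z
    obtain ⟨m, hm⟩ := ZMod.intCast_surjective ((n : ZMod p)⁻¹)
    have h1 : ((m * n : ℤ) : ZMod p) = 1 := by
      push_cast
      rw [hm]
      exact inv_mul_cancel₀ hz0
    have h2 : g ((m * n : ℤ) : ZMod p) = m • g (n : ZMod p) := by
      rw [hg, hg, mul_smul]
    rw [h1, hz, smul_zero] at h2
    have h3 : g 1 = x₀ := by
      have := hg 1
      simpa using this
    rw [← h3, h2]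
  exact ⟨((AddEquiv.ofBijective g ⟨hinj, hsurj⟩).symm : T →+ ZMod p),
    (AddEquiv.ofBijective g ⟨hinj, hsurj⟩).symm.injective⟩

/-- **F1b**: the invariant map on the `p`-torsion of `levH2`. -/
theorem exists_inv (hCyc : StmtH2pCyclic) (p : ℕ) [Fact p.Prime] (hX : IsDiscrete 𝒯 X)
    (hcm : HasPFund 𝒯 X p) :
    ∃ inv : pTors p (levH2 𝒯 X) →+ ZMod p, Function.Injective inv := by
  apply exists_injective_to_zmod p
  · intro x
    exact Subtype.ext x.2
  · intro x y hx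
    have hx' : (x : levH2 𝒯 X) ≠ 0 := fun h => hx (Subtype.ext h)
    obtain ⟨n, hn⟩ := levH2_pTorsion_cyclic hCyc p hX hcm x y x.2 y.2 hx'
    exact ⟨n, Subtype.ext hn⟩

end Inj

end Fermat.Agent.PT.F

end
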