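import Mathlib

/-!
# PT-F / glue, second form (helper68)

The Sha pairing from a "connecting map" `del : E → H2` on an ADDITIVE group `E` and a pairing
`Pg : E → Hom(H1, 𝔽_p)`; no module structure on `E`, no local pairings.
-/

set_option autoImplicit false

namespace Fermat.Agent.PT.F

variable {p : ℕ} [Fact p.Prime]
  {H1 Sh1 H2 : Type*} [AddCommGroup H1] [Module (ZMod p) H1] [AddCommGroup Sh1]
  [Module (ZMod p) Sh1] [AddCommGroup H2] [Module (ZMod p) H2]
  {E : Type*} [AddCommGroup E]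

/-- **Glue, second form.**  `j : Sh1 → H1` injective (think `Ш¹ ⊆ H¹_lev`), `S2 ⊆ H2` (think
`Ш² ⊆ H²_lev`), `del : E → H2` additive with image `S2`, `Pg : E → H1^*` additive such that
* `del g = 0 ⇒ Pg g` vanishes on `Sh1`,
* `Pg g` vanishes on `Sh1 ⇒ del g = 0`,
* the right kernel of `Pg` is zero.
Then `(y, del g) ↦ Pg g (j y)` is a well-defined perfect pairing `Sh1 × S2 → 𝔽_p`. -/
theorem glue_sha_pairing₂ (j : Sh1 →ₗ[ZMod p] H1) (hj : Function.Injective j)
    (S2 : Submodule (ZMod p) H2) (del : E →+ H2) (Pg : E →+ (H1 →ₗ[ZMod p] ZMod p))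
    (h_loc : ∀ g, del g ∈ S2) (h_surj : ∀ x ∈ S2, ∃ g, del g = x)
    (h_wd : ∀ g, del g = 0 → ∀ y : Sh1, Pg g (j y) = 0)
    (h_right : ∀ y : H1, (∀ g, Pg g y = 0) → y = 0)
    (h_key : ∀ g, (∀ y : Sh1, Pg g (j y) = 0) → del g = 0) :
    ∃ B : Sh1 →ₗ[ZMod p] S2 →ₗ[ZMod p] ZMod p,
      (∀ y, (∀ x, B y x = 0) → y = 0) ∧ (∀ x, (∀ y, B y x = 0) → x = 0) := by
  classical
  choose gOf hgOf using fun x : S2 => h_surj x.1 x.2
  have indep : ∀ (g : E) (x : S2), del g = x.1 → ∀ y : Sh1, Pg g (j y) = Pg (gOf x) (j y) := by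
    intro g x hg y
    have h0 : del (g - gOf x) = 0 := by rw [map_sub, hg, hgOf, sub_self]
    have h1 := h_wd _ h0 y
    rw [map_sub, LinearMap.sub_apply, sub_eq_zero] at h1
    exact h1
  -- the pairing, additive in `x`
  let Bx : Sh1 → (S2 →+ ZMod p) := fun y =>
    { toFun := fun x => Pg (gOf x) (j y)
      map_zero' := by
        have := indep 0 0 (by simp) y
        rw [← this]
        simp
      map_add' := fun x x' => by
        have := indep (gOf x + gOf x') (x + x') (by
          rw [map_add, hgOf, hgOf]; rfl) y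
        rw [← this, map_add, LinearMap.add_apply] }
  let By : Sh1 →+ (S2 →ₗ[ZMod p] ZMod p) :=
    { toFun := fun y => (Bx y).toZModLinearMap p
      map_zero' := by
        ext x
        show Pg (gOf x) (j 0) = 0
        rw [map_zero, map_zero]
      map_add' := fun y y' => by
        ext x
        show Pg (gOf x) (j (y + y')) = Pg (gOf x) (j y) + Pg (gOf x) (j y')
        rw [map_add, map_add] }
  refine ⟨By.toZModLinearMap p, ?_, ?_⟩
  · intro y hy
    apply hj
    rw [map_zero]
    apply h_right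
    intro g
    have h1 := hy ⟨del g, h_loc g⟩
    have h2 := indep g ⟨del g, h_loc g⟩ rfl y
    rw [h2]
    exact h1
  · intro x hx
    have h1 : del (gOf x) = 0 := h_key _ (fun y => hx y)
    apply Subtype.ext
    rw [← hgOf x, h1]
    rfl

end Fermat.Agent.PT.F
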