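import Fermat.Agent.PT.F.Pair
import Fermat.Agent.PT.F.Glue2

/-!
# PT-F / F8 (helper68): assembly of the abstract Poitou–Tate pairing

`stmtAssembly : StmtAssembly`: all the statements of the PT-F interface give the perfect pairing
`Ш¹(A') × Ш²(A) → 𝔽_p` for a presentation `P` of `A' = A.dualTwist χ` with the inputs
`HasInd P.M₀`, `SeqInputs D A P`.
-/

set_option autoImplicit false

noncomputable section

namespace Fermat.Agent.PT.F

open CategoryTheory groupCohomology Fermat.Agent.PT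

namespace Asm

section Bridge

variable {p : ℕ} [Fact p.Prime] {G : Type} [Group G] {ι : Type} {Gloc : ι → Type}
  [∀ v, Group (Gloc v)] (D : PTDatum p G ι Gloc)

/-- localisation of the class of a cocycle -/
lemma locRes_H1π (A' : Rep.{0} (ZMod p) G) (v : ι) (c : cocycles₁ A') :
    (locRes D.r A' v).hom ((H1π A').hom c) =
      (H1π (Rep.res (D.r v) A')).hom (mapCocycles₁ (D.r v) (𝟙 (Rep.res (D.r v) A')) c) :=
  H1π_comp_map_apply (D.r v) (𝟙 (Rep.res (D.r v) A')) c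

lemma locTotal_eq_zero_iff (A' : Rep.{0} (ZMod p) G) (c : cocycles₁ A') :
    locTotal D.r A' ((H1π A').hom c) = 0 ↔
      ∀ v, resOne D v (c : G → A'.V) ∈ coboundaries₁ (Rep.res (D.r v) A') := by
  rw [funext_iff]
  refine forall_congr' fun v => ?_
  rw [locTotal_apply, locRes_H1π]
  exact H1π_eq_zero_iff _

lemma locTwo_eq_zero_iff (A : Rep.{0} (ZMod p) G) (w : ↥(levCocycles₂ D.𝒯 A)) :
    D.locTwo A (levH2π D.𝒯 A w) = 0 ↔
      ∀ v, resTwo D v (w : G × G → A.V) ∈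
        levCoboundaries₂ (D.𝒯loc v) (Rep.res (D.r v) A) := by
  rw [funext_iff]
  refine forall_congr' fun v => ?_
  exact levH2π_eq_zero_iff (D.𝒯loc v) (Rep.res (D.r v) A) _

/-- push-forward of a level coboundary is a level coboundary -/
lemma push_levCob {𝒯 : Tower G} {X Y : Rep.{0} ℤ G} (f : X ⟶ Y) {y : G × G → X.V}
    (hy : y ∈ levCoboundaries₂ 𝒯 X) : (fun στ => f.hom (y στ)) ∈ levCoboundaries₂ 𝒯 Y := by
  obtain ⟨t, ht, rfl⟩ := (mem_levCoboundaries₂_iff 𝒯 X _).1 hy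
  refine (mem_levCoboundaries₂_iff 𝒯 Y _).2 ⟨fun σ => f.hom (t σ), ht.comp _, ?_⟩
  funext στ
  simp only [d₁₂_hom_apply, map_add, map_sub, Rep.hom_comm_apply]

lemma pairCoc_comp {𝒯 : Tower G} {k : Type} [CommRing k] {A' : Rep.{0} k G}
    (P : Presentation 𝒯 A') {X Y : Rep.{0} ℤ G} (g : P.M₁ ⟶ X) (f : X ⟶ Y) (c : G → A'.V) :
    pairCoc P (g ≫ f) c = fun στ => f.hom (pairCoc P g c στ) := rfl

end Bridge

end Asm

open Asm

/-- **F8**. -/
theorem stmtAssembly : StmtAssembly := by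
  intro hPB hPH1 hRK hLK hFin hCMP hLN hκ hDE hDU hDA hDR hDH hLD hEE hEH2
  intro p _ G _ ι _ Gloc _ D A _ P hInd hSeq
  classical
  have hpA : ∀ a : (A.dualTwist D.χ).V, p • a = 0 := by
    intro a
    rw [← Nat.cast_smul_eq_nsmul (ZMod p), ZMod.natCast_self, zero_smul]
  have hM : IsLevTriv D.𝒯 P.M₁ := ⟨P.U₀, P.U₀_mem, fun s hs m => by
    apply P.inc_injective
    rw [Rep.hom_comm_apply, P.triv₀ s hs]⟩
  obtain ⟨Pg, hPg⟩ := hPH1 p G ι Gloc D (A.dualTwist D.χ) P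
  have hB6 := (hPB G D.𝒯 (ZMod p) (A.dualTwist D.χ) P D.C).2.2.2.2.2.1
  -- the connecting map
  choose wOf hwOf_mem hwOf_del using hDE p G ι Gloc D A P
  have del_eq : ∀ (g : P.M₁ ⟶ D.C) (w : G × G → A.V) (hw : w ∈ levCocycles₂ D.𝒯 A)
      (w₀ : G × G → A.V), IsDel D A P g w₀ → w - w₀ ∈ levCoboundaries₂ D.𝒯 A →
      levH2π D.𝒯 A ⟨w, hw⟩ = levH2π D.𝒯 A ⟨wOf g, hwOf_mem g⟩ := by
    intro g w hw w₀ hw₀ hww₀
    have h1 := hDU p G ι Gloc D A P g w₀ (wOf g) hw₀ (hwOf_del g)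
    rw [← sub_eq_zero, ← map_sub, levH2π_eq_zero_iff]
    have h2 : w - wOf g = (w - w₀) + (w₀ - wOf g) := by abel
    show w - wOf g ∈ _
    rw [h2]
    exact Submodule.add_mem _ hww₀ h1
  let del : (P.M₁ ⟶ D.C) →+ levH2 D.𝒯 A :=
    AddMonoidHom.mk' (fun g => levH2π D.𝒯 A ⟨wOf g, hwOf_mem g⟩) (fun g g' => by
      have h1 := hDA p G ι Gloc D A P g g' (wOf g) (wOf g') (hwOf_del g) (hwOf_del g')
      have h2 := del_eq (g + g') (wOf g + wOf g')
        (Submodule.add_mem _ (hwOf_mem g) (hwOf_mem g')) (wOf g + wOf g') h1 (by simp)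
      rw [← h2, ← map_add]
      rfl)
  have hdel : ∀ g, del g = levH2π D.𝒯 A ⟨wOf g, hwOf_mem g⟩ := fun g => rfl
  have del_zero_of : ∀ g : P.M₁ ⟶ D.C, IsDel D A P g 0 → del g = 0 := by
    intro g hg
    rw [hdel, ← del_eq g 0 (Submodule.zero_mem _) 0 hg (by simp)]
    exact map_zero _
  have hrep : ∀ y : ↥(levH1 D.𝒯 (A.dualTwist D.χ)),
      ∃ (c : cocycles₁ (A.dualTwist D.χ)) (hc : IsLevel₁ D.𝒯 (c : G → (A.dualTwist D.χ).V)),
        y = ⟨(H1π (A.dualTwist D.χ)).hom c,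
          (mem_levH1_iff D.𝒯 (A.dualTwist D.χ) _).2 ⟨c, hc, rfl⟩⟩ := by
    intro y
    obtain ⟨c, hc, hcy⟩ := (mem_levH1_iff D.𝒯 (A.dualTwist D.χ) _).1 y.2
    exact ⟨c, hc, Subtype.ext hcy.symm⟩
  -- vanishing of `Pg` on the local classes and on `res Hom_G(M₀, C)`
  have hPg_hat : ∀ (v : ι) (gv : Rep.res (D.r v) P.M₁ ⟶ D.Jloc v)
      (c : cocycles₁ (A.dualTwist D.χ)) (hc : IsLevel₁ D.𝒯 (c : G → (A.dualTwist D.χ).V)),
      (∀ v, resOne D v (c : G → (A.dualTwist D.χ).V) ∈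
        coboundaries₁ (Rep.res (D.r v) (A.dualTwist D.χ))) →
      Pg (hat D P.M₁ hM v gv ≫ D.π) ⟨(H1π (A.dualTwist D.χ)).hom c,
          (mem_levH1_iff D.𝒯 (A.dualTwist D.χ) _).2 ⟨c, hc, rfl⟩⟩ = 0 := by
    intro v gv c hc hloc
    rw [hPg _ c hc, pairCoc_comp]
    exact push_levCob D.π
      (hCMP p G ι Gloc D (ZMod p) (A.dualTwist D.χ) P hM v gv c c.2 hc (hloc v))
  have hPg_res : ∀ (h : P.M₀ ⟶ D.C) (y : ↥(levH1 D.𝒯 (A.dualTwist D.χ))),
      Pg (P.inc ≫ h) y = 0 := by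
    intro h y
    obtain ⟨c, hc, rfl⟩ := hrep y
    rw [hPg _ c hc]
    exact hB6 h c c.2 hc
  have hfinH : Finite ↥(levH1 D.𝒯 (A.dualTwist D.χ)) :=
    hFin p G ι Gloc D (A.dualTwist D.χ) P hInd
  let j : ↥(D.shaOne (A.dualTwist D.χ)) →ₗ[ZMod p] ↥(levH1 D.𝒯 (A.dualTwist D.χ)) :=
    Submodule.inclusion inf_le_left
  have hj_loc : ∀ (y : ↥(D.shaOne (A.dualTwist D.χ))) (c : cocycles₁ (A.dualTwist D.χ))
      (hc : IsLevel₁ D.𝒯 (c : G → (A.dualTwist D.χ).V)),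
      j y = ⟨(H1π (A.dualTwist D.χ)).hom c,
          (mem_levH1_iff D.𝒯 (A.dualTwist D.χ) _).2 ⟨c, hc, rfl⟩⟩ →
      ∀ v, resOne D v (c : G → (A.dualTwist D.χ).V) ∈
        coboundaries₁ (Rep.res (D.r v) (A.dualTwist D.χ)) := by
    intro y c hc hy
    apply (locTotal_eq_zero_iff D (A.dualTwist D.χ) c).1
    have h1 : (y : H1 (A.dualTwist D.χ)) = (H1π (A.dualTwist D.χ)).hom c :=
      congrArg Subtype.val hy
    rw [← h1]
    exact LinearMap.mem_ker.1 y.2.2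
  refine glue_sha_pairing₂ j (Submodule.inclusion_injective _) (D.shaTwo A) del Pg
    ?_ ?_ ?_ ?_ ?_
  · -- `loc₂ ∘ del = 0`
    intro g
    exact LinearMap.mem_ker.2 ((locTwo_eq_zero_iff D A _).2
      (hLD p G ι Gloc D A P g (wOf g) (hwOf_del g)))
  · -- `ker loc₂ ⊆ im del`
    intro x hx
    obtain ⟨w, rfl⟩ := levH2_exists_rep x
    have hw := (locTwo_eq_zero_iff D A w).1 (LinearMap.mem_ker.1 hx)
    obtain ⟨g, w₀, hw₀, hww₀⟩ := hEH2 p G ι Gloc D A P hSeq w.1 w.2 hw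
    exact ⟨g, (del_eq g w.1 w.2 w₀ hw₀ hww₀).symm⟩
  · -- `del g = 0 ⇒ Pg g = 0` on `Ш¹`
    intro g hg y
    have h0 : wOf g ∈ levCoboundaries₂ D.𝒯 A :=
      (levH2π_eq_zero_iff D.𝒯 A ⟨wOf g, hwOf_mem g⟩).1 hg
    obtain ⟨gv, h, hgh⟩ := hEE p G ι Gloc D A P hM hSeq g (wOf g) (hwOf_del g) h0
    obtain ⟨c, hc, hcy⟩ := hrep (j y)
    have hloc := hj_loc y c hc hcy
    rw [hgh, map_add, LinearMap.add_apply, map_sum, LinearMap.sum_apply, hPg_res, add_zero]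
    apply Finset.sum_eq_zero
    intro v _
    rw [hcy]
    exact hPg_hat v (gv v) c hc hloc
  · -- right kernel
    intro y hy
    obtain ⟨c, hc, rfl⟩ := hrep y
    have h1 : ∀ g : P.M₁ ⟶ D.C, pairCoc P g c ∈ levCoboundaries₂ D.𝒯 D.C :=
      fun g => (hPg g c hc).1 (hy g)
    have h2 := hRK p G D.𝒯 D.C D.C_discrete (fun U _ hU => D.cm_glob U hU) (ZMod p)
      (A.dualTwist D.χ) P hpA hInd c c.2 hc h1
    apply Subtype.ext
    exact (H1π_eq_zero_iff c).2 h2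
  · -- the key step
    intro g hg
    let L : AddSubgroup (P.M₁ ⟶ D.C) := AddSubgroup.closure
      {g' | ∃ (v : ι) (gv : Rep.res (D.r v) P.M₁ ⟶ D.Jloc v), g' = hat D P.M₁ hM v gv ≫ D.π}
    have hL_del : L ≤ del.ker := (AddSubgroup.closure_le _).2 (by
      rintro _ ⟨v, gv, rfl⟩
      exact del_zero_of _ (hDH p G ι Gloc D A P hM v gv))
    let Λ : Submodule (ZMod p) (Module.Dual (ZMod p) ↥(levH1 D.𝒯 (A.dualTwist D.χ))) :=
      AddSubgroup.toZModSubmodule p (L.map Pg)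
    have hΛ : Pg g ∈ Λ := by
      have hfd : Module.Finite (ZMod p) ↥(levH1 D.𝒯 (A.dualTwist D.χ)) :=
        Module.Finite.of_finite
      rw [← Subspace.dualCoannihilator_dualAnnihilator_eq (W := Λ),
        Submodule.mem_dualAnnihilator]
      intro y hy
      rw [Submodule.mem_dualCoannihilator] at hy
      obtain ⟨c, hc, rfl⟩ := hrep y
      have hloc : ∀ v, resOne D v (c : G → (A.dualTwist D.χ).V) ∈
          coboundaries₁ (Rep.res (D.r v) (A.dualTwist D.χ)) := by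
        intro v
        apply hLN p G ι Gloc D (ZMod p) (A.dualTwist D.χ) P hpA hInd hM v c c.2 hc
        intro gv
        rw [← hPg _ c hc]
        exact hy _ ((AddSubgroup.mem_toZModSubmodule p).2
          ⟨_, AddSubgroup.subset_closure ⟨v, gv, rfl⟩, rfl⟩)
      have hker : (H1π (A.dualTwist D.χ)).hom c ∈ D.shaOne (A.dualTwist D.χ) :=
        ⟨(mem_levH1_iff D.𝒯 (A.dualTwist D.χ) _).2 ⟨c, hc, rfl⟩,
          LinearMap.mem_ker.2 ((locTotal_eq_zero_iff D (A.dualTwist D.χ) c).2 hloc)⟩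
      exact hg ⟨_, hker⟩
    obtain ⟨gl, hgl, hglg⟩ := (AddSubgroup.mem_toZModSubmodule p).1 hΛ
    obtain ⟨U', hU', hLK'⟩ := hLK p G ι Gloc D (ZMod p) (A.dualTwist D.χ) P hpA hInd
    obtain ⟨g₀, hg₀⟩ := hLK' (g - gl) (fun c hc hcU => by
      have hlev : IsLevel₁ D.𝒯 c := ⟨U', hU', hcU⟩
      have h1 := hPg (g - gl) ⟨c, hc⟩ hlev
      rw [map_sub, hglg, sub_self] at h1
      exact h1.1 rfl)
    have h2 : g = gl + P.inc ≫ g₀ := by rw [hg₀]; abel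
    rw [h2, map_add, AddMonoidHom.mem_ker.1 (hL_del hgl), zero_add]
    exact del_zero_of _ (hDR p G ι Gloc D A P g₀)

end Fermat.Agent.PT.F

end
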