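/-
PT-F piece F7a (CMP), part 1 (abstract): an `H`-equivariant, right-`U`-invariant lift of an
`H`-equivariant right-`U`-invariant function along an equivariant surjection
(double coset representatives).
-/
import Mathlib

set_option autoImplicit false

namespace Fermat.Agent.PT.F

/-- **Equivariant lift.** `U` normal, acting trivially on `X`; `c : G → Y` right-`U`-invariant and
left-`H`-equivariant; `ε : X → Y` equivariant and surjective.  Then `c` has a lift `ct : G → X`
which is right-`U`-invariant and left-`H`-equivariant. -/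
theorem cmp_exists_lift {G : Type} [Group G] (H U : Subgroup G) [hU : U.Normal] {X Y : Type}
    (ρX : G → X → X) (hρmul : ∀ g h x, ρX (g * h) x = ρX g (ρX h x))
    (hρU : ∀ u ∈ U, ∀ x, ρX u x = x)
    (ρY : G → Y → Y) (ε : X → Y) (hε : ∀ g x, ε (ρX g x) = ρY g (ε x))
    (hsurj : Function.Surjective ε)
    (c : G → Y) (hcU : ∀ g, ∀ u ∈ U, c (g * u) = c g)
    (hcH : ∀ h ∈ H, ∀ g, c (h * g) = ρY h (c g)) :
    ∃ ct : G → X, (∀ g, ε (ct g) = c g) ∧ (∀ h ∈ H, ∀ g, ct (h * g) = ρX h (ct g)) ∧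
      (∀ g, ∀ u ∈ U, ct (g * u) = ct g) := by
  classical
  -- representatives and the decomposition `g = h_g * rep g * u_g`
  let rep : G → G := fun g => (DoubleCoset.mk H U g).out
  have hdec : ∀ g : G, ∃ h ∈ H, ∃ u ∈ U, g = h * rep g * u := by
    intro g
    obtain ⟨h, k, hh, hk, e⟩ := DoubleCoset.mk_out_eq_mul H U g
    refine ⟨h⁻¹, H.inv_mem hh, k⁻¹, U.inv_mem hk, ?_⟩
    show g = h⁻¹ * (DoubleCoset.mk H U g).out * k⁻¹
    rw [e]
    group
  have hrep : ∀ (h : G) (_ : h ∈ H) (g u : G) (_ : u ∈ U), rep (h * g * u) = rep g := by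
    intro h hh g u hu
    show (DoubleCoset.mk H U (h * g * u)).out = (DoubleCoset.mk H U g).out
    congr 1
    exact ((DoubleCoset.eq H U g (h * g * u)).2 ⟨h, hh, u, hu, rfl⟩).symm
  choose hg hgH ug hugU hgu using hdec
  choose s hs using hsurj
  -- the key well-definedness fact
  have key : ∀ (h : G) (_ : h ∈ H) (g u : G) (_ : u ∈ U) (x : X),
      ρX (hg (h * g * u)) x = ρX (h * hg g) x := by
    intro h hh g u hu x
    -- `h' τ u' = h h_g τ u_g u` with `τ = rep g`
    have e1 : h * g * u = hg (h * g * u) * rep g * ug (h * g * u) := by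
      conv_lhs => rw [hgu (h * g * u), hrep h hh g u hu]
    have e2 : h * g * u = h * hg g * rep g * (ug g * u) := by
      conv_lhs => rw [hgu g]
      group
    have e3 : (h * hg g)⁻¹ * hg (h * g * u) =
        rep g * ((ug g * u) * (ug (h * g * u))⁻¹) * (rep g)⁻¹ := by
      have := e1.symm.trans e2
      calc (h * hg g)⁻¹ * hg (h * g * u)
          = (h * hg g)⁻¹ * (hg (h * g * u) * rep g * ug (h * g * u)) *
              (ug (h * g * u))⁻¹ * (rep g)⁻¹ := by group
        _ = (h * hg g)⁻¹ * (h * hg g * rep g * (ug g * u)) *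
              (ug (h * g * u))⁻¹ * (rep g)⁻¹ := by rw [this]
        _ = rep g * ((ug g * u) * (ug (h * g * u))⁻¹) * (rep g)⁻¹ := by group
    have e4 : (h * hg g)⁻¹ * hg (h * g * u) ∈ U := by
      rw [e3]
      exact hU.conj_mem _ (U.mul_mem (U.mul_mem (hugU g) hu) (U.inv_mem (hugU _))) _
    have e5 : hg (h * g * u) = (h * hg g) * ((h * hg g)⁻¹ * hg (h * g * u)) := by group
    rw [e5, hρmul, hρU _ e4]
  refine ⟨fun g => ρX (hg g) (s (c (rep g))), ?_, ?_, ?_⟩
  · intro g
    rw [hε, hs, ← hcH _ (hgH g), ← hcU _ _ (hugU g), ← hgu g]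
  · intro h hh g
    have h1 := key h hh g 1 U.one_mem (s (c (rep g)))
    have h2 := hrep h hh g 1 U.one_mem
    simp only [mul_one] at h1 h2
    show ρX (hg (h * g)) (s (c (rep (h * g)))) = ρX h (ρX (hg g) (s (c (rep g))))
    rw [h2, h1, hρmul]
  · intro g u hu
    have h1 := key 1 H.one_mem g u hu (s (c (rep g)))
    have h2 := hrep 1 H.one_mem g u hu
    simp only [one_mul] at h1 h2
    show ρX (hg (g * u)) (s (c (rep (g * u)))) = ρX (hg g) (s (c (rep g)))
    rw [h2, h1]

end Fermat.Agent.PT.F
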