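import Fermat.Agent.PT.F.SeqPlan
import Fermat.Agent.PT.F.Level

/-!
# PT-F §3, §4, §7 — INTERFACE FILE 2 of the sub-captain (helper68)

Definitions: the pairing cocycle `pairLift P g c̃ = g ∘ inc⁻¹ ∘ d c̃`, `pairCoc P g c = pairLift P g (s ∘ c)`.
Statements (one `Prop` each, owners in `NOTES/PT-F.md`):
`StmtPairBasic` (F3), `StmtPairH1` (F3-H1), `StmtCMP` (F7a), `StmtRightKer` (F4a),
`StmtLeftKer` (F4b), `StmtLocNondeg` (F7b), `StmtH1Finite` (F4c), `StmtAssembly` (F8).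
A statement may be proved assuming other statements of the PT-F interface as hypotheses
(`theorem stmtX_of : StmtY → StmtZ → StmtX`).
Everything is stated on cochain FUNCTIONS; `C` is any object of `Rep ℤ G`.
-/

set_option autoImplicit false

noncomputable section

namespace Fermat.Agent.PT.F

open CategoryTheory groupCohomology Fermat.Agent.PT

section Defs

variable {G : Type} [Group G] {𝒯 : Tower G} {k : Type} [CommRing k] {A' : Rep.{0} k G}
  (P : Presentation 𝒯 A')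

/-- a set-theoretic section of `ε : M₀ → A'` -/
def Presentation.sec (a : A'.V) : P.M₀.V := Classical.choose (P.ε_surjective a)

@[simp] lemma Presentation.ε_sec (a : A'.V) : P.ε (P.sec a) = a :=
  Classical.choose_spec (P.ε_surjective a)

/-- the inverse of `inc : M₁ → M₀` on its range `ker ε` -/
def Presentation.incInv : P.M₀.V → P.M₁.V := Function.invFun P.inc.hom

@[simp] lemma Presentation.incInv_inc (m : P.M₁.V) : P.incInv (P.inc.hom m) = m :=
  Function.leftInverse_invFun P.inc_injective m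

lemma Presentation.inc_incInv {m : P.M₀.V} (h : P.ε m = 0) : P.inc.hom (P.incInv m) = m := by
  obtain ⟨m₁, rfl⟩ := (P.exact m).1 h
  rw [P.incInv_inc]

/-- The pairing cochain attached to `g : M₁ ⟶ C` and a lift `c̃ : G → M₀` of a 1-cocycle of `A'`:
`(σ, τ) ↦ g (inc⁻¹ (σ c̃(τ) - c̃(στ) + c̃(σ)))`. -/
def pairLift {C : Rep.{0} ℤ G} (g : P.M₁ ⟶ C) (ct : G → P.M₀.V) : G × G → C.V :=
  fun στ => g.hom (P.incInv ((d₁₂ P.M₀).hom ct στ))

/-- The pairing cochain attached to `g : M₁ ⟶ C` and a 1-cocycle `c` of `A'`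
(lift `c̃ = s ∘ c`).  Its class in `H²_lev(G, C)` is `⟨g, c⟩` of the blueprint §3. -/
def pairCoc {C : Rep.{0} ℤ G} (g : P.M₁ ⟶ C) (c : G → A'.V) : G × G → C.V :=
  pairLift P g (fun σ => P.sec (c σ))

end Defs

/-! ### F3: basic properties of the pairing -/

/-- **F3** (level cochain calculus; each clause is a few lines).  For a presentation `P` of `A'`
and any `C`:
1. `pairLift g c̃` is a level 2-cocycle if `c̃` is a level cochain and `ε ∘ c̃` is a 1-cocycle;
2. it depends on the lift only up to a level coboundary;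
3. additivity in `g`; 4. additivity in `c` up to level coboundaries; 5. coboundaries pair to
level coboundaries; 6. `res Hom_G(M₀, C)` pairs to level coboundaries; 7. if `p • A' = 0` then
`p • pairCoc g c` is a level coboundary. -/
def StmtPairBasic : Prop :=
  ∀ (G : Type) [Group G] (𝒯 : Tower G) (k : Type) [CommRing k] (A' : Rep.{0} k G)
    (P : Presentation 𝒯 A') (C : Rep.{0} ℤ G),
    (∀ (g : P.M₁ ⟶ C) (ct : G → P.M₀.V), IsLevel₁ 𝒯 ct → (fun σ => P.ε (ct σ)) ∈ cocycles₁ A' →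
      pairLift P g ct ∈ levCocycles₂ 𝒯 C) ∧
    (∀ (g : P.M₁ ⟶ C) (ct ct' : G → P.M₀.V), IsLevel₁ 𝒯 ct → IsLevel₁ 𝒯 ct' →
      (fun σ => P.ε (ct σ)) ∈ cocycles₁ A' → (∀ σ, P.ε (ct σ) = P.ε (ct' σ)) →
      pairLift P g ct - pairLift P g ct' ∈ levCoboundaries₂ 𝒯 C) ∧
    (∀ (g g' : P.M₁ ⟶ C) (c : G → A'.V),
      pairCoc P (g + g') c = pairCoc P g c + pairCoc P g' c) ∧
    (∀ (g : P.M₁ ⟶ C) (c c' : G → A'.V), c ∈ cocycles₁ A' → c' ∈ cocycles₁ A' →
      IsLevel₁ 𝒯 c → IsLevel₁ 𝒯 c' →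
      pairCoc P g (c + c') - (pairCoc P g c + pairCoc P g c') ∈ levCoboundaries₂ 𝒯 C) ∧
    (∀ (g : P.M₁ ⟶ C) (c : G → A'.V), c ∈ coboundaries₁ A' →
      pairCoc P g c ∈ levCoboundaries₂ 𝒯 C) ∧
    (∀ (h : P.M₀ ⟶ C) (c : G → A'.V), c ∈ cocycles₁ A' → IsLevel₁ 𝒯 c →
      pairCoc P (P.inc ≫ h) c ∈ levCoboundaries₂ 𝒯 C) ∧
    (∀ (p : ℕ), (∀ a : A'.V, p • a = 0) → ∀ (g : P.M₁ ⟶ C) (c : G → A'.V), c ∈ cocycles₁ A' →
      IsLevel₁ 𝒯 c → p • pairCoc P g c ∈ levCoboundaries₂ 𝒯 C)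

/-! ### The finite-level input of a presentation -/

/-- `M` is trivial on the subgroup `U`. -/
def IsTrivOn {G : Type} [Group G] (M : Rep.{0} ℤ G) (U : Subgroup G) : Prop :=
  ∀ s ∈ U, ∀ m : M.V, M.ρ s m = m

/-- **(Ind)** for a `G`-module `M` (think `M = P.M₀`, a permutation module): for every
homomorphism `φ : H → G` and every normal subgroup `V` of finite index of `H` with `φ(V)` acting
trivially on `M`, `H¹(H ⧸ V, M) = 0`.  (For the standard presentation this is `stmtInd`.) -/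
def HasInd {G : Type} [Group G] (M : Rep.{0} ℤ G) : Prop :=
  ∀ (H : Type) [Group H] (φ : H →* G) (V : Subgroup H) [V.Normal], V.FiniteIndex →
    (∀ s ∈ V, ∀ m : M.V, M.ρ (φ s) m = m) →
    Subsingleton (H1 ((Rep.res φ M).quotientToInvariants V))

/-! ### F4: global duality -/

section Global

variable {p : ℕ} {G : Type} [Group G] {ι : Type} {Gloc : ι → Type} [∀ v, Group (Gloc v)]

/-- **F4a** (right kernel of the global pairing): a level 1-cocycle `c` of `A'` which pairs to a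
level coboundary with every `g : M₁ ⟶ C` is a coboundary.
Stated for an arbitrary "class module" `(G, 𝒯, C)` (`C` discrete with `p`-fundamental classes at
all normal levels), so that it applies to `(G, D.𝒯, D.C)` and to `(G_v, D.𝒯loc v, D.Jloc v)`. -/
def StmtRightKer : Prop :=
  ∀ (p : ℕ) [Fact p.Prime] (G : Type) [Group G] (𝒯 : Tower G) (C : Rep.{0} ℤ G),
    IsDiscrete 𝒯 C → HasPFund 𝒯 C p →
    ∀ (k : Type) [CommRing k] (A' : Rep.{0} k G) (P : Presentation 𝒯 A'),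
      (∀ a : A'.V, p • a = 0) → HasInd P.M₀ →
      ∀ c : G → A'.V, c ∈ cocycles₁ A' → IsLevel₁ 𝒯 c →
        (∀ g : P.M₁ ⟶ C, pairCoc P g c ∈ levCoboundaries₂ 𝒯 C) → c ∈ coboundaries₁ A'

/-- **F4b** (left kernel of the global pairing, with the level of the existence theorem):
there is a level `U'` such that every `g : M₁ ⟶ C` which pairs to level coboundaries with all
`1`-cocycles of `A'` that are right-`U'`-invariant is the restriction of some `g₀ : M₀ ⟶ C`. -/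
def StmtLeftKer : Prop :=
  ∀ (p : ℕ) [Fact p.Prime] (G : Type) [Group G] (ι : Type) [Fintype ι] (Gloc : ι → Type)
    [∀ v, Group (Gloc v)] (D : PTDatum p G ι Gloc)
    (k : Type) [CommRing k] (A' : Rep.{0} k G) (P : Presentation D.𝒯 A'),
      (∀ a : A'.V, p • a = 0) → HasInd P.M₀ →
      ∃ U' ∈ D.𝒯.lev, ∀ g : P.M₁ ⟶ D.C,
        (∀ c : G → A'.V, c ∈ cocycles₁ A' → (∀ σ s : G, s ∈ U' → c (σ * s) = c σ) →
          pairCoc P g c ∈ levCoboundaries₂ D.𝒯 D.C) →
        ∃ g₀ : P.M₀ ⟶ D.C, P.inc ≫ g₀ = g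

/-- **F3-H1** (the pairing on classes): there is an additive map
`Pg : Hom_G(M₁, C) → Hom_{𝔽_p}(H¹_lev(G, A'), 𝔽_p)` such that `Pg g [c] = 0` iff `pairCoc P g c` is a
level coboundary.  (`Pg g [c] := inv [pairCoc P g c]` with `inv` of `exists_inv` (Level.lean);
well defined and additive by `StmtPairBasic`; `𝔽_p`-linear because additive.) -/
def StmtPairH1 : Prop :=
  ∀ (p : ℕ) [Fact p.Prime] (G : Type) [Group G] (ι : Type) [Fintype ι] (Gloc : ι → Type)
    [∀ v, Group (Gloc v)] (D : PTDatum p G ι Gloc)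
    (A' : Rep.{0} (ZMod p) G) (P : Presentation D.𝒯 A'),
    ∃ Pg : (P.M₁ ⟶ D.C) →+ (↥(levH1 D.𝒯 A') →ₗ[ZMod p] ZMod p),
      ∀ (g : P.M₁ ⟶ D.C) (c : cocycles₁ A') (hc : IsLevel₁ D.𝒯 (c : G → A'.V)),
        Pg g ⟨(H1π A').hom c, (mem_levH1_iff D.𝒯 A' _).2 ⟨c, hc, rfl⟩⟩ = 0 ↔
          pairCoc P g c ∈ levCoboundaries₂ D.𝒯 D.C

/-- **F4c** (finiteness): `H¹_lev(G, A')` is finite.
(From F4a + F4b + F3-H1 by linear algebra, see `NOTES/PT-F.md`; `A'.V` is finite.) -/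
def StmtH1Finite : Prop :=
  ∀ (p : ℕ) [Fact p.Prime] (G : Type) [Group G] (ι : Type) [Fintype ι] (Gloc : ι → Type)
    [∀ v, Group (Gloc v)] (D : PTDatum p G ι Gloc)
    (A' : Rep.{0} (ZMod p) G) [FiniteDimensional (ZMod p) A'] (P : Presentation D.𝒯 A'),
      HasInd P.M₀ → Finite ↥(levH1 D.𝒯 A')

/-! ### F7: compatibility with the local conditions -/

/-- **F7a (CMP)**: if the level 1-cocycle `c` of `A'` is a coboundary on `G_v`, then it pairs to a
level coboundary with every `π ∘ ĝ_v`, `g_v : M₁ → J_v` a `G_v`-morphism.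
(Indeed already `ĝ_v ∘ inc⁻¹ ∘ d c̃` is a level coboundary in `J`: explicit Shapiro homotopy with
a `G_v`-equivariant level lift `c̃` of `c`, or finite-level Shapiro, see `NOTES/PT-F.md`.) -/
def StmtCMP : Prop :=
  ∀ (p : ℕ) [Fact p.Prime] (G : Type) [Group G] (ι : Type) [Fintype ι] (Gloc : ι → Type)
    [∀ v, Group (Gloc v)] (D : PTDatum p G ι Gloc)
    (k : Type) [CommRing k] (A' : Rep.{0} k G) (P : Presentation D.𝒯 A')
    (hM : IsLevTriv D.𝒯 P.M₁) (v : ι) (gv : Rep.res (D.r v) P.M₁ ⟶ D.Jloc v)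
    (c : G → A'.V), c ∈ cocycles₁ A' → IsLevel₁ D.𝒯 c →
    resOne D v c ∈ coboundaries₁ (Rep.res (D.r v) A') →
    pairCoc P (hat D P.M₁ hM v gv) c ∈ levCoboundaries₂ D.𝒯 (PTJ D)

/-- **F7b** (local nondegeneracy): if the level 1-cocycle `c` of `A'` pairs to a level coboundary
with `π ∘ ĝ_v` for ALL `G_v`-morphisms `g_v : M₁ → J_v`, then `c` is a coboundary on `G_v`.
(`StmtRightKer` for `(G_v, 𝒯loc v, J_v)` and the datum axiom `surv`.) -/
def StmtLocNondeg : Prop :=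
  ∀ (p : ℕ) [Fact p.Prime] (G : Type) [Group G] (ι : Type) [Fintype ι] (Gloc : ι → Type)
    [∀ v, Group (Gloc v)] (D : PTDatum p G ι Gloc)
    (k : Type) [CommRing k] (A' : Rep.{0} k G) (P : Presentation D.𝒯 A'),
    (∀ a : A'.V, p • a = 0) → HasInd P.M₀ →
    ∀ (hM : IsLevTriv D.𝒯 P.M₁) (v : ι) (c : G → A'.V), c ∈ cocycles₁ A' → IsLevel₁ D.𝒯 c →
    (∀ gv : Rep.res (D.r v) P.M₁ ⟶ D.Jloc v,
      pairCoc P (hat D P.M₁ hM v gv ≫ D.π) c ∈ levCoboundaries₂ D.𝒯 D.C) →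
    resOne D v c ∈ coboundaries₁ (Rep.res (D.r v) A')

/-- **F8** (assembly): for a datum `D`, a finite-dimensional `A` and a presentation `P` of
`A' = A.dualTwist χ` with the inputs `HasInd P.M₀` and `SeqInputs D A P`, all the statements of
the PT-F interface together give the perfect pairing `Ш¹(A') × Ш²(A) → 𝔽_p`.
(Proof: `NOTES/PT-F.md`, section F8.) -/
def StmtAssembly : Prop :=
  StmtPairBasic → StmtPairH1 → StmtRightKer → StmtLeftKer → StmtH1Finite → StmtCMP →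
  StmtLocNondeg → StmtKappa → StmtDelExists → StmtDelUnique → StmtDelAdd → StmtDelRes →
  StmtDelHat → StmtLocDel → StmtExactE → StmtExactH2 →
  ∀ (p : ℕ) [Fact p.Prime] (G : Type) [Group G] (ι : Type) [Fintype ι] (Gloc : ι → Type)
    [∀ v, Group (Gloc v)] (D : PTDatum p G ι Gloc)
    (A : Rep.{0} (ZMod p) G) [FiniteDimensional (ZMod p) A]
    (P : Presentation D.𝒯 (A.dualTwist D.χ)),
    HasInd P.M₀ → SeqInputs D A P →
    ∃ B : D.shaOne (A.dualTwist D.χ) →ₗ[ZMod p] D.shaTwo A →ₗ[ZMod p] ZMod p,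
      (∀ y, (∀ x, B y x = 0) → y = 0) ∧ (∀ x, (∀ y, B y x = 0) → x = 0)

end Global

end Fermat.Agent.PT.F

end
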