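/-
PT-F piece F7a: `StmtCMP` (compatibility of the pairing with the local conditions).

If the level 1-cocycle `c` of `A'` is a coboundary on `G_v`, then `pairCoc P ĝ_v c` is a level
coboundary in `J`, for every `G_v`-morphism `g_v : M₁ → J_v`.

Proof (NOTES/PT-F.md, F7a): `c' := c - d a` vanishes on `r(G_v)`, hence is left `r(G_v)`-equivariant;
it has a left-`r(G_v)`-equivariant level lift `c̃ : G → M₀` (double cosets, `CMPLift.lean`);
`T(σ) :=` (the element of `J` with `v`-component `ρ ↦ g_v (inc⁻¹ (d c̃ (ρ, σ)))`) is a level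
1-cochain with `d T = ĝ_v ∘ inc⁻¹ ∘ d c̃`; finally changing the lift changes the pairing cochain by
a level coboundary.
-/
import Fermat.Agent.PT.F.Pair
import Fermat.Agent.PT.F.CMPLift

set_option autoImplicit false

noncomputable section

namespace Fermat.Agent.PT.F

open CategoryTheory groupCohomology Fermat.Agent.PT

attribute [local instance 1100] Rep.hV2

/-! ### Generalities on `pairLift` -/

section PairLift

variable {G : Type} [Group G] {𝒯 : Tower G} {k : Type} [CommRing k] {A' : Rep.{0} k G}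
  (P : Presentation 𝒯 A')

lemma cmp_d₁₂_apply (M : Rep.{0} ℤ G) (f : G → M.V) (σ τ : G) :
    (d₁₂ M).hom f (σ, τ) = M.ρ σ (f τ) - f (σ * τ) + f σ := rfl

/-- `ε (d c̃) = d (ε c̃)`. -/
lemma cmp_ε_d (ct : G → P.M₀.V) (σ τ : G) :
    P.ε ((d₁₂ P.M₀).hom ct (σ, τ)) =
      A'.ρ σ (P.ε (ct τ)) - P.ε (ct (σ * τ)) + P.ε (ct σ) := by
  rw [cmp_d₁₂_apply, map_add, map_sub, P.ε_ρ]

/-- If `ε ∘ c̃` is a cocycle, `d c̃` takes values in `ker ε`. -/
lemma cmp_ε_d_eq_zero (ct : G → P.M₀.V) (h : (fun σ => P.ε (ct σ)) ∈ cocycles₁ A') (σ τ : G) :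
    P.ε ((d₁₂ P.M₀).hom ct (σ, τ)) = 0 := by
  rw [cmp_ε_d]
  exact (mem_cocycles₁_def _).1 h σ τ

lemma cmp_incInv_add {m m' : P.M₀.V} (h : P.ε m = 0) (h' : P.ε m' = 0) :
    P.incInv (m + m') = P.incInv m + P.incInv m' := by
  apply P.inc_injective
  rw [map_add, P.inc_incInv h, P.inc_incInv h', P.inc_incInv (by rw [map_add, h, h', add_zero])]

lemma cmp_incInv_sub {m m' : P.M₀.V} (h : P.ε m = 0) (h' : P.ε m' = 0) :
    P.incInv (m - m') = P.incInv m - P.incInv m' := by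
  apply P.inc_injective
  rw [map_sub, P.inc_incInv h, P.inc_incInv h', P.inc_incInv (by rw [map_sub, h, h', sub_zero])]

lemma cmp_incInv_ρ {m : P.M₀.V} (h : P.ε m = 0) (σ : G) :
    P.incInv (P.M₀.ρ σ m) = P.M₁.ρ σ (P.incInv m) := by
  apply P.inc_injective
  rw [P.inc_incInv (by rw [P.ε_ρ, h, map_zero]), Rep.hom_comm_apply, P.inc_incInv h]

/-- **Change of the lift** (= clause 2 of `StmtPairBasic`). -/
theorem cmp_pairLift_sub {C : Rep.{0} ℤ G} (g : P.M₁ ⟶ C) (ct ct' : G → P.M₀.V)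
    (hl : IsLevel₁ 𝒯 ct) (hl' : IsLevel₁ 𝒯 ct')
    (hc : (fun σ => P.ε (ct σ)) ∈ cocycles₁ A') (hε : ∀ σ, P.ε (ct σ) = P.ε (ct' σ)) :
    pairLift P g ct - pairLift P g ct' ∈ levCoboundaries₂ 𝒯 C := by
  have hc' : (fun σ => P.ε (ct' σ)) ∈ cocycles₁ A' := by
    have : (fun σ => P.ε (ct' σ)) = fun σ => P.ε (ct σ) := funext fun σ => (hε σ).symm
    rw [this]; exact hc
  have he : ∀ σ, P.ε (ct σ - ct' σ) = 0 := fun σ => by rw [map_sub, hε, sub_self]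
  rw [mem_levCoboundaries₂_iff]
  refine ⟨fun σ => g.hom (P.incInv (ct σ - ct' σ)), ?_, ?_⟩
  · obtain ⟨U, hU, h⟩ := hl
    obtain ⟨U', hU', h'⟩ := hl'
    refine ⟨U ⊓ U', 𝒯.inf_mem U U' hU hU', fun σ s hs => ?_⟩
    show g.hom (P.incInv (ct (σ * s) - ct' (σ * s))) = g.hom (P.incInv (ct σ - ct' σ))
    rw [h σ s hs.1, h' σ s hs.2]
  · funext ⟨σ, τ⟩
    have key : P.incInv ((d₁₂ P.M₀).hom ct (σ, τ)) - P.incInv ((d₁₂ P.M₀).hom ct' (σ, τ)) =
        P.M₁.ρ σ (P.incInv (ct τ - ct' τ)) - P.incInv (ct (σ * τ) - ct' (σ * τ)) +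
          P.incInv (ct σ - ct' σ) := by
      apply P.inc_injective
      rw [map_sub, map_add, map_sub, Rep.hom_comm_apply,
        P.inc_incInv (cmp_ε_d_eq_zero P ct hc σ τ), P.inc_incInv (cmp_ε_d_eq_zero P ct' hc' σ τ),
        P.inc_incInv (he τ), P.inc_incInv (he (σ * τ)), P.inc_incInv (he σ),
        cmp_d₁₂_apply, cmp_d₁₂_apply, map_sub]
      abel
    show (d₁₂ C).hom (fun σ => g.hom (P.incInv (ct σ - ct' σ))) (σ, τ) =
      g.hom (P.incInv ((d₁₂ P.M₀).hom ct (σ, τ))) - g.hom (P.incInv ((d₁₂ P.M₀).hom ct' (σ, τ)))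
    rw [cmp_d₁₂_apply, ← map_sub, key, map_add, map_sub, Rep.hom_comm_apply]

/-- Adding a coboundary `σ ↦ σ ã - ã` to the lift does not change the pairing cochain. -/
theorem cmp_pairLift_add_d₀₁ {C : Rep.{0} ℤ G} (g : P.M₁ ⟶ C) (ct : G → P.M₀.V) (a : P.M₀.V) :
    pairLift P g (fun σ => ct σ + (P.M₀.ρ σ a - a)) = pairLift P g ct := by
  funext ⟨σ, τ⟩
  unfold pairLift
  congr 2
  rw [cmp_d₁₂_apply, cmp_d₁₂_apply, map_add, map_sub, map_mul]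
  simp only [Module.End.mul_apply]
  abel

end PairLift

/-! ### The Shapiro homotopy -/

section Datum

variable {p : ℕ} {G : Type} [Group G] {ι : Type} {Gloc : ι → Type} [∀ v, Group (Gloc v)]
  (D : PTDatum p G ι Gloc) {k : Type} [CommRing k] {A' : Rep.{0} k G} (P : Presentation D.𝒯 A')

open Classical in
/-- the family of functions with `v`-component `f` and all other components `0` -/
def cmpSingleFun (v : ι) (f : G → (D.Jloc v).V) : ∀ v', G → (D.Jloc v').V :=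
  fun v' ρ => if h : v = v' then h ▸ f ρ else 0

lemma cmpSingleFun_same (v : ι) (f : G → (D.Jloc v).V) (ρ : G) :
    cmpSingleFun D v f v ρ = f ρ := by
  simp [cmpSingleFun]

lemma cmpSingleFun_ne (v : ι) (f : G → (D.Jloc v).V) {v' : ι} (h : v ≠ v') (ρ : G) :
    cmpSingleFun D v f v' ρ = 0 := by
  simp [cmpSingleFun, h]

lemma cmpSingleFun_mem (v : ι) (f : G → (D.Jloc v).V)
    (hf₁ : ∀ (d : Gloc v) (g : G), f (D.r v d * g) = (D.Jloc v).ρ d (f g))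
    (hf₂ : IsLevel₁ D.𝒯 f) :
    cmpSingleFun D v f ∈ semilocalSub D.𝒯 D.r D.Jloc := by
  intro v'
  by_cases h : v = v'
  · subst h
    refine ⟨fun d g => ?_, ?_⟩
    · rw [cmpSingleFun_same, cmpSingleFun_same]
      exact hf₁ d g
    · obtain ⟨U, hU, hUf⟩ := hf₂
      refine ⟨U, hU, fun g s hs => ?_⟩
      rw [cmpSingleFun_same, cmpSingleFun_same]
      exact hUf g s hs
  · refine ⟨fun d g => ?_, ?_⟩
    · rw [cmpSingleFun_ne _ _ _ h, cmpSingleFun_ne _ _ _ h, map_zero]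
    · refine ⟨⊤, D.𝒯.top_mem, fun g s _ => ?_⟩
      rw [cmpSingleFun_ne _ _ _ h, cmpSingleFun_ne _ _ _ h]

/-- **The Shapiro homotopy**: for a left-`r(G_v)`-equivariant level lift `c̃`, the pairing cochain
`ĝ_v ∘ inc⁻¹ ∘ d c̃` is a level coboundary in `J`. -/
theorem cmp_pairLift_hat (hM : IsLevTriv D.𝒯 P.M₁) (v : ι)
    (gv : Rep.res (D.r v) P.M₁ ⟶ D.Jloc v) (ct : G → P.M₀.V)
    (hc : (fun σ => P.ε (ct σ)) ∈ cocycles₁ A')
    (heq : ∀ (d : Gloc v) (g : G), ct (D.r v d * g) = P.M₀.ρ (D.r v d) (ct g))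
    (U : Subgroup G) (hU : U ∈ D.𝒯.lev) (hUn : U.Normal) (hU₀ : U ≤ P.U₀)
    (hinv : ∀ g u, u ∈ U → ct (g * u) = ct g) :
    pairLift P (hat D P.M₁ hM v gv) ct ∈ levCoboundaries₂ D.𝒯 (PTJ D) := by
  have hz0 : ∀ ρ σ, P.ε ((d₁₂ P.M₀).hom ct (ρ, σ)) = 0 := fun ρ σ => cmp_ε_d_eq_zero P ct hc ρ σ
  -- equivariance of `z = inc⁻¹ ∘ d c̃` in the first variable
  have hz_eq : ∀ (d : Gloc v) (ρ σ : G), P.incInv ((d₁₂ P.M₀).hom ct (D.r v d * ρ, σ)) =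
      P.M₁.ρ (D.r v d) (P.incInv ((d₁₂ P.M₀).hom ct (ρ, σ))) := by
    intro d ρ σ
    rw [← cmp_incInv_ρ P (hz0 ρ σ)]
    congr 1
    rw [cmp_d₁₂_apply, cmp_d₁₂_apply, mul_assoc, heq, heq, map_add, map_sub, map_mul]
    rfl
  have hz_U1 : ∀ (ρ σ u : G), u ∈ U → (d₁₂ P.M₀).hom ct (ρ * u, σ) = (d₁₂ P.M₀).hom ct (ρ, σ) := by
    intro ρ σ u hu
    have h1 : ρ * u * σ = ρ * σ * (σ⁻¹ * u * σ) := by group
    have h2 : σ⁻¹ * u * σ ∈ U := by simpa using hUn.conj_mem u hu σ⁻¹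
    rw [cmp_d₁₂_apply, cmp_d₁₂_apply, h1, hinv _ _ h2, hinv _ _ hu, map_mul]
    show P.M₀.ρ ρ (P.M₀.ρ u (ct σ)) - _ + _ = _
    rw [P.triv₀ u (hU₀ hu)]
  have hz_U2 : ∀ (ρ σ u : G), u ∈ U → (d₁₂ P.M₀).hom ct (ρ, σ * u) = (d₁₂ P.M₀).hom ct (ρ, σ) := by
    intro ρ σ u hu
    rw [cmp_d₁₂_apply, cmp_d₁₂_apply, ← mul_assoc, hinv _ _ hu, hinv _ _ hu]
  have hz_coc : ∀ ρ σ τ : G, P.incInv ((d₁₂ P.M₀).hom ct (ρ * σ, τ)) -
      P.incInv ((d₁₂ P.M₀).hom ct (ρ, σ * τ)) + P.incInv ((d₁₂ P.M₀).hom ct (ρ, σ)) =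
      P.M₁.ρ ρ (P.incInv ((d₁₂ P.M₀).hom ct (σ, τ))) := by
    intro ρ σ τ
    apply P.inc_injective
    rw [map_add, map_sub, Rep.hom_comm_apply, P.inc_incInv (hz0 _ _), P.inc_incInv (hz0 _ _),
      P.inc_incInv (hz0 _ _), P.inc_incInv (hz0 _ _)]
    rw [cmp_d₁₂_apply, cmp_d₁₂_apply, cmp_d₁₂_apply, cmp_d₁₂_apply, map_add, map_sub, map_mul,
      mul_assoc]
    simp only [Module.End.mul_apply]
    abel
  -- the homotopy
  let Tf : G → G → (D.Jloc v).V := fun σ ρ => gv.hom (P.incInv ((d₁₂ P.M₀).hom ct (ρ, σ)))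
  have hTmem : ∀ σ, cmpSingleFun D v (Tf σ) ∈ semilocalSub D.𝒯 D.r D.Jloc := by
    intro σ
    apply cmpSingleFun_mem
    · intro d ρ
      show gv.hom (P.incInv ((d₁₂ P.M₀).hom ct (D.r v d * ρ, σ))) =
        (D.Jloc v).ρ d (gv.hom (P.incInv ((d₁₂ P.M₀).hom ct (ρ, σ))))
      rw [hz_eq]
      exact Rep.hom_comm_apply gv d _
    · refine ⟨U, hU, fun ρ u hu => ?_⟩
      show gv.hom (P.incInv ((d₁₂ P.M₀).hom ct (ρ * u, σ))) =
        gv.hom (P.incInv ((d₁₂ P.M₀).hom ct (ρ, σ)))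
      rw [hz_U1 ρ σ u hu]
  let T : G → (PTJ D).V := fun σ => ⟨cmpSingleFun D v (Tf σ), hTmem σ⟩
  rw [mem_levCoboundaries₂_iff]
  refine ⟨T, ⟨U, hU, fun σ u hu => ?_⟩, ?_⟩
  · apply Subtype.ext
    funext v' ρ
    show cmpSingleFun D v (Tf (σ * u)) v' ρ = cmpSingleFun D v (Tf σ) v' ρ
    by_cases h : v = v'
    · subst h
      rw [cmpSingleFun_same, cmpSingleFun_same]
      show gv.hom (P.incInv ((d₁₂ P.M₀).hom ct (ρ, σ * u))) =
        gv.hom (P.incInv ((d₁₂ P.M₀).hom ct (ρ, σ)))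
      rw [hz_U2 ρ σ u hu]
    · rw [cmpSingleFun_ne _ _ _ h, cmpSingleFun_ne _ _ _ h]
  · funext ⟨σ, τ⟩
    apply Subtype.ext
    funext v' ρ
    show cmpSingleFun D v (Tf τ) v' (ρ * σ) - cmpSingleFun D v (Tf (σ * τ)) v' ρ +
        cmpSingleFun D v (Tf σ) v' ρ =
      ((hat D P.M₁ hM v gv).hom (P.incInv ((d₁₂ P.M₀).hom ct (σ, τ)))).1 v' ρ
    by_cases h : v = v'
    · subst h
      rw [cmpSingleFun_same, cmpSingleFun_same, cmpSingleFun_same]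
      refine Eq.trans ?_ (hat_apply_same D P.M₁ hM v gv _ ρ).symm
      rw [← hz_coc]
      show gv.hom _ - gv.hom _ + gv.hom _ = _
      rw [map_add, map_sub]
    · rw [cmpSingleFun_ne _ _ _ h, cmpSingleFun_ne _ _ _ h, cmpSingleFun_ne _ _ _ h]
      refine Eq.trans ?_ (hat_apply_ne D P.M₁ hM v gv _ h ρ).symm
      simp

end Datum

/-- **F7a (CMP)**. -/
theorem stmtCMP : StmtCMP := by
  intro p _ G _ ι _ Gloc _ D k _ A' P hM v gv c hc hclev hcv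
  classical
  obtain ⟨a, ha⟩ := hcv
  have ha' : ∀ d, c (D.r v d) = A'.ρ (D.r v d) a - a := fun d => (congrFun ha d).symm
  obtain ⟨Uc, hUc, hcU⟩ := hclev
  obtain ⟨U, hU, hUle, hUn⟩ := D.𝒯.exists_normal (Uc ⊓ P.U₀) (D.𝒯.inf_mem _ _ hUc P.U₀_mem)
  have hUc' : U ≤ Uc := hUle.trans inf_le_left
  have hU₀ : U ≤ P.U₀ := hUle.trans inf_le_right
  have hA'triv : ∀ s ∈ P.U₀, ∀ x : A'.V, A'.ρ s x = x := by
    intro s hs x
    obtain ⟨m, rfl⟩ := P.ε_surjective x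
    rw [← P.ε_ρ, P.triv₀ s hs]
  have hcoc : ∀ σ τ, c (σ * τ) = A'.ρ σ (c τ) + c σ := (mem_cocycles₁_iff c).1 hc
  -- the modified cocycle
  let c' : G → A'.V := fun σ => c σ - (A'.ρ σ a - a)
  have hc'coc : ∀ σ τ, c' (σ * τ) = A'.ρ σ (c' τ) + c' σ := by
    intro σ τ
    show c (σ * τ) - (A'.ρ (σ * τ) a - a) = A'.ρ σ (c τ - (A'.ρ τ a - a)) + (c σ - (A'.ρ σ a - a))
    rw [hcoc, map_mul, map_sub, map_sub]
    simp only [Module.End.mul_apply]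
    abel
  have hc'r : ∀ d, c' (D.r v d) = 0 := fun d => by
    show c (D.r v d) - (A'.ρ (D.r v d) a - a) = 0
    rw [ha', sub_self]
  have hc'H : ∀ h ∈ (D.r v).range, ∀ g, c' (h * g) = A'.ρ h (c' g) := by
    rintro _ ⟨d, rfl⟩ g
    rw [hc'coc, hc'r, add_zero]
  have hc'U : ∀ g, ∀ u ∈ U, c' (g * u) = c' g := by
    intro g u hu
    show c (g * u) - (A'.ρ (g * u) a - a) = c g - (A'.ρ g a - a)
    rw [hcU g u (hUc' hu), map_mul]
    simp only [Module.End.mul_apply]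
    rw [hA'triv u (hU₀ hu)]
  -- the equivariant lift
  have := hUn
  obtain ⟨ct, hct1, hct2, hct3⟩ := cmp_exists_lift (D.r v).range U
    (fun g m => P.M₀.ρ g m) (fun g h x => by simp only [map_mul, Module.End.mul_apply])
    (fun u hu x => P.triv₀ u (hU₀ hu) x) (fun g x => A'.ρ g x) P.ε P.ε_ρ P.ε_surjective c'
    hc'U hc'H
  have hcoc_ct : (fun σ => P.ε (ct σ)) ∈ cocycles₁ A' := by
    rw [mem_cocycles₁_iff]
    intro σ τ
    simp only [hct1]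
    exact hc'coc σ τ
  have hA := cmp_pairLift_hat D P hM v gv ct hcoc_ct (fun d g => hct2 _ ⟨d, rfl⟩ g) U hU hUn hU₀
    (fun g u hu => hct3 g u hu)
  -- change of lift
  have hl1 : IsLevel₁ D.𝒯 (fun σ => P.sec (c σ)) :=
    ⟨Uc, hUc, fun g s hs => by simp only [hcU g s hs]⟩
  have hl2 : IsLevel₁ D.𝒯 (fun σ => ct σ + (P.M₀.ρ σ (P.sec a) - P.sec a)) := by
    refine ⟨U, hU, fun g s hs => ?_⟩
    simp only [hct3 g s hs, map_mul, Module.End.mul_apply, P.triv₀ s (hU₀ hs)]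
  have hcoc_s : (fun σ => P.ε (P.sec (c σ))) ∈ cocycles₁ A' := by
    simp only [P.ε_sec]
    exact hc
  have hεeq : ∀ σ, P.ε (P.sec (c σ)) = P.ε (ct σ + (P.M₀.ρ σ (P.sec a) - P.sec a)) := by
    intro σ
    rw [map_add, map_sub, P.ε_ρ, P.ε_sec, P.ε_sec, hct1]
    show c σ = c σ - (A'.ρ σ a - a) + (A'.ρ σ a - a)
    abel
  have hB := cmp_pairLift_sub P (hat D P.M₁ hM v gv) _ _ hl1 hl2 hcoc_s hεeq
  rw [cmp_pairLift_add_d₀₁] at hB
  have hfin : pairCoc P (hat D P.M₁ hM v gv) c =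
      (pairLift P (hat D P.M₁ hM v gv) (fun σ => P.sec (c σ)) -
        pairLift P (hat D P.M₁ hM v gv) ct) + pairLift P (hat D P.M₁ hM v gv) ct := by
    rw [sub_add_cancel]
    rfl
  rw [hfin]
  exact Submodule.add_mem _ hB hA

end Fermat.Agent.PT.F

end
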