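import Fermat.Agent.PT.F.Pair
import Fermat.Agent.PT.A.HomEx

/-!
# PT-F / F4 (helper68): the finite-level bridge

For a presentation `P` of `A'` and a normal subgroup `U ≤ P.U₀`:
* `intRep A'`   : `A'` as an object of `Rep ℤ G`;
* `presX P`     : the short exact sequence `0 → M₁ → M₀ → A' → 0` in `Rep ℤ G`;
* `finX P U`    : its image under `Rep.quotientToInvariantsFunctor ℤ U`, a short exact sequence of
  `G ⧸ U`-modules;
* `ext_duality_right` : the right-kernel half of `ext_duality` (no norm hypothesis).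
-/

set_option autoImplicit false

noncomputable section

namespace Fermat.Agent.PT.F

open CategoryTheory groupCohomology Fermat.Agent.PT

/-- the right-kernel half of `ext_duality` (needs neither `StmtTNDual` nor the norm hypothesis) -/
theorem ext_duality_right (hTN : StmtTN') {G : Type} [Group G]
    (p : ℕ) [Fact p.Prime] [Fintype G]
    (C : Rep.{0} ℤ G) (u : H2 C) (hu : IsPFundClass p C u)
    (X : ShortComplex (Rep.{0} ℤ G)) (hX : X.ShortExact)
    [Module.Free ℤ X.X₂.V] [Module.Finite ℤ X.X₂.V]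
    (hp : ∀ a : X.X₃.V, p • a = 0)
    (hH1 : Subsingleton (H1 X.X₂))
    (c : H1 X.X₃) (hc : ∀ g : X.X₁ ⟶ C, (push₂ g).hom ((δ hX 1 2 rfl).hom c) = 0) : c = 0 := by
  have := hX.mono_f
  obtain ⟨hfree, hfin⟩ := free_finite_of_mono X.f
  have hTN₁ := hTN p G C u hu X.X₁ hfree hfin
  have hpt : IsPTors p ((δ hX 1 2 rfl).hom c) := by
    refine ⟨1, ?_⟩
    rw [pow_one, ← map_nsmul, nsmul_eq_zero_of_forall p hp 1 c, map_zero]
  have h0 : (δ hX 1 2 rfl).hom c = 0 := hTN₁.1 _ hpt hc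
  have : Mono (δ hX 1 2 rfl) :=
    mono_δ_of_isZero hX 1 (ModuleCat.isZero_of_iff_subsingleton.2 hH1)
  have hinj : Function.Injective (δ hX 1 2 rfl).hom :=
    (ModuleCat.mono_iff_injective _).1 inferInstance
  exact hinj (by rw [h0, map_zero])

section IntRep

variable {G : Type} [Group G] {k : Type} [CommRing k] (A' : Rep.{0} k G)

/-- the action of `G` on `A'.V` by `ℤ`-linear maps -/
def intAct : Representation ℤ G A'.V where
  toFun g := (A'.ρ g).toAddMonoidHom.toIntLinearMap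
  map_one' := by ext a; simp
  map_mul' g h := by ext a; simp

@[simp] lemma intAct_apply (g : G) (a : A'.V) : intAct A' g a = A'.ρ g a := rfl

/-- `A'` as an object of `Rep ℤ G` (same carrier, same action) -/
abbrev intRep : Rep.{0} ℤ G := Rep.of (intAct A')

lemma mem_cocycles₁_intRep_iff (c : G → A'.V) :
    c ∈ cocycles₁ (intRep A') ↔ c ∈ cocycles₁ A' := by
  rw [mem_cocycles₁_iff, mem_cocycles₁_iff]
  rfl

lemma mem_coboundaries₁_intRep_iff (c : G → A'.V) :
    c ∈ coboundaries₁ (intRep A') ↔ c ∈ coboundaries₁ A' := by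
  constructor
  · rintro ⟨a, rfl⟩
    exact ⟨a, rfl⟩
  · rintro ⟨a, rfl⟩
    exact ⟨a, rfl⟩

end IntRep

section PresX

variable {G : Type} [Group G] {𝒯 : Tower G} {k : Type} [CommRing k] {A' : Rep.{0} k G}
  (P : Presentation 𝒯 A')

/-- the augmentation as a morphism of `Rep ℤ G` -/
def Presentation.εHom : P.M₀ ⟶ intRep A' :=
  mkHom P.ε (fun g m => P.ε_ρ g m)

@[simp] lemma Presentation.εHom_apply (m : P.M₀.V) : P.εHom.hom m = P.ε m := rfl

lemma Presentation.inc_εHom : P.inc ≫ P.εHom = 0 := by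
  apply rep_hom_ext'
  intro m
  show P.ε (P.inc.hom m) = 0
  exact (P.exact _).2 ⟨m, rfl⟩

/-- the presentation as a short complex of `Rep ℤ G` -/
def presX : ShortComplex (Rep.{0} ℤ G) := ShortComplex.mk P.inc P.εHom P.inc_εHom

lemma presX_shortExact : (presX P).ShortExact where
  exact := (homEx_exact_iff _).2 fun m hm => (P.exact m).1 hm
  mono_f := (Rep.mono_iff_injective _).2 P.inc_injective
  epi_g := (Rep.epi_iff_surjective _).2 P.ε_surjective

/-- `A'` is trivial on `U₀` -/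
lemma Presentation.triv_A' (s : G) (hs : s ∈ P.U₀) (a : A'.V) : A'.ρ s a = a := by
  obtain ⟨m, rfl⟩ := P.ε_surjective a
  rw [← P.ε_ρ, P.triv₀ s hs]

/-- `M₁` is trivial on `U₀` -/
lemma Presentation.triv₁ (s : G) (hs : s ∈ P.U₀) (m : P.M₁.V) : P.M₁.ρ s m = m := by
  apply P.inc_injective
  rw [Rep.hom_comm_apply, P.triv₀ s hs]

end PresX

section FinX

variable {G : Type} [Group G] {𝒯 : Tower G} {k : Type} [CommRing k] {A' : Rep.{0} k G}
  (P : Presentation 𝒯 A') (U : Subgroup G) [U.Normal]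

lemma q2i_map_zero (X Y : Rep.{0} ℤ G) :
    (Rep.quotientToInvariantsFunctor ℤ U).map (0 : X ⟶ Y) = 0 := by
  apply rep_hom_ext'
  intro a
  exact Subtype.ext rfl

/-- the presentation at the finite level `G ⧸ U` -/
def finX : ShortComplex (Rep.{0} ℤ (G ⧸ U)) :=
  ShortComplex.mk ((Rep.quotientToInvariantsFunctor ℤ U).map P.inc)
    ((Rep.quotientToInvariantsFunctor ℤ U).map P.εHom) (by
      rw [← Functor.map_comp, P.inc_εHom, q2i_map_zero])

lemma finX_f_apply (m : (P.M₁.quotientToInvariants U).V) :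
    (show (P.M₀.quotientToInvariants U).V from (finX P U).f.hom m).1 = P.inc.hom m.1 := rfl

lemma finX_g_apply (m : (P.M₀.quotientToInvariants U).V) :
    (show ((intRep A').quotientToInvariants U).V from (finX P U).g.hom m).1 = P.ε m.1 := rfl

variable {U}

lemma finX_shortExact (hU : U ≤ P.U₀) : (finX P U).ShortExact where
  exact := (homEx_exact_iff _).2 fun m hm => by
    have h0 : P.ε m.1 = 0 := congrArg Subtype.val hm
    obtain ⟨m₁, hm₁⟩ := (P.exact m.1).1 h0
    exact ⟨⟨m₁, fun s => P.triv₁ s.1 (hU s.2) m₁⟩, Subtype.ext hm₁⟩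
  mono_f := (Rep.mono_iff_injective _).2 fun a b hab => by
    have h1 : P.inc.hom a.1 = P.inc.hom b.1 := congrArg Subtype.val hab
    exact Subtype.ext (P.inc_injective h1)
  epi_g := (Rep.epi_iff_surjective _).2 fun a => by
    obtain ⟨m, hm⟩ := P.ε_surjective a.1
    exact ⟨⟨m, fun s => P.triv₀ s.1 (hU s.2) m⟩, Subtype.ext hm⟩

/-- `M₀ ≃ ℤⁿ` from the universal property of the basis -/
def Presentation.equivFin : P.M₀.V ≃+ (Fin P.n → ℤ) :=
  let φ : P.M₀.V →+ (Fin P.n → ℤ) :=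
    Classical.choose (P.basis₀_spec (Fin P.n → ℤ) (fun j => Pi.single j 1)).exists
  have hφ : ∀ j, φ (P.basis₀ j) = Pi.single j 1 :=
    Classical.choose_spec (P.basis₀_spec (Fin P.n → ℤ) (fun j => Pi.single j 1)).exists
  let ψ : (Fin P.n → ℤ) →+ P.M₀.V := homEx_lift P.n P.basis₀
  have hψ : ∀ j, ψ (Pi.single j 1) = P.basis₀ j := homEx_lift_single P.n P.basis₀
  { toFun := φ
    invFun := ψ
    left_inv := fun m => by
      have h1 : ψ.comp φ = AddMonoidHom.id _ :=
        (P.basis₀_spec P.M₀.V P.basis₀).unique (fun j => by simp [hφ, hψ]) (fun j => rfl)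
      exact DFunLike.congr_fun h1 m
    right_inv := fun x => by
      have h1 : φ.comp ψ = AddMonoidHom.id _ :=
        homEx_ext P.n _ _ (fun j => by simp [hφ, hψ])
      exact DFunLike.congr_fun h1 x
    map_add' := fun a b => map_add φ a b }

/-- the invariants of `U ≤ U₀` in `M₀` are everything -/
def Presentation.invEquiv (hU : U ≤ P.U₀) : (P.M₀.quotientToInvariants U).V ≃+ P.M₀.V where
  toFun m := m.1
  invFun m := ⟨m, fun s => P.triv₀ s.1 (hU s.2) m⟩
  left_inv _ := rfl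
  right_inv _ := rfl
  map_add' _ _ := rfl

lemma finX_free_finite (hU : U ≤ P.U₀) [inst : Module ℤ (finX P U).X₂.V] :
    Module.Free ℤ (finX P U).X₂.V ∧ Module.Finite ℤ (finX P U).X₂.V := by
  let e : (finX P U).X₂.V ≃+ (Fin P.n → ℤ) :=
    (P.invEquiv hU).trans P.equivFin
  let e' : (finX P U).X₂.V ≃ₗ[ℤ] (Fin P.n → ℤ) :=
    LinearEquiv.ofLinearMap (addToLin (e : _ →+ _)) (addToLin (e.symm : _ →+ _))
      (by ext x; simp) (by ext x; simp)
  exact ⟨Module.Free.of_equiv e'.symm, Module.Finite.equiv e'.symm⟩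

end FinX

section Bridge

variable {G : Type} [Group G] {𝒯 : Tower G} {k : Type} [CommRing k] {A' : Rep.{0} k G}
  (P : Presentation 𝒯 A') {U : Subgroup G} [U.Normal] (hle : U ≤ P.U₀)

/-- extension to `G` of a morphism of `G ⧸ U`-modules `M^U → C^U` when `U` acts trivially on `M` -/
def extHom {M C : Rep.{0} ℤ G} (hM : ∀ s ∈ U, ∀ m : M.V, M.ρ s m = m)
    (gb : M.quotientToInvariants U ⟶ C.quotientToInvariants U) : M ⟶ C :=
  mkHom
    { toFun := fun m => (gb.hom ⟨m, fun s => hM s.1 s.2 m⟩).1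
      map_zero' := by
        have h0 : (⟨0, fun s => hM s.1 s.2 0⟩ : (M.quotientToInvariants U).V) = 0 := rfl
        rw [h0, map_zero]
        rfl
      map_add' := fun a b => by
        have h0 : (⟨a + b, fun s => hM s.1 s.2 (a + b)⟩ : (M.quotientToInvariants U).V) =
            ⟨a, fun s => hM s.1 s.2 a⟩ + ⟨b, fun s => hM s.1 s.2 b⟩ := rfl
        rw [h0, map_add]
        rfl }
    (fun σ m => by
      have h1 := Rep.hom_comm_apply gb (σ : G ⧸ U) ⟨m, fun s => hM s.1 s.2 m⟩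
      exact congrArg Subtype.val h1)

lemma extHom_apply {M C : Rep.{0} ℤ G} (hM : ∀ s ∈ U, ∀ m : M.V, M.ρ s m = m)
    (gb : M.quotientToInvariants U ⟶ C.quotientToInvariants U) (m : (M.quotientToInvariants U).V) :
    (extHom hM gb).hom m.1 = (gb.hom m).1 := rfl

omit [U.Normal] in
include hle in
lemma desc_c {c : G → A'.V} (hcU : ∀ g s : G, s ∈ U → c (g * s) = c g) :
    Desc₁ (intRep A') U c :=
  ⟨hcU, fun g s hs => P.triv_A' s (hle hs) (c g)⟩

omit [U.Normal] in
include hle in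
lemma desc_ct {c : G → A'.V} (hcU : ∀ g s : G, s ∈ U → c (g * s) = c g) :
    Desc₁ P.M₀ U (fun σ => P.sec (c σ)) :=
  ⟨fun g s hs => by simp only [hcU g s hs], fun g s hs => P.triv₀ s (hle hs) _⟩

/-- the 2-cochain `inc⁻¹ ∘ d (s ∘ c)` with values in `M₁` -/
def zCoc (c : G → A'.V) : G × G → P.M₁.V :=
  fun στ => P.incInv ((d₁₂ P.M₀).hom (fun σ => P.sec (c σ)) στ)

lemma pairCoc_eq {C : Rep.{0} ℤ G} (g : P.M₁ ⟶ C) (c : G → A'.V) (στ : G × G) :
    pairCoc P g c στ = g.hom (zCoc P c στ) := rfl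

lemma ε_d₁₂ (ct : G → P.M₀.V) (στ : G × G) :
    P.ε ((d₁₂ P.M₀).hom ct στ) = (d₁₂ A').hom (fun σ => P.ε (ct σ)) στ := by
  simp only [d₁₂_hom_apply, map_add, map_sub, P.ε_ρ]

lemma inc_zCoc {c : G → A'.V} (hc : c ∈ cocycles₁ A') (στ : G × G) :
    P.inc.hom (zCoc P c στ) = (d₁₂ P.M₀).hom (fun σ => P.sec (c σ)) στ := by
  apply P.inc_incInv
  rw [ε_d₁₂]
  simp only [Presentation.ε_sec]
  have : (d₁₂ A').hom c = 0 := hc
  rw [show (fun σ => c σ) = c from rfl, this]
  rfl

include hle in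
lemma desc_z {c : G → A'.V} (hcU : ∀ g s : G, s ∈ U → c (g * s) = c g) :
    Desc₂ P.M₁ U (zCoc P c) := by
  refine ⟨fun g g' s s' hs hs' => ?_, fun gg s hs => P.triv₁ s (hle hs) _⟩
  unfold zCoc
  congr 1
  simp only [d₁₂_hom_apply]
  have h1 : g * s * (g' * s') = g * g' * (g'⁻¹ * s * g' * s') := by group
  have h2 : g'⁻¹ * s * g' * s' ∈ U :=
    U.mul_mem (by simpa using Subgroup.Normal.conj_mem ‹U.Normal› s hs g'⁻¹) hs'
  have hρ : ∀ x : P.M₀.V, P.M₀.ρ (g * s) x = P.M₀.ρ g (P.M₀.ρ s x) := fun x => by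
    rw [map_mul]; rfl
  rw [h1, hcU _ _ h2, hcU g' s' hs', hcU g s hs, hρ, P.triv₀ s (hle hs)]

/-- the descended cocycle of `A'` at the finite level `G ⧸ U` -/
def finCoc {c : G → A'.V} (hc : c ∈ cocycles₁ A')
    (hcU : ∀ g s : G, s ∈ U → c (g * s) = c g) : cocycles₁ (finX P U).X₃ :=
  ⟨descend₁ c (desc_c P hle hcU), by
    have h := (infl₁_mem_cocycles₁_iff (X := intRep A') (U := U)
      (descend₁ c (desc_c P hle hcU))).1
    apply h
    rw [infl₁_descend₁]
    exact (mem_cocycles₁_intRep_iff A' c).2 hc⟩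

lemma finX_g_comp {c : G → A'.V} (hcU : ∀ g s : G, s ∈ U → c (g * s) = c g) :
    (finX P U).g.hom ∘ descend₁ (fun σ => P.sec (c σ)) (desc_ct P hle hcU) =
      descend₁ c (desc_c P hle hcU) := by
  funext q
  apply Subtype.ext
  show P.ε (P.sec (c q.out)) = c q.out
  rw [P.ε_sec]

lemma finX_f_comp {c : G → A'.V} (hc : c ∈ cocycles₁ A')
    (hcU : ∀ g s : G, s ∈ U → c (g * s) = c g) :
    (finX P U).f.hom ∘ descend₂ (zCoc P c) (desc_z P hle hcU) =
      (d₁₂ (finX P U).X₂).hom (descend₁ (fun σ => P.sec (c σ)) (desc_ct P hle hcU)) := by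
  apply infl₂_injective (X := P.M₀) (U := U)
  have h1 : infl₂ P.M₀ U ((d₁₂ (P.M₀.quotientToInvariants U)).hom
      (descend₁ (fun σ => P.sec (c σ)) (desc_ct P hle hcU))) =
      (d₁₂ P.M₀).hom (fun σ => P.sec (c σ)) := by
    rw [infl₂_d₁₂, infl₁_descend₁]
  refine Eq.trans ?_ h1.symm
  funext στ
  show P.inc.hom (infl₂ P.M₁ U (descend₂ (zCoc P c) (desc_z P hle hcU)) στ) = _
  rw [infl₂_descend₂, inc_zCoc P hc]

/-- the connecting homomorphism on the descended cocycle -/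
theorem delta_finCoc {c : G → A'.V} (hc : c ∈ cocycles₁ A')
    (hcU : ∀ g s : G, s ∈ U → c (g * s) = c g) :
    (δ (finX_shortExact P hle) 1 2 rfl).hom ((H1π (finX P U).X₃).hom (finCoc P hle hc hcU)) =
      (H2π (finX P U).X₁).hom ⟨descend₂ (zCoc P c) (desc_z P hle hcU),
        mem_cocycles₂_of_comp_eq_d₁₂ (finX_shortExact P hle) (finX_f_comp P hle hc hcU)⟩ :=
  δ₁_apply (finX_shortExact P hle) (finCoc P hle hc hcU) _ (finX_g_comp P hle hcU) _
    (finX_f_comp P hle hc hcU)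

/-- **the bridge**: if `pairCoc P g c` is a level coboundary, then at the finite level
`ḡ_* (δ [c̄]) = 0`. -/
theorem push_delta_eq_zero (hInj : StmtInflInjFin) (p : ℕ) [Fact p.Prime] {C : Rep.{0} ℤ G}
    (hC : IsDiscrete 𝒯 C) (hcm : HasPFund 𝒯 C p) (hp : ∀ a : A'.V, p • a = 0)
    (hU : U ∈ 𝒯.lev) {c : G → A'.V} (hc : c ∈ cocycles₁ A')
    (hcU : ∀ g s : G, s ∈ U → c (g * s) = c g)
    (g : P.M₁ ⟶ C) (gb : (finX P U).X₁ ⟶ C.quotientToInvariants U)
    (hg : ∀ m : (P.M₁.quotientToInvariants U).V, (gb.hom m).1 = g.hom m.1)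
    (hpair : pairCoc P g c ∈ levCoboundaries₂ 𝒯 C) :
    (push₂ gb).hom ((δ (finX_shortExact P hle) 1 2 rfl).hom
      ((H1π (finX P U).X₃).hom (finCoc P hle hc hcU))) = 0 := by
  rw [delta_finCoc P hle hc hcU]
  have h1 := H2π_comp_map_apply (MonoidHom.id (G ⧸ U)) gb
    ⟨descend₂ (zCoc P c) (desc_z P hle hcU),
      mem_cocycles₂_of_comp_eq_d₁₂ (finX_shortExact P hle) (finX_f_comp P hle hc hcU)⟩
  refine Eq.trans h1 ?_
  apply infl_injective_pPrimary hInj p hC hcm hU
  · -- `p`-primary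
    refine ⟨1, ?_⟩
    rw [pow_one]
    have h2 : p • (H1π (finX P U).X₃).hom (finCoc P hle hc hcU) = 0 :=
      nsmul_eq_zero_of_forall (A := (finX P U).X₃) p
        (fun (a : ((intRep A').quotientToInvariants U).V) => Subtype.ext (hp a.1)) 1 _
    have h3 := congrArg (fun x => (push₂ gb).hom ((δ (finX_shortExact P hle) 1 2 rfl).hom x)) h2
    simp only [map_nsmul, map_zero] at h3
    rw [delta_finCoc P hle hc hcU] at h3
    rw [← h3]
    congr 1
    exact h1.symm
  · -- the inflation is `pairCoc P g c`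
    convert hpair using 1
    funext στ
    obtain ⟨σ, τ⟩ := στ
    show (gb.hom (descend₂ (zCoc P c) (desc_z P hle hcU) ((σ : G ⧸ U), (τ : G ⧸ U)))).1 = _
    rw [hg]
    have h4 := congrFun (infl₂_descend₂ (zCoc P c) (desc_z P hle hcU)) (σ, τ)
    rw [infl₂_apply] at h4
    rw [h4]
    rfl

end Bridge

/-- **F4a** -/
theorem stmtRightKer_of (hTN : StmtTN') (hInj : StmtInflInjFin) : StmtRightKer := by
  intro p _ G _ 𝒯 C hC hcm k _ A' P hp hInd c hc hlev hpair
  obtain ⟨Uc, hUc, hcU⟩ := hlev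
  obtain ⟨U, hU, hle1, hle2, hn⟩ := tower_exists_normal_le₂ 𝒯 hUc P.U₀_mem
  have hcU' : ∀ g s : G, s ∈ U → c (g * s) = c g := fun g s hs => hcU g s (hle1 hs)
  have hfin := 𝒯.finiteIndex U hU
  have : Finite (G ⧸ U) := Subgroup.finite_quotient_of_finiteIndex
  have : Fintype (G ⧸ U) := Fintype.ofFinite _
  obtain ⟨u, hu⟩ := hcm U hU
  have hfree : Module.Free ℤ (finX P U).X₂.V := (finX_free_finite P hle2).1
  have hfinite : Module.Finite ℤ (finX P U).X₂.V := (finX_free_finite P hle2).2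
  have hH1 : Subsingleton (H1 (finX P U).X₂) :=
    hInd G (MonoidHom.id G) U hfin (fun s hs m => P.triv₀ s (hle2 hs) m)
  have key := ext_duality_right hTN p (C.quotientToInvariants U) u hu (finX P U)
    (finX_shortExact P hle2)
    (fun (a : ((intRep A').quotientToInvariants U).V) => Subtype.ext (hp a.1)) hH1
    ((H1π (finX P U).X₃).hom (finCoc P hle2 hc hcU')) (fun gb =>
      push_delta_eq_zero P hle2 hInj p hC hcm hp hU hc hcU'
        (extHom (fun s hs m => P.triv₁ s (hle2 hs) m) gb) gb (fun m => rfl) (hpair _))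
  rw [H1π_eq_zero_iff] at key
  obtain ⟨a, ha⟩ := key
  refine ⟨(show ((intRep A').quotientToInvariants U).V from a).1, ?_⟩
  funext σ
  have h1 := congrArg Subtype.val (congrFun ha (σ : G ⧸ U))
  have h2 := congrFun (infl₁_descend₁ c (desc_c P hle2 hcU')) σ
  rw [infl₁_apply] at h2
  rw [← h2]
  exact h1

end Fermat.Agent.PT.F

end
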