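/-
PT-F, piece F4c (helper48): finiteness of `H¹_lev(G, A')`.

`stmtH1Finite_of : StmtRightKer → StmtLeftKer → StmtPairBasic → StmtPairH1 → StmtH1Finite`.

Proof (NOTES/PT-F.md): `U'` from `StmtLeftKer`; `W ⊆ H := H¹_lev(G, A')` the classes of
right-`U'`-invariant cocycles, a FINITE subspace (functions `G ⧸ U' → A'`).  If `x ∈ H ∖ W`, put
`W' := W + 𝔽_p x` (finite-dimensional); `Λ := {Pg g|_{W'}}` is a subspace of the dual of `W'` with zero
coannihilator (`StmtRightKer`), so `Λ = (W')^*`; take `g` with `Pg g = 0` on `W` and `Pg g x ≠ 0`;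
`StmtLeftKer` gives `g = inc ≫ g₀`, so `Pg g = 0` (`StmtPairBasic`, clause 6): contradiction.
-/
import Fermat.Agent.PT.F.Pair

set_option autoImplicit false

noncomputable section

namespace Fermat.Agent.PT.F

open CategoryTheory groupCohomology Fermat.Agent.PT

/-- Abstract linear algebra behind F4c: a finite subspace `W` of an `𝔽_p`-space `H`, an additive
family of functionals `Pg` separating the points of `H`, such that every functional of the family
vanishing on `W` vanishes. Then `W = H`. -/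
theorem f4c_linalg (p : ℕ) [Fact p.Prime] {H : Type} [AddCommGroup H] [Module (ZMod p) H]
    (W : Submodule (ZMod p) H) [Finite ↥W] {E : Type} [AddCommGroup E]
    (Pg : E →+ (H →ₗ[ZMod p] ZMod p))
    (hright : ∀ y : H, (∀ g, Pg g y = 0) → y = 0)
    (hleft : ∀ g, (∀ y ∈ W, Pg g y = 0) → ∀ y, Pg g y = 0) :
    W = ⊤ := by
  classical
  by_contra hne
  obtain ⟨x, hx⟩ : ∃ x : H, x ∉ W := by
    by_contra h
    push Not at h
    exact hne (eq_top_iff.2 fun y _ => h y)
  -- the finite-dimensional space `W' = W + 𝔽_p x`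
  set W' : Submodule (ZMod p) H := W ⊔ Submodule.span (ZMod p) {x} with hW'
  have _ : Module.Finite (ZMod p) ↥W := Module.Finite.of_finite
  have _ : FiniteDimensional (ZMod p) ↥W' := by
    rw [hW']
    infer_instance
  have hWW' : W ≤ W' := le_sup_left
  have hxW' : x ∈ W' := le_sup_right (α := Submodule (ZMod p) H) (Submodule.mem_span_singleton_self x)
  -- restriction of the functionals to `W'`
  let Φ : E →+ Module.Dual (ZMod p) ↥W' :=
    { toFun := fun g => (Pg g).comp W'.subtype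
      map_zero' := by simp
      map_add' := fun g g' => by
        ext y
        simp }
  let Λ : Submodule (ZMod p) (Module.Dual (ZMod p) ↥W') :=
    AddSubgroup.toZModSubmodule p Φ.range
  have hΛ : Λ.dualCoannihilator = ⊥ := by
    rw [eq_bot_iff]
    intro y hy
    rw [Submodule.mem_dualCoannihilator] at hy
    rw [Submodule.mem_bot]
    have h0 : (y : H) = 0 := by
      apply hright
      intro g
      have := hy (Φ g) ⟨g, rfl⟩
      simpa [Φ] using this
    exact Subtype.ext h0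
  have hΛtop : Λ = ⊤ := by
    have h := Subspace.dualCoannihilator_dualAnnihilator_eq (W := Λ)
    rw [hΛ, Submodule.dualAnnihilator_bot] at h
    exact h.symm
  -- a functional on `W'` vanishing on `W` and not at `x`
  obtain ⟨f, hfx, hfW⟩ := Submodule.exists_dual_map_eq_bot_of_notMem
    (p := W.comap W'.subtype) (x := (⟨x, hxW'⟩ : ↥W')) (by simpa using hx) inferInstance
  have hfΛ : f ∈ Λ := by rw [hΛtop]; trivial
  obtain ⟨g, hg⟩ := hfΛ
  have hgW : ∀ y ∈ W, Pg g y = 0 := by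
    intro y hy
    have h1 : f ⟨y, hWW' hy⟩ ∈ (W.comap W'.subtype).map f :=
      Submodule.mem_map_of_mem (by simpa using hy)
    rw [hfW, Submodule.mem_bot] at h1
    rw [← hg] at h1
    simpa [Φ] using h1
  have hgx : Pg g x = 0 := hleft g hgW x
  apply hfx
  rw [← hg]
  simpa [Φ] using hgx

/-- the right-`U`-invariant 1-cocycles -/
def f4c_invCocycles {G : Type} [Group G] {k : Type} [CommRing k] (A' : Rep.{0} k G)
    (U : Subgroup G) : Submodule k (cocycles₁ A') where
  carrier := {c | ∀ σ s : G, s ∈ U → (c : G → A'.V) (σ * s) = (c : G → A'.V) σ}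
  add_mem' := by
    intro c c' hc hc' σ s hs
    show (c : G → A'.V) (σ * s) + (c' : G → A'.V) (σ * s) =
      (c : G → A'.V) σ + (c' : G → A'.V) σ
    rw [hc σ s hs, hc' σ s hs]
  zero_mem' := by
    intro σ s _
    rfl
  smul_mem' := by
    intro a c hc σ s hs
    show a • (c : G → A'.V) (σ * s) = a • (c : G → A'.V) σ
    rw [hc σ s hs]

theorem f4c_invCocycles_finite {G : Type} [Group G] {k : Type} [CommRing k] (A' : Rep.{0} k G)
    [Finite A'.V] (U : Subgroup G) [U.FiniteIndex] : Finite ↥(f4c_invCocycles A' U) := by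
  have hinj : Function.Injective
      (fun (c : ↥(f4c_invCocycles A' U)) (q : G ⧸ U) => ((c : cocycles₁ A') : G → A'.V) q.out) := by
    intro c c' h
    apply Subtype.ext
    apply Subtype.ext
    funext σ
    obtain ⟨s, hs⟩ := QuotientGroup.mk_out_eq_mul U σ
    have h1 := congrFun h (σ : G ⧸ U)
    simp only at h1
    rw [hs] at h1
    rw [c.2 σ s s.2, c'.2 σ s s.2] at h1
    exact h1
  exact Finite.of_injective _ hinj

/-- **F4c**: `H¹_lev(G, A')` is finite. -/
theorem stmtH1Finite_of (hR : StmtRightKer) (hL : StmtLeftKer) (hB : StmtPairBasic)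
    (hP : StmtPairH1) : StmtH1Finite := by
  intro p _ G _ ι _ Gloc _ D A' _ P hInd
  have hpA : ∀ a : A'.V, p • a = 0 := by
    intro a
    rw [← Nat.cast_smul_eq_nsmul (ZMod p), ZMod.natCast_self, zero_smul]
  obtain ⟨U', hU', hLK⟩ := hL p G ι Gloc D (ZMod p) A' P hpA hInd
  obtain ⟨Pg, hPg⟩ := hP p G ι Gloc D A' P
  have hB6 := (hB G D.𝒯 (ZMod p) A' P D.C).2.2.2.2.2.1
  have _ : U'.FiniteIndex := D.𝒯.finiteIndex U' hU'
  have _ : Finite A'.V := Module.finite_of_finite (ZMod p)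
  have _ := f4c_invCocycles_finite A' U'
  -- the subspace `W` of classes of right-`U'`-invariant cocycles
  have hlev : ∀ c : ↥(f4c_invCocycles A' U'), IsLevel₁ D.𝒯 ((c : cocycles₁ A') : G → A'.V) :=
    fun c => ⟨U', hU', c.2⟩
  let W : Submodule (ZMod p) ↥(levH1 D.𝒯 A') :=
    ((f4c_invCocycles A' U').map (H1π A').hom).comap (levH1 D.𝒯 A').subtype
  have _ : Finite ↥W := by
    have hsurj : Function.Surjective (fun c : ↥(f4c_invCocycles A' U') =>
        (⟨⟨(H1π A').hom (c : cocycles₁ A'),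
          (mem_levH1_iff D.𝒯 A' _).2 ⟨c, hlev c, rfl⟩⟩,
          ⟨c, c.2, rfl⟩⟩ : ↥W)) := by
      rintro ⟨⟨y, hy⟩, c, hc, hcy⟩
      refine ⟨⟨c, hc⟩, ?_⟩
      apply Subtype.ext
      apply Subtype.ext
      exact hcy
    exact Finite.of_surjective _ hsurj
  have hright : ∀ y : ↥(levH1 D.𝒯 A'), (∀ g, Pg g y = 0) → y = 0 := by
    rintro ⟨y, hy⟩ h
    obtain ⟨c, hc, rfl⟩ := (mem_levH1_iff D.𝒯 A' _).1 hy
    have h1 : ∀ g : P.M₁ ⟶ D.C, pairCoc P g c ∈ levCoboundaries₂ D.𝒯 D.C :=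
      fun g => (hPg g c hc).1 (h g)
    have h2 := hR p G D.𝒯 D.C D.C_discrete D.cm_glob (ZMod p) A' P hpA hInd c c.2 hc h1
    apply Subtype.ext
    exact (H1π_eq_zero_iff c).2 h2
  have hleft : ∀ g, (∀ y ∈ W, Pg g y = 0) → ∀ y, Pg g y = 0 := by
    intro g hg
    obtain ⟨g₀, rfl⟩ := hLK g (by
      intro c hc hinv
      let c' : ↥(f4c_invCocycles A' U') := ⟨⟨c, hc⟩, hinv⟩
      have h1 := hg ⟨(H1π A').hom (c' : cocycles₁ A'),
        (mem_levH1_iff D.𝒯 A' _).2 ⟨c', hlev c', rfl⟩⟩ ⟨c', c'.2, rfl⟩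
      exact (hPg g ⟨c, hc⟩ (hlev c')).1 h1)
    rintro ⟨y, hy⟩
    obtain ⟨c, hc, rfl⟩ := (mem_levH1_iff D.𝒯 A' _).1 hy
    exact (hPg (P.inc ≫ g₀) c hc).2 (hB6 g₀ c c.2 hc)
  have hW := f4c_linalg p W Pg hright hleft
  have : Finite ↥(⊤ : Submodule (ZMod p) ↥(levH1 D.𝒯 A')) := hW ▸ inferInstance
  exact Finite.of_equiv _ (Submodule.topEquiv (R := ZMod p) (M := ↥(levH1 D.𝒯 A'))).toEquiv

end Fermat.Agent.PT.F

end
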