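import Fermat.Agent.PT.F.Plan
import Fermat.Agent.PT.A.Sylow

/-!
# PT-F / F1b-fin: with a `p`-fundamental class, `H²(Γ, C)[p]` is cyclic

Restriction to a Sylow `p`-subgroup `P` is injective on `p`-primary classes (`stmtSylow`), and
`H²(P, C)` is a finite cyclic group; in a finite cyclic group every nonzero element killed by `p`
generates the `p`-torsion.
-/

set_option autoImplicit false

open CategoryTheory groupCohomology Fermat.Agent.PT

namespace Fermat.Agent.PT.F

/-- In a finite cyclic group, a nonzero element killed by the prime `p` generates the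
`p`-torsion. -/
theorem h2p_exists_nsmul_eq_of_cyclic {Z : Type*} [AddCommGroup Z] [Finite Z] [IsAddCyclic Z]
    {p : ℕ} (hp : p.Prime) {a b : Z} (ha : p • a = 0) (hb : p • b = 0) (ha0 : a ≠ 0) :
    ∃ n : ℕ, b = n • a := by
  classical
  have : Fintype Z := Fintype.ofFinite Z
  have ho : addOrderOf a = p := by
    have : Fact p.Prime := ⟨hp⟩
    exact addOrderOf_eq_prime ha ha0
  set T : Finset Z := Finset.univ.filter (fun z => p • z = 0) with hT
  have hTcard : T.card ≤ p := IsAddCyclic.card_nsmul_eq_zero_le hp.pos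
  set S : Finset Z := (Finset.range p).image (fun i => i • a) with hS
  have hScard : S.card = p := by
    rw [hS, Finset.card_image_of_injOn, Finset.card_range]
    intro i hi j hj hij
    have hi' : i ∈ Set.Iio (addOrderOf a) := by
      rw [ho]; simpa using hi
    have hj' : j ∈ Set.Iio (addOrderOf a) := by
      rw [ho]; simpa using hj
    exact nsmul_injOn_Iio_addOrderOf hi' hj' hij
  have hST : S ⊆ T := by
    intro z hz
    rw [hS, Finset.mem_image] at hz
    obtain ⟨i, -, rfl⟩ := hz
    rw [hT, Finset.mem_filter]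
    refine ⟨Finset.mem_univ _, ?_⟩
    rw [smul_comm, ha, smul_zero]
  have hEq : S = T := Finset.eq_of_subset_of_card_le hST (by rw [hScard]; exact hTcard)
  have hbT : b ∈ T := by
    rw [hT, Finset.mem_filter]
    exact ⟨Finset.mem_univ _, hb⟩
  rw [← hEq, hS, Finset.mem_image] at hbT
  obtain ⟨i, -, hi⟩ := hbT
  exact ⟨i, hi.symm⟩

/-- **F1b-fin**. -/
theorem stmtH2pCyclic : StmtH2pCyclic := by
  intro p _ Γ _ _ C u hu x y hx hy hx0
  have hp : p.Prime := Fact.out
  obtain ⟨P⟩ : Nonempty (Sylow p Γ) := inferInstance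
  have hP : IsPGroup p (P : Subgroup Γ) := P.isPGroup'
  set r := (resSub C (P : Subgroup Γ) 2).hom with hr
  -- the target is finite cyclic
  have hcard := hu.h2_card (P : Subgroup Γ) hP
  have hfin : Finite (H2 (Rep.res (P : Subgroup Γ).subtype C)) := by
    apply Nat.finite_of_card_ne_zero
    rw [hcard]
    exact Nat.card_pos.ne'
  have hcyc : IsAddCyclic (H2 (Rep.res (P : Subgroup Γ).subtype C)) := by
    refine ⟨⟨r u, fun z => ?_⟩⟩
    obtain ⟨n, hn⟩ := hu.h2_gen (P : Subgroup Γ) hP z
    exact AddSubgroup.mem_zmultiples_iff.2 ⟨n, hn⟩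
  -- Sylow injectivity
  have hinj : ∀ z : H2 C, p • z = 0 → r z = 0 → z = 0 := by
    intro z hz hrz
    exact stmtSylow p Γ C P 2 z (by norm_num) ⟨1, by rwa [pow_one]⟩ hrz
  have hrx0 : r x ≠ 0 := fun h => hx0 (hinj x hx h)
  have hrx : p • r x = 0 := by rw [← map_nsmul, hx, map_zero]
  have hry : p • r y = 0 := by rw [← map_nsmul, hy, map_zero]
  obtain ⟨n, hn⟩ := h2p_exists_nsmul_eq_of_cyclic hp hrx hry hrx0
  refine ⟨n, ?_⟩
  have hz : p • (y - n • x) = 0 := by
    rw [smul_sub, hy, smul_comm, hx, smul_zero, sub_zero]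
  have hrz : r (y - n • x) = 0 := by
    rw [map_sub, map_nsmul, hn, sub_self]
  exact sub_eq_zero.1 (hinj _ hz hrz)

end Fermat.Agent.PT.F
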