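import Fermat.Agent.PT.F.HasIndStd

/-!
# PT-F / F-HasInd, under the name of the piece table

`hasInd_stdPres` is `stmtHasInd_std` (HasIndStd.lean).
-/

set_option autoImplicit false

noncomputable section

namespace Fermat.Agent.PT.F

open Fermat.Agent.PT

/-- **F-HasInd**: the module `M₀` of the standard presentation has property (Ind). -/
theorem hasInd_stdPres {G : Type} [Group G] (𝒯 : Tower G) (U₀ : Subgroup G) [hn : U₀.Normal]
    (hU₀ : U₀ ∈ 𝒯.lev) {k : Type} [CommRing k] (A' : Rep.{0} k G) [Finite A'.V]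
    (htriv : ∀ s ∈ U₀, ∀ a : A'.V, A'.ρ s a = a) :
    HasInd (stdPres 𝒯 U₀ hU₀ A' htriv).M₀ :=
  stmtHasInd_std 𝒯 U₀ hU₀ A' htriv

end Fermat.Agent.PT.F

end
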