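import Fermat.Agent.PT.F.Plan

/-!
# PT-F / F-Ind: `H¹(G, res_φ ℤ[Ω]) = 0` for finite `G` and finite `Ω`

Proof: for a cocycle `c` put `B ω = ∑_g c(g)(ω)`; then `|G| · c(h)(ω) = B(ω) - B(h⁻¹ ω)`.
So `-B` is constant mod `|G|` on `G`-orbits; subtracting its value at an orbit representative and
dividing by `|G|` gives `b ∈ ℤ[Ω]` with `c = d b`.  (Freeness of the action is not needed.)
-/

set_option autoImplicit false

open CategoryTheory groupCohomology

namespace Fermat.Agent.PT.F

section Coeff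

variable {Γ : Type} [Group Γ] {Ω : Type} [MulAction Γ Ω]

/-- coefficients of a translate in the permutation module `ℤ[Ω]`. -/
theorem ind_coeff_ofMulAction (γ : Γ) (x : MonoidAlgebra ℤ Ω) (ω : Ω) :
    (Representation.ofMulAction ℤ Γ Ω γ x).coeff ω = x.coeff (γ⁻¹ • ω) := by
  rw [Representation.ofMulAction_def]
  have h : ω = γ • (γ⁻¹ • ω) := by simp
  conv_lhs => rw [h]
  exact Finsupp.mapDomain_apply (MulAction.injective γ) _ _

end Coeff

section Main

variable {G Γ : Type} [Group G] [Group Γ] (φ : G →* Γ) {Ω : Type} [MulAction Γ Ω]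

/-- The orbit relation of `G` acting on `Ω` through `φ`. -/
def indSetoid : Setoid Ω where
  r ω ω' := ∃ g : G, φ g • ω = ω'
  iseqv :=
    { refl := fun ω => ⟨1, by simp⟩
      symm := by
        rintro ω ω' ⟨g, rfl⟩
        exact ⟨g⁻¹, by simp⟩
      trans := by
        rintro ω ω' ω'' ⟨g, rfl⟩ ⟨h, rfl⟩
        exact ⟨h * g, by simp [mul_smul]⟩ }

/-- A chosen representative of the `G`-orbit of `ω`. -/
noncomputable def indRep (ω : Ω) : Ω :=
  (Quotient.mk (indSetoid φ) ω).out

theorem indRep_smul (g : G) (ω : Ω) : indRep φ (φ g • ω) = indRep φ ω := by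
  unfold indRep
  congr 1
  exact Quotient.sound (s := indSetoid φ) ⟨g⁻¹, by simp⟩

theorem exists_smul_indRep (ω : Ω) : ∃ g : G, φ g • indRep φ ω = ω := by
  have h : (indSetoid φ).r (indRep φ ω) ω :=
    Quotient.exact (s := indSetoid φ) (Quotient.out_eq (Quotient.mk (indSetoid φ) ω))
  exact h

end Main

/-- **F-Ind**. -/
theorem stmtInd : StmtInd := by
  intro G Γ _ _ _ _ φ Ω _ _ _
  classical
  have : Fintype G := Fintype.ofFinite G
  set A : Rep.{0} ℤ G := Rep.res φ (Rep.ofMulAction ℤ Γ Ω) with hA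
  refine ⟨fun x y => ?_⟩
  suffices h : ∀ z : H1 A, z = 0 by rw [h x, h y]
  intro z
  induction z using H1_induction_on with
  | h c =>
    rw [H1π_eq_zero_iff]
    -- the action in coordinates
    have hρ : ∀ (g : G) (v : MonoidAlgebra ℤ Ω) (ω : Ω),
        (show MonoidAlgebra ℤ Ω from A.ρ g v).coeff ω = v.coeff ((φ g)⁻¹ • ω) := by
      intro g v ω
      exact ind_coeff_ofMulAction (φ g) v ω
    -- the cocycle in coordinates
    set ct : G → Ω → ℤ := fun g ω => (show MonoidAlgebra ℤ Ω from c g).coeff ω with hct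
    have hcoc : ∀ (g h : G) (ω : Ω), ct (g * h) ω = ct h ((φ g)⁻¹ • ω) + ct g ω := by
      intro g h ω
      have h1 := (mem_cocycles₁_iff (A := A) (⇑c)).1 c.2 g h
      have h2 : (show MonoidAlgebra ℤ Ω from c (g * h)).coeff ω
          = (show MonoidAlgebra ℤ Ω from A.ρ g (c h) + c g).coeff ω :=
        congrArg (fun v : MonoidAlgebra ℤ Ω => v.coeff ω) h1
      rw [hct]
      change (show MonoidAlgebra ℤ Ω from c (g * h)).coeff ω = _
      rw [h2]
      change ((show MonoidAlgebra ℤ Ω from A.ρ g (c h)) + (show MonoidAlgebra ℤ Ω from c g)).coeff ω = _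
      rw [MonoidAlgebra.coeff_add, Finsupp.add_apply, hρ]
    -- averaging
    set B : Ω → ℤ := fun ω => ∑ g : G, ct g ω with hB
    have havg : ∀ (h : G) (ω : Ω),
        (Fintype.card G : ℤ) * ct h ω = B ω - B ((φ h)⁻¹ • ω) := by
      intro h ω
      have e1 : B ω = ∑ g : G, ct (h * g) ω :=
        (Fintype.sum_equiv (Equiv.mulLeft h) (fun g => ct (h * g) ω) (fun g => ct g ω)
          (fun g => rfl)).symm
      have e2 : ∑ g : G, ct (h * g) ω = B ((φ h)⁻¹ • ω) + (Fintype.card G : ℤ) * ct h ω := by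
        simp only [hcoc, Finset.sum_add_distrib, Finset.sum_const, Finset.card_univ, hB,
          nsmul_eq_mul]
      rw [e1, e2]
      ring
    -- normalisation on orbits
    set r : Ω → ℤ := fun ω => B (indRep φ ω) - B ω with hr
    have hr_step : ∀ (h : G) (ω : Ω),
        r ((φ h)⁻¹ • ω) - r ω = (Fintype.card G : ℤ) * ct h ω := by
      intro h ω
      have e : indRep φ ((φ h)⁻¹ • ω) = indRep φ ω := by
        have := indRep_smul φ h⁻¹ ω
        rwa [map_inv] at this
      simp only [hr, e, havg]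
      ring
    have hr_dvd : ∀ ω : Ω, (Fintype.card G : ℤ) ∣ r ω := by
      intro ω
      obtain ⟨g, hg⟩ := exists_smul_indRep φ ω
      have e : (φ g)⁻¹ • ω = indRep φ ω := by rw [inv_smul_eq_iff]; exact hg.symm
      refine ⟨-ct g ω, ?_⟩
      have := havg g ω
      rw [e] at this
      simp only [hr]
      linarith
    have hcard : (Fintype.card G : ℤ) ≠ 0 := by
      exact_mod_cast Fintype.card_ne_zero
    set b : Ω → ℤ := fun ω => r ω / (Fintype.card G : ℤ) with hb
    have hb_mul : ∀ ω, (Fintype.card G : ℤ) * b ω = r ω := fun ω =>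
      Int.mul_ediv_cancel' (hr_dvd ω)
    -- the coboundary
    refine ⟨(MonoidAlgebra.ofCoeff (Finsupp.equivFunOnFinite.symm b) : MonoidAlgebra ℤ Ω), ?_⟩
    funext g
    rw [d₀₁_hom_apply]
    apply MonoidAlgebra.coeff_injective
    ext ω
    change ((show MonoidAlgebra ℤ Ω from A.ρ g (MonoidAlgebra.ofCoeff
        (Finsupp.equivFunOnFinite.symm b))) - MonoidAlgebra.ofCoeff
        (Finsupp.equivFunOnFinite.symm b)).coeff ω = ct g ω
    rw [MonoidAlgebra.coeff_sub, Finsupp.sub_apply, hρ, MonoidAlgebra.coeff_ofCoeff,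
      Finsupp.coe_equivFunOnFinite_symm]
    apply mul_left_cancel₀ hcard
    rw [mul_sub, hb_mul, hb_mul, hr_step]

end Fermat.Agent.PT.F
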