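import Fermat.Agent.PT.A.Plan2

/-!
# PT-F / basic API (helper68): morphisms of `Rep ℤ G` pointwise, additivity of `Hⁿ(G, -)`
-/

set_option autoImplicit false

open CategoryTheory groupCohomology Fermat.Agent.PT

namespace Fermat.Agent.PT.F

variable {G : Type} [Group G]

theorem rep_hom_ext' {A B : Rep.{0} ℤ G} {f g : A ⟶ B} (h : ∀ a : A.V, f.hom a = g.hom a) : f = g :=
  Rep.hom_ext (DFunLike.ext _ _ h)

@[simp] theorem rep_add_apply {A B : Rep.{0} ℤ G} (f g : A ⟶ B) (a : A.V) :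
    (f + g).hom a = f.hom a + g.hom a := by
  rw [Rep.add_hom]; rfl

/-- Evaluation at `a` as an additive map on morphisms. -/
def repEval {A B : Rep.{0} ℤ G} (a : A.V) : (A ⟶ B) →+ B.V where
  toFun f := f.hom a
  map_zero' := rfl
  map_add' f g := rep_add_apply f g a

@[simp] theorem rep_sub_apply {A B : Rep.{0} ℤ G} (f g : A ⟶ B) (a : A.V) :
    (f - g).hom a = f.hom a - g.hom a := map_sub (repEval a) f g

@[simp] theorem rep_zsmul_apply {A B : Rep.{0} ℤ G} (f : A ⟶ B) (n : ℤ) (a : A.V) :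
    (n • f).hom a = n • f.hom a := map_zsmul (repEval a) n f

@[simp] theorem rep_nsmul_apply {A B : Rep.{0} ℤ G} (f : A ⟶ B) (n : ℕ) (a : A.V) :
    (n • f).hom a = n • f.hom a := map_nsmul (repEval a) n f

@[simp] theorem rep_comp_apply {A B C : Rep.{0} ℤ G} (f : A ⟶ B) (g : B ⟶ C) (a : A.V) :
    (f ≫ g).hom a = g.hom (f.hom a) := rfl

@[simp] theorem rep_id_apply {A : Rep.{0} ℤ G} (a : A.V) : (𝟙 A : A ⟶ A).hom a = a := rfl

@[simp] theorem rep_zero_apply {A B : Rep.{0} ℤ G} (a : A.V) : (0 : A ⟶ B).hom a = 0 := rfl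

/-- `Hⁿ(G, -)` is additive in the coefficient morphism. -/
theorem map_id_add {A B : Rep.{0} ℤ G} (φ ψ : A ⟶ B) (n : ℕ) :
    groupCohomology.map (MonoidHom.id G) (φ + ψ) n =
      groupCohomology.map (MonoidHom.id G) φ n + groupCohomology.map (MonoidHom.id G) ψ n := by
  have h : cochainsMap (MonoidHom.id G) (φ + ψ) =
      cochainsMap (MonoidHom.id G) φ + cochainsMap (MonoidHom.id G) ψ :=
    (cochainsFunctor ℤ G).map_add
  simp only [groupCohomology.map, h]
  exact HomologicalComplex.homologyMap_add _ _ _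

instance functor_additive (n : ℕ) : (groupCohomology.functor ℤ G n).Additive where
  map_add := map_id_add _ _ n

theorem map_id_sub {A B : Rep.{0} ℤ G} (φ ψ : A ⟶ B) (n : ℕ) :
    groupCohomology.map (MonoidHom.id G) (φ - ψ) n =
      groupCohomology.map (MonoidHom.id G) φ n - groupCohomology.map (MonoidHom.id G) ψ n :=
  (groupCohomology.functor ℤ G n).map_sub

theorem map_id_nsmul {A B : Rep.{0} ℤ G} (φ : A ⟶ B) (m n : ℕ) :
    groupCohomology.map (MonoidHom.id G) (m • φ) n =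
      m • groupCohomology.map (MonoidHom.id G) φ n :=
  (groupCohomology.functor ℤ G n).map_nsmul

theorem map_id_zero {A B : Rep.{0} ℤ G} (n : ℕ) :
    groupCohomology.map (MonoidHom.id G) (0 : A ⟶ B) n = 0 :=
  (groupCohomology.functor ℤ G n).map_zero _ _

/-- If `p` kills `A` then `p` kills `Hⁿ(G, A)`. -/
theorem nsmul_eq_zero_of_forall {A : Rep.{0} ℤ G} (p : ℕ) (hp : ∀ a : A.V, p • a = 0) (n : ℕ)
    (x : groupCohomology A n) : p • x = 0 := by
  have h0 : (p • 𝟙 A : A ⟶ A) = 0 := rep_hom_ext' fun a => by simp [hp]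
  have h1 := map_id_nsmul (𝟙 A) p n
  rw [h0, map_id_zero, groupCohomology.map_id] at h1
  have h2 := congrArg (fun f => f.hom x) h1
  simpa using h2.symm

end Fermat.Agent.PT.F
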