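/-
PT-F (formal part of the Poitou–Tate campaign) — SHARED DEFINITIONS for the limit part.
Blueprint: NOTES/PT-F-blueprint.md (§2, §3, §6).  Author: helper55.

* `mkHom`          : a morphism of `Rep ℤ G` from an equivariant linear map
* (`homRep M Y`, `homAdd`, `actAdd`, `conjAdd`, `addToLin` are in PT/A/Defs.lean, helper9)
* `Presentation`   : `0 → M₁ → M₀ → A' → 0`, `M₀ = ℤ[G/U₀]^r`
* `kappa`          : `A → Hom_ℤ(M₀, E)`, `a ↦ (m ↦ (ε m)(a) • ζ)`   (here `A' = A.dualTwist χ`)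
* `Eglob`, `Eloc`  : `𝔈 = Hom_G(M₁, C)/res Hom_G(M₀, C)` and its local analogue
* `hat`            : `Hom_{G_v}(M₁, J_v) → Hom_G(M₁, J)` (Frobenius reciprocity)
* `IsDel`          : the relation "`w` is a cocycle representing `∂ g`"
-/
import Fermat.Agent.PT.Plan
import Fermat.Agent.PT.A.Defs
import Fermat.Agent.PT.F.RepBasic

set_option autoImplicit false

noncomputable section

namespace Fermat.Agent.PT.F

open CategoryTheory groupCohomology Fermat.Agent.PT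

section Basic

variable {G : Type} [Group G]

attribute [local instance 1100] Rep.hV2

/-- A morphism of `Rep ℤ G` from an equivariant additive map. -/
def mkHom {A B : Rep.{0} ℤ G} (f : A.V →+ B.V) (hf : ∀ g a, f (A.ρ g a) = B.ρ g (f a)) :
    A ⟶ B :=
  ConcreteCategory.ofHom (C := Rep.{0} ℤ G) (X := A) (Y := B)
    (LinearMap.intertwiningMap_of_isIntertwiningMap (ρ := A.ρ) (σ := B.ρ)
      (f := addToLin f) (fun g a => hf g a))

@[simp] lemma mkHom_apply {A B : Rep.{0} ℤ G} (f : A.V →+ B.V)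
    (hf : ∀ g a, f (A.ρ g a) = B.ρ g (f a)) (a : A.V) : (mkHom f hf).hom a = f a := rfl

end Basic

/-! ### Presentations -/

/-- A presentation `0 → M₁ → M₀ → A' → 0` of a `G`-module `A'` by a `ℤ`-free module `M₀` of finite
rank, all trivial on the normal level `U₀`.  (The standard one, `M₀ = ℤ[G/U₀ × A']`, is
constructed in `PT/F/StdPres.lean`.) -/
structure Presentation {G : Type} [Group G] (𝒯 : Tower G) {k : Type} [CommRing k]
    (A' : Rep.{0} k G) where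
  /-- the normal level on which everything is trivial -/
  U₀ : Subgroup G
  U₀_mem : U₀ ∈ 𝒯.lev
  U₀_normal : U₀.Normal
  /-- the free module -/
  M₀ : Rep.{0} ℤ G
  /-- the relation module -/
  M₁ : Rep.{0} ℤ G
  /-- the inclusion -/
  inc : M₁ ⟶ M₀
  /-- the augmentation -/
  ε : M₀.V →+ A'.V
  ε_ρ : ∀ (g : G) (m : M₀.V), ε (M₀.ρ g m) = A'.ρ g (ε m)
  inc_injective : Function.Injective inc.hom
  ε_surjective : Function.Surjective ε
  exact : ∀ m : M₀.V, ε m = 0 ↔ ∃ m₁ : M₁.V, inc.hom m₁ = m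
  triv₀ : ∀ s ∈ U₀, ∀ m : M₀.V, M₀.ρ s m = m
  /-- a finite `ℤ`-basis of `M₀` -/
  n : ℕ
  basis₀ : Fin n → M₀.V
  basis₀_spec : ∀ (Y : Type) [AddCommGroup Y] (f : Fin n → Y),
    ∃! h : M₀.V →+ Y, ∀ j, h (basis₀ j) = f j

section Datum

variable {p : ℕ} {G : Type} [Group G] {ι : Type} {Gloc : ι → Type}
  [∀ v, Group (Gloc v)] (D : PTDatum p G ι Gloc)

/-- the semilocal module of the datum -/
abbrev PTJ : Rep.{0} ℤ G := semilocal D.𝒯 D.r D.Jloc

/-- evaluation at the identity of the `v`-component: `J → J_v`, `f ↦ f v 1` -/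
def ev (v : ι) : (PTJ D).V →+ (D.Jloc v).V where
  toFun f := f.1 v 1
  map_zero' := rfl
  map_add' _ _ := rfl

@[simp] lemma ev_apply (v : ι) (f : (PTJ D).V) : ev D v f = f.1 v 1 := rfl

variable (A : Rep.{0} (ZMod p) G) (P : Presentation D.𝒯 (A.dualTwist D.χ))

/-- `κ : A → Hom_ℤ(M₀, E)`, `a ↦ (m ↦ (ε m)(a) • ζ)`: the identification `A = Hom(A', μ_p)`
(`A' = A.dualTwist χ` has carrier `Module.Dual (ZMod p) A`). -/
def kappaFun (a : A.V) (m : P.M₀.V) : D.E.V :=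
  ((show Module.Dual (ZMod p) A.V from P.ε m) a).val • D.ζ

/-- The coboundary `σ ↦ σ h σ⁻¹ - h` of an additive map `h : M → Y`. -/
def dZero (M Y : Rep.{0} ℤ G) (h : M.V →+ Y.V) (σ : G) : M.V →+ Y.V :=
  conjAdd M Y σ h - h

/-- The coboundary `(σ, τ) ↦ σ t(τ) σ⁻¹ - t(στ) + t(σ)` of a 1-cochain with values in
`Hom_ℤ(M, Y)`. -/
def dOne (M Y : Rep.{0} ℤ G) (t : G → (M.V →+ Y.V)) (στ : G × G) : M.V →+ Y.V :=
  conjAdd M Y στ.1 (t στ.2) - t (στ.1 * στ.2) + t στ.1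

/-- **The relation "`w` represents `∂ g`"** (blueprint §6): there are an additive lift
`g̃ : M₁ → J` of `g : M₁ → C` and a level 1-cochain `z̃ : G → Hom_ℤ(M₀, E)` extending
`z(σ) = σ g̃ σ⁻¹ - g̃ : M₁ → E` such that `κ ∘ w = d z̃`. -/
def IsDel (g : P.M₁ ⟶ D.C) (w : G × G → A.V) : Prop :=
  ∃ (gt : P.M₁.V →+ (PTJ D).V) (zt : G → (P.M₀.V →+ D.E.V)),
    (∀ m, D.π.hom (gt m) = g.hom m) ∧
    IsLevel₁ D.𝒯 zt ∧
    (∀ (σ : G) (m : P.M₁.V), D.i.hom (zt σ (P.inc.hom m)) = dZero P.M₁ (PTJ D) gt σ m) ∧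
    (∀ (στ : G × G) (m : P.M₀.V), kappaFun D A P (w στ) m = dOne P.M₀ D.E zt στ m)

/-- `w` represents `∂ g` up to a level coboundary. -/
def IsDelClass (g : P.M₁ ⟶ D.C) (w : G × G → A.V) : Prop :=
  ∃ w₀ : G × G → A.V, IsDel D A P g w₀ ∧ w - w₀ ∈ levCoboundaries₂ D.𝒯 A

end Datum

/-! ### Frobenius reciprocity `Hom_{G_v}(M, J_v) → Hom_G(M, J)` -/

section Hat

open Classical in
/-- the family of functions underlying `ĝ_v(m)`: `v`-component `σ ↦ g_v(σ m)`, other components 0 -/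
def hatFun {G : Type} [Group G] {ι : Type} {Gloc : ι → Type} [∀ v, Group (Gloc v)]
    (Jloc : ∀ v, Rep.{0} ℤ (Gloc v)) (M : Rep.{0} ℤ G) (v : ι) (gv : M.V →+ (Jloc v).V)
    (m : M.V) : ∀ v', G → (Jloc v').V :=
  fun v' σ => if h : v = v' then h ▸ gv (M.ρ σ m) else 0

lemma hatFun_same {G : Type} [Group G] {ι : Type} {Gloc : ι → Type} [∀ v, Group (Gloc v)]
    (Jloc : ∀ v, Rep.{0} ℤ (Gloc v)) (M : Rep.{0} ℤ G) (v : ι) (gv : M.V →+ (Jloc v).V)
    (m : M.V) (σ : G) : hatFun Jloc M v gv m v σ = gv (M.ρ σ m) := by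
  simp [hatFun]

lemma hatFun_ne {G : Type} [Group G] {ι : Type} {Gloc : ι → Type} [∀ v, Group (Gloc v)]
    (Jloc : ∀ v, Rep.{0} ℤ (Gloc v)) (M : Rep.{0} ℤ G) (v : ι) (gv : M.V →+ (Jloc v).V)
    (m : M.V) {v' : ι} (h : v ≠ v') (σ : G) : hatFun Jloc M v gv m v' σ = 0 := by
  simp [hatFun, h]

variable {p : ℕ} {G : Type} [Group G] {ι : Type} {Gloc : ι → Type}
  [∀ v, Group (Gloc v)] (D : PTDatum p G ι Gloc)

lemma hatFun_mem (M : Rep.{0} ℤ G) (hM : ∃ U ∈ D.𝒯.lev, ∀ s ∈ U, ∀ m : M.V, M.ρ s m = m)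
    (v : ι) (gv : Rep.res (D.r v) M ⟶ D.Jloc v) (m : M.V) :
    hatFun D.Jloc M v (homAdd gv) m ∈ semilocalSub D.𝒯 D.r D.Jloc := by
  intro v'
  by_cases h : v = v'
  · subst h
    refine ⟨fun d g => ?_, ?_⟩
    · rw [hatFun_same, hatFun_same, map_mul]
      exact Rep.hom_comm_apply gv d (M.ρ g m)
    · obtain ⟨U, hU, hUM⟩ := hM
      refine ⟨U, hU, fun g s hs => ?_⟩
      rw [hatFun_same, hatFun_same, map_mul]
      show gv.hom (M.ρ g (M.ρ s m)) = gv.hom (M.ρ g m)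
      rw [hUM s hs m]
  · refine ⟨fun d g => ?_, ?_⟩
    · rw [hatFun_ne _ _ _ _ _ h, hatFun_ne _ _ _ _ _ h, map_zero]
    · refine ⟨⊤, D.𝒯.top_mem, fun g s _ => ?_⟩
      rw [hatFun_ne _ _ _ _ _ h, hatFun_ne _ _ _ _ _ h]

/-- **Frobenius reciprocity**: `ĝ_v : M → J` attached to a `G_v`-morphism `g_v : M → J_v`
(`M` trivial on a level): `ĝ_v(m)` has `v`-component `σ ↦ g_v(σ m)` and all other components 0. -/
def hat (M : Rep.{0} ℤ G) (hM : ∃ U ∈ D.𝒯.lev, ∀ s ∈ U, ∀ m : M.V, M.ρ s m = m)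
    (v : ι) (gv : Rep.res (D.r v) M ⟶ D.Jloc v) : M ⟶ PTJ D :=
  mkHom
    { toFun := fun m => ⟨hatFun D.Jloc M v (homAdd gv) m, hatFun_mem D M hM v gv m⟩
      map_zero' := by
        apply Subtype.ext
        funext v' σ
        by_cases h : v = v'
        · subst h
          show hatFun D.Jloc M v (homAdd gv) 0 v σ = 0
          rw [hatFun_same, map_zero, map_zero]
        · show hatFun D.Jloc M v (homAdd gv) 0 v' σ = 0
          rw [hatFun_ne _ _ _ _ _ h]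
      map_add' := fun m m' => by
        apply Subtype.ext
        funext v' σ
        by_cases h : v = v'
        · subst h
          show hatFun D.Jloc M v (homAdd gv) (m + m') v σ =
            hatFun D.Jloc M v (homAdd gv) m v σ + hatFun D.Jloc M v (homAdd gv) m' v σ
          rw [hatFun_same, hatFun_same, hatFun_same, map_add, map_add]
        · show hatFun D.Jloc M v (homAdd gv) (m + m') v' σ =
            hatFun D.Jloc M v (homAdd gv) m v' σ + hatFun D.Jloc M v (homAdd gv) m' v' σ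
          rw [hatFun_ne _ _ _ _ _ h, hatFun_ne _ _ _ _ _ h, hatFun_ne _ _ _ _ _ h, add_zero] }
    (fun τ m => by
      apply Subtype.ext
      funext v' σ
      by_cases h : v = v'
      · subst h
        show hatFun D.Jloc M v (homAdd gv) (M.ρ τ m) v σ =
          hatFun D.Jloc M v (homAdd gv) m v (σ * τ)
        rw [hatFun_same, hatFun_same, map_mul]
        rfl
      · show hatFun D.Jloc M v (homAdd gv) (M.ρ τ m) v' σ =
          hatFun D.Jloc M v (homAdd gv) m v' (σ * τ)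
        rw [hatFun_ne _ _ _ _ _ h, hatFun_ne _ _ _ _ _ h])

lemma hat_apply_same (M : Rep.{0} ℤ G) (hM : ∃ U ∈ D.𝒯.lev, ∀ s ∈ U, ∀ m : M.V, M.ρ s m = m)
    (v : ι) (gv : Rep.res (D.r v) M ⟶ D.Jloc v) (m : M.V) (σ : G) :
    ((hat D M hM v gv).hom m).1 v σ = gv.hom (M.ρ σ m) :=
  hatFun_same D.Jloc M v (homAdd gv) m σ

lemma hat_apply_ne (M : Rep.{0} ℤ G) (hM : ∃ U ∈ D.𝒯.lev, ∀ s ∈ U, ∀ m : M.V, M.ρ s m = m)
    (v : ι) (gv : Rep.res (D.r v) M ⟶ D.Jloc v) (m : M.V) {v' : ι} (h : v ≠ v') (σ : G) :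
    ((hat D M hM v gv).hom m).1 v' σ = 0 :=
  hatFun_ne D.Jloc M v (homAdd gv) m h σ

end Hat

end Fermat.Agent.PT.F

end
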