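/-
PT-F — the STANDARD PRESENTATION (helper55), built to helper68's requirements:

* `Γ₀ = G ⧸ U₀`; `stdA0 : Rep ℤ Γ₀` has carrier `A'.V` (definitionally) with the induced action;
* `stdOmega = Γ₀ × A'.V` with `Γ₀` acting on the first factor (a free `Γ₀`-set);
* `stdX : ShortComplex (Rep ℤ Γ₀)` is `0 → kernel → Rep.ofMulAction ℤ Γ₀ Ω → stdA0 → 0`, short exact;
* every other group sees it through `Rep.res`.
-/
import Fermat.Agent.PT.F.Defs
import Fermat.Agent.PT.A.HomEx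

set_option autoImplicit false

noncomputable section

namespace Fermat.Agent.PT.F

open CategoryTheory CategoryTheory.Limits groupCohomology Fermat.Agent.PT

attribute [local instance 1100] Rep.hV2

section Std

variable {G : Type} [Group G] (U₀ : Subgroup G) [U₀.Normal] {k : Type} [CommRing k]
  (A' : Rep.{0} k G)

/-- the action of `G` on `A'.V` by `ℤ`-linear maps -/
def stdActG : G →* Module.End ℤ A'.V where
  toFun g := addToLin (A'.ρ g).toAddMonoidHom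
  map_one' := by ext a; simp
  map_mul' g h := by ext a; simp

@[simp] lemma stdActG_apply (g : G) (a : A'.V) : stdActG A' g a = A'.ρ g a := rfl

variable (htriv : ∀ s ∈ U₀, ∀ a : A'.V, A'.ρ s a = a)

/-- the induced action of `Γ₀ = G ⧸ U₀` on `A'.V` -/
def stdAct : Representation ℤ (G ⧸ U₀) A'.V :=
  QuotientGroup.lift U₀ (stdActG A') (fun s hs => by
    rw [MonoidHom.mem_ker]
    ext a
    simpa using htriv s hs a)

@[simp] lemma stdAct_mk (g : G) (a : A'.V) :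
    stdAct U₀ A' htriv (QuotientGroup.mk g) a = A'.ρ g a := rfl

/-- `A'` as a representation of `Γ₀ = G ⧸ U₀` over `ℤ` (same carrier). -/
abbrev stdA0 : Rep.{0} ℤ (G ⧸ U₀) := Rep.of (stdAct U₀ A' htriv)

/-- the free `Γ₀`-set `Ω = Γ₀ × A'.V` -/
def stdOmega (_U₀ : Subgroup G) (_A' : Rep.{0} k G) : Type := (G ⧸ _U₀) × _A'.V

instance : MulAction (G ⧸ U₀) (stdOmega U₀ A') where
  smul γ ω := (γ * ω.1, ω.2)
  one_smul ω := by
    show ((1 : G ⧸ U₀) * ω.1, ω.2) = (ω.1, ω.2)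
    rw [one_mul]
  mul_smul γ γ' ω := by
    show ((γ * γ') * ω.1, ω.2) = (γ * (γ' * ω.1), ω.2)
    rw [mul_assoc]

/-- the point `(γ, a)` of `Ω` -/
def stdPt (γ : G ⧸ U₀) (a : A'.V) : stdOmega U₀ A' := (γ, a)

@[simp] lemma stdPt_fst (γ : G ⧸ U₀) (a : A'.V) : (stdPt U₀ A' γ a).1 = γ := rfl
@[simp] lemma stdPt_snd (γ : G ⧸ U₀) (a : A'.V) : (stdPt U₀ A' γ a).2 = a := rfl

lemma stdOmega_smul (γ : G ⧸ U₀) (ω : stdOmega U₀ A') : γ • ω = stdPt U₀ A' (γ * ω.1) ω.2 := rfl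

instance [Finite (G ⧸ U₀)] [Finite A'.V] : Finite (stdOmega U₀ A') :=
  inferInstanceAs (Finite ((G ⧸ U₀) × A'.V))

lemma stdOmega_free (γ : G ⧸ U₀) (ω : stdOmega U₀ A') (h : γ • ω = ω) : γ = 1 := by
  have h1 : γ * ω.1 = ω.1 := congrArg Prod.fst h
  exact mul_eq_right.1 h1

/-- the free module `M₀ = ℤ[Ω]` over `Γ₀` -/
abbrev stdM0 : Rep.{0} ℤ (G ⧸ U₀) := Rep.ofMulAction ℤ (G ⧸ U₀) (stdOmega U₀ A')

/-- the augmentation `ℤ[Ω] → A'`, `[γ, a] ↦ γ • a`, as an additive map -/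
def stdEpsAdd : (stdM0 U₀ A').V →+ A'.V :=
  (Finsupp.liftAddHom (fun ω : stdOmega U₀ A' =>
    (zmultiplesHom A'.V (stdAct U₀ A' htriv ω.1 ω.2)))).comp
    (MonoidAlgebra.coeffAddEquiv (R := ℤ) (M := stdOmega U₀ A')).toAddMonoidHom

lemma stdEpsAdd_single (ω : stdOmega U₀ A') (n : ℤ) :
    stdEpsAdd U₀ A' htriv (MonoidAlgebra.single ω n) = n • stdAct U₀ A' htriv ω.1 ω.2 := by
  simp [stdEpsAdd, MonoidAlgebra.coeffAddEquiv]

lemma stdEpsAdd_ρ (γ : G ⧸ U₀) (m : (stdM0 U₀ A').V) :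
    stdEpsAdd U₀ A' htriv ((stdM0 U₀ A').ρ γ m) =
      stdAct U₀ A' htriv γ (stdEpsAdd U₀ A' htriv m) := by
  induction m using MonoidAlgebra.induction_linear with
  | zero => simp
  | add x y hx hy => simp only [map_add, hx, hy]
  | single ω n =>
    have h1 : (stdM0 U₀ A').ρ γ (MonoidAlgebra.single ω n) = MonoidAlgebra.single (γ • ω) n :=
      Representation.ofMulAction_single γ ω n
    rw [h1, stdEpsAdd_single, stdEpsAdd_single, stdOmega_smul, stdPt_fst, stdPt_snd, map_mul]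
    simp

/-- the augmentation as a morphism of `Rep ℤ Γ₀` -/
def stdEps : stdM0 U₀ A' ⟶ stdA0 U₀ A' htriv :=
  mkHom (stdEpsAdd U₀ A' htriv) (fun γ m => stdEpsAdd_ρ U₀ A' htriv γ m)

lemma stdEpsAdd_single_one (a : A'.V) :
    stdEpsAdd U₀ A' htriv (MonoidAlgebra.single (stdPt U₀ A' 1 a) 1) = a := by
  rw [stdEpsAdd_single, one_zsmul, stdPt_fst, stdPt_snd, map_one]
  rfl

lemma stdEps_surjective : Function.Surjective (stdEps U₀ A' htriv).hom := fun a =>
  ⟨MonoidAlgebra.single (stdPt U₀ A' 1 a) 1, stdEpsAdd_single_one U₀ A' htriv a⟩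

instance : Epi (stdEps U₀ A' htriv) :=
  (Rep.epi_iff_surjective _).2 (stdEps_surjective U₀ A' htriv)

/-- **the standard presentation over `Γ₀`**: `0 → M₁ → ℤ[Ω] → A' → 0`. -/
def stdX : ShortComplex (Rep.{0} ℤ (G ⧸ U₀)) :=
  ShortComplex.mk (kernel.ι (stdEps U₀ A' htriv)) (stdEps U₀ A' htriv)
    (kernel.condition (stdEps U₀ A' htriv))

lemma stdX_shortExact : (stdX U₀ A' htriv).ShortExact where
  exact := ShortComplex.exact_of_f_is_kernel _ (kernelIsKernel (stdEps U₀ A' htriv))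
  mono_f := by dsimp [stdX]; infer_instance
  epi_g := by dsimp [stdX]; infer_instance

/-- elementwise exactness of the standard presentation -/
lemma stdX_exact (m : (stdM0 U₀ A').V) (hm : stdEpsAdd U₀ A' htriv m = 0) :
    ∃ m₁ : (stdX U₀ A' htriv).X₁.V, (stdX U₀ A' htriv).f.hom m₁ = m :=
  (Fermat.Agent.PT.homEx_exact_iff (stdX U₀ A' htriv)).1 (stdX_shortExact U₀ A' htriv).exact m hm

lemma stdX_f_injective : Function.Injective (stdX U₀ A' htriv).f.hom :=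
  (Rep.mono_iff_injective _).1 (stdX_shortExact U₀ A' htriv).mono_f

lemma stdX_zero (m₁ : (stdX U₀ A' htriv).X₁.V) :
    stdEpsAdd U₀ A' htriv ((stdX U₀ A' htriv).f.hom m₁) = 0 := by
  have h := (stdX U₀ A' htriv).zero
  have h2 := congrArg (fun φ => φ.hom m₁) h
  exact h2

/-- the set-theoretic section `a ↦ [1, a]` of the augmentation -/
def stdSec (a : A'.V) : (stdM0 U₀ A').V := MonoidAlgebra.single (stdPt U₀ A' 1 a) 1

lemma stdEpsAdd_stdSec (a : A'.V) : stdEpsAdd U₀ A' htriv (stdSec U₀ A' a) = a :=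
  stdEpsAdd_single_one U₀ A' htriv a

end Std

section Pres

variable {G : Type} [Group G] (𝒯 : Tower G) (U₀ : Subgroup G) [hn : U₀.Normal]
  (hU₀ : U₀ ∈ 𝒯.lev) {k : Type} [CommRing k] (A' : Rep.{0} k G) [Finite A'.V]
  (htriv : ∀ s ∈ U₀, ∀ a : A'.V, A'.ρ s a = a)

include hU₀ in
lemma std_finite_quot : Finite (G ⧸ U₀) :=
  haveI := 𝒯.finiteIndex U₀ hU₀
  Subgroup.finite_quotient_of_finiteIndex

/-- **The standard presentation of `A'` as a `G`-module**: the restriction of `stdX` along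
`G → Γ₀ = G ⧸ U₀`. -/
def stdPres : Presentation 𝒯 A' :=
  haveI : Finite (G ⧸ U₀) := std_finite_quot 𝒯 U₀ hU₀
  { U₀ := U₀
    U₀_mem := hU₀
    U₀_normal := hn
    M₀ := Rep.res (QuotientGroup.mk' U₀) (stdM0 U₀ A')
    M₁ := Rep.res (QuotientGroup.mk' U₀) (stdX U₀ A' htriv).X₁
    inc := (Rep.resFunctor (QuotientGroup.mk' U₀)).map (stdX U₀ A' htriv).f
    ε := stdEpsAdd U₀ A' htriv
    ε_ρ := fun g m => stdEpsAdd_ρ U₀ A' htriv (QuotientGroup.mk g) m
    inc_injective := stdX_f_injective U₀ A' htriv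
    ε_surjective := fun a => ⟨stdSec U₀ A' a, stdEpsAdd_stdSec U₀ A' htriv a⟩
    exact := fun m => ⟨fun hm => stdX_exact U₀ A' htriv m hm, by
      rintro ⟨m₁, rfl⟩
      exact stdX_zero U₀ A' htriv m₁⟩
    triv₀ := fun s hs m => by
      show (stdM0 U₀ A').ρ (QuotientGroup.mk s) m = m
      rw [(QuotientGroup.eq_one_iff s).2 hs, map_one]
      rfl
    n := Nat.card (stdOmega U₀ A')
    basis₀ := fun j => MonoidAlgebra.single ((Finite.equivFin (stdOmega U₀ A')).symm j) 1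
    basis₀_spec := fun Y _ f => by
      refine ⟨(Finsupp.liftAddHom (fun ω : stdOmega U₀ A' =>
          (zmultiplesHom Y (f (Finite.equivFin (stdOmega U₀ A') ω))))).comp
          (MonoidAlgebra.coeffAddEquiv (R := ℤ) (M := stdOmega U₀ A')).toAddMonoidHom, ?_, ?_⟩
      · intro j
        simp [MonoidAlgebra.coeffAddEquiv]
      · intro h hh
        apply MonoidAlgebra.addMonoidHom_ext
        intro ω n
        have h1 : (MonoidAlgebra.single ω n : MonoidAlgebra ℤ (stdOmega U₀ A')) =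
            n • MonoidAlgebra.single ω 1 := by
          rw [MonoidAlgebra.smul_single, smul_eq_mul, mul_one]
        have h2 := hh (Finite.equivFin (stdOmega U₀ A') ω)
        rw [Equiv.symm_apply_apply] at h2
        rw [h1, map_zsmul, map_zsmul, h2]
        simp [MonoidAlgebra.coeffAddEquiv] }

end Pres




section Level

variable {p : ℕ} {G : Type} [Group G] {ι : Type} {Gloc : ι → Type}
  [∀ v, Group (Gloc v)] (D : PTDatum p G ι Gloc)

/-- **F2a**: a normal level on which `A`, `χ` and `A' = A.dualTwist χ` are trivial. -/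
lemma exists_level_triv (A : Rep.{0} (ZMod p) G) (hA : ∃ U ∈ D.𝒯.lev, ∀ s ∈ U, A.ρ s = 1) :
    ∃ U₀ ∈ D.𝒯.lev, U₀.Normal ∧ (∀ s ∈ U₀, ∀ a : A.V, A.ρ s a = a) ∧ (∀ s ∈ U₀, D.χ s = 1) ∧
      ∀ s ∈ U₀, ∀ a' : (A.dualTwist D.χ).V, (A.dualTwist D.χ).ρ s a' = a' := by
  obtain ⟨U, hU, hUA⟩ := hA
  obtain ⟨V, hV, hVχ⟩ := D.χ_level
  obtain ⟨U₀, hU₀, hle, hn⟩ := D.𝒯.exists_normal (U ⊓ V) (D.𝒯.inf_mem U V hU hV)
  have h1 : ∀ s ∈ U₀, ∀ a : A.V, A.ρ s a = a := fun s hs a => by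
    rw [hUA s (hle hs).1]; rfl
  have h2 : ∀ s ∈ U₀, D.χ s = 1 := fun s hs => hVχ s (hle hs).2
  refine ⟨U₀, hU₀, hn, h1, h2, fun s hs f => ?_⟩
  have hs' : s⁻¹ ∈ U₀ := U₀.inv_mem hs
  apply LinearMap.ext
  intro a
  have := Rep.dualTwist_ρ_apply A D.χ s f
  rw [this, h2 s hs]
  simp only [Units.val_one, one_smul, LinearMap.comp_apply]
  rw [h1 s⁻¹ hs' a]

end Level

end Fermat.Agent.PT.F

end
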