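import Fermat.Agent.PT.F.Pair
import Fermat.Agent.PT.F.StdPres
import Fermat.Agent.PT.F.Ind

/-!
# PT-F / F-HasInd: the standard presentation has property (Ind)

`M₀ = res_π ℤ[Ω]` with `Ω` a nonempty finite free `Γ`-set.  For `φ : H → G` and `V ◁ H` of finite
index acting trivially on `M₀`, freeness gives `π φ (V) = 1`, so `π ∘ φ` factors through
`ψ : H ⧸ V → Γ`; the `V`-invariants of `res_φ M₀` are everything, and a `1`-cocycle of `H ⧸ V` in
the invariants is a `1`-cocycle of `res_ψ ℤ[Ω]`, hence a coboundary by `stmtInd`.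
-/

set_option autoImplicit false

noncomputable section

namespace Fermat.Agent.PT.F

open CategoryTheory groupCohomology Fermat.Agent.PT

/-- **(Ind)** for restrictions of permutation modules on nonempty finite free sets. -/
theorem hasInd_res_ofMulAction {G Γ : Type} [Group G] [Group Γ] [Finite Γ] (π : G →* Γ)
    (Ω : Type) [MulAction Γ Ω] [Finite Ω] [Nonempty Ω]
    (hfree : ∀ (γ : Γ) (ω : Ω), γ • ω = ω → γ = 1) :
    HasInd (Rep.res π (Rep.ofMulAction ℤ Γ Ω)) := by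
  intro H _ φ V _ hfin hV
  classical
  -- `π ∘ φ` kills `V`
  have hker : ∀ s ∈ V, π (φ s) = 1 := by
    intro s hs
    obtain ⟨ω₀⟩ := (inferInstance : Nonempty Ω)
    have h1 := hV s hs (MonoidAlgebra.single ω₀ (1 : ℤ))
    have h2 : (Rep.res π (Rep.ofMulAction ℤ Γ Ω)).ρ (φ s) (MonoidAlgebra.single ω₀ (1 : ℤ))
        = MonoidAlgebra.single (π (φ s) • ω₀) (1 : ℤ) :=
      Representation.ofMulAction_single (π (φ s)) ω₀ 1
    rw [h2] at h1
    have h3 := congrArg (fun x : MonoidAlgebra ℤ Ω => x.coeff ω₀) h1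
    simp only [MonoidAlgebra.coeff_single] at h3
    by_contra hne
    have hne' : π (φ s) • ω₀ ≠ ω₀ := fun h => hne (hfree _ _ h)
    rw [Finsupp.single_eq_of_ne (Ne.symm hne'), Finsupp.single_eq_same] at h3
    exact zero_ne_one h3
  -- the induced homomorphism of finite groups
  let ψ : H ⧸ V →* Γ := QuotientGroup.lift V (π.comp φ) (fun s hs => hker s hs)
  have hψ : ∀ h : H, ψ (h : H ⧸ V) = π (φ h) := fun h => rfl
  have : Finite (H ⧸ V) := Subgroup.finite_quotient_of_finiteIndex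
  have hY : Subsingleton (H1 (Rep.res ψ (Rep.ofMulAction ℤ Γ Ω))) :=
    stmtInd (H ⧸ V) Γ ψ Ω hfree
  refine ⟨fun x y => ?_⟩
  suffices h : ∀ z : H1 ((Rep.res φ (Rep.res π (Rep.ofMulAction ℤ Γ Ω))).quotientToInvariants V),
      z = 0 by rw [h x, h y]
  intro z
  induction z using H1_induction_on with
  | h c =>
    rw [H1π_eq_zero_iff]
    -- the cocycle with values in `ℤ[Ω]`
    let c' : H ⧸ V → (Rep.res ψ (Rep.ofMulAction ℤ Γ Ω)).V := fun q => (c q).1
    have hc' : c' ∈ cocycles₁ (Rep.res ψ (Rep.ofMulAction ℤ Γ Ω)) := by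
      rw [mem_cocycles₁_iff]
      intro q q'
      obtain ⟨g, rfl⟩ := QuotientGroup.mk_surjective q
      have h1 := (mem_cocycles₁_iff (⇑c)).1 c.2 (g : H ⧸ V) q'
      exact congrArg Subtype.val h1
    have h0 : (H1π (Rep.res ψ (Rep.ofMulAction ℤ Γ Ω))).hom ⟨c', hc'⟩ = 0 :=
      Subsingleton.elim _ _
    rw [H1π_eq_zero_iff] at h0
    obtain ⟨b, hb⟩ := h0
    have hbinv : ∀ s : V, (Rep.res φ (Rep.res π (Rep.ofMulAction ℤ Γ Ω))).ρ (s : H) b = b :=
      fun s => hV s.1 s.2 b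
    refine ⟨⟨b, hbinv⟩, ?_⟩
    funext q
    obtain ⟨g, rfl⟩ := QuotientGroup.mk_surjective q
    apply Subtype.ext
    have := congrFun hb (g : H ⧸ V)
    rw [d₀₁_hom_apply] at this ⊢
    exact this

/-- **F-HasInd**: the module `M₀` of the standard presentation has property (Ind). -/
theorem stmtHasInd_std {G : Type} [Group G] (𝒯 : Tower G) (U₀ : Subgroup G) [hn : U₀.Normal]
    (hU₀ : U₀ ∈ 𝒯.lev) {k : Type} [CommRing k] (A' : Rep.{0} k G) [Finite A'.V]
    (htriv : ∀ s ∈ U₀, ∀ a : A'.V, A'.ρ s a = a) :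
    HasInd (stdPres 𝒯 U₀ hU₀ A' htriv).M₀ := by
  have : Finite (G ⧸ U₀) := std_finite_quot 𝒯 U₀ hU₀
  have : Nonempty (stdOmega U₀ A') := ⟨stdPt U₀ A' 1 0⟩
  exact hasInd_res_ofMulAction (QuotientGroup.mk' U₀) (stdOmega U₀ A')
    (fun γ ω h => stdOmega_free U₀ A' γ ω h)

end Fermat.Agent.PT.F

end
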