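import Fermat.Agent.PT.F.Dual
import Fermat.Agent.PT.Plan

/-!
# PT-F (formal glue of project PT = S55) — INTERFACE FILE 1 of the sub-captain (helper68)

FINITE-LEVEL pieces (finite groups, Mathlib group cohomology).  Statements only.
A piece `X` is DONE when `theorem stmtX : StmtX` is landed (own file
`Fermat/Agent/PT/F/<File>.lean`, namespace `Fermat.Agent.PT.F`, sorry-free).
Piece table: `NOTES/PT-F.md`; mathematics: `NOTES/PT-F-blueprint.md`.

Already proved: `glue_sha_pairing` (Glue.lean), `ext_duality` (Dual.lean).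
-/

set_option autoImplicit false

open CategoryTheory groupCohomology Fermat.Agent.PT

namespace Fermat.Agent.PT.F

/-- **F-TNDual**: `StmtTN'` implies `StmtTNDual` (Pontryagin duality for finite abelian
`p`-groups; uses that `H²(G, M)` is finite for `M` of finite type and killed by `|G|`, and that
`H²(G, C)(p)` is cyclic of order `|P|`, `P` a Sylow `p`-subgroup: restriction to `P` is injective
on `p`-primary classes and `res u` generates `H²(P, C)`). -/
def StmtTNDualOfTN : Prop := StmtTN' → StmtTNDual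

/-- **F-Norm** (the norm trick): if `H ◁ G` acts trivially on the `ℤ`-free module `M` and every
norm `N_H x` (`x ∈ C`) is `p` times an `H`-invariant element, then every norm `N_G h`
(`h : M → C` additive) is `p` times a `G`-equivariant map. -/
def StmtNormTrick : Prop :=
  ∀ (p : ℕ) (G : Type) [Group G] [Fintype G] (H : Subgroup G) [H.Normal] [Fintype H]
    (M C : Rep.{0} ℤ G), Module.Free ℤ M.V → Module.Finite ℤ M.V →
    (∀ η ∈ H, ∀ m : M.V, M.ρ η m = m) →
    (∀ x : C.V, ∃ y : C.V, (∀ η ∈ H, C.ρ η y = y) ∧ ∑ η : H, C.ρ (η : G) x = p • y) →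
    ∀ h : M.V →ₗ[ℤ] C.V, ∃ g₁ : M ⟶ C, ∀ m, normHom M C h m = p • g₁.hom m

/-- **F-Ind**: `H¹(G, res_φ ℤ[Ω]) = 0` for every homomorphism `φ : G → Γ` of finite groups and
every finite `Γ`-set `Ω` on which `Γ` acts freely.  (True for every finite `Γ`-set: average the
cocycle over `G` to get `b ∈ ℚ[Ω]` with `c = d b`, then subtract from `b` the function which is
constant `= b(ω₀)` on the `G`-orbit of a chosen representative `ω₀`.) -/
def StmtInd : Prop :=
  ∀ (G Γ : Type) [Group G] [Group Γ] [Finite G] [Finite Γ] (φ : G →* Γ)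
    (Ω : Type) [MulAction Γ Ω] [Finite Ω], (∀ (γ : Γ) (ω : Ω), γ • ω = ω → γ = 1) →
    Subsingleton (H1 (Rep.res φ (Rep.ofMulAction ℤ Γ Ω)))

/-- **F1a-fin** (`p`-primary inflation is injective in degree 2).  `φ : Γ' ↠ Γ` finite groups,
`C'` a `Γ'`-module with `H¹(H, C') = 0` for all `p`-subgroups `H ≤ Γ'`, `C₀` a `Γ`-module and
`ι : C₀ → C'` a `φ`-equivariant injection with image `C'^{ker φ}`.  Then
`H²(Γ, C₀) → H²(Γ', C')` is injective on `p`-primary classes.
(Proof: blueprint §1 (F1a): Sylow `P' ≤ Γ'`, `N' = P' ∩ ker φ`, `stmtInfRes₂` for `N' ◁ P'`,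
and the `P'`-equivariant norm `C'^{N'} → C'^{ker φ}` of index prime to `p`.) -/
def StmtInflInjFin : Prop :=
  ∀ (p : ℕ) [Fact p.Prime] (Γ' Γ : Type) [Group Γ'] [Group Γ] [Finite Γ'] (φ : Γ' →* Γ),
    Function.Surjective φ →
    ∀ (C' : Rep.{0} ℤ Γ') (C₀ : Rep.{0} ℤ Γ) (ι : Rep.res φ C₀ ⟶ C'),
      Function.Injective ι.hom →
      (∀ c : C'.V, (∀ γ : Γ', φ γ = 1 → C'.ρ γ c = c) → ∃ c₀ : C₀.V, ι.hom c₀ = c) →
      (∀ H : Subgroup Γ', IsPGroup p H → Subsingleton (H1 (Rep.res H.subtype C'))) →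
      ∀ x : H2 C₀, IsPTors p x → (groupCohomology.map φ ι 2).hom x = 0 → x = 0

/-- **F1b-fin**: with a `p`-fundamental class, the `p`-torsion of `H²(Γ, C)` is cyclic:
any nonzero element killed by `p` generates it.
(Sylow: restriction to `P` is injective on `p`-primary classes; `H²(P, C)` is cyclic.) -/
def StmtH2pCyclic : Prop :=
  ∀ (p : ℕ) [Fact p.Prime] (Γ : Type) [Group Γ] [Finite Γ] (C : Rep.{0} ℤ Γ) (u : H2 C),
    IsPFundClass p C u →
    ∀ x y : H2 C, p • x = 0 → p • y = 0 → x ≠ 0 → ∃ n : ℕ, y = n • x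

/-- **F4-exist** (bridge from the datum axiom `exist` to the hypothesis of `StmtNormTrick`):
for normal subgroups `U' ≤ U₁` of `G` with `U'` of finite index, if every `c ∈ C^{U'}` has
`∑ᶠ_{t ∈ U₁/U'} t c ∈ p • C^{U₁}`, then in the `G/U'`-module `C^{U'}` every norm for the subgroup
`H = U₁/U'` is `p` times an `H`-invariant element. -/
def StmtExistBridge : Prop :=
  ∀ (p : ℕ) (G : Type) [Group G] (C : Rep.{0} ℤ G) (U₁ U' : Subgroup G) [U₁.Normal] [U'.Normal],
    U' ≤ U₁ → U'.FiniteIndex →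
    (∀ c : C.V, (∀ s ∈ U', C.ρ s c = c) →
      ∃ c' : C.V, (∀ s ∈ U₁, C.ρ s c' = c') ∧
        p • c' = ∑ᶠ t : ↥U₁ ⧸ U'.subgroupOf U₁, C.ρ ((Quotient.out t : ↥U₁) : G) c) →
    ∀ x : (C.quotientToInvariants U').V,
      ∃ y : (C.quotientToInvariants U').V,
        (∀ η ∈ U₁.map (QuotientGroup.mk' U'), (C.quotientToInvariants U').ρ η y = y) ∧
        ∑ᶠ η : ↥(U₁.map (QuotientGroup.mk' U')), (C.quotientToInvariants U').ρ (η : G ⧸ U') x
          = p • y

end Fermat.Agent.PT.F
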