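/-
PT-F piece F1a-fin `StmtInflInjFin` (helper86): `p`-primary inflation is injective in degree 2.

Direct cocycle proof (no quotient groups, no norm map):
* `h1Kill_of_pgroups`: if `H¹(H, C') = 0` for all `p`-subgroups `H ≤ Γ'`, then for `K = ker φ`
  every 1-cocycle `K → C'` is killed by `m = [K : Q]` (`Q` a Sylow `p`-subgroup of `K`) up to a
  coboundary (helper11's `index_smul_mem_coboundaries_of_vanish`);
* `inflInj_aux`: the `m`-version of the injectivity part of inflation–restriction: if every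
  1-cocycle on `K` becomes a coboundary after multiplication by `m`, then `m` kills the kernel of
  `H²(Γ, C₀) → H²(Γ', C')`;
* Bezout.
-/
import Fermat.Agent.PT.F.Plan
import Fermat.Agent.PT.A.Sylow

set_option autoImplicit false
set_option linter.style.haveILetI false
set_option linter.unusedSectionVars false

attribute [-instance] AddCommGroup.toIntModule

namespace Fermat.Agent.PT.F.InflInj

open CategoryTheory groupCohomology Rep Fermat.Agent.PT

variable {Γ' Γ : Type} [Group Γ'] [Group Γ]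

/-- Every 1-cocycle `K → C'` becomes a coboundary after multiplication by `m`. -/
def H1Kill (K : Subgroup Γ') (C' : Rep.{0} ℤ Γ') (m : ℕ) : Prop :=
  ∀ c : K → C'.V, (∀ n k : K, c (n * k) = C'.ρ n (c k) + c n) →
    ∃ a : C'.V, ∀ n : K, m • c n = C'.ρ n a - a

theorem h1Kill_of_pgroups (p : ℕ) [Fact p.Prime] [Finite Γ'] (K : Subgroup Γ')
    (C' : Rep.{0} ℤ Γ')
    (h : ∀ H : Subgroup Γ', IsPGroup p H → Subsingleton (H1 (Rep.res H.subtype C'))) :
    ∃ m : ℕ, ¬ p ∣ m ∧ H1Kill K C' m := by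
  classical
  obtain ⟨Q⟩ : Nonempty (Sylow p K) := inferInstance
  refine ⟨(Q : Subgroup K).index, Q.not_dvd_index, ?_⟩
  intro c hc
  set H : Subgroup Γ' := (Q : Subgroup K).map K.subtype with hH
  have hHp : IsPGroup p H := Q.2.map K.subtype
  have hHK : ∀ g ∈ H, g ∈ K := by
    rintro g ⟨q, -, rfl⟩
    exact q.2
  have hHQ : ∀ g (hg : g ∈ H), (⟨g, hHK g hg⟩ : K) ∈ (Q : Subgroup K) := by
    rintro g ⟨q, hq, rfl⟩
    exact hq
  have hQH : ∀ q : K, q ∈ (Q : Subgroup K) → (q : Γ') ∈ H := fun q hq => ⟨q, hq, rfl⟩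
  have hsub := h H hHp
  let c' : H → C'.V := fun g => c ⟨g.1, hHK g.1 g.2⟩
  have hc' : c' ∈ cocycles₁ (Rep.res H.subtype C') := by
    rw [mem_cocycles₁_iff]
    intro a b
    exact hc ⟨a.1, hHK a.1 a.2⟩ ⟨b.1, hHK b.1 b.2⟩
  have h0 : H1π (Rep.res H.subtype C') ⟨c', hc'⟩ = 0 := Subsingleton.elim _ _
  rw [H1π_eq_zero_iff] at h0
  obtain ⟨a, ha⟩ := h0
  have ha' : ∀ q : K, q ∈ (Q : Subgroup K) → c q = C'.ρ q a - a := by
    intro q hq
    have := congrFun ha ⟨(q : Γ'), hQH q hq⟩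
    simp only [d₀₁_hom_apply] at this
    exact this.symm
  have hcK : c ∈ cocycles₁ (Rep.res K.subtype C') := by
    rw [mem_cocycles₁_iff]
    exact fun n k => hc n k
  let f' : cocycles₁ (Rep.res K.subtype C') :=
    ⟨c, hcK⟩ - ⟨(d₀₁ (Rep.res K.subtype C')).hom a,
      d₀₁_apply_mem_cocycles₁ (A := Rep.res K.subtype C') a⟩
  have hf'v : ∀ n : K, f' n = c n - (C'.ρ n a - a) := fun n => rfl
  have hf' : ∀ q : (Q : Subgroup K), f' (q : K) = 0 := by
    intro q
    rw [hf'v, ha' q q.2, sub_self]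
  obtain ⟨b, hb⟩ := SylowRes.index_smul_mem_coboundaries_of_vanish (Rep.res K.subtype C')
    (Q : Subgroup K) f' hf'
  refine ⟨b + (Q : Subgroup K).index • a, fun n => ?_⟩
  have h1 := congrFun hb n
  rw [d₀₁_hom_apply] at h1
  have h2 : (Q : Subgroup K).index • (c n - (C'.ρ n a - a)) = C'.ρ n b - b := by
    rw [← hf'v]
    exact h1.symm
  rw [map_add, map_nsmul]
  rw [smul_sub, smul_sub] at h2
  linear_combination (norm := abel) h2

theorem inflInj_aux (φ : Γ' →* Γ) (hφ : Function.Surjective φ) (C' : Rep.{0} ℤ Γ')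
    (C₀ : Rep.{0} ℤ Γ) (ι : Rep.res φ C₀ ⟶ C') (hι : Function.Injective ι.hom)
    (hinvar : ∀ c : C'.V, (∀ γ : Γ', φ γ = 1 → C'.ρ γ c = c) → ∃ c₀ : C₀.V, ι.hom c₀ = c)
    (m : ℕ) (hK : H1Kill φ.ker C' m)
    (x : cocycles₂ C₀) (hx : H2π C' (mapCocycles₂ φ ι x) = 0) :
    m • H2π C₀ x = 0 := by
  classical
  rw [H2π_eq_zero_iff] at hx
  obtain ⟨y, hy⟩ := hx
  have hιρ : ∀ (g : Γ') (v : C₀.V), ι.hom (C₀.ρ (φ g) v) = C'.ρ g (ι.hom v) := fun g v =>
    Rep.hom_comm_apply ι g v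
  have hf : ∀ g h : Γ', C'.ρ g (y h) - y (g * h) + y g = ι.hom (x (φ g, φ h)) := by
    intro g h
    have := congrFun hy (g, h)
    rw [d₁₂_hom_apply] at this
    exact this
  set c : C'.V := ι.hom (x (1, 1)) with hc
  have hmem : ∀ n : Γ', n ∈ φ.ker ↔ φ n = 1 := fun n => MonoidHom.mem_ker
  have hcinv : ∀ n ∈ φ.ker, C'.ρ n c = c := by
    intro n hn
    rw [hc, ← hιρ, (hmem n).1 hn, map_one]
    rfl
  have hx1 : ∀ g : Γ', ι.hom (x (1, φ g)) = c := by
    intro g
    rw [cocycles₂_map_one_fst x (φ g)]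
  have hx2 : ∀ g : Γ', ι.hom (x (φ g, 1)) = C'.ρ g c := by
    intro g
    rw [cocycles₂_map_one_snd x (φ g), hιρ]
  obtain ⟨a, ha⟩ := hK (fun n : φ.ker => y n - c) (by
    intro n k
    have := hf n k
    rw [(hmem n).1 n.2, (hmem k).1 k.2] at this
    simp only [Subgroup.coe_mul, map_sub, hcinv n n.2]
    linear_combination (norm := abel) -this)
  set y₁ : Γ' → C'.V := fun g => m • y g - (C'.ρ g a - a) with hy₁
  have hf₁ : ∀ g h : Γ', C'.ρ g (y₁ h) - y₁ (g * h) + y₁ g = m • ι.hom (x (φ g, φ h)) := by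
    intro g h
    rw [← hf g h]
    simp only [hy₁, map_sub, map_mul, Module.End.mul_apply, map_nsmul, smul_add, smul_sub]
    abel
  have hy₁N : ∀ n ∈ φ.ker, y₁ n = m • c := by
    intro n hn
    have := ha ⟨n, hn⟩
    simp only [] at this
    simp only [hy₁]
    rw [smul_sub] at this
    linear_combination (norm := abel) this
  have hr : ∀ g, ∀ n ∈ φ.ker, y₁ (g * n) = y₁ g := by
    intro g n hn
    have := hf₁ g n
    rw [(hmem n).1 hn, hx2, hy₁N n hn, map_nsmul] at this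
    linear_combination (norm := abel) -this
  have hnorm : ∀ (g n : Γ'), n ∈ φ.ker → g⁻¹ * n * g ∈ φ.ker := by
    intro g n hn
    rw [hmem] at hn ⊢
    simp [hn]
  have hinv : ∀ g, ∀ n ∈ φ.ker, C'.ρ n (y₁ g) = y₁ g := by
    intro g n hn
    have := hf₁ n g
    rw [(hmem n).1 hn, hx1, hy₁N n hn] at this
    have e : n * g = g * (g⁻¹ * n * g) := by group
    rw [e, hr _ _ (hnorm g n hn)] at this
    linear_combination (norm := abel) this
  have hex : ∀ γ : Γ, ∃ c₀ : C₀.V, ι.hom c₀ = y₁ (Function.surjInv hφ γ) := fun γ =>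
    hinvar _ (fun n hn => hinv _ n ((hmem n).2 hn))
  choose yb hyb0 using hex
  have hyb : ∀ g : Γ', ι.hom (yb (φ g)) = y₁ g := by
    intro g
    rw [hyb0]
    have h1 : φ (Function.surjInv hφ (φ g)) = φ g := Function.surjInv_eq hφ (φ g)
    have h2 : g⁻¹ * Function.surjInv hφ (φ g) ∈ φ.ker := by
      rw [hmem, map_mul, map_inv, h1, inv_mul_cancel]
    have := hr g _ h2
    rw [mul_inv_cancel_left] at this
    exact this
  rw [← map_nsmul, H2π_eq_zero_iff]
  refine ⟨yb, ?_⟩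
  funext ⟨γ, δ⟩
  obtain ⟨g, rfl⟩ := hφ γ
  obtain ⟨h, rfl⟩ := hφ δ
  apply hι
  rw [d₁₂_hom_apply]
  simp only []
  rw [map_add, map_sub, hιρ, ← map_mul, hyb, hyb, hyb, hf₁]
  change m • ι.hom (x (φ g, φ h)) = ι.hom (m • (x (φ g, φ h)))
  rw [map_nsmul]

end Fermat.Agent.PT.F.InflInj

namespace Fermat.Agent.PT.F

open CategoryTheory groupCohomology Rep Fermat.Agent.PT InflInj

theorem stmtInflInjFin : StmtInflInjFin := by
  intro p _ Γ' Γ _ _ _ φ hφ C' C₀ ι hι hinvar hH x hx hx0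
  obtain ⟨m, hm, hK⟩ := h1Kill_of_pgroups p φ.ker C' hH
  obtain ⟨k, hk⟩ := hx
  have hmx : m • x = 0 := by
    induction x using H2_induction_on with | @h x =>
    have key := H2π_comp_map_apply φ ι x
    exact inflInj_aux φ hφ C' C₀ ι hι hinvar m hK x (key.symm.trans hx0)
  have hcop : Nat.Coprime (p ^ k) m :=
    Nat.Coprime.pow_left k ((Nat.Prime.coprime_iff_not_dvd Fact.out).2 hm)
  by_cases hk1 : p ^ k = 1
  · rw [hk1, one_nsmul] at hk
    exact hk
  · have h1lt : 1 < p ^ k := lt_of_le_of_ne (Nat.one_le_pow _ _ (Fact.out : p.Prime).pos)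
      (Ne.symm hk1)
    obtain ⟨u, -, hu⟩ := Nat.exists_mul_mod_eq_one_of_coprime hcop.symm h1lt
    have h2 : m * u = p ^ k * (m * u / p ^ k) + 1 := by
      have := Nat.div_add_mod (m * u) (p ^ k)
      rw [hu] at this
      exact this.symm
    have h3 : (m * u) • x = 0 := by
      rw [mul_comm, mul_nsmul', hmx, nsmul_zero]
    rw [h2, add_nsmul, mul_comm, mul_nsmul', hk, nsmul_zero, zero_add, one_nsmul] at h3
    exact h3

end Fermat.Agent.PT.F
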