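/-
PT-F, piece F4-exist (helper30): bridge from the datum axiom `exist` to the hypothesis of
`StmtNormTrick` at `Γ = G/U'`, `H = U₁/U'`.
-/
import Fermat.Agent.PT.F.Plan

set_option autoImplicit false

open CategoryTheory groupCohomology Fermat.Agent.PT

namespace Fermat.Agent.PT.F

section

variable {G : Type} [Group G] (U₁ U' : Subgroup G) [U'.Normal]

/-- The comparison map `U₁ / (U' ∩ U₁) → im(U₁ → G/U')`, `t ↦ [out t]`. -/
noncomputable def existBridgeMap (t : ↥U₁ ⧸ U'.subgroupOf U₁) :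
    ↥(U₁.map (QuotientGroup.mk' U')) :=
  ⟨QuotientGroup.mk' U' ((Quotient.out t : ↥U₁) : G),
    Subgroup.mem_map_of_mem _ (Quotient.out t : ↥U₁).2⟩

theorem existBridgeMap_bijective : Function.Bijective (existBridgeMap U₁ U') := by
  constructor
  · intro t t' h
    have h1 : (QuotientGroup.mk' U' ((Quotient.out t : ↥U₁) : G)) =
        QuotientGroup.mk' U' ((Quotient.out t' : ↥U₁) : G) := congrArg Subtype.val h
    rw [QuotientGroup.mk'_apply, QuotientGroup.mk'_apply, QuotientGroup.eq] at h1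
    have h2 : (Quotient.out t : ↥U₁)⁻¹ * (Quotient.out t' : ↥U₁) ∈ U'.subgroupOf U₁ := by
      rw [Subgroup.mem_subgroupOf]
      simpa using h1
    have h3 : (QuotientGroup.mk (Quotient.out t : ↥U₁) : ↥U₁ ⧸ U'.subgroupOf U₁) =
        QuotientGroup.mk (Quotient.out t' : ↥U₁) := QuotientGroup.eq.mpr h2
    rw [QuotientGroup.out_eq', QuotientGroup.out_eq'] at h3
    exact h3
  · rintro ⟨η, g, hg, rfl⟩
    refine ⟨QuotientGroup.mk (⟨g, hg⟩ : ↥U₁), ?_⟩
    apply Subtype.ext
    show QuotientGroup.mk' U'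
      ((Quotient.out (QuotientGroup.mk (⟨g, hg⟩ : ↥U₁) : ↥U₁ ⧸ U'.subgroupOf U₁) : ↥U₁) : G) =
      QuotientGroup.mk' U' g
    have h1 : (QuotientGroup.mk
        (Quotient.out (QuotientGroup.mk (⟨g, hg⟩ : ↥U₁) : ↥U₁ ⧸ U'.subgroupOf U₁) : ↥U₁) :
        ↥U₁ ⧸ U'.subgroupOf U₁) = QuotientGroup.mk (⟨g, hg⟩ : ↥U₁) := QuotientGroup.out_eq' _
    rw [QuotientGroup.eq, Subgroup.mem_subgroupOf] at h1
    rw [QuotientGroup.mk'_apply, QuotientGroup.mk'_apply, QuotientGroup.eq]
    simpa using h1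

end

/-- **F4-exist**. -/
theorem stmtExistBridge : StmtExistBridge := by
  intro p G _ C U₁ U' _ _ hle hfin hex x
  obtain ⟨c', hc', hsum⟩ := hex (x.1) (fun s hs => x.2 ⟨s, hs⟩)
  let y : (C.quotientToInvariants U').V := ⟨c', fun s => hc' s.1 (hle s.2)⟩
  refine ⟨y, ?_, ?_⟩
  · rintro η ⟨g, hg, rfl⟩
    apply Subtype.ext
    exact hc' g hg
  · have hfinq : Finite (G ⧸ U') := Subgroup.finite_quotient_of_finiteIndex
    apply Subtype.ext
    have hcoe : ((p • y : (C.quotientToInvariants U').V) : C.V) = p • c' := rfl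
    rw [hcoe, hsum]
    -- push the coercion through the finite sum
    let ι : (C.quotientToInvariants U').V →+ C.V :=
      { toFun := fun z => z.1
        map_zero' := rfl
        map_add' := fun _ _ => rfl }
    show ι (∑ᶠ η : ↥(U₁.map (QuotientGroup.mk' U')),
        (C.quotientToInvariants U').ρ (η : G ⧸ U') x) = _
    rw [ι.map_finsum (Set.toFinite _)]
    symm
    refine finsum_eq_of_bijective (existBridgeMap U₁ U') (existBridgeMap_bijective U₁ U') ?_
    intro t
    rfl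

end Fermat.Agent.PT.F
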