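/-
PT-F, piece F-Norm (helper30): the norm trick.  If `H ◁ G` acts trivially on the `ℤ`-free module
`M` and every norm `N_H x` (`x ∈ C`) is `p` times an `H`-invariant element, then every norm
`N_G h` (`h : M → C` additive) is `p` times a `G`-equivariant map.
-/
import Fermat.Agent.PT.F.Plan

set_option autoImplicit false

open CategoryTheory groupCohomology Fermat.Agent.PT

namespace Fermat.Agent.PT.F

section

variable {G : Type} [Group G] (H : Subgroup G)

/-- The bijection `(G/H) × H ≃ G`, `(t, η) ↦ out t * η`. -/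
noncomputable def normTrickEquiv : (G ⧸ H) × H ≃ G where
  toFun x := (Quotient.out x.1 : G) * (x.2 : G)
  invFun g := (QuotientGroup.mk g, ⟨(Quotient.out (QuotientGroup.mk g : G ⧸ H))⁻¹ * g, by
    rw [← QuotientGroup.eq, QuotientGroup.out_eq']⟩)
  left_inv := by
    rintro ⟨t, η⟩
    have h1 : (QuotientGroup.mk ((Quotient.out t : G) * (η : G)) : G ⧸ H) = t := by
      rw [QuotientGroup.mk_mul_of_mem _ η.2, QuotientGroup.out_eq']
    refine Prod.ext h1 (Subtype.ext ?_)
    show (Quotient.out (QuotientGroup.mk ((Quotient.out t : G) * (η : G)) : G ⧸ H))⁻¹ *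
      ((Quotient.out t : G) * (η : G)) = η
    rw [h1]
    group
  right_inv := by
    intro g
    show (Quotient.out (QuotientGroup.mk g : G ⧸ H) : G) *
      ((Quotient.out (QuotientGroup.mk g : G ⧸ H))⁻¹ * g) = g
    group

theorem normTrickEquiv_apply (t : G ⧸ H) (η : H) :
    normTrickEquiv H (t, η) = (Quotient.out t : G) * (η : G) := rfl

end

section

attribute [local instance 1100] Rep.hV2

/-- The morphism of `Rep ℤ G` defined by an additive equivariant map. -/
noncomputable def normTrickHom {G : Type} [Group G] (M C : Rep.{0} ℤ G) (g : M.V →+ C.V)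
    (hg : ∀ (s : G) (m : M.V), g (M.ρ s m) = C.ρ s (g m)) : M ⟶ C :=
  Rep.ofHom (LinearMap.intertwiningMap_of_isIntertwiningMap (ρ := M.ρ) (σ := C.ρ)
    (f := addToLin g) hg)

theorem normTrickHom_apply {G : Type} [Group G] (M C : Rep.{0} ℤ G) (g : M.V →+ C.V)
    (hg : ∀ (s : G) (m : M.V), g (M.ρ s m) = C.ρ s (g m)) (m : M.V) :
    (normTrickHom M C g hg).hom m = g m := rfl

end

/-- **F-Norm**. -/
theorem stmtNormTrick : StmtNormTrick := by
  intro p G _ _ H _ _ M C hfree hfin htriv hnorm h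
  classical
  let b := Module.Free.chooseBasis ℤ M.V
  choose y hyinv hysum using hnorm
  let h'lin : M.V →ₗ[ℤ] C.V := b.constr ℤ (fun i => y (h (b i)))
  let h' : M.V →+ C.V := h'lin.toAddMonoidHom
  have hh' : ∀ i, h' (b i) = y (h (b i)) := fun i => b.constr_basis ℤ _ i
  have hext : ∀ f g : M.V →+ C.V, (∀ i, f (b i) = g (b i)) → ∀ m, f m = g m := by
    intro f g hfg m
    have h1 : f.toIntLinearMap = g.toIntLinearMap := b.ext hfg
    exact LinearMap.congr_fun h1 m
  have hinv : ∀ η ∈ H, ∀ m, C.ρ η (h' m) = h' m := by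
    intro η hη m
    exact hext ((C.ρ η).toAddMonoidHom.comp h') h' (fun i => by
      show C.ρ η (h' (b i)) = h' (b i)
      rw [hh', hyinv _ η hη]) m
  have hsum : ∀ m, ∑ η : H, C.ρ (η : G) (h m) = p • h' m := by
    intro m
    have h1 := hext (∑ η : H, (C.ρ (η : G)).toAddMonoidHom.comp h.toAddMonoidHom) (p • h')
      (fun i => by
        rw [AddMonoidHom.finsetSum_apply, AddMonoidHom.smul_apply, hh', ← hysum]
        rfl) m
    rw [AddMonoidHom.finsetSum_apply, AddMonoidHom.smul_apply] at h1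
    exact h1
  have hCmul : ∀ (g g' : G) (x : C.V), C.ρ (g * g') x = C.ρ g (C.ρ g' x) := fun g g' x => by
    rw [map_mul]; rfl
  have hMmul : ∀ (g g' : G) (x : M.V), M.ρ (g * g') x = M.ρ g (M.ρ g' x) := fun g g' x => by
    rw [map_mul]; rfl
  -- the summands of the relative norm
  let L : G → M.V → C.V := fun g m => C.ρ g (h' (M.ρ g⁻¹ m))
  have hLapp : ∀ g m, L g m = C.ρ g (h' (M.ρ g⁻¹ m)) := fun g m => rfl
  have hL : ∀ g η, η ∈ H → L (g * η) = L g := by
    intro g η hη
    funext m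
    rw [hLapp, hLapp, mul_inv_rev, hCmul, hMmul, htriv η⁻¹ (H.inv_mem hη), hinv η hη]
  let Lbar : G ⧸ H → M.V → C.V := Quotient.lift (s := QuotientGroup.leftRel H) L (by
    intro a c hac
    have h1 : a⁻¹ * c ∈ H := QuotientGroup.leftRel_apply.mp hac
    have h2 : c = a * (a⁻¹ * c) := by group
    rw [h2, hL a _ h1])
  have hLbar : ∀ g : G, Lbar (QuotientGroup.mk g) = L g := fun g => rfl
  have hLbar_add : ∀ (t : G ⧸ H) (m m' : M.V), Lbar t (m + m') = Lbar t m + Lbar t m' := by
    intro t m m'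
    induction t using QuotientGroup.induction_on with
    | H g => rw [hLbar, hLapp, hLapp, hLapp, map_add, map_add, map_add]
  let _ : Fintype (G ⧸ H) := Fintype.ofFinite _
  let g₁ : M.V →+ C.V := AddMonoidHom.mk' (fun m => ∑ t : G ⧸ H, Lbar t m) (fun m m' => by
    simp only [hLbar_add, Finset.sum_add_distrib])
  have hg₁app : ∀ m, g₁ m = ∑ t : G ⧸ H, Lbar t m := fun m => rfl
  -- equivariance
  have hLs : ∀ (g s : G) (m : M.V), L g (M.ρ s m) = C.ρ s (L (s⁻¹ * g) m) := by
    intro g s m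
    rw [hLapp, hLapp, ← hMmul, ← hCmul, mul_inv_cancel_left, mul_inv_rev, inv_inv]
  have hcomm : ∀ (s : G) (m : M.V), g₁ (M.ρ s m) = C.ρ s (g₁ m) := by
    intro s m
    rw [hg₁app, hg₁app, map_sum]
    rw [← Equiv.sum_comp (MulAction.toPerm (s⁻¹ : G) : Equiv.Perm (G ⧸ H))
      (fun t => C.ρ s (Lbar t m))]
    refine Finset.sum_congr rfl fun t _ => ?_
    induction t using QuotientGroup.induction_on with
    | H g =>
      rw [hLbar, hLs]
      rfl
  refine ⟨normTrickHom M C g₁ hcomm, fun m => ?_⟩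
  rw [normTrickHom_apply]
  have hnormHom : normHom M C h m = ∑ γ : G, C.ρ γ (h (M.ρ γ⁻¹ m)) := by
    simp [normHom, LinearMap.sum_apply]
  rw [hnormHom, hg₁app, Finset.smul_sum, ← Equiv.sum_comp (normTrickEquiv H),
    Fintype.sum_prod_type]
  refine Finset.sum_congr rfl fun t _ => ?_
  have h1 : ∀ η : H, C.ρ (normTrickEquiv H (t, η)) (h (M.ρ (normTrickEquiv H (t, η))⁻¹ m)) =
      C.ρ (Quotient.out t : G) (C.ρ (η : G) (h (M.ρ (Quotient.out t : G)⁻¹ m))) := by
    intro η
    rw [normTrickEquiv_apply, mul_inv_rev, hCmul, hMmul, htriv _ (H.inv_mem η.2)]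
  rw [Finset.sum_congr rfl (fun η _ => h1 η), ← map_sum, hsum, map_nsmul]
  congr 1
  have h2 : Lbar t = L (Quotient.out t : G) := by
    conv_lhs => rw [← QuotientGroup.out_eq' t]
    rfl
  rw [h2]

end Fermat.Agent.PT.F
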