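import Fermat.Agent.PT.F.FinLevel
import Fermat.Agent.PT.F.NormTrick
import Fermat.Agent.PT.F.ExistBridge

/-!
# PT-F / F4b (helper68): the left kernel of the global pairing

`stmtLeftKer_of : StmtTN' → StmtTNDual → StmtInflInjFin → StmtLeftKer`, from `ext_duality` at the
finite level `G ⧸ U'`, where `U' ≤ U₁ ≤ U₀` are the levels of the datum axiom `exist`.
-/

set_option autoImplicit false

noncomputable section

namespace Fermat.Agent.PT.F

open CategoryTheory groupCohomology Fermat.Agent.PT

theorem stmtLeftKer_of (hTN : StmtTN') (hD : StmtTNDual) (hInj : StmtInflInjFin) :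
    StmtLeftKer := by
  intro p _ G _ ι _ Gloc _ D k _ A' P hp hInd
  obtain ⟨U₁, hU₁, U', hU', h1, h2, hn₁, hn', hex⟩ := D.exist P.U₀ P.U₀_mem
  refine ⟨U', hU', fun g hg => ?_⟩
  have hle : U' ≤ P.U₀ := h2.trans h1
  have hfin := D.𝒯.finiteIndex U' hU'
  have : Finite (G ⧸ U') := Subgroup.finite_quotient_of_finiteIndex
  have : Fintype (G ⧸ U') := Fintype.ofFinite _
  obtain ⟨u, hu⟩ := D.cm_glob U' hU'
  have hfree : Module.Free ℤ (finX P U').X₂.V := (finX_free_finite P hle).1
  have hfinite : Module.Finite ℤ (finX P U').X₂.V := (finX_free_finite P hle).2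
  have hH1 : Subsingleton (H1 (finX P U').X₂) :=
    hInd G (MonoidHom.id G) U' hfin (fun s hs m => P.triv₀ s (hle hs) m)
  have hmono : Mono (finX P U').f := (finX_shortExact P hle).mono_f
  obtain ⟨hfree₁, hfinite₁⟩ := free_finite_of_mono (finX P U').f
  -- the norm hypothesis
  have hHn : (U₁.map (QuotientGroup.mk' U')).Normal :=
    Subgroup.Normal.map hn₁ _ (QuotientGroup.mk'_surjective U')
  have : Fintype ↥(U₁.map (QuotientGroup.mk' U')) := Fintype.ofFinite _
  have hexist : ∀ h : (finX P U').X₁.V →ₗ[ℤ] (D.C.quotientToInvariants U').V,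
      ∃ g₁ : (finX P U').X₁ ⟶ D.C.quotientToInvariants U',
        ∀ m, normHom (finX P U').X₁ (D.C.quotientToInvariants U') h m = p • g₁.hom m := by
    refine stmtNormTrick p (G ⧸ U') (U₁.map (QuotientGroup.mk' U')) (finX P U').X₁
      (D.C.quotientToInvariants U') hfree₁ hfinite₁ ?_ ?_
    · rintro η ⟨s, hs, rfl⟩ m
      exact Subtype.ext (P.triv₁ s (h1 hs) _)
    · intro x
      obtain ⟨y, hy1, hy2⟩ := stmtExistBridge p G D.C U₁ U' h2 hfin hex x
      refine ⟨y, hy1, ?_⟩
      rw [← hy2, finsum_eq_sum_of_fintype]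
  have key := (ext_duality hTN hD p (D.C.quotientToInvariants U') u hu (finX P U')
    (finX_shortExact P hle)
    (fun (a : ((intRep A').quotientToInvariants U').V) => Subtype.ext (hp a.1)) hH1 hexist).2
    ((Rep.quotientToInvariantsFunctor ℤ U').map g) (fun x => by
      induction x using H1_induction_on with
      | h cb =>
        have hc : infl₁ (intRep A') U' cb.1 ∈ cocycles₁ A' :=
          (mem_cocycles₁_intRep_iff A' _).1 ((infl₁_mem_cocycles₁_iff _).2 cb.2)
        have hcU : ∀ σ s : G, s ∈ U' → infl₁ (intRep A') U' cb.1 (σ * s) =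
            infl₁ (intRep A') U' cb.1 σ := (desc₁_infl₁ cb.1).1
        have h3 := push_delta_eq_zero P hle hInj p D.C_discrete
          (fun U _ hU => D.cm_glob U hU) hp hU' hc hcU g
          ((Rep.quotientToInvariantsFunctor ℤ U').map g) (fun m => rfl) (hg _ hc hcU)
        have h4 : finCoc P hle hc hcU = cb := by
          apply Subtype.ext
          apply infl₁_injective (X := intRep A') (U := U')
          exact infl₁_descend₁ (infl₁ (intRep A') U' cb.1) (desc_c P hle hcU)
        rw [h4] at h3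
        exact h3)
  obtain ⟨gb₀, hgb₀⟩ := key
  refine ⟨extHom (fun s hs m => P.triv₀ s (hle hs) m) gb₀, ?_⟩
  apply rep_hom_ext'
  intro m
  have h5 := congrArg (fun φ => (φ.hom ⟨m, fun s => P.triv₁ s.1 (hle s.2) m⟩).1) hgb₀
  exact h5

end Fermat.Agent.PT.F

end
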