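import Fermat.Agent.PT.F.Pair

/-!
# PT-F piece F7b — local nondegeneracy (helper11)

`stmtLocNondeg_of : StmtRightKer → StmtPairBasic → StmtLocNondeg`.

The presentation `P` of `A'` is restricted along `r_v : G_v → G` (`presRes`); `StmtRightKer` for
`(G_v, 𝒯loc v, J_v)` reduces the claim to: every local pairing cocycle `⟨g_v, c ∘ r_v⟩` is a level
coboundary; this local cocycle is the `v`-component at `1` of the global pairing cocycle
`y = ⟨ĝ_v, c⟩ : G² → J`, and the datum axiom `surv` applies to `y`.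
-/

set_option autoImplicit false

noncomputable section

namespace Fermat.Agent.PT.F

open CategoryTheory groupCohomology Fermat.Agent.PT

namespace LocNondeg

section Res

variable {G H : Type} [Group G] [Group H] {𝒯 : Tower G} {k : Type} [CommRing k]
  {A' : Rep.{0} k G}

/-- Restriction of a presentation along a homomorphism `f : H → G` compatible with the towers. -/
def presRes (P : Presentation 𝒯 A') (𝒯H : Tower H) (f : H →* G)
    (hf : ∀ U ∈ 𝒯.lev, U.comap f ∈ 𝒯H.lev) : Presentation 𝒯H (Rep.res f A') where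
  U₀ := P.U₀.comap f
  U₀_mem := hf _ P.U₀_mem
  U₀_normal := P.U₀_normal.comap f
  M₀ := Rep.res f P.M₀
  M₁ := Rep.res f P.M₁
  inc := Rep.resMap f P.inc
  ε := P.ε
  ε_ρ := fun g m => P.ε_ρ (f g) m
  inc_injective := P.inc_injective
  ε_surjective := P.ε_surjective
  exact := P.exact
  triv₀ := fun s hs m => P.triv₀ (f s) hs m
  n := P.n
  basis₀ := P.basis₀
  basis₀_spec := P.basis₀_spec

theorem presRes_sec (P : Presentation 𝒯 A') (𝒯H : Tower H) (f : H →* G)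
    (hf : ∀ U ∈ 𝒯.lev, U.comap f ∈ 𝒯H.lev) (a : A'.V) :
    (presRes P 𝒯H f hf).sec a = P.sec a := rfl

theorem presRes_incInv (P : Presentation 𝒯 A') (𝒯H : Tower H) (f : H →* G)
    (hf : ∀ U ∈ 𝒯.lev, U.comap f ∈ 𝒯H.lev) (m : P.M₀.V) :
    (presRes P 𝒯H f hf).incInv m = P.incInv m := rfl

theorem res_d₁₂ (M : Rep.{0} ℤ G) (f : H →* G) (x : G → M.V) (dd : H × H) :
    (d₁₂ (Rep.res f M)).hom (fun d => x (f d)) dd = (d₁₂ M).hom x (f dd.1, f dd.2) := by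
  rw [d₁₂_hom_apply, d₁₂_hom_apply]
  simp only [map_mul]
  rfl

theorem presRes_pairCoc (P : Presentation 𝒯 A') (𝒯H : Tower H) (f : H →* G)
    (hf : ∀ U ∈ 𝒯.lev, U.comap f ∈ 𝒯H.lev) {C : Rep.{0} ℤ H}
    (g : (presRes P 𝒯H f hf).M₁ ⟶ C) (c : G → A'.V) (dd : H × H) :
    pairCoc (presRes P 𝒯H f hf) g (fun d => c (f d)) dd =
      g.hom (P.incInv ((d₁₂ P.M₀).hom (fun σ => P.sec (c σ)) (f dd.1, f dd.2))) :=
  congrArg (fun m => g.hom (P.incInv m)) (res_d₁₂ P.M₀ f (fun σ => P.sec (c σ)) dd)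

/-- `(Ind)` is inherited by restrictions. -/
theorem hasInd_res {M : Rep.{0} ℤ G} (hM : HasInd M) (f : H →* G) : HasInd (Rep.res f M) := by
  intro H' _ φ V _ hfin hV
  exact hM H' (f.comp φ) V hfin hV

end Res

end LocNondeg

open LocNondeg

/-- **F7b** (local nondegeneracy). -/
theorem stmtLocNondeg_of (hRK : StmtRightKer) (hPB : StmtPairBasic) : StmtLocNondeg := by
  intro p _ G _ ι _ Gloc _ D k _ A' P hpA hInd hM v c hc hlev hpair
  have hlevv : IsLevel₁ (D.𝒯loc v) (resOne D v c) :=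
    IsLevel₁.precomp D.𝒯 (D.𝒯loc v) (D.r v) (D.comap_mem v) hlev
  have hcv : resOne D v c ∈ cocycles₁ (Rep.res (D.r v) A') := by
    rw [mem_cocycles₁_iff] at hc ⊢
    intro g h
    simpa [resOne] using hc (D.r v g) (D.r v h)
  refine hRK p (Gloc v) (D.𝒯loc v) (D.Jloc v) (D.Jloc_discrete v)
    (fun V _ hV => D.cm_loc v V hV) k (Rep.res (D.r v) A')
    (presRes P (D.𝒯loc v) (D.r v) (D.comap_mem v)) hpA (hasInd_res hInd (D.r v))
    (resOne D v c) hcv hlevv ?_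
  intro gv
  obtain ⟨h1, -, -, -, -, -, h7⟩ := hPB G D.𝒯 k A' P (PTJ D)
  have hy_coc : pairCoc P (hat D P.M₁ hM v gv) c ∈ levCocycles₂ D.𝒯 (PTJ D) :=
    h1 _ _ (hlev.comp P.sec) (by simpa using hc)
  have hy_supp : ∀ v' : ι, v' ≠ v → ∀ g g' h : G,
      (pairCoc P (hat D P.M₁ hM v gv) c (g, g')).1 v' h = 0 :=
    fun v' hv' g g' h => hat_apply_ne D P.M₁ hM v gv _ (Ne.symm hv') h
  have hy_p : ∃ (n : ℕ) (t : G → (PTJ D).V), IsLevel₁ D.𝒯 t ∧
      (d₁₂ (PTJ D)).hom t = (p ^ n) • pairCoc P (hat D P.M₁ hM v gv) c := by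
    obtain ⟨t, ht, hdt⟩ := (mem_levCoboundaries₂_iff _ _ _).1
      (h7 p hpA (hat D P.M₁ hM v gv) c hc hlev)
    exact ⟨1, t, ht, by rw [hdt, pow_one]⟩
  have hy_π : ∃ t : G → D.C.V, IsLevel₁ D.𝒯 t ∧
      (d₁₂ D.C).hom t = fun gg => D.π.hom (pairCoc P (hat D P.M₁ hM v gv) c gg) := by
    obtain ⟨t, ht, hdt⟩ := (mem_levCoboundaries₂_iff _ _ _).1 (hpair gv)
    exact ⟨t, ht, by rw [hdt]; rfl⟩
  obtain ⟨t, ht, hdt⟩ := D.surv v _ ((mem_levCocycles₂_iff _ _ _).1 hy_coc).1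
    ((mem_levCocycles₂_iff _ _ _).1 hy_coc).2 hy_supp hy_p hy_π
  refine (mem_levCoboundaries₂_iff _ _ _).2 ⟨t, ht, ?_⟩
  rw [hdt]
  funext dd
  have key : (pairCoc P (hat D P.M₁ hM v gv) c ((D.r v) dd.1, (D.r v) dd.2)).1 v 1 =
      gv.hom (P.M₁.ρ 1 (P.incInv ((d₁₂ P.M₀).hom (fun σ => P.sec (c σ))
        ((D.r v) dd.1, (D.r v) dd.2)))) :=
    hat_apply_same D P.M₁ hM v gv _ 1
  rw [key, map_one]
  exact (presRes_pairCoc P (D.𝒯loc v) (D.r v) (D.comap_mem v) gv c dd).symm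

end Fermat.Agent.PT.F

end
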