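/-
PT-F piece F3 (helper79): `stmtPairBasic : StmtPairBasic`, the 7 clauses of the level cochain
calculus of the pairing cochain `pairLift P g c̃ = g ∘ inc⁻¹ ∘ d c̃`.

Reusable lemmas (all for a presentation `P`): `pb_incInv_add/sub/nsmul/ρ` (`inc⁻¹` is additive and
equivariant on `ker ε`), `pb_ε_d₁₂` (`d c̃` has values in `ker ε` when `ε ∘ c̃` is a cocycle),
`pb_pairLift_inc` (`pairLift g (inc ∘ u) = d (g ∘ u)`), `pb_isLevel₂_d₁₂`, `pb_triv_A'`,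
`pb_clause1 … pb_clause7`.
-/
import Fermat.Agent.PT.F.Pair

set_option autoImplicit false

noncomputable section

namespace Fermat.Agent.PT.F

open CategoryTheory groupCohomology Fermat.Agent.PT

attribute [local instance 1100] Rep.hV2

section PB

variable {G : Type} [Group G] {𝒯 : Tower G} {k : Type} [CommRing k] {A' : Rep.{0} k G}
  (P : Presentation 𝒯 A')

lemma pb_ε_inc (m : P.M₁.V) : P.ε (P.inc.hom m) = 0 := (P.exact _).2 ⟨m, rfl⟩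

lemma pb_incInv_zero : P.incInv 0 = 0 := by
  have := P.incInv_inc 0
  rwa [map_zero] at this

lemma pb_incInv_add {x y : P.M₀.V} (hx : P.ε x = 0) (hy : P.ε y = 0) :
    P.incInv (x + y) = P.incInv x + P.incInv y := by
  apply P.inc_injective
  rw [map_add, P.inc_incInv hx, P.inc_incInv hy, P.inc_incInv (by rw [map_add, hx, hy, add_zero])]

lemma pb_incInv_sub {x y : P.M₀.V} (hx : P.ε x = 0) (hy : P.ε y = 0) :
    P.incInv (x - y) = P.incInv x - P.incInv y := by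
  apply P.inc_injective
  rw [map_sub, P.inc_incInv hx, P.inc_incInv hy, P.inc_incInv (by rw [map_sub, hx, hy, sub_zero])]

lemma pb_incInv_nsmul (n : ℕ) {x : P.M₀.V} (hx : P.ε x = 0) :
    P.incInv (n • x) = n • P.incInv x := by
  apply P.inc_injective
  rw [map_nsmul, P.inc_incInv hx, P.inc_incInv (by rw [map_nsmul, hx, smul_zero])]

/-- `d₁₂` of a cochain, pointwise. -/
lemma pb_d₁₂_apply (M : Rep.{0} ℤ G) (f : G → M.V) (σ τ : G) :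
    (d₁₂ M).hom f (σ, τ) = M.ρ σ (f τ) - f (σ * τ) + f σ := rfl

/-- the coboundary of a lift of a cocycle has values in `ker ε` -/
lemma pb_ε_d₁₂ (ct : G → P.M₀.V) (h : (fun σ => P.ε (ct σ)) ∈ cocycles₁ A') (στ : G × G) :
    P.ε ((d₁₂ P.M₀).hom ct στ) = 0 := by
  obtain ⟨σ, τ⟩ := στ
  have h1 := (mem_cocycles₁_iff _).1 h σ τ
  rw [pb_d₁₂_apply, map_add, map_sub, P.ε_ρ]
  have h2 : P.ε (ct (σ * τ)) = A'.ρ σ (P.ε (ct τ)) + P.ε (ct σ) := h1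
  rw [h2]
  abel

lemma pb_d₁₂_inc (u : G → P.M₁.V) (στ : G × G) :
    (d₁₂ P.M₀).hom (fun σ => P.inc.hom (u σ)) στ = P.inc.hom ((d₁₂ P.M₁).hom u στ) := by
  obtain ⟨σ, τ⟩ := στ
  rw [pb_d₁₂_apply, pb_d₁₂_apply, map_add, map_sub, Rep.hom_comm_apply]

/-- the pairing cochain of a cochain with values in `M₁` is a coboundary -/
lemma pb_pairLift_inc {C : Rep.{0} ℤ G} (g : P.M₁ ⟶ C) (u : G → P.M₁.V) :
    pairLift P g (fun σ => P.inc.hom (u σ)) = (d₁₂ C).hom (fun σ => g.hom (u σ)) := by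
  funext στ
  obtain ⟨σ, τ⟩ := στ
  unfold pairLift
  rw [pb_d₁₂_inc, P.incInv_inc, pb_d₁₂_apply, pb_d₁₂_apply, map_add, map_sub,
    Rep.hom_comm_apply]

lemma pb_incInv_ρ (σ : G) {x : P.M₀.V} (hx : P.ε x = 0) :
    P.incInv (P.M₀.ρ σ x) = P.M₁.ρ σ (P.incInv x) := by
  apply P.inc_injective
  rw [Rep.hom_comm_apply, P.inc_incInv hx, P.inc_incInv (by rw [P.ε_ρ, hx, map_zero])]

/-- two level cochains have a common normal level inside `U₀` -/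
lemma pb_exists_level {X Y : Type} (ct : G → X) (ct' : G → Y) (hct : IsLevel₁ 𝒯 ct)
    (hct' : IsLevel₁ 𝒯 ct') :
    ∃ U ∈ 𝒯.lev, U.Normal ∧ U ≤ P.U₀ ∧ (∀ g s : G, s ∈ U → ct (g * s) = ct g) ∧
      (∀ g s : G, s ∈ U → ct' (g * s) = ct' g) := by
  obtain ⟨U₁, hU₁, h₁⟩ := hct
  obtain ⟨U₂, hU₂, h₂⟩ := hct'
  obtain ⟨V, hV, hVle, hVn⟩ := 𝒯.exists_normal (P.U₀ ⊓ (U₁ ⊓ U₂))
    (𝒯.inf_mem _ _ P.U₀_mem (𝒯.inf_mem _ _ hU₁ hU₂))
  exact ⟨V, hV, hVn, fun x hx => (hVle hx).1, fun g s hs => h₁ g s (hVle hs).2.1,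
    fun g s hs => h₂ g s (hVle hs).2.2⟩

lemma pb_isLevel₁_sub {X : Type} [Sub X] (ct ct' : G → X) (hct : IsLevel₁ 𝒯 ct)
    (hct' : IsLevel₁ 𝒯 ct') : IsLevel₁ 𝒯 (fun σ => ct σ - ct' σ) := by
  obtain ⟨U₁, hU₁, h₁⟩ := hct
  obtain ⟨U₂, hU₂, h₂⟩ := hct'
  exact ⟨U₁ ⊓ U₂, 𝒯.inf_mem _ _ hU₁ hU₂, fun g s hs => by
    change ct (g * s) - ct' (g * s) = ct g - ct' g
    rw [h₁ g s hs.1, h₂ g s hs.2]⟩

/-- the coboundary of a level cochain of `M₀` is a level cochain -/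
lemma pb_isLevel₂_d₁₂ (ct : G → P.M₀.V) (hct : IsLevel₁ 𝒯 ct) :
    IsLevel₂ 𝒯 ((d₁₂ P.M₀).hom ct) := by
  obtain ⟨U, hU, hUn, hU₀, h₁, -⟩ := pb_exists_level P ct ct hct hct
  refine ⟨U, hU, fun g g' s s' hs hs' => ?_⟩
  rw [pb_d₁₂_apply, pb_d₁₂_apply]
  have e1 : g * s * (g' * s') = g * g' * (g'⁻¹ * s * g' * s') := by group
  have e2 : g'⁻¹ * s * g' * s' ∈ U := by
    refine U.mul_mem ?_ hs'
    simpa using hUn.conj_mem s hs g'⁻¹
  rw [e1, h₁ _ _ e2, h₁ _ _ hs, h₁ _ _ hs', map_mul, Module.End.mul_apply,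
    P.triv₀ s (hU₀ hs)]

variable {C : Rep.{0} ℤ G}

/-- clause 1 -/
lemma pb_clause1 (g : P.M₁ ⟶ C) (ct : G → P.M₀.V) (hct : IsLevel₁ 𝒯 ct)
    (hc : (fun σ => P.ε (ct σ)) ∈ cocycles₁ A') : pairLift P g ct ∈ levCocycles₂ 𝒯 C := by
  refine ⟨?_, (pb_isLevel₂_d₁₂ P ct hct).comp (fun x => g.hom (P.incInv x))⟩
  refine (mem_cocycles₂_iff (pairLift P g ct)).2 ?_
  intro a b c
  have hz := (mem_cocycles₂_iff _).1 (d₁₂_apply_mem_cocycles₂ (A := P.M₀) ct) a b c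
  have hε := pb_ε_d₁₂ P ct hc
  unfold pairLift
  rw [← map_add, ← pb_incInv_add P (hε _) (hε _), ← Rep.hom_comm_apply, ← pb_incInv_ρ P a (hε _),
    ← map_add, ← pb_incInv_add P (by rw [P.ε_ρ, hε, map_zero]) (hε _)]
  exact congrArg (fun x => g.hom (P.incInv x)) hz

/-- clause 2 -/
lemma pb_clause2 (g : P.M₁ ⟶ C) (ct ct' : G → P.M₀.V) (hct : IsLevel₁ 𝒯 ct)
    (hct' : IsLevel₁ 𝒯 ct') (hc : (fun σ => P.ε (ct σ)) ∈ cocycles₁ A')
    (hcc : ∀ σ, P.ε (ct σ) = P.ε (ct' σ)) :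
    pairLift P g ct - pairLift P g ct' ∈ levCoboundaries₂ 𝒯 C := by
  have hc' : (fun σ => P.ε (ct' σ)) ∈ cocycles₁ A' := by
    have : (fun σ => P.ε (ct' σ)) = (fun σ => P.ε (ct σ)) := funext fun σ => (hcc σ).symm
    rw [this]; exact hc
  have hε := pb_ε_d₁₂ P ct hc
  have hε' := pb_ε_d₁₂ P ct' hc'
  have hd : ∀ σ, P.ε (ct σ - ct' σ) = 0 := fun σ => by rw [map_sub, hcc, sub_self]
  rw [mem_levCoboundaries₂_iff]
  refine ⟨fun σ => g.hom (P.incInv (ct σ - ct' σ)),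
    (pb_isLevel₁_sub ct ct' hct hct').comp (fun x => g.hom (P.incInv x)), ?_⟩
  rw [← pb_pairLift_inc]
  funext στ
  rw [Pi.sub_apply]
  unfold pairLift
  rw [← map_sub, ← pb_incInv_sub P (hε _) (hε' _)]
  congr 2
  have h1 : (fun σ => P.inc.hom (P.incInv (ct σ - ct' σ))) = ct - ct' :=
    funext fun σ => P.inc_incInv (hd σ)
  rw [h1, map_sub]
  rfl

lemma pb_isLevel₁_sec (c : G → A'.V) (hc : IsLevel₁ 𝒯 c) :
    IsLevel₁ 𝒯 (fun σ => P.sec (c σ)) := hc.comp P.sec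

lemma pb_ε_sec_cocycle (c : G → A'.V) (hc : c ∈ cocycles₁ A') :
    (fun σ => P.ε (P.sec (c σ))) ∈ cocycles₁ A' := by
  have : (fun σ => P.ε (P.sec (c σ))) = c := funext fun σ => P.ε_sec (c σ)
  rw [this]; exact hc

/-- clause 3 -/
lemma pb_clause3 (g g' : P.M₁ ⟶ C) (c : G → A'.V) :
    pairCoc P (g + g') c = pairCoc P g c + pairCoc P g' c := by
  funext στ
  simp only [pairCoc, pairLift, Pi.add_apply, rep_add_apply]

/-- clause 4 -/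
lemma pb_clause4 (g : P.M₁ ⟶ C) (c c' : G → A'.V) (hc : c ∈ cocycles₁ A')
    (hc' : c' ∈ cocycles₁ A') (hl : IsLevel₁ 𝒯 c) (hl' : IsLevel₁ 𝒯 c') :
    pairCoc P g (c + c') - (pairCoc P g c + pairCoc P g c') ∈ levCoboundaries₂ 𝒯 C := by
  have hcc : c + c' ∈ cocycles₁ A' := (cocycles₁ A').add_mem hc hc'
  have key : pairCoc P g c + pairCoc P g c' =
      pairLift P g ((fun σ => P.sec (c σ)) + (fun σ => P.sec (c' σ))) := by
    funext στ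
    simp only [pairCoc, pairLift, Pi.add_apply]
    rw [map_add, Pi.add_apply, pb_incInv_add P (pb_ε_d₁₂ P _ (pb_ε_sec_cocycle P c hc) _)
      (pb_ε_d₁₂ P _ (pb_ε_sec_cocycle P c' hc') _), map_add]
  rw [key]
  refine pb_clause2 P g _ _ (pb_isLevel₁_sec P _ (hl.add hl'))
    ((pb_isLevel₁_sec P _ hl).add (pb_isLevel₁_sec P _ hl')) (pb_ε_sec_cocycle P _ hcc) ?_
  intro σ
  simp only [Pi.add_apply, map_add, P.ε_sec]

/-- `A'` is trivial on `U₀`. -/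
lemma pb_triv_A' (s : G) (hs : s ∈ P.U₀) (a : A'.V) : A'.ρ s a = a := by
  obtain ⟨m, rfl⟩ := P.ε_surjective a
  rw [← P.ε_ρ, P.triv₀ s hs]

/-- clause 5 -/
lemma pb_clause5 (g : P.M₁ ⟶ C) (c : G → A'.V) (hc : c ∈ coboundaries₁ A') :
    pairCoc P g c ∈ levCoboundaries₂ 𝒯 C := by
  have hcoc : c ∈ cocycles₁ A' := coboundaries₁_le_cocycles₁ A' hc
  obtain ⟨a, ha⟩ := hc
  have hca : ∀ σ, c σ = A'.ρ σ a - a := fun σ => (congrFun ha σ).symm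
  have hl : IsLevel₁ 𝒯 c := ⟨P.U₀, P.U₀_mem, fun g s hs => by
    rw [hca, hca, map_mul, Module.End.mul_apply, pb_triv_A' P s hs]⟩
  let ct' : G → P.M₀.V := fun σ => P.M₀.ρ σ (P.sec a) - P.sec a
  have hl' : IsLevel₁ 𝒯 ct' := ⟨P.U₀, P.U₀_mem, fun g s hs => by
    change P.M₀.ρ (g * s) (P.sec a) - P.sec a = P.M₀.ρ g (P.sec a) - P.sec a
    rw [map_mul, Module.End.mul_apply, P.triv₀ s hs]⟩
  have h0 : pairLift P g ct' = 0 := by
    funext στ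
    obtain ⟨σ, τ⟩ := στ
    unfold pairLift
    have : (d₁₂ P.M₀).hom ct' (σ, τ) = 0 := by
      rw [pb_d₁₂_apply]
      change P.M₀.ρ σ (P.M₀.ρ τ (P.sec a) - P.sec a) - (P.M₀.ρ (σ * τ) (P.sec a) - P.sec a) +
        (P.M₀.ρ σ (P.sec a) - P.sec a) = 0
      rw [map_sub, map_mul, Module.End.mul_apply]
      abel
    rw [this, pb_incInv_zero, map_zero]
    rfl
  have h2 := pb_clause2 P g (fun σ => P.sec (c σ)) ct' (pb_isLevel₁_sec P c hl) hl'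
    (pb_ε_sec_cocycle P c hcoc) (fun σ => by
      change P.ε (P.sec (c σ)) = P.ε (P.M₀.ρ σ (P.sec a) - P.sec a)
      rw [P.ε_sec, map_sub, P.ε_ρ, P.ε_sec, hca])
  rw [h0, sub_zero] at h2
  exact h2

/-- clause 6 -/
lemma pb_clause6 (h : P.M₀ ⟶ C) (c : G → A'.V) (hc : c ∈ cocycles₁ A') (hl : IsLevel₁ 𝒯 c) :
    pairCoc P (P.inc ≫ h) c ∈ levCoboundaries₂ 𝒯 C := by
  rw [mem_levCoboundaries₂_iff]
  refine ⟨fun σ => h.hom (P.sec (c σ)), (pb_isLevel₁_sec P c hl).comp (fun x => h.hom x), ?_⟩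
  funext στ
  obtain ⟨σ, τ⟩ := στ
  simp only [pairCoc, pairLift, rep_comp_apply]
  rw [P.inc_incInv (pb_ε_d₁₂ P _ (pb_ε_sec_cocycle P c hc) _), pb_d₁₂_apply, pb_d₁₂_apply,
    map_add, map_sub, Rep.hom_comm_apply]

/-- clause 7 -/
lemma pb_clause7 (p : ℕ) (hp : ∀ a : A'.V, p • a = 0) (g : P.M₁ ⟶ C) (c : G → A'.V)
    (hc : c ∈ cocycles₁ A') (hl : IsLevel₁ 𝒯 c) :
    p • pairCoc P g c ∈ levCoboundaries₂ 𝒯 C := by
  have hε : ∀ σ, P.ε (p • P.sec (c σ)) = 0 := fun σ => by rw [map_nsmul, hp]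
  rw [mem_levCoboundaries₂_iff]
  refine ⟨fun σ => g.hom (P.incInv (p • P.sec (c σ))),
    (pb_isLevel₁_sec P c hl).comp (fun x => g.hom (P.incInv (p • x))), ?_⟩
  rw [← pb_pairLift_inc]
  funext στ
  simp only [pairCoc, pairLift, Pi.smul_apply]
  rw [← map_nsmul, ← pb_incInv_nsmul P p (pb_ε_d₁₂ P _ (pb_ε_sec_cocycle P c hc) _)]
  congr 2
  have h1 : (fun σ => P.inc.hom (P.incInv (p • P.sec (c σ)))) = p • (fun σ => P.sec (c σ)) :=
    funext fun σ => P.inc_incInv (hε σ)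
  rw [h1, map_nsmul]
  rfl

end PB

/-- **F3** -/
theorem stmtPairBasic : StmtPairBasic := by
  intro G _ 𝒯 k _ A' P C
  exact ⟨fun g ct h1 h2 => pb_clause1 P g ct h1 h2,
    fun g ct ct' h1 h2 h3 h4 => pb_clause2 P g ct ct' h1 h2 h3 h4,
    fun g g' c => pb_clause3 P g g' c,
    fun g c c' h1 h2 h3 h4 => pb_clause4 P g c c' h1 h2 h3 h4,
    fun g c h => pb_clause5 P g c h,
    fun h c h1 h2 => pb_clause6 P h c h1 h2,
    fun p hp g c h1 h2 => pb_clause7 P p hp g c h1 h2⟩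

end Fermat.Agent.PT.F

end
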