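import Fermat.Agent.PT.F.Pair

/-!
# PT-F / F3-H1: the pairing on classes

`Pg g [c] := inv [pairCoc P g c]`, where `inv : H²_lev(G, C)[p] → 𝔽_p` is the injective map of
`exists_inv` (Level.lean).  Well defined and additive by `StmtPairBasic`.
-/

set_option autoImplicit false

noncomputable section

namespace Fermat.Agent.PT.F

open CategoryTheory groupCohomology Fermat.Agent.PT

theorem isLevel₁_sub {G : Type} [Group G] {𝒯 : Tower G} {X : Type*} [AddGroup X]
    {f f' : G → X} (hf : IsLevel₁ 𝒯 f) (hf' : IsLevel₁ 𝒯 f') : IsLevel₁ 𝒯 (f - f') := by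
  obtain ⟨U, hU, h⟩ := hf
  obtain ⟨U', hU', h'⟩ := hf'
  refine ⟨U ⊓ U', 𝒯.inf_mem U U' hU hU', fun g s hs => ?_⟩
  simp only [Pi.sub_apply]
  rw [h g s hs.1, h' g s hs.2]

/-- **F3-H1**. -/
theorem stmtPairH1_of (hB : StmtPairBasic) (hCyc : StmtH2pCyclic) : StmtPairH1 := by
  intro p _ G _ ι _ Gloc _ D A' P
  classical
  obtain ⟨h1, -, h3, h4, h5, -, h7⟩ := hB G D.𝒯 (ZMod p) A' P D.C
  have hX : IsDiscrete D.𝒯 D.C := D.C_discrete
  have hcm : HasPFund D.𝒯 D.C p := fun U _ hU => D.cm_glob U hU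
  obtain ⟨inv, hinv⟩ := exists_inv hCyc p hX hcm
  have hpA : ∀ a : A'.V, p • a = 0 := by
    intro a
    rw [← Nat.cast_smul_eq_nsmul (ZMod p) p a, ZMod.natCast_self, zero_smul]
  -- the pairing cocycle is a level cocycle
  have hcoc : ∀ (g : P.M₁ ⟶ D.C) (c : G → A'.V), c ∈ cocycles₁ A' → IsLevel₁ D.𝒯 c →
      pairCoc P g c ∈ levCocycles₂ D.𝒯 D.C := by
    intro g c hc hl
    refine h1 g (fun σ => P.sec (c σ)) (hl.comp P.sec) ?_
    have : (fun σ => P.ε (P.sec (c σ))) = c := funext fun σ => P.ε_sec (c σ)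
    rw [this]
    exact hc
  -- the class of the pairing cocycle, as an element of the `p`-torsion of `levH2`
  let cls : ∀ (g : P.M₁ ⟶ D.C) (c : G → A'.V), c ∈ cocycles₁ A' → IsLevel₁ D.𝒯 c →
      pTors p (levH2 D.𝒯 D.C) := fun g c hc hl =>
    ⟨levH2π D.𝒯 D.C ⟨pairCoc P g c, hcoc g c hc hl⟩, by
      rw [mem_pTors, ← map_nsmul]
      exact (levH2π_eq_zero_iff D.𝒯 D.C _).2 (h7 p hpA g c hc hl)⟩
  have hcls_val : ∀ g c hc hl, ((cls g c hc hl : pTors p (levH2 D.𝒯 D.C)) : levH2 D.𝒯 D.C)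
      = levH2π D.𝒯 D.C ⟨pairCoc P g c, hcoc g c hc hl⟩ := fun _ _ _ _ => rfl
  have hcls_zero : ∀ g c hc hl, cls g c hc hl = 0 ↔ pairCoc P g c ∈ levCoboundaries₂ D.𝒯 D.C := by
    intro g c hc hl
    rw [← levH2π_eq_zero_iff D.𝒯 D.C ⟨pairCoc P g c, hcoc g c hc hl⟩, ← hcls_val g c hc hl]
    exact ⟨fun h => by rw [h]; rfl, fun h => Subtype.ext h⟩
  -- difference of classes
  have hcls_eq : ∀ g c c' hc hl hc' hl',
      pairCoc P g c - pairCoc P g c' ∈ levCoboundaries₂ D.𝒯 D.C →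
      cls g c hc hl = cls g c' hc' hl' := by
    intro g c c' hc hl hc' hl' hd
    apply Subtype.ext
    rw [hcls_val g c hc hl, hcls_val g c' hc' hl', ← sub_eq_zero, ← map_sub,
      levH2π_eq_zero_iff]
    exact hd
  -- additivity in `c`
  have hcls_add : ∀ g c c' hc hl hc' hl',
      cls g (c + c') ((cocycles₁ A').add_mem hc hc') (hl.add hl')
        = cls g c hc hl + cls g c' hc' hl' := by
    intro g c c' hc hl hc' hl'
    apply Subtype.ext
    rw [AddSubgroup.coe_add, hcls_val g c hc hl, hcls_val g c' hc' hl',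
      hcls_val g (c + c') ((cocycles₁ A').add_mem hc hc') (hl.add hl'), ← map_add,
      ← sub_eq_zero, ← map_sub, levH2π_eq_zero_iff]
    exact h4 g c c' hc hc' hl hl'
  -- independence of the representative
  have hcls_indep : ∀ g c c' hc hl hc' hl',
      c - c' ∈ coboundaries₁ A' → cls g c hc hl = cls g c' hc' hl' := by
    intro g c c' hc hl hc' hl' hb
    have hbc : c - c' ∈ cocycles₁ A' := coboundaries₁_le_cocycles₁ A' hb
    have hbl : IsLevel₁ D.𝒯 (c - c') := isLevel₁_sub hl hl'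
    have e : c' + (c - c') = c := by abel
    have h0 : cls g (c - c') hbc hbl = 0 := (hcls_zero g _ hbc hbl).2 (h5 g _ hb)
    have := hcls_add g c' (c - c') hc' hl' hbc hbl
    rw [h0, add_zero] at this
    rw [← this]
    congr 1
    exact e.symm
  -- additivity in `g`
  have hcls_addg : ∀ g g' c hc hl,
      cls (g + g') c hc hl = cls g c hc hl + cls g' c hc hl := by
    intro g g' c hc hl
    apply Subtype.ext
    rw [AddSubgroup.coe_add, hcls_val g c hc hl, hcls_val g' c hc hl,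
      hcls_val (g + g') c hc hl, ← map_add]
    exact congrArg _ (Subtype.ext (h3 g g' c))
  -- representatives
  have hrep : ∀ x : ↥(levH1 D.𝒯 A'), ∃ c : cocycles₁ A', IsLevel₁ D.𝒯 (c : G → A'.V) ∧
      (H1π A').hom c = x := fun x => (mem_levH1_iff D.𝒯 A' _).1 x.2
  choose rep hrepl hrepx using hrep
  have hrep_eq : ∀ (x : ↥(levH1 D.𝒯 A')) (c : cocycles₁ A') (hl : IsLevel₁ D.𝒯 (c : G → A'.V)),
      (H1π A').hom c = x → ∀ g, cls g (rep x) (rep x).2 (hrepl x) = cls g c c.2 hl := by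
    intro x c hl hx g
    have : (H1π A').hom (rep x) = (H1π A').hom c := by rw [hrepx, hx]
    exact hcls_indep g _ _ (rep x).2 (hrepl x) c.2 hl ((H1π_eq_iff _ _).1 this)
  -- the pairing
  let F : (P.M₁ ⟶ D.C) → (↥(levH1 D.𝒯 A') →+ ZMod p) := fun g =>
    AddMonoidHom.mk' (fun x => inv (cls g (rep x) (rep x).2 (hrepl x))) (by
      intro x y
      have hxy : (H1π A').hom (rep x + rep y) = ((x + y : ↥(levH1 D.𝒯 A')) : H1 A') := by
        rw [map_add, hrepx, hrepx]
        rfl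
      rw [hrep_eq (x + y) (rep x + rep y) ((hrepl x).add (hrepl y)) hxy g, ← map_add]
      congr 1
      exact hcls_add g _ _ (rep x).2 (hrepl x) (rep y).2 (hrepl y))
  refine ⟨AddMonoidHom.mk' (fun g => (F g).toZModLinearMap p) ?_, ?_⟩
  · intro g g'
    apply LinearMap.ext
    intro x
    show inv (cls (g + g') (rep x) (rep x).2 (hrepl x))
      = inv (cls g (rep x) (rep x).2 (hrepl x)) + inv (cls g' (rep x) (rep x).2 (hrepl x))
    exact (congrArg inv (hcls_addg g g' _ (rep x).2 (hrepl x))).trans (map_add inv _ _)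
  · intro g c hc
    show inv (cls g (rep _) (rep _).2 (hrepl _)) = 0 ↔ _
    rw [hrep_eq _ c hc rfl g, ← hcls_zero g c c.2 hc]
    constructor
    · intro h
      exact hinv (by rw [h, map_zero])
    · intro h
      rw [h, map_zero]

end Fermat.Agent.PT.F

end
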