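/-
PT-F §6 (the exact sequence  ⊕_v 𝔈_v → 𝔈 —∂→ H²_lev(G, A) → ∏_v H²_lev(G_v, A)) — INTERFACE FILE.
Owner of §6: helper55.  Mathematics: NOTES/PT-F-blueprint.md §6.  Definitions: PT/F/Defs.lean.
Statements only.  A piece `X` is DONE when `theorem stmtX : StmtX` is landed (own file
`Fermat/Agent/PT/F/Seq<X>.lean`, namespace `Fermat.Agent.PT.F`, sorry-free).

Everything is stated on cochain FUNCTIONS.  `∂` is the relation `IsDel D A P g w`
("the level 2-cocycle `w : G × G → A` represents `∂ g`", `g : M₁ ⟶ C`).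
-/
import Fermat.Agent.PT.F.Defs

set_option autoImplicit false

noncomputable section

namespace Fermat.Agent.PT.F

open CategoryTheory groupCohomology Fermat.Agent.PT

variable {p : ℕ} {G : Type} [Group G] {ι : Type} {Gloc : ι → Type}
  [∀ v, Group (Gloc v)]

/-- restriction of a 2-cochain to the local group `G_v` -/
def resTwo (D : PTDatum p G ι Gloc) {X : Type} (v : ι) (w : G × G → X) : Gloc v × Gloc v → X :=
  fun dd => w (D.r v dd.1, D.r v dd.2)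

/-- restriction of a 1-cochain to the local group `G_v` -/
def resOne (D : PTDatum p G ι Gloc) {X : Type} (v : ι) (c : G → X) : Gloc v → X :=
  fun d => c (D.r v d)

/-- `M` is trivial on some level -/
def IsLevTriv (𝒯 : Tower G) (M : Rep.{0} ℤ G) : Prop :=
  ∃ U ∈ 𝒯.lev, ∀ s ∈ U, ∀ m : M.V, M.ρ s m = m

/-! ### The cohomological inputs (proved in §1, §5 of the blueprint: Shapiro + Hilbert 90 + cm_glob) -/

/-- **(In1)** `H¹_lev(G, Hom_ℤ(M, C))` is prime-to-`p` torsion. -/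
def In1 (D : PTDatum p G ι Gloc) (M : Rep.{0} ℤ G) : Prop :=
  ∀ c : G → (M.V →+ D.C.V), IsLevel₁ D.𝒯 c → (∀ στ, dOne M D.C c στ = 0) →
    ∃ n : ℕ, ¬ p ∣ n ∧ ∃ t : M.V →+ D.C.V, ∀ σ, n • c σ = dZero M D.C t σ

/-- **(In2)** Shapiro injectivity in degree 2 for `Hom_ℤ(M, J)` on cocycles killed by `p`:
if all local components are level coboundaries (for the BIG local towers), then the cocycle is
a level coboundary. -/
def In2 (D : PTDatum p G ι Gloc) (M : Rep.{0} ℤ G) : Prop :=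
  ∀ y : G × G → (M.V →+ (PTJ D).V), IsLevel₂ D.𝒯 y →
    (∀ σ τ ρ : G, conjAdd M (PTJ D) σ (y (τ, ρ)) - y (σ * τ, ρ) + y (σ, τ * ρ) - y (σ, τ) = 0) →
    (∀ στ, p • y στ = 0) →
    (∀ v, ∃ t : Gloc v → (M.V →+ (D.Jloc v).V), IsLevel₁ (D.𝒯loc v) t ∧
      ∀ dd, (ev D v).comp (resTwo D v y dd) = dOne (Rep.res (D.r v) M) (D.Jloc v) t dd) →
    ∃ t : G → (M.V →+ (PTJ D).V), IsLevel₁ D.𝒯 t ∧ ∀ στ, y στ = dOne M (PTJ D) t στ

/-- **(In3)** Shapiro injectivity in degree 1 for `Hom_ℤ(M, J)`. -/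
def In3 (D : PTDatum p G ι Gloc) (M : Rep.{0} ℤ G) : Prop :=
  ∀ y : G → (M.V →+ (PTJ D).V), IsLevel₁ D.𝒯 y → (∀ στ, dOne M (PTJ D) y στ = 0) →
    (∀ v, ∃ t : M.V →+ (D.Jloc v).V,
      ∀ d, (ev D v).comp (resOne D v y d) = dZero (Rep.res (D.r v) M) (D.Jloc v) t d) →
    ∃ t : M.V →+ (PTJ D).V, ∀ σ, y σ = dZero M (PTJ D) t σ

/-- **(In4)** `H¹_lev(G_v, Hom_ℤ(M, J_v)) = 0` (Shapiro + Hilbert 90). -/
def In4 (D : PTDatum p G ι Gloc) (M : Rep.{0} ℤ G) : Prop :=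
  ∀ (v : ι) (c : Gloc v → (M.V →+ (D.Jloc v).V)), IsLevel₁ (D.𝒯loc v) c →
    (∀ dd, dOne (Rep.res (D.r v) M) (D.Jloc v) c dd = 0) →
    ∃ t : M.V →+ (D.Jloc v).V, ∀ d, c d = dZero (Rep.res (D.r v) M) (D.Jloc v) t d

/-- all inputs for a presentation -/
structure SeqInputs (D : PTDatum p G ι Gloc) (A : Rep.{0} (ZMod p) G)
    (P : Presentation D.𝒯 (A.dualTwist D.χ)) : Prop where
  in1 : In1 D P.M₀
  in2 : In2 D P.M₀
  in3₀ : In3 D P.M₀
  in3₁ : In3 D P.M₁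
  in4 : In4 D P.M₀

/-! ### The pieces of §6 -/

/-- **S0a** (extension lemma, pure algebra): if `E` is `p`-divisible, `M₁ ⊆ M₀` and
`p • M₀ ⊆ M₁`, then every additive map `M₁ → E` extends to `M₀`. -/
def StmtExt : Prop :=
  ∀ (p : ℕ), p.Prime → ∀ (M₀ M₁ E : Type) [AddCommGroup M₀] [AddCommGroup M₁] [AddCommGroup E]
    (inc : M₁ →+ M₀), Function.Injective inc →
    (∀ m : M₀, ∃ m₁ : M₁, inc m₁ = p • m) → (∀ e : E, ∃ e' : E, p • e' = e) →
    ∀ z : M₁ →+ E, ∃ zt : M₀ →+ E, ∀ m₁, zt (inc m₁) = z m₁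

/-- **S0b** (`κ` identifies `A` with the maps `M₀ → E` vanishing on `M₁`): additivity,
equivariance, injectivity and surjectivity onto `{h | h ∘ inc = 0}`. -/
def StmtKappa : Prop :=
  ∀ (p : ℕ) [Fact p.Prime] (G : Type) [Group G] (ι : Type) [Fintype ι] (Gloc : ι → Type)
    [∀ v, Group (Gloc v)] (D : PTDatum p G ι Gloc)
    (A : Rep.{0} (ZMod p) G) [FiniteDimensional (ZMod p) A]
    (P : Presentation D.𝒯 (A.dualTwist D.χ)),
    (∀ (a b : A.V) (m : P.M₀.V), kappaFun D A P (a + b) m = kappaFun D A P a m + kappaFun D A P b m) ∧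
    (∀ (a : A.V) (m m' : P.M₀.V),
      kappaFun D A P a (m + m') = kappaFun D A P a m + kappaFun D A P a m') ∧
    (∀ (σ : G) (a : A.V) (m : P.M₀.V),
      kappaFun D A P (A.ρ σ a) m = D.E.ρ σ (kappaFun D A P a (P.M₀.ρ σ⁻¹ m))) ∧
    (∀ a : A.V, (∀ m, kappaFun D A P a m = 0) → a = 0) ∧
    (∀ h : P.M₀.V →+ D.E.V, (∀ m₁, h (P.inc.hom m₁) = 0) → ∃ a : A.V, ∀ m, kappaFun D A P a m = h m)

/-- **S1** (`∂ g` exists): every `g : M₁ ⟶ C` has a level 2-cocycle `w` with `IsDel g w`. -/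
def StmtDelExists : Prop :=
  ∀ (p : ℕ) [Fact p.Prime] (G : Type) [Group G] (ι : Type) [Fintype ι] (Gloc : ι → Type)
    [∀ v, Group (Gloc v)] (D : PTDatum p G ι Gloc)
    (A : Rep.{0} (ZMod p) G) [FiniteDimensional (ZMod p) A]
    (P : Presentation D.𝒯 (A.dualTwist D.χ)) (g : P.M₁ ⟶ D.C),
    ∃ w : G × G → A.V, w ∈ levCocycles₂ D.𝒯 A ∧ IsDel D A P g w

/-- **S2** (`∂ g` is well defined): two representatives differ by a level coboundary. -/
def StmtDelUnique : Prop :=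
  ∀ (p : ℕ) [Fact p.Prime] (G : Type) [Group G] (ι : Type) [Fintype ι] (Gloc : ι → Type)
    [∀ v, Group (Gloc v)] (D : PTDatum p G ι Gloc)
    (A : Rep.{0} (ZMod p) G) [FiniteDimensional (ZMod p) A]
    (P : Presentation D.𝒯 (A.dualTwist D.χ)) (g : P.M₁ ⟶ D.C) (w w' : G × G → A.V),
    IsDel D A P g w → IsDel D A P g w' → w - w' ∈ levCoboundaries₂ D.𝒯 A

/-- **S3** (`∂` is additive). -/
def StmtDelAdd : Prop :=
  ∀ (p : ℕ) [Fact p.Prime] (G : Type) [Group G] (ι : Type) [Fintype ι] (Gloc : ι → Type)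
    [∀ v, Group (Gloc v)] (D : PTDatum p G ι Gloc)
    (A : Rep.{0} (ZMod p) G) [FiniteDimensional (ZMod p) A]
    (P : Presentation D.𝒯 (A.dualTwist D.χ)) (g g' : P.M₁ ⟶ D.C) (w w' : G × G → A.V),
    IsDel D A P g w → IsDel D A P g' w' → IsDel D A P (g + g') (w + w')

/-- **S4** (`∂` kills `res Hom_G(M₀, C)`). -/
def StmtDelRes : Prop :=
  ∀ (p : ℕ) [Fact p.Prime] (G : Type) [Group G] (ι : Type) [Fintype ι] (Gloc : ι → Type)
    [∀ v, Group (Gloc v)] (D : PTDatum p G ι Gloc)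
    (A : Rep.{0} (ZMod p) G) [FiniteDimensional (ZMod p) A]
    (P : Presentation D.𝒯 (A.dualTwist D.χ)) (h : P.M₀ ⟶ D.C),
    IsDel D A P (P.inc ≫ h) 0

/-- **S5** (`∂ ∘ a = 0`): `∂` kills the classes coming from the local groups `𝔈_v`. -/
def StmtDelHat : Prop :=
  ∀ (p : ℕ) [Fact p.Prime] (G : Type) [Group G] (ι : Type) [Fintype ι] (Gloc : ι → Type)
    [∀ v, Group (Gloc v)] (D : PTDatum p G ι Gloc)
    (A : Rep.{0} (ZMod p) G) [FiniteDimensional (ZMod p) A]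
    (P : Presentation D.𝒯 (A.dualTwist D.χ)) (hM : IsLevTriv D.𝒯 P.M₁)
    (v : ι) (gv : Rep.res (D.r v) P.M₁ ⟶ D.Jloc v),
    IsDel D A P (hat D P.M₁ hM v gv ≫ D.π) 0

/-- **S6** (`loc ∘ ∂ = 0`): a representative of `∂ g` is locally a level coboundary. -/
def StmtLocDel : Prop :=
  ∀ (p : ℕ) [Fact p.Prime] (G : Type) [Group G] (ι : Type) [Fintype ι] (Gloc : ι → Type)
    [∀ v, Group (Gloc v)] (D : PTDatum p G ι Gloc)
    (A : Rep.{0} (ZMod p) G) [FiniteDimensional (ZMod p) A]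
    (P : Presentation D.𝒯 (A.dualTwist D.χ)) (g : P.M₁ ⟶ D.C) (w : G × G → A.V),
    IsDel D A P g w → ∀ v, resTwo D v w ∈ levCoboundaries₂ (D.𝒯loc v) (Rep.res (D.r v) A)

/-- **S7** (exactness at `𝔈`): if `∂ g = 0` then `g ∈ im(⊕_v 𝔈_v) + res Hom_G(M₀, C)`. -/
def StmtExactE : Prop :=
  ∀ (p : ℕ) [Fact p.Prime] (G : Type) [Group G] (ι : Type) [Fintype ι] (Gloc : ι → Type)
    [∀ v, Group (Gloc v)] (D : PTDatum p G ι Gloc)
    (A : Rep.{0} (ZMod p) G) [FiniteDimensional (ZMod p) A]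
    (P : Presentation D.𝒯 (A.dualTwist D.χ)) (hM : IsLevTriv D.𝒯 P.M₁),
    SeqInputs D A P →
    ∀ (g : P.M₁ ⟶ D.C) (w : G × G → A.V), IsDel D A P g w → w ∈ levCoboundaries₂ D.𝒯 A →
      ∃ (gv : ∀ v, Rep.res (D.r v) P.M₁ ⟶ D.Jloc v) (h : P.M₀ ⟶ D.C),
        g = (∑ v, hat D P.M₁ hM v (gv v) ≫ D.π) + P.inc ≫ h

/-- **S8** (exactness at `H²_lev(G, A)`): a level 2-cocycle which is locally a level coboundary
at every `v` represents `∂ g` for some `g`. -/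
def StmtExactH2 : Prop :=
  ∀ (p : ℕ) [Fact p.Prime] (G : Type) [Group G] (ι : Type) [Fintype ι] (Gloc : ι → Type)
    [∀ v, Group (Gloc v)] (D : PTDatum p G ι Gloc)
    (A : Rep.{0} (ZMod p) G) [FiniteDimensional (ZMod p) A]
    (P : Presentation D.𝒯 (A.dualTwist D.χ)),
    SeqInputs D A P →
    ∀ w : G × G → A.V, w ∈ levCocycles₂ D.𝒯 A →
      (∀ v, resTwo D v w ∈ levCoboundaries₂ (D.𝒯loc v) (Rep.res (D.r v) A)) →
      ∃ g : P.M₁ ⟶ D.C, IsDelClass D A P g w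

end Fermat.Agent.PT.F

end
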