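/-
PT-F §6, piece S3 (helper81): `∂` is additive.
`stmtDelAdd_of : StmtKappa → StmtDelAdd`.
-/
import Fermat.Agent.PT.F.SeqPlan

set_option autoImplicit false

noncomputable section

namespace Fermat.Agent.PT.F

open CategoryTheory groupCohomology Fermat.Agent.PT

attribute [local instance 1100] Rep.hV2

section

variable {G : Type} [Group G]

/-- `dZero` is additive in the map. -/
theorem delAdd_dZero_add (M Y : Rep.{0} ℤ G) (h h' : M.V →+ Y.V) (σ : G) :
    dZero M Y (h + h') σ = dZero M Y h σ + dZero M Y h' σ := by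
  unfold dZero
  rw [map_add]
  abel

/-- `dOne` is additive in the cochain. -/
theorem delAdd_dOne_add (M Y : Rep.{0} ℤ G) (t t' : G → (M.V →+ Y.V)) (στ : G × G) :
    dOne M Y (t + t') στ = dOne M Y t στ + dOne M Y t' στ := by
  unfold dOne
  simp only [Pi.add_apply, map_add]
  abel

end

/-- **S3**: `∂` is additive (given the additivity of `κ`, clause 1 of `StmtKappa`). -/
theorem stmtDelAdd_of (hκ : StmtKappa) : StmtDelAdd := by
  intro p _ G _ ι _ Gloc _ D A _ P g g' w w' hw hw'
  obtain ⟨gt, zt, h1, h2, h3, h4⟩ := hw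
  obtain ⟨gt', zt', h1', h2', h3', h4'⟩ := hw'
  have hκadd := (hκ p G ι Gloc D A P).1
  refine ⟨gt + gt', zt + zt', ?_, h2.add h2', ?_, ?_⟩
  · intro m
    rw [AddMonoidHom.add_apply, map_add, h1, h1', rep_add_apply]
  · intro σ m
    rw [delAdd_dZero_add, AddMonoidHom.add_apply, ← h3, ← h3', ← map_add]
    rfl
  · intro στ m
    rw [delAdd_dOne_add, AddMonoidHom.add_apply, ← h4, ← h4', Pi.add_apply, hκadd]

end Fermat.Agent.PT.F

end
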