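/-
PT-F §6, piece S5 (helper81): `∂ ∘ a = 0` — `∂` kills the classes coming from the local
groups `𝔈_v`.  `stmtDelHat : StmtDelHat`.
-/
import Fermat.Agent.PT.F.SeqPlan

set_option autoImplicit false

noncomputable section

namespace Fermat.Agent.PT.F

open CategoryTheory groupCohomology Fermat.Agent.PT

attribute [local instance 1100] Rep.hV2

section

variable {G : Type} [Group G]

/-- `dZero` of (the additive map underlying) a morphism vanishes. -/
theorem delHat_dZero_homAdd {M Y : Rep.{0} ℤ G} (f : M ⟶ Y) (σ : G) :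
    dZero M Y (homAdd f) σ = 0 := by
  ext m
  unfold dZero
  rw [AddMonoidHom.sub_apply, conjAdd_apply, homAdd_apply, homAdd_apply,
    AddMonoidHom.zero_apply, sub_eq_zero]
  have h := Rep.hom_comm_apply f σ (M.ρ σ⁻¹ m)
  rw [← h]
  congr 1
  rw [← Module.End.mul_apply, ← map_mul, mul_inv_cancel, map_one, Module.End.one_apply]

/-- `dOne` of the zero cochain vanishes. -/
theorem delHat_dOne_zero (M Y : Rep.{0} ℤ G) (στ : G × G) :
    dOne M Y (0 : G → (M.V →+ Y.V)) στ = 0 := by
  unfold dOne
  simp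

end

section

variable {p : ℕ} {G : Type} [Group G] {ι : Type} {Gloc : ι → Type}
  [∀ v, Group (Gloc v)]

/-- `κ(0) = 0`. -/
theorem delHat_kappaFun_zero (D : PTDatum p G ι Gloc) (A : Rep.{0} (ZMod p) G)
    (P : Presentation D.𝒯 (A.dualTwist D.χ)) (m : P.M₀.V) : kappaFun D A P 0 m = 0 := by
  unfold kappaFun
  have h : (show Module.Dual (ZMod p) A.V from P.ε m) 0 = 0 := map_zero _
  rw [h]
  cases p with
  | zero => exact zero_smul ℕ D.ζ
  | succ n => rw [ZMod.val_zero]; exact zero_smul ℕ D.ζ

end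

/-- **S5**: `∂` kills the image of the local groups. -/
theorem stmtDelHat : StmtDelHat := by
  intro p _ G _ ι _ Gloc _ D A _ P hM v gv
  refine ⟨homAdd (hat D P.M₁ hM v gv), 0, fun m => rfl, isLevel₁_const D.𝒯 _, ?_, ?_⟩
  · intro σ m
    rw [delHat_dZero_homAdd]
    exact map_zero _
  · intro στ m
    rw [delHat_dOne_zero]
    exact delHat_kappaFun_zero D A P m

end Fermat.Agent.PT.F

end
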