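/-
PT-F §6, piece S4 (helper81): `∂` kills `res Hom_G(M₀, C)`.  `stmtDelRes : StmtDelRes`.
Also: the semilocal module `J` is discrete (`delRes_ptj_discrete`).
-/
import Fermat.Agent.PT.F.SeqPlan
import Fermat.Agent.PT.F.Level
import Fermat.Agent.PT.F.SeqDelHat

set_option autoImplicit false

noncomputable section

namespace Fermat.Agent.PT.F

open CategoryTheory groupCohomology Fermat.Agent.PT

attribute [local instance 1100] Rep.hV2

section

variable {p : ℕ} {G : Type} [Group G] {ι : Type} {Gloc : ι → Type}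
  [∀ v, Group (Gloc v)]

/-- The action on the semilocal module is right translation. -/
theorem delRes_ptj_rho_apply (D : PTDatum p G ι Gloc) (s : G) (x : (PTJ D).V) (v : ι) (g : G) :
    ((PTJ D).ρ s x).1 v g = x.1 v (g * s) := rfl

/-- The semilocal module `J` is discrete (for finitely many places). -/
theorem delRes_ptj_discrete [Fintype ι] (D : PTDatum p G ι Gloc) (x : (PTJ D).V) :
    ∃ U ∈ D.𝒯.lev, ∀ s ∈ U, (PTJ D).ρ s x = x := by
  classical
  have hx : ∀ v, IsLevel₁ D.𝒯 (x.1 v) := fun v => (x.2 v).2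
  choose U hU hUx using hx
  refine ⟨Finset.univ.inf U, tower_finset_inf_mem D.𝒯 _ _ fun v _ => hU v, fun s hs => ?_⟩
  apply Subtype.ext
  funext v g
  rw [delRes_ptj_rho_apply]
  exact hUx v g s ((Finset.inf_le (Finset.mem_univ v) : Finset.univ.inf U ≤ U v) hs)

/-- Finitely many elements of `J` are fixed by a common level. -/
theorem delRes_ptj_discrete_fin [Fintype ι] (D : PTDatum p G ι Gloc) {n : ℕ}
    (x : Fin n → (PTJ D).V) :
    ∃ U ∈ D.𝒯.lev, ∀ s ∈ U, ∀ j, (PTJ D).ρ s (x j) = x j := by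
  classical
  choose U hU hUx using fun j => delRes_ptj_discrete D (x j)
  refine ⟨Finset.univ.inf U, tower_finset_inf_mem D.𝒯 _ _ fun v _ => hU v, fun s hs j => ?_⟩
  exact hUx j s ((Finset.inf_le (Finset.mem_univ j) : Finset.univ.inf U ≤ U j) hs)

end

section

variable {G : Type} [Group G]

theorem delRes_rho_inv_cancel (M : Rep.{0} ℤ G) (σ : G) (m : M.V) :
    M.ρ σ (M.ρ σ⁻¹ m) = m := by
  rw [← Module.End.mul_apply, ← map_mul, mul_inv_cancel, map_one, Module.End.one_apply]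

theorem delRes_rho_mul (M : Rep.{0} ℤ G) (σ τ : G) (m : M.V) :
    M.ρ (σ * τ) m = M.ρ σ (M.ρ τ m) := by
  rw [map_mul, Module.End.mul_apply]

theorem delRes_dZero_apply (M Y : Rep.{0} ℤ G) (h : M.V →+ Y.V) (σ : G) (m : M.V) :
    dZero M Y h σ m = Y.ρ σ (h (M.ρ σ⁻¹ m)) - h m := rfl

theorem delRes_dOne_apply (M Y : Rep.{0} ℤ G) (t : G → (M.V →+ Y.V)) (στ : G × G) (m : M.V) :
    dOne M Y t στ m = Y.ρ στ.1 (t στ.2 (M.ρ στ.1⁻¹ m)) - t (στ.1 * στ.2) m + t στ.1 m := rfl

end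

/-- **S4**: `∂` kills the restrictions of `G`-morphisms `M₀ ⟶ C`. -/
theorem stmtDelRes : StmtDelRes := by
  intro p _ G _ ι _ Gloc _ D A _ P h
  classical
  -- the lift `h̃ : M₀ → J`
  choose xj hxj using fun j => D.π_surj (h.hom (P.basis₀ j))
  obtain ⟨ht, hht, -⟩ := P.basis₀_spec (PTJ D).V xj
  have hπ : ∀ m, D.π.hom (ht m) = h.hom m := by
    have h1 : ∀ j, ((homAdd D.π).comp ht) (P.basis₀ j) = h.hom (P.basis₀ j) := fun j => by
      rw [AddMonoidHom.comp_apply, homAdd_apply, hht j, hxj j]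
    have h2 : ∀ j, (homAdd h) (P.basis₀ j) = h.hom (P.basis₀ j) := fun j => rfl
    have := (P.basis₀_spec D.C.V (fun j => h.hom (P.basis₀ j))).unique h1 h2
    intro m
    exact DFunLike.congr_fun this m
  -- a level fixing the image of `h̃` and acting trivially on `M₀`
  obtain ⟨U₁, hU₁, hU₁x⟩ := delRes_ptj_discrete_fin D xj
  have hfix : ∀ s ∈ U₁, ∀ m, (PTJ D).ρ s (ht m) = ht m := by
    intro s hs
    have h1 : ∀ j, ((actAdd (PTJ D) s).comp ht) (P.basis₀ j) = xj j := fun j => by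
      rw [AddMonoidHom.comp_apply, actAdd_apply, hht j, hU₁x s hs j]
    have := (P.basis₀_spec (PTJ D).V xj).unique h1 hht
    intro m
    exact DFunLike.congr_fun this m
  -- the cochain `z̃`
  have hker : ∀ (σ : G) (m : P.M₀.V), ∃ e : D.E.V, D.i.hom e = dZero P.M₀ (PTJ D) ht σ m := by
    intro σ m
    refine (D.exact _).1 ?_
    rw [delRes_dZero_apply, map_sub, Rep.hom_comm_apply, hπ, hπ, ← Rep.hom_comm_apply,
      delRes_rho_inv_cancel, sub_self]
  choose z hz using hker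
  let zt : G → (P.M₀.V →+ D.E.V) := fun σ =>
    AddMonoidHom.mk' (z σ) (fun a b => D.i_injective (by
      rw [map_add, hz, hz, hz, map_add]))
  have hzt : ∀ σ m, D.i.hom (zt σ m) = dZero P.M₀ (PTJ D) ht σ m := fun σ m => hz σ m
  refine ⟨ht.comp (homAdd P.inc), zt, fun m => hπ _, ?_, ?_, ?_⟩
  · -- level
    refine ⟨U₁ ⊓ P.U₀, D.𝒯.inf_mem _ _ hU₁ P.U₀_mem, fun g s hs => ?_⟩
    ext m
    apply D.i_injective
    rw [hzt, hzt, delRes_dZero_apply, delRes_dZero_apply, mul_inv_rev, delRes_rho_mul,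
      delRes_rho_mul, P.triv₀ s⁻¹ (P.U₀.inv_mem hs.2), hfix s hs.1]
  · intro σ m
    rw [hzt, delRes_dZero_apply, delRes_dZero_apply]
    simp only [AddMonoidHom.comp_apply, homAdd_apply]
    rw [Rep.hom_comm_apply P.inc σ⁻¹ m]
  · intro στ m
    obtain ⟨σ, τ⟩ := στ
    rw [Pi.zero_apply, delHat_kappaFun_zero]
    symm
    apply D.i_injective
    rw [map_zero, delRes_dOne_apply, map_add, map_sub, Rep.hom_comm_apply, hzt, hzt, hzt,
      delRes_dZero_apply, delRes_dZero_apply, delRes_dZero_apply, map_sub, mul_inv_rev,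
      delRes_rho_mul, delRes_rho_mul]
    abel

end Fermat.Agent.PT.F

end
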