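/-
PT-F §6, piece S2 (helper67): `∂ g` is well defined.

Two witnesses `(g̃, z̃, w)`, `(g̃', z̃', w')` of `IsDel g`: `g̃ - g̃' = i ∘ e` with `e : M₁ → E`
(exactness of `E → J → C`), extend `e` to `ẽ : M₀ → E` (S0a: `E` is `p`-divisible, `p M₀ ⊆ M₁`);
`u σ := z̃ σ - z̃' σ - d⁰ẽ σ` vanishes on `M₁`, so `u σ = κ (c σ)` (S0b), `c` is a level
1-cochain and `κ (w - w') = d u = κ (d c)`.
-/
import Fermat.Agent.PT.F.SeqPlan
import Fermat.Agent.PT.F.SeqKappa
import Fermat.Agent.PT.F.SeqExt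
import Fermat.Agent.PT.F.SeqExactH2

set_option autoImplicit false

noncomputable section

namespace Fermat.Agent.PT.F

open CategoryTheory groupCohomology Fermat.Agent.PT

attribute [local instance 1100] Rep.hV2

section

variable {p : ℕ} {G : Type} [Group G] {ι : Type} {Gloc : ι → Type}
  [∀ v, Group (Gloc v)] (D : PTDatum p G ι Gloc)
  {A' : Rep.{0} (ZMod p) G} (P : Presentation D.𝒯 A')

lemma s2_basis_ext {Y : Type} [AddCommGroup Y] {h h' : P.M₀.V →+ Y}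
    (hb : ∀ j, h (P.basis₀ j) = h' (P.basis₀ j)) : h = h' :=
  (P.basis₀_spec Y (fun j => h' (P.basis₀ j))).unique hb (fun _ => rfl)

/-- `d⁰` of an additive map `M₀ → E` is a level cochain. -/
lemma s2_isLevel_dZero (t₀ : P.M₀.V →+ D.E.V) : IsLevel₁ D.𝒯 (dZero P.M₀ D.E t₀) := by
  have hE : IsDiscrete D.𝒯 D.E := D.E_discrete
  obtain ⟨U, hU, hUx⟩ := hE.exists_level_of_finite
    (Set.finite_range (fun j => t₀ (P.basis₀ j)))
  refine ⟨P.U₀ ⊓ U, D.𝒯.inf_mem _ _ P.U₀_mem hU, fun σ s hs => ?_⟩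
  have h1 : conjAdd P.M₀ D.E s t₀ = t₀ := by
    apply s2_basis_ext (P := P)
    intro j
    rw [conjAdd_apply, P.triv₀ s⁻¹ (P.U₀.inv_mem hs.1)]
    exact hUx _ ⟨j, rfl⟩ s hs.2
  unfold dZero
  rw [ExactH2.conjAdd_mul, h1]

end

/-- **S2** (`∂ g` is well defined), from S0a and S0b. -/
theorem stmtDelUnique_of (hK : StmtKappa) (hExt : StmtExt) : StmtDelUnique := by
  intro p _ G _ ι _ Gloc _ D A _ P g w w' hw hw'
  obtain ⟨hadd, haddm, hequiv, hinj, hsurj⟩ := hK p G ι Gloc D A P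
  have hk : ExactH2.KFacts D A P := ⟨hadd, haddm, hequiv⟩
  obtain ⟨gt, zt, hgt, hztL, hzt, hκ⟩ := hw
  obtain ⟨gt', zt', hgt', hztL', hzt', hκ'⟩ := hw'
  -- `g̃ - g̃' = i ∘ e`
  obtain ⟨e, he⟩ := ExactH2.exists_lift_i (D := D) (gt - gt') (by
    ext m
    show D.π.hom (gt m - gt' m) = 0
    rw [map_sub, hgt, hgt', sub_self])
  -- extend `e` to `M₀`
  obtain ⟨et, het⟩ := hExt p (Fact.out) P.M₀.V P.M₁.V D.E.V (homAdd P.inc) P.inc_injective
    (fun m => (kapEps_eq_zero_iff D A P (p • m)).1 (kapEps_nsmul D A P m)) D.E_div e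
  -- the difference cochain
  set u : G → (P.M₀.V →+ D.E.V) := fun σ => zt σ - zt' σ - dZero P.M₀ D.E et σ with hu
  have hu0 : ∀ σ m₁, u σ (P.inc.hom m₁) = 0 := by
    intro σ m₁
    apply D.i_injective
    have h1 : D.i.hom (et (P.inc.hom m₁)) = gt m₁ - gt' m₁ := by
      have := het m₁
      rw [homAdd_apply] at this
      rw [this]
      exact DFunLike.congr_fun he m₁
    have h2 : D.i.hom (et (P.M₀.ρ σ⁻¹ (P.inc.hom m₁))) =
        gt (P.M₁.ρ σ⁻¹ m₁) - gt' (P.M₁.ρ σ⁻¹ m₁) := by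
      rw [← Rep.hom_comm_apply P.inc σ⁻¹ m₁]
      have := het (P.M₁.ρ σ⁻¹ m₁)
      rw [homAdd_apply] at this
      rw [this]
      exact DFunLike.congr_fun he _
    simp only [hu, AddMonoidHom.sub_apply, map_sub, map_zero, hzt, hzt', ExactH2.dZero_apply,
      Rep.hom_comm_apply, h1, h2]
    abel
  choose c hc using fun σ => hsurj (u σ) (hu0 σ)
  have hkc : ∀ σ, ExactH2.kap hk (c σ) = u σ := fun σ => by
    ext m
    exact hc σ m
  have hkinj : Function.Injective (ExactH2.kap hk) := by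
    rw [injective_iff_map_eq_zero]
    intro a ha
    exact hinj a (fun m => DFunLike.congr_fun ha m)
  -- `u` is a level cochain
  have huL : IsLevel₁ D.𝒯 u := by
    have h1 : IsLevel₁ D.𝒯 (fun σ => zt σ - zt' σ) := by
      obtain ⟨U, hU, h⟩ := hztL
      obtain ⟨U', hU', h'⟩ := hztL'
      exact ⟨U ⊓ U', D.𝒯.inf_mem U U' hU hU', fun g s hs => by
        show zt (g * s) - zt' (g * s) = zt g - zt' g
        rw [h g s hs.1, h' g s hs.2]⟩
    obtain ⟨U, hU, h⟩ := h1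
    obtain ⟨U', hU', h'⟩ := s2_isLevel_dZero D P et
    exact ⟨U ⊓ U', D.𝒯.inf_mem U U' hU hU', fun g s hs => by
      have := h g s hs.1
      show zt (g * s) - zt' (g * s) - dZero P.M₀ D.E et (g * s) =
        zt g - zt' g - dZero P.M₀ D.E et g
      rw [h' g s hs.2]
      exact congrArg (· - dZero P.M₀ D.E et g) this⟩
  have hcL : IsLevel₁ D.𝒯 c := by
    obtain ⟨U, hU, h⟩ := huL
    exact ⟨U, hU, fun g s hs => hkinj (by rw [hkc, hkc, h g s hs])⟩
  refine (mem_levCoboundaries₂_iff D.𝒯 A _).2 ⟨c, hcL, ?_⟩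
  funext στ
  obtain ⟨σ, τ⟩ := στ
  apply hkinj
  have h1 : ExactH2.kap hk ((w - w') (σ, τ)) =
      dOne P.M₀ D.E zt (σ, τ) - dOne P.M₀ D.E zt' (σ, τ) := by
    ext m
    show kappaFun D A P (w (σ, τ) - w' (σ, τ)) m = _
    have := DFunLike.congr_fun (map_sub (ExactH2.kap hk) (w (σ, τ)) (w' (σ, τ))) m
    simp only [ExactH2.kap_apply, AddMonoidHom.sub_apply] at this
    rw [this, hκ, hκ']
    rfl
  have h2 : ExactH2.kap hk ((d₁₂ A).hom c (σ, τ)) = dOne P.M₀ D.E u (σ, τ) := by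
    rw [d₁₂_hom_apply, map_add, map_sub, ExactH2.kap_conj, hkc, hkc, hkc]
    rfl
  have h3 : dOne P.M₀ D.E u (σ, τ) =
      dOne P.M₀ D.E zt (σ, τ) - dOne P.M₀ D.E zt' (σ, τ) := by
    have e1 := ExactH2.dOne_sub P.M₀ D.E (fun σ => zt σ - zt' σ) (dZero P.M₀ D.E et) (σ, τ)
    have e2 := ExactH2.dOne_sub P.M₀ D.E zt zt' (σ, τ)
    calc dOne P.M₀ D.E u (σ, τ)
        = dOne P.M₀ D.E (fun σ => zt σ - zt' σ) (σ, τ) -
            dOne P.M₀ D.E (dZero P.M₀ D.E et) (σ, τ) := e1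
      _ = dOne P.M₀ D.E zt (σ, τ) - dOne P.M₀ D.E zt' (σ, τ) := by
          rw [ExactH2.dOne_dZero, sub_zero, e2]
  rw [h2, h3, h1]

/-- **S2**, unconditional. -/
theorem stmtDelUnique : StmtDelUnique := stmtDelUnique_of stmtKappa stmtExt

end Fermat.Agent.PT.F

end
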