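/-
PT-F §6, piece S7 (helper32): exactness at `𝔈`.

If `∂ g = 0` (a representative `w` of `∂ g` is a level coboundary `d b`), then
`g ∈ im(⊕_v 𝔈_v) + res Hom_G(M₀, C)`.

Proof (blueprint §6, (F6c)): `z' := z̃ - κ ∘ b` is a level 1-cocycle `G → Hom(M₀, E)` extending
`z`; `i ∘ z'` is locally a coboundary (In4), hence a coboundary `d⁰ t` (In3 for `M₀`);
`h := π ∘ t` is equivariant, `u := g̃ - t ∘ inc : M₁ → J` is equivariant, and an equivariant map
into the semilocal module is the sum of the `hat`s of its local components.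
The properties of `κ` (S0b, `StmtKappa`) are taken as a hypothesis.
-/
import Fermat.Agent.PT.F.SeqPlan

set_option autoImplicit false

noncomputable section

namespace Fermat.Agent.PT.F

open CategoryTheory groupCohomology Fermat.Agent.PT

namespace ExactE

attribute [local instance 1100] Rep.hV2

variable {p : ℕ} {G : Type} [Group G] {ι : Type} {Gloc : ι → Type}
  [∀ v, Group (Gloc v)] (D : PTDatum p G ι Gloc)

/-- evaluation at `(v, σ)`, as an additive map `J → J_v` -/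
def evAt (v : ι) (σ : G) : (PTJ D).V →+ (D.Jloc v).V where
  toFun f := f.1 v σ
  map_zero' := rfl
  map_add' _ _ := rfl

@[simp] lemma evAt_apply (v : ι) (σ : G) (f : (PTJ D).V) : evAt D v σ f = f.1 v σ := rfl

lemma J_ext {f f' : (PTJ D).V} (h : ∀ v σ, f.1 v σ = f'.1 v σ) : f = f' :=
  Subtype.ext (funext fun v => funext fun σ => h v σ)

lemma J_ρ_apply (τ : G) (f : (PTJ D).V) (v : ι) (σ : G) :
    ((PTJ D).ρ τ f).1 v σ = f.1 v (σ * τ) := rfl

/-- `ev_v` is `G_v`-equivariant. -/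
lemma ev_ρ (v : ι) (d : Gloc v) (f : (PTJ D).V) :
    ev D v ((PTJ D).ρ (D.r v d) f) = (D.Jloc v).ρ d (ev D v f) := by
  change f.1 v (1 * D.r v d) = (D.Jloc v).ρ d (f.1 v 1)
  rw [one_mul, ← (f.2 v).1 d 1, mul_one]

lemma π_i (e : D.E.V) : D.π.hom (D.i.hom e) = 0 := (D.exact _).2 ⟨e, rfl⟩


section Kappa

variable (A : Rep.{0} (ZMod p) G) (P : Presentation D.𝒯 (A.dualTwist D.χ))

/-- `κ(a) : M₀ → E` as an additive map (additivity in `m` assumed). -/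
def kapM (hm : ∀ (a : A.V) (m m' : P.M₀.V),
    kappaFun D A P a (m + m') = kappaFun D A P a m + kappaFun D A P a m') (a : A.V) :
    P.M₀.V →+ D.E.V :=
  AddMonoidHom.mk' (kappaFun D A P a) (hm a)

/-- `κ : A → Hom(M₀, E)` as an additive map. -/
def kap (ha : ∀ (a b : A.V) (m : P.M₀.V),
      kappaFun D A P (a + b) m = kappaFun D A P a m + kappaFun D A P b m)
    (hm : ∀ (a : A.V) (m m' : P.M₀.V),
      kappaFun D A P a (m + m') = kappaFun D A P a m + kappaFun D A P a m') :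
    A.V →+ (P.M₀.V →+ D.E.V) :=
  AddMonoidHom.mk' (kapM D A P hm) (fun a b => by
    ext m
    exact ha a b m)

lemma kap_apply (ha : ∀ (a b : A.V) (m : P.M₀.V),
      kappaFun D A P (a + b) m = kappaFun D A P a m + kappaFun D A P b m)
    (hm : ∀ (a : A.V) (m m' : P.M₀.V),
      kappaFun D A P a (m + m') = kappaFun D A P a m + kappaFun D A P a m')
    (a : A.V) (m : P.M₀.V) : kap D A P ha hm a m = kappaFun D A P a m := rfl

lemma kappaFun_inc (a : A.V) (m₁ : P.M₁.V) : kappaFun D A P a (P.inc.hom m₁) = 0 := by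
  have h : P.ε (P.inc.hom m₁) = 0 := (P.exact _).2 ⟨m₁, rfl⟩
  unfold kappaFun
  rw [h]
  simp

end Kappa

end ExactE

open ExactE

attribute [local instance 1100] Rep.hV2

/-- **S7** (exactness at `𝔈`), assuming the properties of `κ` (S0b). -/
theorem stmtExactE_of (hκ : StmtKappa) : StmtExactE := by
  intro p _ G _ ι _ Gloc _ D A _ P hM hin g w hdel hw
  classical
  obtain ⟨hκa, hκm, hκρ, -, -⟩ := hκ p G ι Gloc D A P
  obtain ⟨gt, zt, hgt, hzt_lev, hzt, hw_eq⟩ := hdel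
  obtain ⟨b, hb_lev, hb⟩ := (mem_levCoboundaries₂_iff D.𝒯 A w).1 hw
  -- the corrected cochain `z' = z̃ - κ ∘ b`
  set κ := kap D A P hκa hκm with hκdef
  have hκ_apply : ∀ a m, κ a m = kappaFun D A P a m := fun a m => rfl
  have hz'_lev : IsLevel₁ D.𝒯 (fun σ => zt σ - κ (b σ)) := by
    have h1 : IsLevel₁ D.𝒯 (fun σ => κ (b σ)) := hb_lev.comp κ
    obtain ⟨U, hU, h⟩ := hzt_lev
    obtain ⟨U', hU', h'⟩ := h1
    exact ⟨U ⊓ U', D.𝒯.inf_mem U U' hU hU', fun g s hs => by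
      change zt (g * s) - κ (b (g * s)) = zt g - κ (b g)
      rw [h g s hs.1]
      have := h' g s hs.2
      simp only at this
      rw [this]⟩
  -- `z'` is a cocycle
  have hz'_coc : ∀ στ : G × G, dOne P.M₀ D.E (fun σ => zt σ - κ (b σ)) στ = 0 := by
    rintro ⟨σ, τ⟩
    ext m
    have h1 := hw_eq (σ, τ) m
    have h2 : w (σ, τ) = A.ρ σ (b τ) - b (σ * τ) + b σ := by
      rw [← hb]
      rfl
    have h3 : κ (w (σ, τ)) m = κ (A.ρ σ (b τ)) m - κ (b (σ * τ)) m + κ (b σ) m := by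
      rw [h2, map_add, map_sub]
      rfl
    have h4 : κ (A.ρ σ (b τ)) m = D.E.ρ σ (κ (b τ) (P.M₀.ρ σ⁻¹ m)) := hκρ σ (b τ) m
    have h5 : dOne P.M₀ D.E zt (σ, τ) m =
        D.E.ρ σ (zt τ (P.M₀.ρ σ⁻¹ m)) - zt (σ * τ) m + zt σ m := rfl
    have key : D.E.ρ σ (zt τ (P.M₀.ρ σ⁻¹ m)) - zt (σ * τ) m + zt σ m =
        D.E.ρ σ (κ (b τ) (P.M₀.ρ σ⁻¹ m)) - κ (b (σ * τ)) m + κ (b σ) m := by
      rw [← h5, ← h1, ← h4, ← h3]
      rfl
    change D.E.ρ σ ((zt τ - κ (b τ)) (P.M₀.ρ σ⁻¹ m)) - (zt (σ * τ) - κ (b (σ * τ))) m +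
      (zt σ - κ (b σ)) m = 0
    simp only [AddMonoidHom.sub_apply, map_sub]
    have h6 : D.E.ρ σ (zt τ (P.M₀.ρ σ⁻¹ m)) - D.E.ρ σ (κ (b τ) (P.M₀.ρ σ⁻¹ m)) -
        (zt (σ * τ) m - κ (b (σ * τ)) m) + (zt σ m - κ (b σ) m) =
        (D.E.ρ σ (zt τ (P.M₀.ρ σ⁻¹ m)) - zt (σ * τ) m + zt σ m) -
        (D.E.ρ σ (κ (b τ) (P.M₀.ρ σ⁻¹ m)) - κ (b (σ * τ)) m + κ (b σ) m) := by abel
    rw [h6, key, sub_self]
  -- `y = i ∘ z'` is a level cocycle with values in `Hom(M₀, J)`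
  have hy_lev : IsLevel₁ D.𝒯 (fun σ => (homAdd D.i).comp (zt σ - κ (b σ))) :=
    hz'_lev.comp (fun z => (homAdd D.i).comp z)
  have hy_coc : ∀ στ : G × G,
      dOne P.M₀ (PTJ D) (fun σ => (homAdd D.i).comp (zt σ - κ (b σ))) στ = 0 := by
    rintro ⟨σ, τ⟩
    ext m
    have h1 := congrArg (fun f : P.M₀.V →+ D.E.V => D.i.hom (f m)) (hz'_coc (σ, τ))
    simp only [AddMonoidHom.zero_apply, map_zero] at h1
    refine Eq.trans ?_ h1
    change (PTJ D).ρ σ (D.i.hom ((zt τ - κ (b τ)) (P.M₀.ρ σ⁻¹ m))) -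
        D.i.hom ((zt (σ * τ) - κ (b (σ * τ))) m) + D.i.hom ((zt σ - κ (b σ)) m) =
      D.i.hom (D.E.ρ σ ((zt τ - κ (b τ)) (P.M₀.ρ σ⁻¹ m)) - (zt (σ * τ) - κ (b (σ * τ))) m +
        (zt σ - κ (b σ)) m)
    rw [map_add, map_sub, Rep.hom_comm_apply]
  -- locally `y` is a coboundary (In4)
  have hloc : ∀ v, ∃ t : P.M₀.V →+ (D.Jloc v).V, ∀ d,
      (ev D v).comp (resOne D v (fun σ => (homAdd D.i).comp (zt σ - κ (b σ))) d) =
        dZero (Rep.res (D.r v) P.M₀) (D.Jloc v) t d := by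
    intro v
    apply hin.in4 v
      (fun d => (ev D v).comp ((homAdd D.i).comp (zt (D.r v d) - κ (b (D.r v d)))))
    · obtain ⟨U, hU, h⟩ := hy_lev
      refine ⟨U.comap (D.r v), D.comap_mem v U hU, fun d s hs => ?_⟩
      have h2 := h (D.r v d) (D.r v s) hs
      simp only at h2
      simp only [map_mul]
      rw [h2]
    · rintro ⟨d, d'⟩
      ext m
      have h1 := congrArg (fun f : P.M₀.V →+ (PTJ D).V => ev D v (f m))
        (hy_coc (D.r v d, D.r v d'))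
      simp only [AddMonoidHom.zero_apply, map_zero] at h1
      refine Eq.trans ?_ h1
      change (D.Jloc v).ρ d (ev D v (D.i.hom
          ((zt (D.r v d') - κ (b (D.r v d'))) (P.M₀.ρ (D.r v d⁻¹) m)))) -
          ev D v (D.i.hom ((zt (D.r v (d * d')) - κ (b (D.r v (d * d')))) m)) +
          ev D v (D.i.hom ((zt (D.r v d) - κ (b (D.r v d))) m)) =
        ev D v ((PTJ D).ρ (D.r v d) (D.i.hom
          ((zt (D.r v d') - κ (b (D.r v d'))) (P.M₀.ρ (D.r v d)⁻¹ m))) -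
          D.i.hom ((zt (D.r v d * D.r v d') - κ (b (D.r v d * D.r v d'))) m) +
          D.i.hom ((zt (D.r v d) - κ (b (D.r v d))) m))
      rw [map_add, map_sub, ev_ρ, map_mul, map_inv]
  -- globally `y = d⁰ t` (In3)
  obtain ⟨t, ht⟩ := hin.in3₀ _ hy_lev hy_coc hloc
  have ht' : ∀ (σ : G) (m : P.M₀.V), D.i.hom ((zt σ - κ (b σ)) m) =
      (PTJ D).ρ σ (t (P.M₀.ρ σ⁻¹ m)) - t m := fun σ m =>
    congrArg (fun f : P.M₀.V →+ (PTJ D).V => f m) (ht σ)
  -- `h = π ∘ t` is equivariant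
  have hπt : ∀ (σ : G) (m : P.M₀.V),
      D.π.hom (t (P.M₀.ρ σ m)) = D.C.ρ σ (D.π.hom (t m)) := by
    intro σ m
    have h1 := congrArg D.π.hom (ht' σ (P.M₀.ρ σ m))
    rw [π_i, map_sub, Rep.hom_comm_apply] at h1
    have h2 : P.M₀.ρ σ⁻¹ (P.M₀.ρ σ m) = m := by
      rw [← Module.End.mul_apply, ← map_mul]
      simp
    rw [h2] at h1
    exact (sub_eq_zero.1 h1.symm).symm
  let h : P.M₀ ⟶ D.C := mkHom ((homAdd D.π).comp t) hπt
  -- `u = g̃ - t ∘ inc` is equivariant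
  have hu0 : ∀ (σ : G) (m : P.M₁.V),
      (PTJ D).ρ σ ((gt - t.comp (homAdd P.inc)) (P.M₁.ρ σ⁻¹ m)) =
        (gt - t.comp (homAdd P.inc)) m := by
    intro σ m
    have h1 := hzt σ m
    have h2 := ht' σ (P.inc.hom m)
    have h3 : (zt σ - κ (b σ)) (P.inc.hom m) = zt σ (P.inc.hom m) := by
      change zt σ (P.inc.hom m) - kappaFun D A P (b σ) (P.inc.hom m) = _
      rw [kappaFun_inc, sub_zero]
    rw [h3, h1] at h2
    have h4 : dZero P.M₁ (PTJ D) gt σ m = (PTJ D).ρ σ (gt (P.M₁.ρ σ⁻¹ m)) - gt m := rfl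
    rw [h4, ← Rep.hom_comm_apply] at h2
    change (PTJ D).ρ σ (gt (P.M₁.ρ σ⁻¹ m) - t (P.inc.hom (P.M₁.ρ σ⁻¹ m))) =
      gt m - t (P.inc.hom m)
    rw [map_sub]
    rw [sub_eq_sub_iff_add_eq_add] at h2 ⊢
    rw [h2]
    abel
  have hu : ∀ (σ : G) (m : P.M₁.V),
      (gt - t.comp (homAdd P.inc)) (P.M₁.ρ σ m) =
        (PTJ D).ρ σ ((gt - t.comp (homAdd P.inc)) m) := by
    intro σ m
    have h1 := hu0 σ (P.M₁.ρ σ m)
    have h2 : P.M₁.ρ σ⁻¹ (P.M₁.ρ σ m) = m := by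
      rw [← Module.End.mul_apply, ← map_mul]
      simp
    rw [h2] at h1
    exact h1.symm
  -- the local components of `u`
  let gv : ∀ v, Rep.res (D.r v) P.M₁ ⟶ D.Jloc v := fun v =>
    mkHom (A := Rep.res (D.r v) P.M₁) (B := D.Jloc v)
      ((ev D v).comp (gt - t.comp (homAdd P.inc))) (fun d m => by
        change ev D v ((gt - t.comp (homAdd P.inc)) (P.M₁.ρ (D.r v d) m)) =
          (D.Jloc v).ρ d (ev D v ((gt - t.comp (homAdd P.inc)) m))
        rw [hu, ev_ρ])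
  refine ⟨gv, h, ?_⟩
  apply rep_hom_ext'
  intro m
  rw [rep_add_apply]
  have hsum : (∑ v, hat D P.M₁ hM v (gv v) ≫ D.π).hom m =
      ∑ v, D.π.hom ((hat D P.M₁ hM v (gv v)).hom m) :=
    map_sum (repEval (B := D.C) m) (fun v => hat D P.M₁ hM v (gv v) ≫ D.π) Finset.univ
  rw [hsum, ← map_sum]
  have hJ : ∑ v, (hat D P.M₁ hM v (gv v)).hom m = (gt - t.comp (homAdd P.inc)) m := by
    apply J_ext
    intro v' σ
    have h1 := map_sum (evAt D v' σ) (fun v => (hat D P.M₁ hM v (gv v)).hom m) Finset.univ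
    change evAt D v' σ _ = _
    rw [h1]
    rw [Finset.sum_eq_single v']
    · change ((hat D P.M₁ hM v' (gv v')).hom m).1 v' σ = _
      rw [hat_apply_same]
      change ((gt - t.comp (homAdd P.inc)) (P.M₁.ρ σ m)).1 v' 1 = _
      rw [hu, J_ρ_apply, one_mul]
    · intro v _ hv
      change ((hat D P.M₁ hM v (gv v)).hom m).1 v' σ = 0
      exact hat_apply_ne D P.M₁ hM v (gv v) m hv σ
    · intro hv
      exact absurd (Finset.mem_univ v') hv
  rw [hJ]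
  change g.hom m = D.π.hom (gt m - t (P.inc.hom m)) + D.π.hom (t (P.inc.hom m))
  rw [map_sub, hgt]
  abel

end Fermat.Agent.PT.F

end
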