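import Fermat.Agent.PT.F.SeqPlan

namespace Fermat.Agent.PT.F

namespace SeqExt

/-- Core of S0a, with the cokernel given as a `ZMod p`-vector space `Q`. -/
theorem ext_aux (p : ℕ) [Fact p.Prime] {M₀ M₁ E Q : Type} [AddCommGroup M₀] [AddCommGroup M₁]
    [AddCommGroup E] [AddCommGroup Q] [Module (ZMod p) Q]
    (inc : M₁ →+ M₀) (π : M₀ →+ Q) (hπ : Function.Surjective π)
    (hπinc : ∀ x, π (inc x) = 0)
    (hker : ∀ m, π m = 0 → ∃ m₁, inc m₁ = m)
    (hinj : Function.Injective inc)
    (hpM : ∀ m : M₀, ∃ m₁ : M₁, inc m₁ = p • m) (hdiv : ∀ e : E, ∃ e' : E, p • e' = e)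
    (z : M₁ →+ E) : ∃ zt : M₀ →+ E, ∀ m₁, zt (inc m₁) = z m₁ := by
  let b := Module.Free.chooseBasis (ZMod p) Q
  choose m hm using fun i => hπ (b i)
  choose a ha using fun i => hpM (m i)
  choose ε hε using fun i => hdiv (z (a i))
  -- the three linear combinations
  let Φ₂ := Finsupp.linearCombination ℤ m
  let A := Finsupp.linearCombination ℤ a
  let Ψ₂ := Finsupp.linearCombination ℤ ε
  have h1 : ∀ k, inc (A k) = p • Φ₂ k := by
    intro k
    induction k using Finsupp.induction_linear with
    | zero => simp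
    | add f g hf hg => simp only [map_add, hf, hg, smul_add]
    | single i n =>
      simp only [A, Φ₂, Finsupp.linearCombination_single, map_zsmul, ha]
      rw [smul_comm]
  have h2 : ∀ k, z (A k) = p • Ψ₂ k := by
    intro k
    induction k using Finsupp.induction_linear with
    | zero => simp
    | add f g hf hg => simp only [map_add, hf, hg, smul_add]
    | single i n =>
      simp only [A, Ψ₂, Finsupp.linearCombination_single, map_zsmul, ← hε]
      rw [smul_comm]
  have h3 : ∀ k, π (Φ₂ k) = Finsupp.linearCombination (ZMod p) b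
      (Finsupp.mapRange (Int.cast : ℤ → ZMod p) Int.cast_zero k) := by
    intro k
    induction k using Finsupp.induction_linear with
    | zero => simp
    | add f g hf hg =>
      rw [map_add, map_add, hf, hg, ← map_add]
      congr 1
      ext i
      simp
    | single i n =>
      simp only [Φ₂, Finsupp.linearCombination_single, map_zsmul, hm, Finsupp.mapRange_single,
        Int.cast_smul_eq_zsmul]
  -- the presentation
  let φ : M₁ × (_ →₀ ℤ) →+ M₀ :=
    AddMonoidHom.coprod inc Φ₂.toAddMonoidHom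
  let ψ : M₁ × (_ →₀ ℤ) →+ E :=
    AddMonoidHom.coprod z Ψ₂.toAddMonoidHom
  have hφ : ∀ y, φ y = inc y.1 + Φ₂ y.2 := fun y => rfl
  have hψ : ∀ y, ψ y = z y.1 + Ψ₂ y.2 := fun y => rfl
  have hsurj : Function.Surjective φ := by
    intro m₀
    let c := b.repr (π m₀)
    let k : _ →₀ ℤ := Finsupp.mapRange (fun x : ZMod p => (x.val : ℤ)) (by simp) c
    have hk : Finsupp.mapRange (Int.cast : ℤ → ZMod p) Int.cast_zero k = c := by
      ext i
      simp [k]
    have : π (m₀ - Φ₂ k) = 0 := by
      rw [map_sub, h3, hk, Module.Basis.linearCombination_repr, sub_self]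
    obtain ⟨x, hx⟩ := hker _ this
    refine ⟨(x, k), ?_⟩
    rw [hφ, hx]
    simp
  have hkerφ : φ.ker ≤ ψ.ker := by
    intro y hy
    rw [AddMonoidHom.mem_ker, hφ] at hy
    rw [AddMonoidHom.mem_ker, hψ]
    obtain ⟨x, k⟩ := y
    simp only at hy ⊢
    have hπk : π (Φ₂ k) = 0 := by
      have : Φ₂ k = inc (-x) := by
        rw [map_neg]
        exact eq_neg_of_add_eq_zero_right hy
      rw [this, hπinc]
    rw [h3] at hπk
    have hz := linearIndependent_iff.1 b.linearIndependent _ hπk
    have hdvd : ∀ i, (p : ℤ) ∣ k i := by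
      intro i
      have := DFunLike.congr_fun hz i
      simp only [Finsupp.mapRange_apply, Finsupp.coe_zero, Pi.zero_apply] at this
      exact (ZMod.intCast_zmod_eq_zero_iff_dvd _ _).1 this
    let k' : _ →₀ ℤ := Finsupp.mapRange (fun n : ℤ => n / (p : ℤ)) (by simp) k
    have hk' : k = p • k' := by
      ext i
      simp only [k', Finsupp.smul_apply, Finsupp.mapRange_apply, nsmul_eq_mul]
      exact (Int.mul_ediv_cancel' (hdvd i)).symm
    have hx : x = - A k' := by
      apply hinj
      rw [map_neg, h1, ← map_nsmul, ← hk']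
      exact eq_neg_of_add_eq_zero_left hy
    rw [hx, map_neg, h2, hk', map_nsmul]
    exact neg_add_cancel _
  refine ⟨AddMonoidHom.liftOfRightInverse φ (Function.surjInv hsurj)
    (Function.rightInverse_surjInv hsurj) ⟨ψ, hkerφ⟩, fun m₁ => ?_⟩
  have : inc m₁ = φ (m₁, 0) := by rw [hφ]; simp
  rw [this, AddMonoidHom.liftOfRightInverse_comp_apply]
  simp [hψ]

/-- **S0a**: extension of additive maps into a `p`-divisible group along an injection whose
cokernel is killed by `p`. -/
theorem stmtExt_aux : StmtExt := by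
  intro p hp M₀ M₁ E _ _ _ inc hinj hpM hdiv z
  have : Fact p.Prime := ⟨hp⟩
  -- the quotient is killed by `p`
  have hQ : ∀ q : M₀ ⧸ inc.range, p • q = 0 := by
    intro q
    obtain ⟨m, rfl⟩ := QuotientAddGroup.mk_surjective q
    obtain ⟨m₁, hm₁⟩ := hpM m
    have : ((p • m : M₀) : M₀ ⧸ inc.range) = 0 := by
      rw [← hm₁]
      exact (QuotientAddGroup.eq_zero_iff _).2 ⟨m₁, rfl⟩
    simpa using this
  let _ : Module (ZMod p) (M₀ ⧸ inc.range) := AddCommGroup.zmodModule hQ
  exact ext_aux p inc (QuotientAddGroup.mk' inc.range) (QuotientAddGroup.mk'_surjective _)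
    (fun x => (QuotientAddGroup.eq_zero_iff _).2 ⟨x, rfl⟩)
    (fun m hm => (QuotientAddGroup.eq_zero_iff _).1 hm) hinj hpM hdiv z

end SeqExt

theorem stmtExt : StmtExt := SeqExt.stmtExt_aux

end Fermat.Agent.PT.F
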