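/-
PT-F §6 — the cohomological INPUTS `In1 … In4` of the exact sequence (interface file, helper55).
Statements only.  A piece `X` is DONE when `theorem stmtX : StmtX` is landed
(own file `Fermat/Agent/PT/F/SeqIn<X>.lean`, namespace `Fermat.Agent.PT.F`, sorry-free).
Proof sketches: NOTES/PT-F.md (section "§6 inputs").  All formulas are EXPLICIT (no homological
algebra): the only non-formal inputs are `D.h90_loc` and `D.cm_glob` (through the dictionary
of PT/F/Level.lean).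
-/
import Fermat.Agent.PT.F.SeqPlan
import Fermat.Agent.PT.F.StdPres

set_option autoImplicit false

noncomputable section

namespace Fermat.Agent.PT.F

open CategoryTheory groupCohomology Fermat.Agent.PT

/-- `c : N → Y` is a 1-cocycle on the subgroup `N` of `H`. -/
def IsCocycleOn {H : Type} [Group H] (N : Subgroup H) (Y : Rep.{0} ℤ H) (c : N → Y.V) : Prop :=
  ∀ s s' : N, c (s * s') = c s + Y.ρ (s : H) (c s')

/-- `c : N → Y` is right-invariant under `U ∩ N` for some level `U`. -/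
def IsLevelOn {H : Type} [Group H] (𝒯 : Tower H) (N : Subgroup H) {Y : Type} (c : N → Y) :
    Prop :=
  ∃ U ∈ 𝒯.lev, ∀ s u : N, (u : H) ∈ U → c (s * u) = c s

/-- **PermSh1** (Shapiro in degree 1 for permutation modules, explicit).
`φ : H → Γ` a homomorphism, `Ω` a finite free `Γ`-set, `M = res_φ ℤ[Ω]`, `N = ker φ` a level of the
tower `𝒯` of `H`, `Y` an `H`-module, `S` a multiplicatively closed set of integers.
If every level 1-cocycle `N → Y` becomes a coboundary after multiplication by some `n ∈ S`, then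
the same holds for every level 1-cocycle `H → Hom_ℤ(M, Y)`.
(Formula: for orbit representatives `x₀` and `c_{x₀}(s) := c(s)(x₀) = s t_{x₀} - t_{x₀}` put
`t(g x₀) := g t_{x₀} - c(g)(g x₀)`.) -/
def StmtPermSh1 : Prop :=
  ∀ (H Γ : Type) [Group H] [Group Γ] (𝒯 : Tower H) (φ : H →* Γ) (Ω : Type) [MulAction Γ Ω]
    [Finite Ω], (∀ (γ : Γ) (ω : Ω), γ • ω = ω → γ = 1) → φ.ker ∈ 𝒯.lev →
    ∀ (Y : Rep.{0} ℤ H) (S : Submonoid ℕ),
    (∀ c : φ.ker → Y.V, IsCocycleOn φ.ker Y c → IsLevelOn 𝒯 φ.ker c →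
      ∃ n ∈ S, ∃ t : Y.V, ∀ s : φ.ker, n • c s = Y.ρ (s : H) t - t) →
    ∀ c : H → ((Rep.res φ (Rep.ofMulAction ℤ Γ Ω)).V →+ Y.V), IsLevel₁ 𝒯 c →
      (∀ στ, dOne (Rep.res φ (Rep.ofMulAction ℤ Γ Ω)) Y c στ = 0) →
      ∃ n ∈ S, ∃ t : (Rep.res φ (Rep.ofMulAction ℤ Γ Ω)).V →+ Y.V,
        ∀ σ, n • c σ = dZero (Rep.res φ (Rep.ofMulAction ℤ Γ Ω)) Y t σ

variable {p : ℕ} {G : Type} [Group G] {ι : Type} {Gloc : ι → Type}
  [∀ v, Group (Gloc v)]

/-- **In1b**: level 1-cocycles `U → C` on a level `U` are coboundaries up to a prime-to-`p`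
multiple.  (Dictionary + `cm_glob.h1` + Sylow + "`|Γ|` kills `H¹(Γ, -)`".) -/
def StmtIn1b : Prop :=
  ∀ (p : ℕ) [Fact p.Prime] (G : Type) [Group G] (ι : Type) [Fintype ι] (Gloc : ι → Type)
    [∀ v, Group (Gloc v)] (D : PTDatum p G ι Gloc) (U : Subgroup G), U ∈ D.𝒯.lev →
    ∀ c : U → D.C.V, IsCocycleOn U D.C c → IsLevelOn D.𝒯 U c →
      ∃ n : ℕ, ¬ p ∣ n ∧ ∃ t : D.C.V, ∀ s : U, n • c s = D.C.ρ (s : G) t - t

/-- **In4b** (Hilbert 90, level form): level 1-cocycles `V → J_v` on a local level `V` are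
coboundaries.  (Dictionary + `h90_loc`.) -/
def StmtIn4b : Prop :=
  ∀ (p : ℕ) [Fact p.Prime] (G : Type) [Group G] (ι : Type) [Fintype ι] (Gloc : ι → Type)
    [∀ v, Group (Gloc v)] (D : PTDatum p G ι Gloc) (v : ι) (V : Subgroup (Gloc v)),
    V ∈ (D.𝒯loc v).lev →
    ∀ c : V → (D.Jloc v).V, IsCocycleOn V (D.Jloc v) c → IsLevelOn (D.𝒯loc v) V c →
      ∃ t : (D.Jloc v).V, ∀ s : V, c s = (D.Jloc v).ρ (s : Gloc v) t - t

/-- **In3** (semilocal Shapiro, degree 1, explicit): holds for EVERY `M`.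
(Formula: `t(m)(v)(σ) := (y σ (σ m))(v)(1) + t_v(σ m)`; it lies in `J` because of the local
coboundary relation, and `y = d⁰ t` by the cocycle identity.) -/
def StmtIn3 : Prop :=
  ∀ (p : ℕ) [Fact p.Prime] (G : Type) [Group G] (ι : Type) [Fintype ι] (Gloc : ι → Type)
    [∀ v, Group (Gloc v)] (D : PTDatum p G ι Gloc) (M : Rep.{0} ℤ G),
    IsLevTriv D.𝒯 M → In3 D M

/-- the hypothesis of `In2` with the local cochains level for the PULLED-BACK towers -/
def In2a (D : PTDatum p G ι Gloc) (M : Rep.{0} ℤ G) : Prop :=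
  ∀ y : G × G → (M.V →+ (PTJ D).V), IsLevel₂ D.𝒯 y →
    (∀ σ τ ρ : G, conjAdd M (PTJ D) σ (y (τ, ρ)) - y (σ * τ, ρ) + y (σ, τ * ρ) - y (σ, τ) = 0) →
    (∀ v, ∃ t : Gloc v → (M.V →+ (D.Jloc v).V),
      (∃ U ∈ D.𝒯.lev, ∀ d s : Gloc v, D.r v s ∈ U → t (d * s) = t d) ∧
      ∀ dd, (ev D v).comp (resTwo D v y dd) = dOne (Rep.res (D.r v) M) (D.Jloc v) t dd) →
    ∃ t : G → (M.V →+ (PTJ D).V), IsLevel₁ D.𝒯 t ∧ ∀ στ, y στ = dOne M (PTJ D) t στ

/-- **In2a** (semilocal Shapiro, degree 2, explicit, pulled-back towers).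
(Formula: choose `b_v : G → Hom(M, J_v)` with `b_v(r(d) g) = d b_v(g) d⁻¹ + ev_v y(r d, g) - t_v(d)`
— on representatives of `r(G_v) \ G` — and put `T(σ)(m)(v)(g) := [ev_v y(g, σ) + b_v(g) - b_v(g σ)]`
suitably conjugated; see NOTES/PT-F.md.) -/
def StmtIn2a : Prop :=
  ∀ (p : ℕ) [Fact p.Prime] (G : Type) [Group G] (ι : Type) [Fintype ι] (Gloc : ι → Type)
    [∀ v, Group (Gloc v)] (D : PTDatum p G ι Gloc) (M : Rep.{0} ℤ G),
    IsLevTriv D.𝒯 M → In2a D M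

/-- **In2b** (local inflation is injective in degree 2, from Hilbert 90): a 2-cochain on `G_v`
with values in `Hom_ℤ(M, J_v)` which is level for the pulled-back tower and is the coboundary
of a 1-cochain which is level for the big local tower, is the coboundary of a 1-cochain which is
level for the pulled-back tower.  `M` is `ℤ`-free of finite rank and trivial on a level.
(Dictionary + `stmtInfRes₂` + `h90_loc`.) -/
def StmtIn2b : Prop :=
  ∀ (p : ℕ) [Fact p.Prime] (G : Type) [Group G] (ι : Type) [Fintype ι] (Gloc : ι → Type)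
    [∀ v, Group (Gloc v)] (D : PTDatum p G ι Gloc) (M : Rep.{0} ℤ G),
    IsLevTriv D.𝒯 M →
    (∃ (n : ℕ) (b : Fin n → M.V), ∀ (Y : Type) [AddCommGroup Y] (f : Fin n → Y),
      ∃! h : M.V →+ Y, ∀ j, h (b j) = f j) →
    ∀ (v : ι) (z : Gloc v × Gloc v → (M.V →+ (D.Jloc v).V)),
      (∃ U ∈ D.𝒯.lev, ∀ d d' s s' : Gloc v, D.r v s ∈ U → D.r v s' ∈ U →
        z (d * s, d' * s') = z (d, d')) →
      (∃ t : Gloc v → (M.V →+ (D.Jloc v).V), IsLevel₁ (D.𝒯loc v) t ∧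
        ∀ dd, z dd = dOne (Rep.res (D.r v) M) (D.Jloc v) t dd) →
      ∃ t : Gloc v → (M.V →+ (D.Jloc v).V),
        (∃ U ∈ D.𝒯.lev, ∀ d s : Gloc v, D.r v s ∈ U → t (d * s) = t d) ∧
        ∀ dd, z dd = dOne (Rep.res (D.r v) M) (D.Jloc v) t dd

/-- **M1free**: the relation module of a presentation is `ℤ`-free of finite rank. -/
def StmtM1Free : Prop :=
  ∀ (G : Type) [Group G] (𝒯 : Tower G) (k : Type) [CommRing k] (A' : Rep.{0} k G)
    (P : Presentation 𝒯 A'),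
    ∃ (n : ℕ) (b : Fin n → P.M₁.V), ∀ (Y : Type) [AddCommGroup Y] (f : Fin n → Y),
      ∃! h : P.M₁.V →+ Y, ∀ j, h (b j) = f j

/-- **SeqIn** (wiring): all inputs hold for the standard presentation. -/
def StmtSeqIn : Prop :=
  ∀ (p : ℕ) [Fact p.Prime] (G : Type) [Group G] (ι : Type) [Fintype ι] (Gloc : ι → Type)
    [∀ v, Group (Gloc v)] (D : PTDatum p G ι Gloc) (A : Rep.{0} (ZMod p) G)
    [Finite (A.dualTwist D.χ).V] (U₀ : Subgroup G) [U₀.Normal] (hU₀ : U₀ ∈ D.𝒯.lev)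
    (htriv : ∀ s ∈ U₀, ∀ a : (A.dualTwist D.χ).V, (A.dualTwist D.χ).ρ s a = a),
    SeqInputs D A (stdPres D.𝒯 U₀ hU₀ (A.dualTwist D.χ) htriv)

end Fermat.Agent.PT.F

end
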