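/-
PT-F §6 input piece SeqIn `StmtSeqIn` (helper86): wiring of the inputs `In1 … In4` for the
standard presentation.

* `In1` = PermSh1 (`H = G`, `φ = mk' U₀`, `S` = prime-to-`p` integers) + In1b;
* `In4` = PermSh1 (`H = G_v`, `φ = mk' U₀ ∘ r v`, `S = {1}`) + In4b;
* `In2` = In2b (make the local cochains level for the pulled-back tower) + In2a;
* `In3` for `M₀`, `M₁` from `StmtIn3` (both are trivial on `U₀`).
-/
import Fermat.Agent.PT.F.SeqInPlan

set_option autoImplicit false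
set_option linter.style.haveILetI false
set_option linter.unusedSectionVars false

noncomputable section

namespace Fermat.Agent.PT.F.SeqInW

open CategoryTheory groupCohomology Fermat.Agent.PT

attribute [local instance 1100] Rep.hV2

variable {p : ℕ} {G : Type} [Group G] {ι : Type} {Gloc : ι → Type}
  [∀ v, Group (Gloc v)] (D : PTDatum p G ι Gloc)

/-- the prime-to-`p` integers -/
def primeTo (p : ℕ) [Fact p.Prime] : Submonoid ℕ where
  carrier := {n | ¬ p ∣ n}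
  one_mem' := by
    show ¬ p ∣ 1
    exact (Fact.out : p.Prime).one_lt.ne' ∘ Nat.dvd_one.1
  mul_mem' := by
    intro a b ha hb h
    rcases (Nat.Prime.dvd_mul (Fact.out : p.Prime)).1 h with h | h
    · exact ha h
    · exact hb h

lemma mem_primeTo {p : ℕ} [Fact p.Prime] (n : ℕ) : n ∈ primeTo p ↔ ¬ p ∣ n := Iff.rfl

/-- `M₁` of a presentation is trivial on `U₀`. -/
lemma isLevTriv_M₁ {𝒯 : Tower G} {k : Type} [CommRing k] {A' : Rep.{0} k G}
    (P : Presentation 𝒯 A') : IsLevTriv 𝒯 P.M₁ := by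
  refine ⟨P.U₀, P.U₀_mem, fun s hs m => P.inc_injective ?_⟩
  rw [Rep.hom_comm_apply, P.triv₀ s hs]

lemma isLevTriv_M₀ {𝒯 : Tower G} {k : Type} [CommRing k] {A' : Rep.{0} k G}
    (P : Presentation 𝒯 A') : IsLevTriv 𝒯 P.M₀ :=
  ⟨P.U₀, P.U₀_mem, P.triv₀⟩

/-- `In2` from `In2a` and the conclusion of In2b. -/
lemma in2_of (M : Rep.{0} ℤ G) (h2a : In2a D M)
    (h2b : ∀ (v : ι) (z : Gloc v × Gloc v → (M.V →+ (D.Jloc v).V)),
      (∃ U ∈ D.𝒯.lev, ∀ d d' s s' : Gloc v, D.r v s ∈ U → D.r v s' ∈ U →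
        z (d * s, d' * s') = z (d, d')) →
      (∃ t : Gloc v → (M.V →+ (D.Jloc v).V), IsLevel₁ (D.𝒯loc v) t ∧
        ∀ dd, z dd = dOne (Rep.res (D.r v) M) (D.Jloc v) t dd) →
      ∃ t : Gloc v → (M.V →+ (D.Jloc v).V),
        (∃ U ∈ D.𝒯.lev, ∀ d s : Gloc v, D.r v s ∈ U → t (d * s) = t d) ∧
        ∀ dd, z dd = dOne (Rep.res (D.r v) M) (D.Jloc v) t dd) :
    In2 D M := by
  intro y hy hcoc _ hloc
  refine h2a y hy hcoc (fun v => ?_)
  obtain ⟨t, ht, hty⟩ := hloc v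
  refine h2b v (fun dd => (ev D v).comp (resTwo D v y dd)) ?_ ⟨t, ht, hty⟩
  obtain ⟨U, hU, hUy⟩ := hy
  refine ⟨U, hU, fun d d' s s' hs hs' => ?_⟩
  show (ev D v).comp (y (D.r v (d * s), D.r v (d' * s'))) = (ev D v).comp (y (D.r v d, D.r v d'))
  rw [map_mul, map_mul, hUy _ _ _ _ hs hs']

end Fermat.Agent.PT.F.SeqInW

namespace Fermat.Agent.PT.F

open CategoryTheory groupCohomology Fermat.Agent.PT SeqInW

attribute [local instance 1100] Rep.hV2

/-- **SeqIn** (wiring), with exactly the hypotheses that are used. -/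
theorem stmtSeqIn_of' (hPerm : StmtPermSh1) (h1b : StmtIn1b) (h4b : StmtIn4b) (h3 : StmtIn3)
    (h2a : StmtIn2a) (h2b : StmtIn2b) : StmtSeqIn := by
  intro p _ G _ ι _ Gloc _ D A _ U₀ _ hU₀ htriv
  haveI : Finite (G ⧸ U₀) := std_finite_quot D.𝒯 U₀ hU₀
  have hker : (QuotientGroup.mk' U₀).ker = U₀ := QuotientGroup.ker_mk' U₀
  have hL0 := isLevTriv_M₀ (stdPres D.𝒯 U₀ hU₀ (A.dualTwist D.χ) htriv)
  have hL1 := isLevTriv_M₁ (stdPres D.𝒯 U₀ hU₀ (A.dualTwist D.χ) htriv)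
  refine ⟨?_, ?_, ?_, ?_, ?_⟩
  · -- In1
    intro c hc hcoc
    have hkermem : (QuotientGroup.mk' U₀).ker ∈ D.𝒯.lev := by rw [hker]; exact hU₀
    obtain ⟨n, hn, t, ht⟩ := hPerm G (G ⧸ U₀) D.𝒯 (QuotientGroup.mk' U₀)
      (stdOmega U₀ (A.dualTwist D.χ)) (stdOmega_free U₀ (A.dualTwist D.χ)) hkermem D.C
      (primeTo p)
      (fun c' hc' hl' => by
        obtain ⟨n, hn, t, ht⟩ := h1b p G ι Gloc D _ hkermem c' hc' hl'
        exact ⟨n, hn, t, ht⟩)
      c hc hcoc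
    exact ⟨n, hn, t, ht⟩
  · -- In2
    refine in2_of D _ (h2a p G ι Gloc D _ hL0) (fun v z hz ht => ?_)
    exact h2b p G ι Gloc D _ hL0
      ⟨_, (stdPres D.𝒯 U₀ hU₀ (A.dualTwist D.χ) htriv).basis₀,
        (stdPres D.𝒯 U₀ hU₀ (A.dualTwist D.χ) htriv).basis₀_spec⟩ v z hz ht
  · exact h3 p G ι Gloc D _ hL0
  · exact h3 p G ι Gloc D _ hL1
  · -- In4
    intro v c hc hcoc
    have hkermem : ((QuotientGroup.mk' U₀).comp (D.r v)).ker ∈ (D.𝒯loc v).lev := by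
      rw [← MonoidHom.comap_ker, hker]
      exact D.comap_mem v U₀ hU₀
    obtain ⟨n, hn, t, ht⟩ := hPerm (Gloc v) (G ⧸ U₀) (D.𝒯loc v)
      ((QuotientGroup.mk' U₀).comp (D.r v))
      (stdOmega U₀ (A.dualTwist D.χ)) (stdOmega_free U₀ (A.dualTwist D.χ)) hkermem (D.Jloc v)
      (⊥ : Submonoid ℕ)
      (fun c' hc' hl' => by
        obtain ⟨t, ht⟩ := h4b p G ι Gloc D v _ hkermem c' hc' hl'
        exact ⟨1, Submonoid.mem_bot.2 rfl, t, fun s => by rw [one_nsmul]; exact ht s⟩)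
      c hc hcoc
    have hn1 : n = 1 := Submonoid.mem_bot.1 hn
    subst hn1
    exact ⟨t, fun d => (one_nsmul (c d)).symm.trans (ht d)⟩

/-- **SeqIn** (wiring), in the form announced in NOTES/PT-F.md. -/
theorem stmtSeqIn_of (hPerm : StmtPermSh1) (h1b : StmtIn1b) (h4b : StmtIn4b) (h3 : StmtIn3)
    (h2a : StmtIn2a) (h2b : StmtIn2b) (_hM : StmtM1Free) : StmtSeqIn :=
  stmtSeqIn_of' hPerm h1b h4b h3 h2a h2b

end Fermat.Agent.PT.F

end
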