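/-
PT-F §6 input piece In1b `StmtIn1b` (helper86): level 1-cocycles `U → C` on a level `U` are
coboundaries up to a prime-to-`p` multiple.

Proof: choose a normal level `W ≤ U ⊓ U'` (`U'` a level of right-invariance of `c`); `c` vanishes
on `W`, has values in `C^W` and descends to a 1-cocycle of `U/W ≤ G/W` with values in
`C.quotientToInvariants W`; `cm_glob` at `W` gives `H¹(H, C^W) = 0` for all `p`-subgroups `H` of
`G/W`, and `InflInj.h1Kill_of_pgroups` (Sylow + index) finishes.
-/
import Fermat.Agent.PT.F.SeqInPlan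
import Fermat.Agent.PT.F.InflInj
import Fermat.Agent.PT.F.Level

set_option autoImplicit false
set_option linter.style.haveILetI false
set_option linter.unusedSectionVars false

attribute [-instance] AddCommGroup.toIntModule

namespace Fermat.Agent.PT.F.In1b

open CategoryTheory groupCohomology Fermat.Agent.PT

variable {G : Type} [Group G]

/-- Descent of a level 1-cocycle on a subgroup `U` to the finite quotient `G ⧸ W`:
abstract form (any module `C`, any normal `W ≤ U` on which `c` is right-invariant). -/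
theorem descend_kill (C : Rep.{0} ℤ G) (U W : Subgroup G) [W.Normal] (hWU : W ≤ U)
    (c : U → C.V) (hc : ∀ s s' : U, c (s * s') = c s + C.ρ (s : G) (c s'))
    (hcW : ∀ s u : U, (u : G) ∈ W → c (s * u) = c s)
    (m : ℕ) (hK : InflInj.H1Kill (U.map (QuotientGroup.mk' W)) (C.quotientToInvariants W) m) :
    ∃ t : C.V, ∀ s : U, m • c s = C.ρ (s : G) t - t := by
  classical
  have hc1 : c 1 = 0 := by
    have := hc 1 1
    simp only [mul_one, OneMemClass.coe_one, map_one] at this
    have h2 : c 1 = c 1 + c 1 := this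
    have h3 : c 1 + 0 = c 1 + c 1 := by rw [add_zero]; exact h2
    exact (add_left_cancel h3).symm
  have hcu : ∀ u : U, (u : G) ∈ W → c u = 0 := by
    intro u hu
    have := hcW 1 u hu
    rw [one_mul] at this
    rw [this, hc1]
  -- values are `W`-invariant
  have hinv : ∀ (s : U) (w : G), w ∈ W → C.ρ w (c s) = c s := by
    intro s w hw
    have hwU : w ∈ U := hWU hw
    have h1 := hc ⟨w, hwU⟩ s
    rw [hcu ⟨w, hwU⟩ hw, zero_add] at h1
    have hconj : (s : G)⁻¹ * w * s ∈ W := by
      have := Subgroup.Normal.conj_mem ‹W.Normal› w hw (s : G)⁻¹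
      simpa using this
    have hconjU : (s : G)⁻¹ * w * s ∈ U := hWU hconj
    have e : (⟨w, hwU⟩ : U) * s = s * ⟨(s : G)⁻¹ * w * s, hconjU⟩ := by
      apply Subtype.ext
      show w * (s : G) = (s : G) * ((s : G)⁻¹ * w * s)
      group
    rw [e, hcW s _ hconj] at h1
    exact h1.symm
  -- the descended cocycle
  have hpre : ∀ k : U.map (QuotientGroup.mk' W), ∃ s : U, QuotientGroup.mk' W (s : G) = k := by
    rintro ⟨k, s, hs, rfl⟩
    exact ⟨⟨s, hs⟩, rfl⟩
  choose pre hpre' using hpre
  have hwd : ∀ s s' : U, QuotientGroup.mk' W (s : G) = QuotientGroup.mk' W (s' : G) →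
      c s = c s' := by
    intro s s' h
    have hmem : (s : G)⁻¹ * s' ∈ W := QuotientGroup.eq.1 h
    have e : s' = s * (s⁻¹ * s') := by group
    rw [e]
    exact (hcW s (s⁻¹ * s') hmem).symm
  let cb : U.map (QuotientGroup.mk' W) → (C.quotientToInvariants W).V :=
    fun k => ⟨c (pre k), fun w => hinv (pre k) w w.2⟩
  have hcb : ∀ s : U, ∀ hk : QuotientGroup.mk' W (s : G) ∈ U.map (QuotientGroup.mk' W),
      ((cb ⟨QuotientGroup.mk' W (s : G), hk⟩ : (C.quotientToInvariants W).V) : C.V) = c s := by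
    intro s hk
    exact hwd _ _ (hpre' ⟨_, hk⟩)
  have hmemk : ∀ s : U, QuotientGroup.mk' W (s : G) ∈ U.map (QuotientGroup.mk' W) :=
    fun s => ⟨s, s.2, rfl⟩
  obtain ⟨a, ha⟩ := hK cb (by
    intro k k'
    obtain ⟨s, hs⟩ : ∃ s : U, (⟨QuotientGroup.mk' W (s : G), hmemk s⟩ :
        U.map (QuotientGroup.mk' W)) = k := ⟨pre k, Subtype.ext (hpre' k)⟩
    obtain ⟨s', hs'⟩ : ∃ s : U, (⟨QuotientGroup.mk' W (s : G), hmemk s⟩ :
        U.map (QuotientGroup.mk' W)) = k' := ⟨pre k', Subtype.ext (hpre' k')⟩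
    subst hs hs'
    apply Subtype.ext
    have e : (⟨QuotientGroup.mk' W (s : G), hmemk s⟩ : U.map (QuotientGroup.mk' W)) *
        ⟨QuotientGroup.mk' W (s' : G), hmemk s'⟩ =
        ⟨QuotientGroup.mk' W ((s * s' : U) : G), hmemk (s * s')⟩ := by
      apply Subtype.ext
      simp
    rw [e, hcb, Submodule.coe_add, hcb]
    have hcoe : ∀ (g : G) (v : (C.quotientToInvariants W).V),
        (((C.quotientToInvariants W).ρ (QuotientGroup.mk' W g) v :
          (C.quotientToInvariants W).V) : C.V) = C.ρ g (v : C.V) := fun g v => rfl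
    rw [hcoe, hcb, hc, add_comm])
  refine ⟨(a : C.V), fun s => ?_⟩
  have h1 := ha ⟨QuotientGroup.mk' W (s : G), hmemk s⟩
  have h2 := congrArg (fun v : (C.quotientToInvariants W).V => (v : C.V)) h1
  simp only [] at h2
  rw [Submodule.coe_sub] at h2
  have h3 : ((m • cb ⟨QuotientGroup.mk' W (s : G), hmemk s⟩ :
      (C.quotientToInvariants W).V) : C.V) = m • c s := by
    rw [← hcb s (hmemk s)]
    rfl
  rw [h3] at h2
  exact h2

end Fermat.Agent.PT.F.In1b

namespace Fermat.Agent.PT.F

open CategoryTheory groupCohomology Fermat.Agent.PT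

/-- **In1b**: level 1-cocycles `U → C` are coboundaries up to a prime-to-`p` multiple. -/
theorem stmtIn1b : StmtIn1b := by
  intro p _ G _ ι _ Gloc _ D U hU c hc hcl
  obtain ⟨U', hU', hcU'⟩ := hcl
  obtain ⟨W, hW, hWU, hWU', hWn⟩ := tower_exists_normal_le₂ D.𝒯 hU hU'
  haveI := hWn
  haveI := D.𝒯.finiteIndex W hW
  haveI : Finite (G ⧸ W) := Subgroup.finite_quotient_of_finiteIndex
  obtain ⟨u, hu⟩ := D.cm_glob W hW
  obtain ⟨m, hm, hK⟩ := InflInj.h1Kill_of_pgroups p (U.map (QuotientGroup.mk' W))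
    (D.C.quotientToInvariants W) hu.h1
  obtain ⟨t, ht⟩ := In1b.descend_kill D.C U W hWU c hc (fun s u hu => hcU' s u (hWU' hu)) m hK
  exact ⟨m, hm, t, ht⟩

end Fermat.Agent.PT.F
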