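/-
PT-F piece In2a (semilocal Shapiro in degree 2), part 1 (abstract): the correcting function `b`.

`r : Gv → G`, `U ◁ G`, `X` an abelian group with operators `act d`.  Given `β : Gv → G → X` and
`t : Gv → X` with
  `act d (β d' g) - β (d d') g + β d (r d' g) = act d (t d') - t (d d') + t d`,
`β`, `t` invariant under right multiplication of `d` by `r⁻¹ U` and `β` right-`U`-invariant in `g`,
there is a right-`U`-invariant `b : G → X` with `b (r d g) = act d (b g) + β d g - t d`.
(Double coset representatives of `r(Gv) \ G / U`.)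
-/
import Mathlib

set_option autoImplicit false

namespace Fermat.Agent.PT.F

theorem in2a_exists_b {G Gv : Type} [Group G] [Group Gv] (r : Gv →* G) (U : Subgroup G)
    [hU : U.Normal] {X : Type} [AddCommGroup X] (act : Gv → X →+ X)
    (β : Gv → G → X) (t : Gv → X)
    (h1 : ∀ (d d' : Gv) (g : G),
      act d (β d' g) - β (d * d') g + β d (r d' * g) = act d (t d') - t (d * d') + t d)
    (h2 : ∀ (d : Gv) (g u : G), u ∈ U → β d (g * u) = β d g)
    (h3 : ∀ (d s : Gv) (g : G), r s ∈ U → β (d * s) g = β d g)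
    (h4 : ∀ d s : Gv, r s ∈ U → t (d * s) = t d) :
    ∃ b : G → X, (∀ (d : Gv) (g : G), b (r d * g) = act d (b g) + β d g - t d) ∧
      (∀ g u : G, u ∈ U → b (g * u) = b g) := by
  classical
  let rep : G → G := fun g => (DoubleCoset.mk r.range U g).out
  have hdec : ∀ g : G, ∃ d : Gv, ∃ u ∈ U, g = r d * rep g * u := by
    intro g
    obtain ⟨h, k, ⟨d, hd⟩, hk, e⟩ := DoubleCoset.mk_out_eq_mul r.range U g
    refine ⟨d⁻¹, k⁻¹, U.inv_mem hk, ?_⟩
    show g = r d⁻¹ * (DoubleCoset.mk r.range U g).out * k⁻¹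
    rw [e, map_inv, hd]
    group
  have hrep : ∀ (d : Gv) (g u : G) (_ : u ∈ U), rep (r d * g * u) = rep g := by
    intro d g u hu
    show (DoubleCoset.mk r.range U (r d * g * u)).out = (DoubleCoset.mk r.range U g).out
    congr 1
    exact ((DoubleCoset.eq r.range U g (r d * g * u)).2 ⟨r d, ⟨d, rfl⟩, u, hu, rfl⟩).symm
  choose dg ug hugU hgu using hdec
  -- the key fact: `d_{r(d) g u} = d d_g s` with `r s ∈ U`
  have key : ∀ (d : Gv) (g u : G) (_ : u ∈ U),
      r ((d * dg g)⁻¹ * dg (r d * g * u)) ∈ U := by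
    intro d g u hu
    have e1 : r d * g * u = r (dg (r d * g * u)) * rep g * ug (r d * g * u) := by
      conv_lhs => rw [hgu (r d * g * u), hrep d g u hu]
    have e2 : r d * g * u = r (d * dg g) * rep g * (ug g * u) := by
      conv_lhs => rw [hgu g]
      rw [map_mul]
      group
    have e3 : r ((d * dg g)⁻¹ * dg (r d * g * u)) =
        rep g * ((ug g * u) * (ug (r d * g * u))⁻¹) * (rep g)⁻¹ := by
      have := e1.symm.trans e2
      rw [map_mul, map_inv]
      calc (r (d * dg g))⁻¹ * r (dg (r d * g * u))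
          = (r (d * dg g))⁻¹ * (r (dg (r d * g * u)) * rep g * ug (r d * g * u)) *
              (ug (r d * g * u))⁻¹ * (rep g)⁻¹ := by group
        _ = (r (d * dg g))⁻¹ * (r (d * dg g) * rep g * (ug g * u)) *
              (ug (r d * g * u))⁻¹ * (rep g)⁻¹ := by rw [this]
        _ = rep g * ((ug g * u) * (ug (r d * g * u))⁻¹) * (rep g)⁻¹ := by group
    rw [e3]
    exact hU.conj_mem _ (U.mul_mem (U.mul_mem (hugU g) hu) (U.inv_mem (hugU _))) _
  have key2 : ∀ (d : Gv) (g u : G) (_ : u ∈ U),
      β (dg (r d * g * u)) (rep g) - t (dg (r d * g * u)) =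
        β (d * dg g) (rep g) - t (d * dg g) := by
    intro d g u hu
    have e : dg (r d * g * u) = (d * dg g) * ((d * dg g)⁻¹ * dg (r d * g * u)) := by group
    rw [e, h3 _ _ _ (key d g u hu), h4 _ _ (key d g u hu)]
  let b : G → X := fun g => β (dg g) (rep g) - t (dg g)
  have hb : ∀ g, b g = β (dg g) (rep g) - t (dg g) := fun g => rfl
  refine ⟨b, ?_, ?_⟩
  · intro d g
    have k1 := key2 d g 1 U.one_mem
    have k2 := hrep d g 1 U.one_mem
    simp only [mul_one] at k1 k2
    have e4 : β d g = β d (r (dg g) * rep g) := by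
      conv_lhs => rw [hgu g]
      exact h2 d _ _ (hugU g)
    rw [hb (r d * g), k2, k1, hb g, map_sub, e4]
    have := h1 d (dg g) (rep g)
    -- `β (d d_g) ρ - t (d d_g) = act d (β d_g ρ) - act d (t d_g) + β d (r d_g ρ) - t d`
    have h5 : β (d * dg g) (rep g) - t (d * dg g) =
        act d (β (dg g) (rep g)) - act d (t (dg g)) + β d (r (dg g) * rep g) - t d := by
      have h6 : β (d * dg g) (rep g) = act d (β (dg g) (rep g)) + β d (r (dg g) * rep g) -
          (act d (t (dg g)) - t (d * dg g) + t d) := by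
        rw [← this]; abel
      rw [h6]; abel
    exact h5
  · intro g u hu
    have k1 := key2 1 g u hu
    have k2 := hrep 1 g u hu
    simp only [map_one, one_mul] at k1 k2
    rw [hb (g * u), k2, k1, hb g]

end Fermat.Agent.PT.F
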