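/-
PT-F §6 input In2a (helper74): semilocal Shapiro injectivity in degree 2 for `Hom_ℤ(M, J)`,
local cochains level for the pulled-back towers, for every `G`-module `M` trivial on a level.

`y : G² → Hom(M, J)` level 2-cocycle, `ev_v ∘ y ∘ (r_v × r_v) = d¹ t_v`.  With
`β_v(d, g) := ev_v ∘ y(r d, g)` choose `b_v : G → Hom(M, J_v)` right-invariant under a level with
`b_v(r(d) g) = d·b_v(g) + β_v(d, g) - t_v(d)` (`in2a_exists_b`), and put
`T(σ)(m)_v(g) := [ev_v ∘ y(g, σ) + b_v(g) - b_v(g σ)](g m)`.  Then `T` is level and `d¹ T = y`.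
-/
import Fermat.Agent.PT.F.SeqInPlan
import Fermat.Agent.PT.F.Level
import Fermat.Agent.PT.F.SeqInIn2aLift

set_option autoImplicit false
set_option linter.unusedSectionVars false

noncomputable section

namespace Fermat.Agent.PT.F

open CategoryTheory groupCohomology Fermat.Agent.PT

attribute [local instance 1100] Rep.hV2

section

variable {p : ℕ} {G : Type} [Group G] {ι : Type} {Gloc : ι → Type} [∀ v, Group (Gloc v)]
  (D : PTDatum p G ι Gloc) (M : Rep.{0} ℤ G)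

lemma in2a_J_ext {f f' : (PTJ D).V} (h : ∀ v σ, f.1 v σ = f'.1 v σ) : f = f' :=
  Subtype.ext (funext fun v => funext fun σ => h v σ)

lemma in2a_ev_ρ (v : ι) (d : Gloc v) (f : (PTJ D).V) :
    ev D v ((PTJ D).ρ (D.r v d) f) = (D.Jloc v).ρ d (ev D v f) := by
  change f.1 v (1 * D.r v d) = (D.Jloc v).ρ d (f.1 v 1)
  rw [one_mul, ← (f.2 v).1 d 1, mul_one]

lemma in2a_ρ_inv_ρ (σ : G) (m : M.V) : M.ρ σ⁻¹ (M.ρ σ m) = m := by
  rw [← Module.End.mul_apply, ← map_mul]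
  simp

lemma in2a_ρ_mul (σ τ : G) (m : M.V) : M.ρ (σ * τ) m = M.ρ σ (M.ρ τ m) := by
  rw [map_mul]; rfl

/-- `ev_v` intertwines the conjugation actions. -/
lemma in2a_ev_conj (v : ι) (d : Gloc v) (h : M.V →+ (PTJ D).V) :
    (ev D v).comp (conjAdd M (PTJ D) (D.r v d) h) =
      conjAdd (Rep.res (D.r v) M) (D.Jloc v) d ((ev D v).comp h) := by
  ext m
  show ev D v ((PTJ D).ρ (D.r v d) (h (M.ρ ((D.r v d)⁻¹) m))) =
    (D.Jloc v).ρ d (ev D v (h (M.ρ (D.r v d⁻¹) m)))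
  rw [in2a_ev_ρ, map_inv (D.r v) d]

variable (y : G × G → (M.V →+ (PTJ D).V))
  (hy : ∀ σ τ ρ : G,
    conjAdd M (PTJ D) σ (y (τ, ρ)) - y (σ * τ, ρ) + y (σ, τ * ρ) - y (σ, τ) = 0)

include hy in
/-- the cocycle identity composed with `ev_v`, first variable in `r(G_v)` -/
lemma in2a_cocycle_ev (v : ι) (d : Gloc v) (τ ρ : G) :
    conjAdd (Rep.res (D.r v) M) (D.Jloc v) d ((ev D v).comp (y (τ, ρ))) -
      (ev D v).comp (y (D.r v d * τ, ρ)) + (ev D v).comp (y (D.r v d, τ * ρ)) -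
      (ev D v).comp (y (D.r v d, τ)) = 0 := by
  have h := congrArg (fun f => (ev D v).comp f) (hy (D.r v d) τ ρ)
  simp only [AddMonoidHom.comp_sub, AddMonoidHom.comp_add, AddMonoidHom.comp_zero] at h
  rw [in2a_ev_conj] at h
  exact h

include hy in
/-- the correcting function `b_v` -/
lemma in2a_exists_bv (v : ι) (U : Subgroup G) (hUn : U.Normal)
    (hUy : ∀ g g' s s' : G, s ∈ U → s' ∈ U → y (g * s, g' * s') = y (g, g'))
    (t : Gloc v → (M.V →+ (D.Jloc v).V))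
    (htU : ∀ d s : Gloc v, D.r v s ∈ U → t (d * s) = t d)
    (ht : ∀ dd, (ev D v).comp (resTwo D v y dd) = dOne (Rep.res (D.r v) M) (D.Jloc v) t dd) :
    ∃ b : G → (M.V →+ (D.Jloc v).V),
      (∀ (d : Gloc v) (g : G), b (D.r v d * g) =
        conjAdd (Rep.res (D.r v) M) (D.Jloc v) d (b g) + (ev D v).comp (y (D.r v d, g)) - t d) ∧
      (∀ g u : G, u ∈ U → b (g * u) = b g) := by
  have := hUn
  refine in2a_exists_b (D.r v) U (fun d => conjAdd (Rep.res (D.r v) M) (D.Jloc v) d)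
    (fun d g => (ev D v).comp (y (D.r v d, g))) t ?_ ?_ ?_ htU
  · intro d d' g
    have h1 := in2a_cocycle_ev D M y hy v d (D.r v d') g
    have h2 : (ev D v).comp (y (D.r v d, D.r v d')) =
        conjAdd (Rep.res (D.r v) M) (D.Jloc v) d (t d') - t (d * d') + t d := ht (d, d')
    rw [h2, sub_eq_zero] at h1
    rw [map_mul]
    exact h1
  · intro d g u hu
    have := hUy (D.r v d) g 1 u U.one_mem hu
    rw [mul_one] at this
    show (ev D v).comp (y (D.r v d, g * u)) = (ev D v).comp (y (D.r v d, g))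
    rw [this]
  · intro d s g hs
    have := hUy (D.r v d) g (D.r v s) 1 hs U.one_mem
    rw [mul_one] at this
    show (ev D v).comp (y (D.r v (d * s), g)) = (ev D v).comp (y (D.r v d, g))
    rw [map_mul, this]

end

/-! ### The homotopy -/

section Homotopy

variable {p : ℕ} {G : Type} [Group G] {ι : Type} {Gloc : ι → Type} [∀ v, Group (Gloc v)]
  (D : PTDatum p G ι Gloc) (M : Rep.{0} ℤ G)
  (y : G × G → (M.V →+ (PTJ D).V))
  (b : ∀ v, G → (M.V →+ (D.Jloc v).V))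

/-- `T_v(σ)(g) = ev_v ∘ y(g, σ) + b_v(g) - b_v(g σ)` -/
def in2aTv (v : ι) (σ g : G) : M.V →+ (D.Jloc v).V :=
  (ev D v).comp (y (g, σ)) + b v g - b v (g * σ)

variable (hy : ∀ σ τ ρ : G,
    conjAdd M (PTJ D) σ (y (τ, ρ)) - y (σ * τ, ρ) + y (σ, τ * ρ) - y (σ, τ) = 0)
  (t : ∀ v, Gloc v → (M.V →+ (D.Jloc v).V))
  (hb1 : ∀ (v : ι) (d : Gloc v) (g : G), b v (D.r v d * g) =
    conjAdd (Rep.res (D.r v) M) (D.Jloc v) d (b v g) + (ev D v).comp (y (D.r v d, g)) - t v d)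
  (U : Subgroup G) (hUn : U.Normal)
  (hUy : ∀ g g' s s' : G, s ∈ U → s' ∈ U → y (g * s, g' * s') = y (g, g'))
  (hb2 : ∀ (v : ι) (g u : G), u ∈ U → b v (g * u) = b v g)

include hy hb1 in
lemma in2aTv_equiv (v : ι) (d : Gloc v) (σ g : G) :
    in2aTv D M y b v σ (D.r v d * g) =
      conjAdd (Rep.res (D.r v) M) (D.Jloc v) d (in2aTv D M y b v σ g) := by
  have h1 := in2a_cocycle_ev D M y hy v d g σ
  unfold in2aTv
  rw [mul_assoc, hb1, hb1, map_sub, map_add]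
  have h2 : (ev D v).comp (y (D.r v d * g, σ)) =
      conjAdd (Rep.res (D.r v) M) (D.Jloc v) d ((ev D v).comp (y (g, σ))) +
        (ev D v).comp (y (D.r v d, g * σ)) - (ev D v).comp (y (D.r v d, g)) := by
    have h3 : conjAdd (Rep.res (D.r v) M) (D.Jloc v) d ((ev D v).comp (y (g, σ))) +
        (ev D v).comp (y (D.r v d, g * σ)) - (ev D v).comp (y (D.r v d, g)) -
        (ev D v).comp (y (D.r v d * g, σ)) = 0 := by
      rw [← h1]
      abel
    exact (sub_eq_zero.1 h3).symm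
  rw [h2]
  abel

include hUn hUy hb2 in
lemma in2aTv_U1 (v : ι) (σ g u : G) (hu : u ∈ U) :
    in2aTv D M y b v σ (g * u) = in2aTv D M y b v σ g := by
  unfold in2aTv
  have h1 : g * u * σ = g * σ * (σ⁻¹ * u * σ) := by group
  have h2 : σ⁻¹ * u * σ ∈ U := by simpa using hUn.conj_mem u hu σ⁻¹
  have h3 := hUy g σ u 1 hu U.one_mem
  rw [mul_one] at h3
  rw [h1, hb2 v _ _ h2, hb2 v _ _ hu, h3]

include hUy hb2 in
lemma in2aTv_U2 (v : ι) (σ g u : G) (hu : u ∈ U) :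
    in2aTv D M y b v (σ * u) g = in2aTv D M y b v σ g := by
  unfold in2aTv
  have h3 := hUy g σ 1 u U.one_mem hu
  rw [mul_one] at h3
  rw [← mul_assoc, hb2 v _ _ hu, h3]

/-- the family of functions underlying `T(σ)(m)` -/
def in2aTFun (σ : G) (m : M.V) : ∀ v, G → (D.Jloc v).V :=
  fun v g => in2aTv D M y b v σ g (M.ρ g m)

include hy hb1 hUn hUy hb2 in
lemma in2aTFun_mem (hU : U ∈ D.𝒯.lev) (hUM : ∀ s ∈ U, ∀ m : M.V, M.ρ s m = m) (σ : G)
    (m : M.V) : in2aTFun D M y b σ m ∈ semilocalSub D.𝒯 D.r D.Jloc := by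
  intro v
  refine ⟨fun d g => ?_, ⟨U, hU, fun g u hu => ?_⟩⟩
  · show in2aTv D M y b v σ (D.r v d * g) (M.ρ (D.r v d * g) m) =
      (D.Jloc v).ρ d (in2aTv D M y b v σ g (M.ρ g m))
    rw [in2aTv_equiv D M y b hy t hb1, in2a_ρ_mul]
    show (D.Jloc v).ρ d (in2aTv D M y b v σ g (M.ρ (D.r v d⁻¹) (M.ρ (D.r v d) (M.ρ g m)))) = _
    rw [map_inv (D.r v) d, in2a_ρ_inv_ρ]
  · show in2aTv D M y b v σ (g * u) (M.ρ (g * u) m) = in2aTv D M y b v σ g (M.ρ g m)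
    rw [in2aTv_U1 D M y b U hUn hUy hb2 v σ g u hu, in2a_ρ_mul, hUM u hu]

/-- `T(σ) : M → J` -/
def in2aT (hy : ∀ σ τ ρ : G,
      conjAdd M (PTJ D) σ (y (τ, ρ)) - y (σ * τ, ρ) + y (σ, τ * ρ) - y (σ, τ) = 0)
    (t : ∀ v, Gloc v → (M.V →+ (D.Jloc v).V))
    (hb1 : ∀ (v : ι) (d : Gloc v) (g : G), b v (D.r v d * g) =
      conjAdd (Rep.res (D.r v) M) (D.Jloc v) d (b v g) + (ev D v).comp (y (D.r v d, g)) - t v d)
    (U : Subgroup G) (hUn : U.Normal)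
    (hUy : ∀ g g' s s' : G, s ∈ U → s' ∈ U → y (g * s, g' * s') = y (g, g'))
    (hb2 : ∀ (v : ι) (g u : G), u ∈ U → b v (g * u) = b v g)
    (hU : U ∈ D.𝒯.lev) (hUM : ∀ s ∈ U, ∀ m : M.V, M.ρ s m = m) (σ : G) :
    M.V →+ (PTJ D).V where
  toFun m := ⟨in2aTFun D M y b σ m, in2aTFun_mem D M y b hy t hb1 U hUn hUy hb2 hU hUM σ m⟩
  map_zero' := by
    apply in2a_J_ext
    intro v g
    show in2aTv D M y b v σ g (M.ρ g 0) = 0
    rw [map_zero, map_zero]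
  map_add' m m' := by
    apply in2a_J_ext
    intro v g
    show in2aTv D M y b v σ g (M.ρ g (m + m')) =
      in2aTv D M y b v σ g (M.ρ g m) + in2aTv D M y b v σ g (M.ρ g m')
    rw [map_add, map_add]

include hy in
/-- the cocycle identity evaluated: `y(σ,τ)(m)_v(g) = ev_v [y(gσ,τ) - y(g,στ) + y(g,σ)](g m)` -/
lemma in2a_y_apply (σ τ : G) (m : M.V) (v : ι) (g : G) :
    (y (σ, τ) m).1 v g = ev D v (y (g * σ, τ) (M.ρ g m)) - ev D v (y (g, σ * τ) (M.ρ g m)) +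
      ev D v (y (g, σ) (M.ρ g m)) := by
  have h := congrArg (fun f : M.V →+ (PTJ D).V => ev D v (f (M.ρ g m))) (hy g σ τ)
  have h2 : ev D v ((PTJ D).ρ g (y (σ, τ) (M.ρ g⁻¹ (M.ρ g m))) - y (g * σ, τ) (M.ρ g m) +
      y (g, σ * τ) (M.ρ g m) - y (g, σ) (M.ρ g m)) = 0 := h
  rw [in2a_ρ_inv_ρ, map_sub, map_add, map_sub] at h2
  have h3 : ev D v ((PTJ D).ρ g (y (σ, τ) m)) = (y (σ, τ) m).1 v g := by
    show (y (σ, τ) m).1 v (1 * g) = _
    rw [one_mul]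
  rw [h3] at h2
  rw [← sub_eq_zero, ← h2]
  abel

end Homotopy

/-- **(In2a)** semilocal Shapiro injectivity in degree 2, for every module `M` which is trivial
on a level. -/
theorem in2a_of_levTriv {p : ℕ} {G : Type} [Group G] {ι : Type} [Fintype ι] {Gloc : ι → Type}
    [∀ v, Group (Gloc v)] (D : PTDatum p G ι Gloc) (M : Rep.{0} ℤ G) (hM : IsLevTriv D.𝒯 M) :
    In2a D M := by
  classical
  intro y hylev hy hloc
  choose t htlev ht using hloc
  choose Ut hUt htU using htlev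
  obtain ⟨Uy, hUy, hyU⟩ := hylev
  obtain ⟨UM, hUM, hMU⟩ := hM
  -- a common normal level
  have hU₁ : Uy ⊓ UM ⊓ Finset.univ.inf Ut ∈ D.𝒯.lev :=
    D.𝒯.inf_mem _ _ (D.𝒯.inf_mem _ _ hUy hUM)
      (tower_finset_inf_mem D.𝒯 _ _ fun v _ => hUt v)
  obtain ⟨U, hU, hUle, hUn⟩ := D.𝒯.exists_normal _ hU₁
  have hUy' : ∀ g g' s s' : G, s ∈ U → s' ∈ U → y (g * s, g' * s') = y (g, g') :=
    fun g g' s s' hs hs' => hyU g g' s s' (hUle hs).1.1 (hUle hs').1.1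
  have hUM' : ∀ s ∈ U, ∀ m : M.V, M.ρ s m = m := fun s hs m => hMU s (hUle hs).1.2 m
  have htU' : ∀ (v : ι) (d s : Gloc v), D.r v s ∈ U → t v (d * s) = t v d :=
    fun v d s hs => htU v d s
      ((Finset.inf_le (Finset.mem_univ v) : Finset.univ.inf Ut ≤ Ut v) (hUle hs).2)
  have hb := fun v => in2a_exists_bv D M y hy v U hUn hUy' (t v) (htU' v) (ht v)
  choose b hb1 hb2 using hb
  refine ⟨in2aT D M y b hy t hb1 U hUn hUy' hb2 hU hUM', ⟨U, hU, fun σ u hu => ?_⟩, ?_⟩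
  · ext m
    apply in2a_J_ext
    intro v g
    show in2aTv D M y b v (σ * u) g (M.ρ g m) = in2aTv D M y b v σ g (M.ρ g m)
    rw [in2aTv_U2 D M y b U hUy' hb2 v σ g u hu]
  · rintro ⟨σ, τ⟩
    ext m
    apply in2a_J_ext
    intro v g
    show (y (σ, τ) m).1 v g =
      in2aTv D M y b v τ (g * σ) (M.ρ (g * σ) (M.ρ σ⁻¹ m)) -
        in2aTv D M y b v (σ * τ) g (M.ρ g m) + in2aTv D M y b v σ g (M.ρ g m)
    have h1 : M.ρ (g * σ) (M.ρ σ⁻¹ m) = M.ρ g m := by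
      rw [in2a_ρ_mul]
      congr 1
      have := in2a_ρ_inv_ρ M σ⁻¹ m
      rwa [inv_inv] at this
    rw [h1, in2a_y_apply D M y hy]
    unfold in2aTv
    simp only [AddMonoidHom.add_apply, AddMonoidHom.sub_apply, AddMonoidHom.comp_apply, mul_assoc]
    abel

/-- **In2a**. -/
theorem stmtIn2a : StmtIn2a := by
  intro p _ G _ ι _ Gloc _ D M hM
  exact in2a_of_levTriv D M hM

end Fermat.Agent.PT.F

end
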