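/-
PT-F, dictionary for SUBGROUPS (helper9): `descSub_exists_coboundary` — a 1-cocycle on a subgroup
`W ≥ V` (`V` normal in `Γ`) which is right-`V`-invariant is a coboundary on `W` as soon as
`H¹(W/V, X^V) = 0`, where `W/V = W.map (mk' V) ≤ Γ ⧸ V` and `X^V = X.quotientToInvariants V`.
Used for In2b (and usable for In1b, In4b).
-/
import Fermat.Agent.PT.F.Level

set_option autoImplicit false

noncomputable section

namespace Fermat.Agent.PT.F

open CategoryTheory groupCohomology Fermat.Agent.PT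

attribute [local instance 1100] Rep.hV2

/-- **Descent to a finite quotient, degree 1, on a subgroup.**  `V ⊴ Γ`, `V ≤ W ≤ Γ`,
`c : Γ → X` a 1-cocycle on `W`, right-`V`-invariant on `W`.  If `H¹(W/V, X^V) = 0`, then `c` is
a coboundary on `W`. -/
theorem descSub_exists_coboundary {Γ : Type} [Group Γ] (X : Rep.{0} ℤ Γ)
    (V : Subgroup Γ) [V.Normal] (W : Subgroup Γ) (hVW : V ≤ W) (c : Γ → X.V)
    (hc : ∀ s ∈ W, ∀ s' ∈ W, c (s * s') = X.ρ s (c s') + c s)
    (hcV : ∀ s ∈ W, ∀ u ∈ V, c (s * u) = c s)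
    (hH : Subsingleton (H1 (Rep.res (W.map (QuotientGroup.mk' V)).subtype
      (X.quotientToInvariants V)))) :
    ∃ x : X.V, ∀ s ∈ W, c s = X.ρ s x - x := by
  classical
  -- basic consequences
  have c1 : c 1 = 0 := by
    have := hc 1 W.one_mem 1 W.one_mem
    simpa using this
  have cV : ∀ u ∈ V, c u = 0 := by
    intro u hu
    have := hcV 1 W.one_mem u hu
    rw [one_mul, c1] at this
    exact this
  have cinv : ∀ s ∈ W, ∀ u ∈ V, X.ρ u (c s) = c s := by
    intro s hs u hu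
    have h1 := hc u (hVW hu) s hs
    rw [cV u hu, add_zero] at h1
    have h2 : u * s = s * (s⁻¹ * u * s) := by group
    have h3 : s⁻¹ * u * s ∈ V := by
      have := Subgroup.Normal.conj_mem' (inferInstance : V.Normal) u hu s
      simpa using this
    rw [← h1, h2, hcV s hs _ h3]
  -- extension by zero
  obtain ⟨c₀, hc₀⟩ : ∃ c₀ : Γ → X.V, ∀ g, c₀ g = if g ∈ W then c g else 0 := ⟨_, fun _ => rfl⟩
  have hc₀W : ∀ s ∈ W, c₀ s = c s := fun s hs => by rw [hc₀, if_pos hs]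
  have hdesc : Desc₁ X V c₀ := by
    refine ⟨fun g u hu => ?_, fun g u hu => ?_⟩
    · by_cases hg : g ∈ W
      · rw [hc₀W _ (W.mul_mem hg (hVW hu)), hc₀W _ hg, hcV g hg u hu]
      · have : g * u ∉ W := fun h => hg (by
          have := W.mul_mem h (W.inv_mem (hVW hu))
          simpa using this)
        rw [hc₀, hc₀, if_neg hg, if_neg this]
    · by_cases hg : g ∈ W
      · rw [hc₀W _ hg]
        exact cinv g hg u hu
      · rw [hc₀, if_neg hg, map_zero]
  have hinfl : ∀ g : Γ, ((descend₁ c₀ hdesc) (g : Γ ⧸ V)).1 = c₀ g :=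
    fun g => congrFun (infl₁_descend₁ c₀ hdesc) g
  -- the cocycle on `H = W/V`
  let H : Subgroup (Γ ⧸ V) := W.map (QuotientGroup.mk' V)
  let f : H → (X.quotientToInvariants V).V := fun h => descend₁ c₀ hdesc h.1
  have hf : f ∈ cocycles₁ (Rep.res H.subtype (X.quotientToInvariants V)) := by
    rw [mem_cocycles₁_iff]
    rintro ⟨h, s, hs, rfl⟩ ⟨h', s', hs', rfl⟩
    apply Subtype.ext
    change ((descend₁ c₀ hdesc) (((s * s' : Γ)) : Γ ⧸ V)).1 =
      X.ρ s ((descend₁ c₀ hdesc) (s' : Γ ⧸ V)).1 + ((descend₁ c₀ hdesc) (s : Γ ⧸ V)).1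
    rw [hinfl, hinfl, hinfl, hc₀W _ (W.mul_mem hs hs'), hc₀W _ hs, hc₀W _ hs', hc s hs s' hs']
  have hzero : H1π (Rep.res H.subtype (X.quotientToInvariants V)) ⟨f, hf⟩ = 0 :=
    Subsingleton.elim _ _
  rw [H1π_eq_zero_iff] at hzero
  obtain ⟨x, hx⟩ := hzero
  refine ⟨x.1, fun s hs => ?_⟩
  have h1 := congrFun hx ⟨(s : Γ ⧸ V), s, hs, rfl⟩
  have h2 := congrArg Subtype.val h1
  rw [← hc₀W s hs, ← hinfl s]
  exact h2.symm

end Fermat.Agent.PT.F

end
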