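/-
PT-F §6 inputs, piece In2b (helper9): local inflation is injective in degree 2 (from Hilbert 90).
`stmtIn2b : StmtIn2b`.

Proof (NOTES/PT-F.md, "In2b").  `z = d¹ t`, `z` right-invariant under `W = r⁻¹U`, `M` trivial on
`W`, `t` right-invariant under a normal local level `V ≤ W`.
(1) `z = t 1` on `W × W` and `s • t 1 = t 1` for `s ∈ W`.
(2) `u := t - t 1` is a 1-cocycle on `W`, right-`V`-invariant.
(3) Hilbert 90 for `W/V` and the basis of `M`: `u s = s • h - h` on `W`.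
(4) `t' := t - d⁰ h` has `d¹ t' = z` and is right-`W`-invariant.
-/
import Fermat.Agent.PT.F.SeqInPlan
import Fermat.Agent.PT.F.DescSub

set_option autoImplicit false

noncomputable section

namespace Fermat.Agent.PT.F

open CategoryTheory groupCohomology Fermat.Agent.PT

attribute [local instance 1100] Rep.hV2

namespace In2b

variable {H : Type} [Group H]

lemma conjAdd_one (M Y : Rep.{0} ℤ H) (h : M.V →+ Y.V) : conjAdd M Y 1 h = h := by
  ext m
  simp

lemma conjAdd_mul (M Y : Rep.{0} ℤ H) (g g' : H) (h : M.V →+ Y.V) :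
    conjAdd M Y (g * g') h = conjAdd M Y g (conjAdd M Y g' h) := by
  ext m
  simp [mul_inv_rev]

/-- `d¹ (t - d⁰ h) = d¹ t`. -/
lemma dOne_sub_dZero (M Y : Rep.{0} ℤ H) (t : H → (M.V →+ Y.V)) (h : M.V →+ Y.V)
    (dd : H × H) :
    dOne M Y (fun d => t d - dZero M Y h d) dd = dOne M Y t dd := by
  obtain ⟨d, d'⟩ := dd
  simp only [dOne, dZero, map_sub, conjAdd_mul]
  abel

end In2b

open In2b

theorem stmtIn2b : StmtIn2b := by
  intro p _ G _ ι _ Gloc _ D M hM hbasis v z hz ht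
  classical
  obtain ⟨UM, hUM, hMtriv⟩ := hM
  obtain ⟨n, b, hb⟩ := hbasis
  obtain ⟨U, hU, hzU⟩ := hz
  obtain ⟨t, ⟨V₀, hV₀, htV₀⟩, htz⟩ := ht
  -- levels
  have hU₁ : U ⊓ UM ∈ D.𝒯.lev := D.𝒯.inf_mem _ _ hU hUM
  obtain ⟨W, hWdef⟩ : ∃ W : Subgroup (Gloc v), W = (U ⊓ UM).comap (D.r v) := ⟨_, rfl⟩
  have hWmem : ∀ s, s ∈ W ↔ D.r v s ∈ U ∧ D.r v s ∈ UM := by
    intro s
    rw [hWdef]
    rfl
  have hWlev : W ∈ (D.𝒯loc v).lev := by
    rw [hWdef]
    exact D.comap_mem v _ hU₁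
  obtain ⟨V, hV, hVle, hVn⟩ := (D.𝒯loc v).exists_normal (V₀ ⊓ W)
    ((D.𝒯loc v).inf_mem _ _ hV₀ hWlev)
  have hVW : V ≤ W := hVle.trans inf_le_right
  have htV : ∀ d s, s ∈ V → t (d * s) = t d := fun d s hs => htV₀ d s (hVle hs).1
  -- `M` is trivial on `W`
  have hMW' : ∀ s ∈ W, ∀ m : M.V, M.ρ (D.r v s)⁻¹ m = m :=
    fun s hs m => hMtriv _ (inv_mem ((hWmem s).1 hs).2) m
  have hconjW : ∀ s ∈ W, ∀ (h : M.V →+ (D.Jloc v).V) (m : M.V),
      conjAdd (Rep.res (D.r v) M) (D.Jloc v) s h m = (D.Jloc v).ρ s (h m) := by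
    intro s hs h m
    rw [conjAdd_apply]
    change (D.Jloc v).ρ s (h (M.ρ (D.r v s⁻¹) m)) = _
    rw [map_inv, hMW' s hs]
  -- step (1)
  have hz11 : z (1, 1) = t 1 := by
    rw [htz (1, 1)]
    simp only [dOne, conjAdd_one, mul_one]
    abel
  have hzW : ∀ s ∈ W, ∀ s' ∈ W, z (s, s') = t 1 := by
    intro s hs s' hs'
    have := hzU 1 1 s s' ((hWmem s).1 hs).1 ((hWmem s').1 hs').1
    rw [one_mul, one_mul] at this
    rw [this, hz11]
  have hzd : ∀ d, ∀ s ∈ W, z (d, s) = z (d, 1) := by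
    intro d s hs
    have := hzU d 1 1 s (by rw [map_one]; exact U.one_mem) ((hWmem s).1 hs).1
    rw [mul_one, one_mul] at this
    exact this
  have hfix : ∀ s ∈ W, conjAdd (Rep.res (D.r v) M) (D.Jloc v) s (t 1) = t 1 := by
    intro s hs
    have h1 := hzW s hs 1 W.one_mem
    rw [htz (s, 1)] at h1
    simp only [dOne, mul_one] at h1
    rw [sub_add_cancel] at h1
    exact h1
  -- step (2)
  have htmul : ∀ s ∈ W, ∀ s' ∈ W,
      t (s * s') = conjAdd (Rep.res (D.r v) M) (D.Jloc v) s (t s') + t s - t 1 := by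
    intro s hs s' hs'
    have h1 := hzW s hs s' hs'
    rw [htz (s, s')] at h1
    simp only [dOne] at h1
    rw [← h1]
    abel
  have hc : ∀ j, ∀ s ∈ W, ∀ s' ∈ W, (t (s * s') - t 1) (b j) =
      (D.Jloc v).ρ s ((t s' - t 1) (b j)) + (t s - t 1) (b j) := by
    intro j s hs s' hs'
    rw [htmul s hs s' hs']
    have h2 := DFunLike.congr_fun (hfix s hs) (b j)
    rw [hconjW s hs] at h2
    simp only [AddMonoidHom.sub_apply, AddMonoidHom.add_apply, hconjW s hs, map_sub, h2]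
    abel
  have hcV : ∀ j, ∀ s ∈ W, ∀ u ∈ V, (t (s * u) - t 1) (b j) = (t s - t 1) (b j) := by
    intro j s _ u hu
    rw [htV s u hu]
  -- step (3)
  have : V.Normal := hVn
  have hH := D.h90_loc v V hV (W.map (QuotientGroup.mk' V))
  have hx : ∀ j, ∃ x : (D.Jloc v).V, ∀ s ∈ W, (t s - t 1) (b j) = (D.Jloc v).ρ s x - x :=
    fun j => descSub_exists_coboundary (D.Jloc v) V W hVW (fun d => (t d - t 1) (b j))
      (hc j) (hcV j) hH
  choose x hx using hx
  obtain ⟨h, hh, huniq⟩ := hb (D.Jloc v).V x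
  have hext : ∀ f f' : M.V →+ (D.Jloc v).V, (∀ j, f (b j) = f' (b j)) → f = f' := by
    intro f f' hff'
    obtain ⟨h₀, -, hu₀⟩ := hb (D.Jloc v).V (fun j => f' (b j))
    rw [hu₀ f hff', hu₀ f' (fun _ => rfl)]
  have hu : ∀ s ∈ W, t s - t 1 = dZero (Rep.res (D.r v) M) (D.Jloc v) h s := by
    intro s hs
    apply hext
    intro j
    rw [hx j s hs]
    simp only [dZero, AddMonoidHom.sub_apply, hconjW s hs, hh]
  -- step (4)
  refine ⟨fun d => t d - dZero (Rep.res (D.r v) M) (D.Jloc v) h d,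
    ⟨U ⊓ UM, hU₁, ?_⟩, fun dd => by rw [dOne_sub_dZero, htz dd]⟩
  intro d s hs
  have hsW : s ∈ W := (hWmem s).2 hs
  have ht'W : ∀ s' ∈ W, t s' - dZero (Rep.res (D.r v) M) (D.Jloc v) h s' = t 1 := by
    intro s' hs'
    rw [← hu s' hs']
    abel
  have h1 := hzd d s hsW
  rw [htz (d, s), htz (d, 1), ← dOne_sub_dZero (Rep.res (D.r v) M) (D.Jloc v) t h (d, s),
    ← dOne_sub_dZero (Rep.res (D.r v) M) (D.Jloc v) t h (d, 1)] at h1
  simp only [dOne, mul_one, ht'W s hsW, ht'W 1 W.one_mem] at h1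
  have h2 : ∀ a b c e : (M.V →+ (D.Jloc v).V), a - b + c = a - e + e → b = c := by
    intro a b c e h
    have : a - b + c = a := by rw [h]; abel
    have h3 : c - b = 0 := by
      have h4 : a - b + c - a = 0 := by rw [this]; abel
      rw [← h4]; abel
    exact (sub_eq_zero.mp h3).symm
  exact h2 _ _ _ _ h1
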