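/-
PT-F §5/§6 input (In3), helper32: Shapiro injectivity in degree 1 for `Hom_ℤ(M, J)`, for every
`G`-module `M` which is trivial on a level.

A level 1-cocycle `y : G → Hom_ℤ(M, J)` with `ev_v ∘ y(r d) = d t_v d⁻¹ - t_v` on every `G_v`
is the coboundary of `t`, `t(m)_v(σ) := ev_v (y(σ)(σ m)) + t_v (σ m)`.
-/
import Fermat.Agent.PT.F.SeqExactE

set_option autoImplicit false

noncomputable section

namespace Fermat.Agent.PT.F

open CategoryTheory groupCohomology Fermat.Agent.PT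

namespace In3Aux

open ExactE

attribute [local instance 1100] Rep.hV2

variable {p : ℕ} {G : Type} [Group G] {ι : Type} {Gloc : ι → Type}
  [∀ v, Group (Gloc v)] (D : PTDatum p G ι Gloc) (M : Rep.{0} ℤ G)
  (y : G → (M.V →+ (PTJ D).V)) (tv : ∀ v, M.V →+ (D.Jloc v).V)

/-- the family of functions underlying `t(m)` -/
def tFun (m : M.V) : ∀ v, G → (D.Jloc v).V :=
  fun v σ => ev D v (y σ (M.ρ σ m)) + tv v (M.ρ σ m)

lemma cocycle_apply (hy : ∀ στ, dOne M (PTJ D) y στ = 0) (σ τ : G) (m : M.V) :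
    y (σ * τ) m = (PTJ D).ρ σ (y τ (M.ρ σ⁻¹ m)) + y σ m := by
  have h := congrArg (fun f : M.V →+ (PTJ D).V => f m) (hy (σ, τ))
  have h2 : (PTJ D).ρ σ (y τ (M.ρ σ⁻¹ m)) - y (σ * τ) m + y σ m = 0 := h
  rw [sub_add_eq_add_sub, sub_eq_zero] at h2
  exact h2.symm

lemma ρ_inv_ρ (σ : G) (m : M.V) : M.ρ σ⁻¹ (M.ρ σ m) = m := by
  rw [← Module.End.mul_apply, ← map_mul]
  simp

lemma tFun_mem (hy_lev : IsLevel₁ D.𝒯 y) (hy : ∀ στ, dOne M (PTJ D) y στ = 0)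
    (htv : ∀ v d, (ev D v).comp (resOne D v y d) =
      dZero (Rep.res (D.r v) M) (D.Jloc v) (tv v) d)
    (hM : IsLevTriv D.𝒯 M) (m : M.V) :
    tFun D M y tv m ∈ semilocalSub D.𝒯 D.r D.Jloc := by
  intro v
  refine ⟨fun d g => ?_, ?_⟩
  · change ev D v (y (D.r v d * g) (M.ρ (D.r v d * g) m)) + tv v (M.ρ (D.r v d * g) m) =
      (D.Jloc v).ρ d (ev D v (y g (M.ρ g m)) + tv v (M.ρ g m))
    have h1 : M.ρ (D.r v d * g) m = M.ρ (D.r v d) (M.ρ g m) := by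
      rw [map_mul]; rfl
    rw [h1, cocycle_apply D M y hy, ρ_inv_ρ, map_add, ev_ρ, map_add]
    have h2 := congrArg (fun f : M.V →+ (D.Jloc v).V => f (M.ρ (D.r v d) (M.ρ g m))) (htv v d)
    have h3 : ev D v (y (D.r v d) (M.ρ (D.r v d) (M.ρ g m))) =
        (D.Jloc v).ρ d (tv v (M.ρ (D.r v d⁻¹) (M.ρ (D.r v d) (M.ρ g m)))) -
          tv v (M.ρ (D.r v d) (M.ρ g m)) := h2
    rw [h3, map_inv, ρ_inv_ρ]
    abel
  · obtain ⟨U, hU, h⟩ := hy_lev
    obtain ⟨U₁, hU₁, hM⟩ := hM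
    refine ⟨U ⊓ U₁, D.𝒯.inf_mem U U₁ hU hU₁, fun g s hs => ?_⟩
    change ev D v (y (g * s) (M.ρ (g * s) m)) + tv v (M.ρ (g * s) m) =
      ev D v (y g (M.ρ g m)) + tv v (M.ρ g m)
    have h1 : M.ρ (g * s) m = M.ρ g m := by
      rw [map_mul]
      change M.ρ g (M.ρ s m) = _
      rw [hM s hs.2]
    rw [h1, h g s hs.1]

/-- `t : M → J` -/
def tAdd (hy_lev : IsLevel₁ D.𝒯 y) (hy : ∀ στ, dOne M (PTJ D) y στ = 0)
    (htv : ∀ v d, (ev D v).comp (resOne D v y d) =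
      dZero (Rep.res (D.r v) M) (D.Jloc v) (tv v) d)
    (hM : IsLevTriv D.𝒯 M) : M.V →+ (PTJ D).V where
  toFun m := ⟨tFun D M y tv m, tFun_mem D M y tv hy_lev hy htv hM m⟩
  map_zero' := by
    apply J_ext
    intro v σ
    change ev D v (y σ (M.ρ σ 0)) + tv v (M.ρ σ 0) = 0
    rw [map_zero, map_zero, map_zero, map_zero, add_zero]
  map_add' a b := by
    apply J_ext
    intro v σ
    change ev D v (y σ (M.ρ σ (a + b))) + tv v (M.ρ σ (a + b)) =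
      (ev D v (y σ (M.ρ σ a)) + tv v (M.ρ σ a)) + (ev D v (y σ (M.ρ σ b)) + tv v (M.ρ σ b))
    simp only [map_add]
    abel

lemma tAdd_val (hy_lev : IsLevel₁ D.𝒯 y) (hy : ∀ στ, dOne M (PTJ D) y στ = 0)
    (htv : ∀ v d, (ev D v).comp (resOne D v y d) =
      dZero (Rep.res (D.r v) M) (D.Jloc v) (tv v) d)
    (hM : IsLevTriv D.𝒯 M) (m : M.V) (v : ι) (σ : G) :
    (tAdd D M y tv hy_lev hy htv hM m).1 v σ = ev D v (y σ (M.ρ σ m)) + tv v (M.ρ σ m) := rfl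

end In3Aux

open In3Aux ExactE

attribute [local instance 1100] Rep.hV2

/-- **(In3)** Shapiro injectivity in degree 1 for `Hom_ℤ(M, J)`, for every module `M` which is
trivial on a level. -/
theorem in3_of_levTriv {p : ℕ} {G : Type} [Group G] {ι : Type} {Gloc : ι → Type}
    [∀ v, Group (Gloc v)] (D : PTDatum p G ι Gloc) (M : Rep.{0} ℤ G) (hM : IsLevTriv D.𝒯 M) :
    In3 D M := by
  intro y hy_lev hy hloc
  choose tv htv using hloc
  refine ⟨tAdd D M y tv hy_lev hy htv hM, fun σ => ?_⟩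
  ext m
  apply J_ext
  intro v g
  change (y σ m).1 v g =
    ((PTJ D).ρ σ (tAdd D M y tv hy_lev hy htv hM (M.ρ σ⁻¹ m)) -
      tAdd D M y tv hy_lev hy htv hM m).1 v g
  change (y σ m).1 v g =
    (tAdd D M y tv hy_lev hy htv hM (M.ρ σ⁻¹ m)).1 v (g * σ) -
      (tAdd D M y tv hy_lev hy htv hM m).1 v g
  rw [tAdd_val, tAdd_val]
  have h1 : M.ρ (g * σ) (M.ρ σ⁻¹ m) = M.ρ g m := by
    rw [← Module.End.mul_apply, ← map_mul]
    congr 2
    group
  rw [h1, cocycle_apply D M y hy g σ, ρ_inv_ρ, map_add]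
  have h2 : ev D v ((PTJ D).ρ g (y σ m)) = (y σ m).1 v g := by
    change (y σ m).1 v (1 * g) = _
    rw [one_mul]
  rw [h2]
  abel

/-- `In3` for both modules of a presentation. -/
theorem in3_presentation {p : ℕ} {G : Type} [Group G] {ι : Type} {Gloc : ι → Type}
    [∀ v, Group (Gloc v)] (D : PTDatum p G ι Gloc) {k : Type} [CommRing k] (A' : Rep.{0} k G)
    (P : Presentation D.𝒯 A') : In3 D P.M₀ ∧ In3 D P.M₁ := by
  refine ⟨in3_of_levTriv D P.M₀ ⟨P.U₀, P.U₀_mem, P.triv₀⟩,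
    in3_of_levTriv D P.M₁ ⟨P.U₀, P.U₀_mem, fun s hs m => ?_⟩⟩
  apply P.inc_injective
  rw [Rep.hom_comm_apply, P.triv₀ s hs]

end Fermat.Agent.PT.F

end
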