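/-
PT-F §6 inputs, piece In3 (helper32): `stmtIn3 : StmtIn3`
(semilocal Shapiro injectivity in degree 1; the proof is `in3_of_levTriv` of `PT/F/In3.lean`).
-/
import Fermat.Agent.PT.F.SeqInPlan
import Fermat.Agent.PT.F.In3

set_option autoImplicit false

namespace Fermat.Agent.PT.F

open CategoryTheory groupCohomology Fermat.Agent.PT

/-- **In3** (semilocal Shapiro, degree 1). -/
theorem stmtIn3 : StmtIn3 :=
  fun _ _ _ _ _ _ _ _ D M hM => in3_of_levTriv D M hM

end Fermat.Agent.PT.F
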