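/-
PT-F §6 inputs, piece In4b (helper81): level 1-cocycles `V → J_v` on a local level `V` are
coboundaries (Hilbert 90, level form).  `stmtIn4b : StmtIn4b`.
Proof: helper86's descent `In1b.descend_kill` with `m = 1`, the vanishing coming from `h90_loc`.
-/
import Fermat.Agent.PT.F.SeqInPlan
import Fermat.Agent.PT.F.SeqInIn1b

set_option autoImplicit false
set_option linter.style.haveILetI false

attribute [-instance] AddCommGroup.toIntModule

namespace Fermat.Agent.PT.F

open CategoryTheory groupCohomology Fermat.Agent.PT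

/-- If `H¹(K, C') = 0` then every 1-cocycle on `K` is a coboundary (`H1Kill` with `m = 1`). -/
theorem in4b_h1Kill_one {Γ' : Type} [Group Γ'] (K : Subgroup Γ') (C' : Rep.{0} ℤ Γ')
    (h : Subsingleton (H1 (Rep.res K.subtype C'))) : InflInj.H1Kill K C' 1 := by
  intro c hc
  have hc' : c ∈ cocycles₁ (Rep.res K.subtype C') := by
    rw [mem_cocycles₁_iff]
    exact fun a b => hc a b
  have h0 : H1π (Rep.res K.subtype C') ⟨c, hc'⟩ = 0 := Subsingleton.elim _ _
  rw [H1π_eq_zero_iff] at h0
  obtain ⟨a, ha⟩ := h0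
  refine ⟨a, fun n => ?_⟩
  have := congrFun ha n
  simp only [d₀₁_hom_apply] at this
  rw [one_smul]
  exact this.symm

/-- **In4b**: level 1-cocycles `V → J_v` on a local level are coboundaries. -/
theorem stmtIn4b : StmtIn4b := by
  intro p _ G _ ι _ Gloc _ D v V hV c hc hcl
  obtain ⟨V', hV', hcV'⟩ := hcl
  obtain ⟨W, hW, hWV, hWV', hWn⟩ := tower_exists_normal_le₂ (D.𝒯loc v) hV hV'
  haveI := hWn
  have hK := in4b_h1Kill_one (V.map (QuotientGroup.mk' W)) ((D.Jloc v).quotientToInvariants W)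
    (D.h90_loc v W hW (V.map (QuotientGroup.mk' W)))
  obtain ⟨t, ht⟩ := In1b.descend_kill (D.Jloc v) V W hWV c hc
    (fun s u hu => hcV' s u (hWV' hu)) 1 hK
  exact ⟨t, fun s => by rw [← ht s, one_smul]⟩

end Fermat.Agent.PT.F
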