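/-
PT-F §6 — **PermSh1** (helper30): Shapiro's lemma in degree 1 for permutation modules, explicit.
`φ : H → Γ`, `Ω` a finite free `Γ`-set, `M = res_φ ℤ[Ω]`, `N = ker φ`.  If every level 1-cocycle
`N → Y` becomes a coboundary after multiplication by some `n ∈ S`, the same holds for every level
1-cocycle `H → Hom_ℤ(M, Y)`.
Formula: for orbit representatives `x₀` and `n • c(s)(x₀) = s t_{x₀} - t_{x₀}` (`s ∈ N`) put
`t(g x₀) := g t_{x₀} - n • c(g)(g x₀)`.
-/
import Fermat.Agent.PT.F.SeqInPlan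

set_option autoImplicit false

noncomputable section

namespace Fermat.Agent.PT.F

open CategoryTheory groupCohomology Fermat.Agent.PT

attribute [local instance 1100] Rep.hV2

section Core

variable {H Γ : Type} [Group H] [Group Γ] (φ : H →* Γ) {Ω : Type} [MulAction Γ Ω]

/-- a representative of the `H`-orbit of `ω` (depending only on the orbit) -/
def permSh1_rep (ω : Ω) : Ω :=
  @Classical.epsilon Ω ⟨ω⟩ (fun x => ∃ g : H, φ g • x = ω)

lemma permSh1_rep_spec (ω : Ω) : ∃ g : H, φ g • permSh1_rep φ ω = ω :=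
  @Classical.epsilon_spec Ω (fun x => ∃ g : H, φ g • x = ω) ⟨ω, 1, by simp⟩

lemma permSh1_rep_smul (σ : H) (ω : Ω) : permSh1_rep φ (φ σ • ω) = permSh1_rep φ ω := by
  have h : (fun x => ∃ g : H, φ g • x = φ σ • ω) = (fun x => ∃ g : H, φ g • x = ω) := by
    funext x
    apply propext
    constructor
    · rintro ⟨g, hg⟩
      refine ⟨σ⁻¹ * g, ?_⟩
      rw [map_mul, mul_smul, hg, map_inv, inv_smul_smul]
    · rintro ⟨g, hg⟩
      refine ⟨σ * g, ?_⟩
      rw [map_mul, mul_smul, hg]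
  unfold permSh1_rep
  rw [h]

/-- an element of `H` moving the representative to `ω` -/
def permSh1_g (ω : Ω) : H := Classical.choose (permSh1_rep_spec φ ω)

lemma permSh1_g_spec (ω : Ω) : φ (permSh1_g φ ω) • permSh1_rep φ ω = ω :=
  Classical.choose_spec (permSh1_rep_spec φ ω)

/-- the combinatorial core of `PermSh1`, for functions `c : H → Ω → A`. -/
theorem permSh1_core (hfree : ∀ (γ : Γ) (ω : Ω), γ • ω = ω → γ = 1)
    {A : Type} [AddCommGroup A] (act : H → A →+ A)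
    (hact : ∀ σ τ a, act (σ * τ) a = act σ (act τ a))
    (c : H → Ω → A)
    (hc : ∀ σ τ ω, c (σ * τ) ω = c σ ω + act σ (c τ ((φ σ)⁻¹ • ω)))
    (n : ℕ) (t' : Ω → A)
    (ht' : ∀ s : H, φ s = 1 → ∀ ω, n • c s ω = act s (t' ω) - t' ω) :
    ∃ t : Ω → A, ∀ σ ω, n • c σ ω = act σ (t ((φ σ)⁻¹ • ω)) - t ω := by
  refine ⟨fun ω => act (permSh1_g φ ω) (t' (permSh1_rep φ ω)) - n • c (permSh1_g φ ω) ω,
    fun σ ω => ?_⟩
  have hrep : permSh1_rep φ ((φ σ)⁻¹ • ω) = permSh1_rep φ ω := by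
    rw [← map_inv]; exact permSh1_rep_smul φ σ⁻¹ ω
  have hg : φ (permSh1_g φ ω) • permSh1_rep φ ω = ω := permSh1_g_spec φ ω
  have hg' : φ (permSh1_g φ ((φ σ)⁻¹ • ω)) • permSh1_rep φ ω = (φ σ)⁻¹ • ω := by
    rw [← hrep]; exact permSh1_g_spec φ ((φ σ)⁻¹ • ω)
  simp only [hrep]
  generalize permSh1_rep φ ω = x₀ at hg hg' ⊢
  generalize permSh1_g φ ω = g at hg ⊢
  generalize permSh1_g φ ((φ σ)⁻¹ • ω) = g' at hg' ⊢
  have hs : φ (g⁻¹ * σ * g') = 1 := by
    apply hfree _ x₀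
    rw [map_mul, map_mul, mul_smul, mul_smul, hg', smul_inv_smul, map_inv, ← hg, inv_smul_smul]
  have hσg' : σ * g' = g * (g⁻¹ * σ * g') := by group
  have hx₀ : (φ g)⁻¹ • ω = x₀ := by rw [← hg, inv_smul_smul]
  have h1 := hc σ g' ω
  have h2 := hc g (g⁻¹ * σ * g') ω
  rw [← hσg', hx₀] at h2
  have h3 := ht' _ hs x₀
  have e1 : c σ ω = c g ω + act g (c (g⁻¹ * σ * g') x₀) - act σ (c g' ((φ σ)⁻¹ • ω)) := by
    rw [← h2, h1]; abel
  have h3' : act (g⁻¹ * σ * g') (t' x₀) = t' x₀ + n • c (g⁻¹ * σ * g') x₀ := by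
    rw [h3]; abel
  have e2 : act σ (act g' (t' x₀)) = act g (t' x₀) + n • act g (c (g⁻¹ * σ * g') x₀) := by
    rw [← hact, hσg', hact, h3', map_add, map_nsmul]
  rw [map_sub, map_nsmul, e2, e1, smul_sub, smul_add]
  abel

end Core

section Wrapper

variable {H Γ : Type} [Group H] [Group Γ] (φ : H →* Γ) (Ω : Type) [MulAction Γ Ω]

/-- the action on the basis of `res_φ ℤ[Ω]` -/
lemma permSh1_ρ_single (σ : H) (ω : Ω) (z : ℤ) :
    (Rep.res φ (Rep.ofMulAction ℤ Γ Ω)).ρ σ (MonoidAlgebra.single ω z) =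
      MonoidAlgebra.single (φ σ • ω) z :=
  Representation.ofMulAction_single (φ σ) ω z

/-- the additive map `ℤ[Ω] → A` with prescribed values on the basis -/
def permSh1_lift {A : Type} [AddCommGroup A] (t : Ω → A) :
    (Rep.res φ (Rep.ofMulAction ℤ Γ Ω)).V →+ A :=
  (Finsupp.liftAddHom (fun ω : Ω => zmultiplesHom A (t ω))).comp
    (MonoidAlgebra.coeffAddEquiv (R := ℤ) (M := Ω)).toAddMonoidHom

lemma permSh1_lift_single {A : Type} [AddCommGroup A] (t : Ω → A) (ω : Ω) (z : ℤ) :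
    permSh1_lift φ Ω t (MonoidAlgebra.single ω z) = z • t ω := by
  simp [permSh1_lift, MonoidAlgebra.coeffAddEquiv]

/-- additive maps out of `ℤ[Ω]` agree if they agree on the basis -/
lemma permSh1_ext {A : Type} [AddCommGroup A]
    (f f' : (Rep.res φ (Rep.ofMulAction ℤ Γ Ω)).V →+ A)
    (h : ∀ ω : Ω, f (MonoidAlgebra.single ω 1) = f' (MonoidAlgebra.single ω 1)) : f = f' := by
  apply MonoidAlgebra.addMonoidHom_ext
  intro ω z
  have h1 : (MonoidAlgebra.single ω z : MonoidAlgebra ℤ Ω) = z • MonoidAlgebra.single ω 1 := by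
    rw [MonoidAlgebra.smul_single, smul_eq_mul, mul_one]
  rw [h1, map_zsmul, map_zsmul, h ω]

lemma permSh1_dZero_apply (M Y : Rep.{0} ℤ H) (h : M.V →+ Y.V) (σ : H) (m : M.V) :
    dZero M Y h σ m = Y.ρ σ (h (M.ρ σ⁻¹ m)) - h m := rfl

lemma permSh1_dOne_apply (M Y : Rep.{0} ℤ H) (t : H → (M.V →+ Y.V)) (σ τ : H) (m : M.V) :
    dOne M Y t (σ, τ) m = Y.ρ σ (t τ (M.ρ σ⁻¹ m)) - t (σ * τ) m + t σ m := rfl

end Wrapper

/-- **PermSh1**: Shapiro's lemma in degree 1 for permutation modules (explicit form). -/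
theorem stmtPermSh1 : StmtPermSh1 := by
  intro H Γ _ _ 𝒯 φ Ω _ _ hfree hker Y S hyp c hlev hcoc
  -- the cocycle identity on basis elements
  have hc' : ∀ (σ τ : H) (ω : Ω), c (σ * τ) (MonoidAlgebra.single ω 1) =
      c σ (MonoidAlgebra.single ω 1) +
        actAdd Y σ (c τ (MonoidAlgebra.single ((φ σ)⁻¹ • ω) 1)) := by
    intro σ τ ω
    have h := DFunLike.congr_fun (hcoc (σ, τ)) (MonoidAlgebra.single ω 1)
    rw [permSh1_dOne_apply, AddMonoidHom.zero_apply, permSh1_ρ_single, map_inv] at h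
    rw [actAdd_apply]
    calc c (σ * τ) (MonoidAlgebra.single ω 1)
        = c (σ * τ) (MonoidAlgebra.single ω 1) +
          (Y.ρ σ (c τ (MonoidAlgebra.single ((φ σ)⁻¹ • ω) 1)) -
            c (σ * τ) (MonoidAlgebra.single ω 1) + c σ (MonoidAlgebra.single ω 1)) := by
          rw [h, add_zero]
      _ = _ := by abel
  -- the restrictions to `ker φ` are level cocycles
  have hω : ∀ ω : Ω, ∃ n ∈ S, ∃ t : Y.V, ∀ s : H, φ s = 1 →
      n • c s (MonoidAlgebra.single ω 1) = actAdd Y s t - t := by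
    intro ω
    have hcoc1 : IsCocycleOn φ.ker Y (fun s => c (s : H) (MonoidAlgebra.single ω 1)) := by
      intro s s'
      have h := hc' s s' ω
      have hs1 : (φ (s : H))⁻¹ • ω = ω := by rw [MonoidHom.mem_ker.1 s.2]; simp
      rw [hs1] at h
      exact h
    have hlev1 : IsLevelOn 𝒯 φ.ker (fun s => c (s : H) (MonoidAlgebra.single ω 1)) := by
      obtain ⟨U, hU, hUc⟩ := hlev
      exact ⟨U, hU, fun s u hu => by
        show c ((s * u : φ.ker) : H) _ = _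
        rw [Subgroup.coe_mul, hUc s u hu]⟩
    obtain ⟨n, hn, t, ht⟩ := hyp _ hcoc1 hlev1
    exact ⟨n, hn, t, fun s hs => ht ⟨s, MonoidHom.mem_ker.2 hs⟩⟩
  choose nω hnS tω htω using hω
  obtain ⟨_⟩ := nonempty_fintype Ω
  have hn : (∏ ω, nω ω) ∈ S := Submonoid.prod_mem S (fun ω _ => hnS ω)
  have hdvd : ∀ ω, ∃ k, (∏ ω, nω ω) = k * nω ω := fun ω => by
    obtain ⟨k, hk⟩ := Finset.dvd_prod_of_mem nω (Finset.mem_univ ω)
    exact ⟨k, by rw [hk, mul_comm]⟩
  choose k hk using hdvd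
  have ht' : ∀ s : H, φ s = 1 → ∀ ω : Ω,
      (∏ ω, nω ω) • c s (MonoidAlgebra.single ω 1) =
        actAdd Y s (k ω • tω ω) - k ω • tω ω := by
    intro s hs ω
    rw [hk ω, mul_smul, htω ω s hs, smul_sub, map_nsmul]
  obtain ⟨t, ht⟩ := permSh1_core φ hfree (fun σ => actAdd Y σ)
    (fun σ τ a => by simp only [actAdd_apply, map_mul]; rfl)
    (fun σ ω => c σ (MonoidAlgebra.single ω 1)) hc' (∏ ω, nω ω) (fun ω => k ω • tω ω) ht'
  refine ⟨_, hn, permSh1_lift φ Ω t, fun σ => permSh1_ext φ Ω _ _ (fun ω => ?_)⟩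
  rw [permSh1_dZero_apply, permSh1_ρ_single, permSh1_lift_single, permSh1_lift_single, one_zsmul,
    one_zsmul, map_inv]
  exact ht σ ω

end Fermat.Agent.PT.F

end
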