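/-
PT-F §6, piece S6 (helper9): `loc ∘ ∂ = 0` — a representative of `∂ g` is locally a level
coboundary.  `stmtLocDel_of : StmtKappa → StmtExt → StmtLocDel`.

Proof (blueprint §6, F6b).  Let `(g̃, z̃)` be a witness of `IsDel g w`.  On `G_v`, put
`γ := ev_v ∘ g̃ : M₁ → J_v`, extend it to `Γ : M₀ → J_v` (S0a, `J_div`).  For `d ∈ G_v` the map
`β_d := j_v ∘ z̃(r d) - (d Γ d⁻¹ - Γ) : M₀ → J_v` vanishes on `M₁`, hence is killed by `p`, hence
has values in `j_v (ℕ • ζ)` (`J_tors`); so `β_d = j_v ∘ κ(b d)` for a unique `b d ∈ A` (S0b).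
Then `b` is a level cochain on `G_v` and `d b = w|G_v`.
-/
import Fermat.Agent.PT.F.SeqPlan
import Fermat.Agent.PT.F.Level

set_option autoImplicit false

noncomputable section

namespace Fermat.Agent.PT.F

open CategoryTheory groupCohomology Fermat.Agent.PT

attribute [local instance 1100] Rep.hV2

namespace LocDel

variable {p : ℕ} {G : Type} [Group G] {ι : Type} {Gloc : ι → Type}
  [∀ v, Group (Gloc v)] (D : PTDatum p G ι Gloc)

/-- `ev_v` is `G_v`-equivariant along `r v`. -/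
lemma ev_ρ (v : ι) (d : Gloc v) (f : (PTJ D).V) :
    ev D v ((PTJ D).ρ (D.r v d) f) = (D.Jloc v).ρ d (ev D v f) := by
  have h := (f.2 v).1 d 1
  rw [mul_one] at h
  rw [ev_apply, ev_apply, ← h]
  change f.1 v (1 * D.r v d) = _
  rw [one_mul]

/-- `ev_v ∘ i = j_v`. -/
lemma ev_i (v : ι) (e : D.E.V) : ev D v (D.i.hom e) = (D.j v).hom e := by
  rw [ev_apply, D.i_apply, map_one]
  rfl

/-- `j_v` is `G_v`-equivariant. -/
lemma j_ρ (v : ι) (d : Gloc v) (e : D.E.V) :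
    (D.j v).hom (D.E.ρ (D.r v d) e) = (D.Jloc v).ρ d ((D.j v).hom e) :=
  Rep.hom_comm_apply (D.j v) d e

/-- An additive map `M₀ → Y` is determined by its values on the basis. -/
lemma basis_ext {A' : Rep.{0} (ZMod p) G} (P : Presentation D.𝒯 A') {Y : Type} [AddCommGroup Y]
    (h h' : P.M₀.V →+ Y) (hh : ∀ j, h (P.basis₀ j) = h' (P.basis₀ j)) : h = h' := by
  obtain ⟨h₀, -, huniq⟩ := P.basis₀_spec Y (fun j => h' (P.basis₀ j))
  rw [huniq h hh, huniq h' (fun _ => rfl)]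

end LocDel

open LocDel

theorem stmtLocDel_of (hK : StmtKappa) (hExt : StmtExt) : StmtLocDel := by
  intro p _ G _ ι _ Gloc _ D A _ P g w hw v
  obtain ⟨κadd, -, κeq, κinj, κsurj⟩ := hK p G ι Gloc D A P
  obtain ⟨gt, zt, -, hzl, hz, hκw⟩ := hw
  have hp : p.Prime := Fact.out
  -- `κ` is injective and compatible with subtraction
  have κsub : ∀ (a b : A.V) (m : P.M₀.V),
      kappaFun D A P (a - b) m = kappaFun D A P a m - kappaFun D A P b m := by
    intro a b m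
    have := κadd (a - b) b m
    rw [sub_add_cancel] at this
    rw [this, add_sub_cancel_right]
  have κext : ∀ a b : A.V, (∀ m, (D.j v).hom (kappaFun D A P a m) =
      (D.j v).hom (kappaFun D A P b m)) → a = b := by
    intro a b h
    rw [← sub_eq_zero]
    apply κinj
    intro m
    rw [κsub, sub_eq_zero]
    exact D.j_injective v (h m)
  -- `p • M₀ ⊆ inc M₁`
  have hpM : ∀ m : P.M₀.V, ∃ m₁ : P.M₁.V, homAdd P.inc m₁ = p • m := by
    intro m
    apply (P.exact (p • m)).1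
    rw [map_nsmul]
    exact ZModModule.char_nsmul_eq_zero p _
  -- the extension `Γ` of `ev_v ∘ g̃`
  obtain ⟨Γ, hΓ⟩ := hExt p hp P.M₀.V P.M₁.V (D.Jloc v).V (homAdd P.inc) P.inc_injective hpM
    (D.J_div v) ((ev D v).comp gt)
  have hΓ' : ∀ m₁ : P.M₁.V, Γ (P.inc.hom m₁) = ev D v (gt m₁) := hΓ
  -- the maps `β_d = j_v ∘ z̃(r d) - (d Γ d⁻¹ - Γ)`
  obtain ⟨β, hβ⟩ : ∃ β : Gloc v → P.M₀.V → (D.Jloc v).V, ∀ d m, β d m =
      (D.j v).hom (zt (D.r v d) m) -
        ((D.Jloc v).ρ d (Γ (P.M₀.ρ (D.r v d)⁻¹ m)) - Γ m) := ⟨_, fun _ _ => rfl⟩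
  have βadd : ∀ d m m', β d (m + m') = β d m + β d m' := by
    intro d m m'
    simp only [hβ, map_add]
    abel
  have βinc : ∀ d (m₁ : P.M₁.V), β d (P.inc.hom m₁) = 0 := by
    intro d m₁
    have h1 := hz (D.r v d) m₁
    have h2 : (D.j v).hom (zt (D.r v d) (P.inc.hom m₁)) =
        (D.Jloc v).ρ d (ev D v (gt (P.M₁.ρ (D.r v d)⁻¹ m₁))) - ev D v (gt m₁) := by
      rw [← ev_i, h1]
      simp only [dZero, AddMonoidHom.sub_apply, conjAdd_apply, map_sub, ev_ρ]
    have h3 : P.M₀.ρ (D.r v d)⁻¹ (P.inc.hom m₁) = P.inc.hom (P.M₁.ρ (D.r v d)⁻¹ m₁) :=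
      (Rep.hom_comm_apply P.inc _ _).symm
    rw [hβ, h2, h3, hΓ', hΓ']
    abel
  have βzero : ∀ d, β d 0 = 0 := by
    intro d
    have := βadd d 0 0
    rw [add_zero] at this
    exact left_eq_add.mp this
  have βnsmul : ∀ d (n : ℕ) m, β d (n • m) = n • β d m := by
    intro d n m
    induction n with
    | zero => rw [zero_smul, zero_smul, βzero]
    | succ n ih => rw [succ_nsmul, succ_nsmul, βadd, ih]
  have βtors : ∀ d m, p • β d m = 0 := by
    intro d m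
    obtain ⟨m₁, hm₁⟩ := hpM m
    rw [← βnsmul, ← hm₁]
    exact βinc d m₁
  -- `β_d = j_v ∘ h_d`
  have βE : ∀ d m, ∃ e : D.E.V, (D.j v).hom e = β d m := by
    intro d m
    obtain ⟨n, hn⟩ := D.J_tors v (β d m) (βtors d m)
    exact ⟨n • D.ζ, by rw [hn, map_nsmul]⟩
  choose hfun hhfun using βE
  have hb : ∀ d, ∃ a : A.V, ∀ m, (D.j v).hom (kappaFun D A P a m) = β d m := by
    intro d
    obtain ⟨a, ha⟩ := κsurj (AddMonoidHom.mk' (hfun d) (fun m m' => by
        apply D.j_injective v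
        rw [map_add, hhfun, hhfun, hhfun, βadd])) (fun m₁ => by
        apply D.j_injective v
        change (D.j v).hom (hfun d (P.inc.hom m₁)) = (D.j v).hom 0
        rw [hhfun, βinc, map_zero])
    refine ⟨a, fun m => ?_⟩
    rw [ha m]
    exact hhfun d m
  choose b hb using hb
  refine (mem_levCoboundaries₂_iff (D.𝒯loc v) (Rep.res (D.r v) A) _).2 ⟨b, ?_, ?_⟩
  · -- `b` is a level cochain
    obtain ⟨U, hU, hUz⟩ := hzl
    obtain ⟨V', hV', hV'Γ⟩ := IsDiscrete.exists_level_of_finite (𝒯 := D.𝒯loc v)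
      (X := D.Jloc v) (D.Jloc_discrete v) (Set.finite_range (fun j => Γ (P.basis₀ j)))
    refine ⟨V' ⊓ (U.comap (D.r v)) ⊓ (P.U₀.comap (D.r v)),
      (D.𝒯loc v).inf_mem _ _ ((D.𝒯loc v).inf_mem _ _ hV' (D.comap_mem v U hU))
        (D.comap_mem v _ P.U₀_mem), ?_⟩
    intro d s hs
    obtain ⟨⟨hs1, hs2⟩, hs3⟩ := hs
    have hsΓ : ∀ m, (D.Jloc v).ρ s (Γ m) = Γ m := by
      have : (actAdd (D.Jloc v) s).comp Γ = Γ :=
        basis_ext D P _ _ (fun j => hV'Γ _ ⟨j, rfl⟩ s hs1)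
      intro m
      exact DFunLike.congr_fun this m
    have hsM : ∀ m : P.M₀.V, P.M₀.ρ (D.r v s)⁻¹ m = m :=
      fun m => P.triv₀ _ (inv_mem hs3) m
    apply κext
    intro m
    rw [hb, hb, hβ, hβ, map_mul, hUz _ _ hs2]
    simp only [mul_inv_rev, map_mul, Module.End.mul_apply, hsM, hsΓ]
  · -- `d b = w` on `G_v`
    funext dd
    obtain ⟨d, d'⟩ := dd
    rw [d₁₂_hom_apply]
    apply κext
    intro m
    have e1 : kappaFun D A P ((Rep.res (D.r v) A).ρ d (b d') - b (d * d') + b d) m =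
        D.E.ρ (D.r v d) (kappaFun D A P (b d') (P.M₀.ρ (D.r v d)⁻¹ m)) -
          kappaFun D A P (b (d * d')) m + kappaFun D A P (b d) m := by
      rw [κadd, κsub]
      congr 2
      exact κeq (D.r v d) (b d') m
    have e2 : kappaFun D A P (resTwo D v w (d, d')) m =
        D.E.ρ (D.r v d) (zt (D.r v d') (P.M₀.ρ (D.r v d)⁻¹ m)) -
          zt (D.r v d * D.r v d') m + zt (D.r v d) m := by
      change kappaFun D A P (w (D.r v d, D.r v d')) m = _
      rw [hκw]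
      rfl
    have hj : ∀ e : D.E.V, (D.j v).hom (D.E.ρ (D.r v d) e) =
        (D.Jloc v).ρ d ((D.j v).hom e) := fun e => j_ρ D v d e
    rw [e1, e2, map_add, map_sub, map_add, map_sub, hj, hj, hb, hb, hb, hβ, hβ, hβ]
    simp only [map_sub, map_mul, mul_inv_rev, Module.End.mul_apply]
    abel

end Fermat.Agent.PT.F

end
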