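import Fermat.Agent.PT.F.Plan
import Fermat.Agent.PT.A.Sylow
import Fermat.Agent.PT.A.Kill

/-!
# PT-F / F-TNDual: `StmtTN'` implies `StmtTNDual`

Pontryagin duality for finite abelian groups (Mathlib: `CommGroup.subgroupOrderIsoSubgroupMonoidHom`)
with values in the finite cyclic group `Z = H²(P, C)`, `P` a Sylow `p`-subgroup:
* `N ≤ H²(G, M)` is finite (`H²(G, M)` is of finite type and killed by `|G|`) and killed by `|P|`;
* the maps `y ↦ res_P (g_* y)`, `g : M ⟶ C`, form a subgroup of `Hom(N, Z)` separating the points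
  of `N` (`StmtTN'` and Sylow injectivity), hence all of `Hom(N, Z)`;
* so `res_P ∘ ψ = res_P ∘ g_*` for some `g`, and `ψ = g_*` on `N` by Sylow injectivity again.
-/

set_option autoImplicit false

namespace Fermat.Agent.PT.F

/-- A finite cyclic group has enough roots of unity of order its cardinality. -/
theorem tnd_hasEnough (Z : Type*) [AddCommGroup Z] [Finite Z] [IsAddCyclic Z] :
    HasEnoughRootsOfUnity (Multiplicative Z) (Nat.card Z) where
  prim := by
    obtain ⟨g, hg⟩ := IsCyclic.exists_generator (α := Multiplicative Z)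
    refine ⟨g, ?_⟩
    have h : orderOf g = Nat.card (Multiplicative Z) := orderOf_eq_card_of_forall_mem_zpowers hg
    rw [IsPrimitiveRoot.iff_orderOf, h]
    rfl
  cyc := by
    have : IsCyclic (Multiplicative Z)ˣ :=
      isCyclic_of_surjective (toUnits (G := Multiplicative Z)) (toUnits (G := Multiplicative Z)).surjective
    infer_instance

/-- Pontryagin duality for a finite abelian group `N` with values in a finite cyclic group `Z`
whose order kills `N`: a subgroup of `Hom(N, Z)` which separates the points of `N` is everything. -/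
theorem tnd_mem_of_separating {N Z : Type*} [AddCommGroup N] [Finite N] [AddCommGroup Z] [Finite Z]
    [IsAddCyclic Z] (hexp : ∀ y : N, Nat.card Z • y = 0)
    (E : AddSubgroup (N →+ Z)) (hsep : ∀ y : N, y ≠ 0 → ∃ e ∈ E, e y ≠ 0) (ψ : N →+ Z) :
    ψ ∈ E := by
  classical
  let Θ : (N →+ Z) → (Multiplicative N →* (Multiplicative Z)ˣ) := fun ψ =>
    (toUnits (G := Multiplicative Z)).toMonoidHom.comp (AddMonoidHom.toMultiplicative ψ)
  have hΘ : ∀ (ψ : N →+ Z) (g : Multiplicative N),
      ((Θ ψ g : (Multiplicative Z)ˣ) : Multiplicative Z) = Multiplicative.ofAdd (ψ g.toAdd) :=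
    fun ψ g => rfl
  have hΘ1 : ∀ (ψ : N →+ Z) (g : Multiplicative N), Θ ψ g = 1 ↔ ψ g.toAdd = 0 := by
    intro ψ g
    rw [← Units.val_inj, hΘ]
    exact Iff.rfl
  have hΘinj : Function.Injective Θ := by
    intro a b hab
    ext y
    have := congrArg (fun χ : Multiplicative N →* (Multiplicative Z)ˣ =>
      ((χ (Multiplicative.ofAdd y) : (Multiplicative Z)ˣ) : Multiplicative Z)) hab
    exact this
  let Φ : Subgroup (Multiplicative N →* (Multiplicative Z)ˣ) :=
    { carrier := {χ | ∃ e ∈ E, Θ e = χ}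
      one_mem' := ⟨0, E.zero_mem, by ext g; rfl⟩
      mul_mem' := by
        rintro _ _ ⟨a, ha, rfl⟩ ⟨b, hb, rfl⟩
        exact ⟨a + b, E.add_mem ha hb, by ext g; rfl⟩
      inv_mem' := by
        rintro _ ⟨a, ha, rfl⟩
        exact ⟨-a, E.neg_mem ha, by ext g; rfl⟩ }
  have hne : NeZero (Nat.card Z) := ⟨Nat.card_pos.ne'⟩
  have hexpdvd : Monoid.exponent (Multiplicative N) ∣ Nat.card Z :=
    Monoid.exponent_dvd_of_forall_pow_eq_one fun g => by
      have := hexp g.toAdd
      exact congrArg Multiplicative.ofAdd this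
  have h1 : HasEnoughRootsOfUnity (Multiplicative Z) (Nat.card Z) := tnd_hasEnough Z
  have h2 : HasEnoughRootsOfUnity (Multiplicative Z) (Monoid.exponent (Multiplicative N)) :=
    HasEnoughRootsOfUnity.of_dvd (Multiplicative Z) hexpdvd
  let iso := CommGroup.subgroupOrderIsoSubgroupMonoidHom (Multiplicative N) (Multiplicative Z)
  have hbot : iso.symm (OrderDual.toDual Φ) = ⊥ := by
    rw [eq_bot_iff]
    intro g hg
    rw [CommGroup.mem_subgroupOrderIsoSubgroupMonoidHom_symm_iff] at hg
    rw [Subgroup.mem_bot]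
    by_contra hg1
    have hy : g.toAdd ≠ 0 := fun h => hg1 (by
      have := congrArg Multiplicative.ofAdd h
      simpa using this)
    obtain ⟨e, he, hey⟩ := hsep _ hy
    exact hey ((hΘ1 e g).1 (hg (Θ e) ⟨e, he, rfl⟩))
  have hΦ : Φ = OrderDual.ofDual (iso ⊥) := by
    rw [← hbot, OrderIso.apply_symm_apply]
    rfl
  have hmem : Θ ψ ∈ Φ := by
    rw [hΦ, CommGroup.mem_subgroupOrderIsoSubgroupMonoidHom_iff]
    intro g hg
    rw [Subgroup.mem_bot] at hg
    rw [hg, map_one]
  obtain ⟨e, he, heq⟩ := hmem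
  rwa [← hΘinj heq]


open CategoryTheory groupCohomology Fermat.Agent.PT

/-- A torsion abelian group which is the image of a `ℤ`-module of finite type is finite
(instance-free form: the `ℤ`-module structure on the source is arbitrary). -/
theorem tnd_finite_of_surjective {A B : Type*} [AddCommGroup A] [AddCommGroup B]
    (instA : Module ℤ A) (hA : @Module.Finite ℤ A _ _ instA) (f : A →+ B)
    (hf : Function.Surjective f) (n : ℕ) (hn : 0 < n) (hk : ∀ b : B, n • b = 0) : Finite B := by
  obtain rfl : instA = AddCommGroup.toIntModule A := Subsingleton.elim _ _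
  have h4 : Module.Finite ℤ B := Module.Finite.of_surjective f.toIntLinearMap hf
  apply Module.finite_of_fg_torsion
  intro x
  refine ⟨⟨(n : ℤ), ?_⟩, ?_⟩
  · rw [mem_nonZeroDivisors_iff_ne_zero]
    exact_mod_cast hn.ne'
  · show (n : ℤ) • x = 0
    rw [natCast_zsmul]
    exact hk x

/-- Submodules of a finite power of a module of finite type over a noetherian ring are of
finite type (stated for a general ring so that the instance paths are the generic ones). -/
theorem tnd_finite_submodule_pi {R ι V : Type*} [CommRing R] [IsNoetherianRing R] [Finite ι]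
    [AddCommGroup V] [Module R V] [Module.Finite R V] (S : Submodule R (ι → V)) :
    Module.Finite R S := by
  have : IsNoetherian R (ι → V) := inferInstance
  infer_instance

/-- `H²(G, M)` is finite for a finite group `G` and a `ℤ`-module `M` of finite type. -/
theorem tnd_finite_H2 {G : Type} [Group G] [Fintype G] (M : Rep.{0} ℤ G)
    (instM : Module ℤ M.V) (hfin : @Module.Finite ℤ M.V _ _ instM) : Finite (H2 M) := by
  obtain rfl : instM = M.hV2 := Subsingleton.elim _ _
  have h3 := @tnd_finite_submodule_pi ℤ (G × G) M.V _ _ _ _ M.hV2 hfin (cocycles₂ M)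
  have hsurj : Function.Surjective (H2π M).hom :=
    (ModuleCat.epi_iff_surjective _).1 inferInstance
  refine tnd_finite_of_surjective (A := cocycles₂ M) _ h3
    (AddMonoidHom.mk' (fun c => (H2π M).hom c) (fun a b => map_add _ a b)) hsurj
    (Fintype.card G) Fintype.card_pos (fun x => stmtKill G M 1 x)

theorem tnd_eq_zero_of_coprime {A : Type*} [AddCommGroup A] {a b : ℕ} (h : Nat.Coprime a b)
    {w : A} (ha : a • w = 0) (hb : b • w = 0) : w = 0 := by
  have h1 : addOrderOf w ∣ a := addOrderOf_dvd_of_nsmul_eq_zero ha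
  have h2 : addOrderOf w ∣ b := addOrderOf_dvd_of_nsmul_eq_zero hb
  have h3 : addOrderOf w ∣ 1 := by
    have := Nat.dvd_gcd h1 h2
    rwa [h.gcd_eq_one] at this
  exact AddMonoid.addOrderOf_eq_one_iff.1 (Nat.dvd_one.1 h3)

/-- **F-TNDual**: `StmtTN'` implies `StmtTNDual`. -/
theorem stmtTNDualOfTN : StmtTNDualOfTN := by
  intro hTN p _ G _ _ C u hu M hfree hfin N hN ψ
  have hp : p.Prime := Fact.out
  obtain ⟨P⟩ : Nonempty (Sylow p G) := inferInstance
  have hP : IsPGroup p (P : Subgroup G) := P.isPGroup'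
  set r := (resSub C (P : Subgroup G) 2).hom with hr
  -- the target `Z = H²(P, C)` is finite cyclic of order `|P|`
  have hcard := hu.h2_card (P : Subgroup G) hP
  have hZfin : Finite (H2 (Rep.res (P : Subgroup G).subtype C)) := by
    apply Nat.finite_of_card_ne_zero
    rw [hcard]
    exact Nat.card_pos.ne'
  have hZcyc : IsAddCyclic (H2 (Rep.res (P : Subgroup G).subtype C)) := by
    refine ⟨⟨r u, fun z => ?_⟩⟩
    obtain ⟨n, hn⟩ := hu.h2_gen (P : Subgroup G) hP z
    exact AddSubgroup.mem_zmultiples_iff.2 ⟨n, hn⟩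
  have hinj : ∀ z : H2 C, IsPTors p z → r z = 0 → z = 0 := fun z hz hrz =>
    stmtSylow p G C P 2 z (by norm_num) hz hrz
  -- `N` is finite and killed by `|P|`
  have hH2fin : Finite (H2 M) := tnd_finite_H2 M _ hfin
  have hNfin : Finite N := inferInstance
  have hexp : ∀ y : N, Nat.card (H2 (Rep.res (P : Subgroup G).subtype C)) • y = 0 := by
    intro y
    rw [hcard]
    apply Subtype.ext
    rw [AddSubgroup.coe_nsmul, AddSubgroup.coe_zero]
    obtain ⟨k, hk⟩ := hN y.1 y.2
    have hG : Fintype.card G • (y : H2 M) = 0 := stmtKill G M 1 (y : H2 M)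
    have hidx : (P : Subgroup G).index • (Nat.card (P : Subgroup G) • (y : H2 M)) = 0 := by
      rw [← mul_smul, mul_comm, Subgroup.card_mul_index, Nat.card_eq_fintype_card]
      exact hG
    have hpk : p ^ k • (Nat.card (P : Subgroup G) • (y : H2 M)) = 0 := by
      rw [smul_comm, hk, smul_zero]
    have hcop : Nat.Coprime (p ^ k) (P : Subgroup G).index :=
      Nat.Coprime.pow_left k ((Nat.Prime.coprime_iff_not_dvd hp).2 P.not_dvd_index)
    exact tnd_eq_zero_of_coprime hcop hpk hidx
  -- push-forward classes are `p`-primary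
  have hpush : ∀ (g : M ⟶ C) (y : N), IsPTors p ((push₂ g).hom (y : H2 M)) := by
    intro g y
    obtain ⟨k, hk⟩ := hN y.1 y.2
    exact ⟨k, by rw [← map_nsmul, hk, map_zero]⟩
  have hψ : ∀ y : N, IsPTors p (ψ y) := by
    intro y
    obtain ⟨k, hk⟩ := hN y.1 y.2
    refine ⟨k, ?_⟩
    have : p ^ k • y = 0 := by
      apply Subtype.ext
      rw [AddSubgroup.coe_nsmul, AddSubgroup.coe_zero]
      exact hk
    rw [← map_nsmul, this, map_zero]
  -- the subgroup of `Hom(N, Z)` of the maps `y ↦ res (g_* y)`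
  let ra : H2 C →+ H2 (Rep.res (P : Subgroup G).subtype C) :=
    AddMonoidHom.mk' (fun z => r z) (fun a b => map_add r a b)
  let pa : (M ⟶ C) → (H2 M →+ H2 C) := fun g =>
    AddMonoidHom.mk' (fun z => (push₂ g).hom z) (fun a b => map_add (push₂ g).hom a b)
  have hpa_add : ∀ (g g' : M ⟶ C) (z : H2 M), pa (g + g') z = pa g z + pa g' z := by
    intro g g' z
    show (push₂ (g + g')).hom z = (push₂ g).hom z + (push₂ g').hom z
    rw [show push₂ (g + g') = push₂ g + push₂ g' from map_id_add g g' 2]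
    rfl
  let Φ : (M ⟶ C) →+ (N →+ H2 (Rep.res (P : Subgroup G).subtype C)) :=
    AddMonoidHom.mk' (fun g => (ra.comp (pa g)).comp N.subtype) (by
      intro g g'
      ext y
      show ra (pa (g + g') y) = ra (pa g y) + ra (pa g' y)
      rw [hpa_add, map_add])
  have hsep : ∀ y : N, y ≠ 0 → ∃ e ∈ Φ.range, e y ≠ 0 := by
    intro y hy
    have hy' : (y : H2 M) ≠ 0 := fun h => hy (Subtype.ext h)
    have hex : ∃ g : M ⟶ C, (push₂ g).hom (y : H2 M) ≠ 0 := by
      by_contra hcon
      have hcon' : ∀ g : M ⟶ C, (push₂ g).hom (y : H2 M) = 0 := fun g =>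
        by_contra fun h => hcon ⟨g, h⟩
      exact hy' ((hTN p G C u hu M hfree hfin).1 (y : H2 M) (hN y.1 y.2) hcon')
    obtain ⟨g, hg⟩ := hex
    refine ⟨Φ g, ⟨g, rfl⟩, fun h0 => hg (hinj _ (hpush g y) h0)⟩
  obtain ⟨g, hg⟩ := tnd_mem_of_separating hexp Φ.range hsep (ra.comp ψ)
  refine ⟨g, fun y => ?_⟩
  have h1 : r ((push₂ g).hom (y : H2 M)) = r (ψ y) := DFunLike.congr_fun hg y
  have hz : IsPTors p ((push₂ g).hom (y : H2 M) - ψ y) := by
    obtain ⟨k, hk⟩ := hpush g y
    obtain ⟨l, hl⟩ := hψ y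
    refine ⟨k + l, ?_⟩
    have e1 : p ^ (k + l) • (push₂ g).hom (y : H2 M) = 0 := by
      rw [pow_add, mul_comm, mul_smul, hk, smul_zero]
    have e2 : p ^ (k + l) • ψ y = 0 := by
      rw [pow_add, mul_smul, hl, smul_zero]
    rw [smul_sub, e1, e2, sub_zero]
  exact sub_eq_zero.1 (hinj _ hz (by rw [map_sub, h1, sub_self]))

end Fermat.Agent.PT.F
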