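import Fermat.Agent.PT.A.Final
import Fermat.Agent.PT.F.Assembly
import Fermat.Agent.PT.F.PairBasic
import Fermat.Agent.PT.F.PairH1
import Fermat.Agent.PT.F.H2pCyclic
import Fermat.Agent.PT.F.InflInj
import Fermat.Agent.PT.F.TNDual
import Fermat.Agent.PT.F.FinLevel
import Fermat.Agent.PT.F.LeftKer
import Fermat.Agent.PT.F.H1Finite
import Fermat.Agent.PT.F.CMP
import Fermat.Agent.PT.F.LocNondeg
import Fermat.Agent.PT.F.SeqKappa
import Fermat.Agent.PT.F.SeqExt
import Fermat.Agent.PT.F.SeqDelExists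
import Fermat.Agent.PT.F.SeqDelUnique
import Fermat.Agent.PT.F.SeqDelAdd
import Fermat.Agent.PT.F.SeqDelRes
import Fermat.Agent.PT.F.SeqDelHat
import Fermat.Agent.PT.F.SeqLocDel
import Fermat.Agent.PT.F.SeqExactE
import Fermat.Agent.PT.F.SeqExactH2
import Fermat.Agent.PT.F.SeqIn
import Fermat.Agent.PT.F.SeqInIn1b
import Fermat.Agent.PT.F.SeqInIn2a
import Fermat.Agent.PT.F.SeqInIn2b
import Fermat.Agent.PT.F.SeqInIn3
import Fermat.Agent.PT.F.SeqInIn4b
import Fermat.Agent.PT.F.SeqInM1Free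
import Fermat.Agent.PT.F.SeqInPermSh1
import Fermat.Agent.PT.F.HasInd
import Fermat.Agent.PT.F.HasIndStd
import Fermat.Agent.PT.F.StdPres

/-!
# PT-F: the abstract Poitou–Tate theorem `StmtPTF` (helper68)

* `stmtPTF_of : StmtTN' → StmtIn2a → StmtPTF` — the wiring of all PT-F pieces, with the two
  inputs that were proved last kept as hypotheses (`StmtTN'` = Tate–Nakayama, PT-A;
  `StmtIn2a` = semilocal Shapiro in degree 2);
* `stmtPTF : StmtPTF` — **unconditional**, from `stmtTN'` (PT-A, helper9's crew) and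
  `stmtIn2a`.
-/

set_option autoImplicit false

noncomputable section

namespace Fermat.Agent.PT.F

open CategoryTheory groupCohomology Fermat.Agent.PT

theorem stmtPTF_of (hTN : StmtTN') (h2a : StmtIn2a) : StmtPTF := by
  intro p _ G _ ι _ Gloc _ D A _ hA
  obtain ⟨U₀, hU₀, hn, -, -, htriv⟩ := exists_level_triv D A hA
  haveI := hn
  haveI hfinA : Finite (A.dualTwist D.χ).V := by
    change Finite (Module.Dual (ZMod p) A.V)
    haveI : Module.Finite (ZMod p) (Module.Dual (ZMod p) A.V) := inferInstance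
    exact Module.finite_of_finite (ZMod p)
  have hRK := stmtRightKer_of hTN stmtInflInjFin
  have hLK := stmtLeftKer_of hTN (stmtTNDualOfTN hTN) stmtInflInjFin
  have hPH1 := stmtPairH1_of stmtPairBasic stmtH2pCyclic
  exact stmtAssembly stmtPairBasic hPH1 hRK hLK (stmtH1Finite_of hRK hLK stmtPairBasic hPH1)
    stmtCMP (stmtLocNondeg_of hRK stmtPairBasic) stmtKappa (stmtDelExists_of stmtM1Free)
    stmtDelUnique (stmtDelAdd_of stmtKappa) stmtDelRes stmtDelHat
    (stmtLocDel_of stmtKappa stmtExt) (stmtExactE_of stmtKappa) (stmtExactH2_of stmtKappa)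
    p G ι Gloc D A (stdPres D.𝒯 U₀ hU₀ (A.dualTwist D.χ) htriv)
    (hasInd_stdPres D.𝒯 U₀ hU₀ (A.dualTwist D.χ) htriv)
    (stmtSeqIn_of stmtPermSh1 stmtIn1b stmtIn4b stmtIn3 h2a stmtIn2b stmtM1Free
      p G ι Gloc D A U₀ hU₀ htriv)

/-- **The abstract Poitou–Tate theorem**, unconditional. -/
theorem stmtPTF : StmtPTF := stmtPTF_of stmtTN' stmtIn2a

end Fermat.Agent.PT.F

end
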