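import Mathlib

/-!
# PT-F / F8, linear algebra (helper79)

`f8_glue`: the Sha pairing from the "exact sequence" `Eloc → E —del→ X₂` and the two dualities,
where `E` is only an additive group, the pairing is `Pg : E →+ Dual (Hsub)`, `Hsub` a finite
subspace of `H` containing `S₁`.
-/

set_option autoImplicit false

namespace Fermat.Agent.PT.F

open Module

section

variable {p : ℕ} [Fact p.Prime] {H X₂ E : Type*}
  [AddCommGroup H] [Module (ZMod p) H] [AddCommGroup X₂] [Module (ZMod p) X₂] [AddCommGroup E]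

/-- The Sha pairing. -/
theorem f8_glue (Hsub S₁ : Submodule (ZMod p) H) (hle : S₁ ≤ Hsub) [Finite ↥Hsub]
    (S₂ : Submodule (ZMod p) X₂)
    (Pg : E →+ (↥Hsub →ₗ[ZMod p] ZMod p)) (del : E →+ X₂) (Eloc : AddSubgroup E)
    (h1 : ∀ g, del g ∈ S₂)
    (h2 : ∀ x ∈ S₂, ∃ g, del g = x)
    (h3 : ∀ g, del g = 0 → g ∈ Eloc)
    (h4 : ∀ g ∈ Eloc, del g = 0)
    (h5 : ∀ g ∈ Eloc, ∀ y : ↥Hsub, (y : H) ∈ S₁ → Pg g y = 0)
    (h6 : ∀ y : ↥Hsub, (∀ g ∈ Eloc, Pg g y = 0) → (y : H) ∈ S₁)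
    (h7 : ∀ y : ↥Hsub, (∀ g, Pg g y = 0) → y = 0)
    (h8 : ∀ g, (∀ y, Pg g y = 0) → g ∈ Eloc) :
    ∃ B : ↥S₁ →ₗ[ZMod p] ↥S₂ →ₗ[ZMod p] ZMod p,
      (∀ y, (∀ x, B y x = 0) → y = 0) ∧ (∀ x, (∀ y, B y x = 0) → x = 0) := by
  classical
  -- the subspace `Λ` of functionals coming from `Eloc`
  let Λ₀ : AddSubgroup (↥Hsub →ₗ[ZMod p] ZMod p) := Eloc.map Pg
  let Λ : Submodule (ZMod p) (↥Hsub →ₗ[ZMod p] ZMod p) :=
    { carrier := Λ₀
      add_mem' := fun ha hb => Λ₀.add_mem ha hb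
      zero_mem' := Λ₀.zero_mem
      smul_mem' := fun c x hx => by
        have : c • x = (c.val : ℕ) • x := by
          rw [← Nat.cast_smul_eq_nsmul (ZMod p), ZMod.natCast_val, ZMod.cast_id', id]
        rw [this]
        exact Λ₀.nsmul_mem hx _ }
  have hΛmem : ∀ φ, φ ∈ Λ ↔ ∃ g ∈ Eloc, Pg g = φ := fun φ => Iff.rfl
  -- (f): a `g` whose functional kills `S₁` has `del g = 0`
  have hf : ∀ g, (∀ y : ↥Hsub, (y : H) ∈ S₁ → Pg g y = 0) → del g = 0 := by
    intro g hg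
    have hco : ∀ y : ↥Hsub, y ∈ Λ.dualCoannihilator → (y : H) ∈ S₁ := by
      intro y hy
      rw [Submodule.mem_dualCoannihilator] at hy
      exact h6 y fun g' hg' => hy _ ((hΛmem _).2 ⟨g', hg', rfl⟩)
    have hmem : Pg g ∈ Λ.dualCoannihilator.dualAnnihilator := by
      rw [Submodule.mem_dualAnnihilator]
      intro y hy
      exact hg y (hco y hy)
    have : FiniteDimensional (ZMod p) ↥Hsub := Module.Finite.of_finite
    rw [Subspace.dualCoannihilator_dualAnnihilator_eq] at hmem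
    obtain ⟨g', hg', hgg'⟩ := (hΛmem _).1 hmem
    have h9 : g - g' ∈ Eloc := h8 _ fun y => by
      rw [map_sub, LinearMap.sub_apply, hgg', sub_self]
    have h10 : g ∈ Eloc := by
      have := Eloc.add_mem h9 hg'
      rwa [sub_add_cancel] at this
    exact h4 g h10
  -- (d)
  have hd : ∀ g, del g = 0 → ∀ y : ↥Hsub, (y : H) ∈ S₁ → Pg g y = 0 :=
    fun g hg => h5 g (h3 g hg)
  -- a set-theoretic section of `del` over `S₂`
  choose! s hs using h2
  have hwd : ∀ (g : E) (x : ↥S₂), del g = (x : X₂) → ∀ y : ↥Hsub, (y : H) ∈ S₁ →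
      Pg g y = Pg (s x) y := by
    intro g x hg y hy
    have h0 : del (g - s x) = 0 := by rw [map_sub, hg, hs x x.2, sub_self]
    have := hd _ h0 y hy
    rw [map_sub, LinearMap.sub_apply] at this
    exact sub_eq_zero.1 this
  -- the pairing, first as a biadditive map
  let B₀ : ↥S₁ →+ ↥S₂ →+ ZMod p :=
    AddMonoidHom.mk' (fun y =>
      AddMonoidHom.mk' (fun x => Pg (s x) ⟨(y : H), hle y.2⟩) (fun x x' => by
        have := hwd (s x + s x') (x + x') (by
          rw [map_add, hs x x.2, hs x' x'.2]; rfl) ⟨(y : H), hle y.2⟩ y.2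
        rw [← this, map_add, LinearMap.add_apply]))
      (fun y y' => by
        ext x
        simp only [AddMonoidHom.mk'_apply, AddMonoidHom.add_apply]
        rw [← map_add]
        rfl)
  let B : ↥S₁ →ₗ[ZMod p] ↥S₂ →ₗ[ZMod p] ZMod p :=
    ((AddMonoidHom.toZModLinearMapEquiv p).toAddMonoidHom.comp B₀).toZModLinearMap p
  have hB : ∀ y x, B y x = Pg (s x) ⟨(y : H), hle y.2⟩ := fun y x => rfl
  refine ⟨B, ?_, ?_⟩
  · intro y hy
    have h0 : (⟨(y : H), hle y.2⟩ : ↥Hsub) = 0 := by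
      apply h7
      intro g
      rw [hwd g ⟨del g, h1 g⟩ rfl ⟨(y : H), hle y.2⟩ y.2, ← hB]
      exact hy _
    apply Subtype.ext
    exact congrArg (fun z : ↥Hsub => (z : H)) h0
  · intro x hx
    have h0 : del (s x) = 0 := hf _ fun y hy => by
      have := hx ⟨(y : H), hy⟩
      rw [hB] at this
      exact this
    apply Subtype.ext
    rw [← hs x x.2, h0]
    rfl

end

end Fermat.Agent.PT.F
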