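import Fermat.Agent.PT.F.RepBasic

/-!
# PT-F / F-Dual (helper68): duality for the `Ext¹`-model

`G` a finite group, `C` a `G`-module with a `p`-fundamental class, `0 → M₁ → M₀ → A' → 0` an
exact sequence of `G`-modules with `M₀` free of finite rank over `ℤ`, `H¹(G, M₀) = 0`, `p A' = 0`.
Assume that every norm `N_G h` (`h : M₁ → C` additive) is `p` times an equivariant map (this is what
the existence theorem mod `p` gives at a saturated level, see `NOTES/PT-F.md`).  Then the pairing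

  `Hom_G(M₁, C) × H¹(G, A') → H²(G, C)`, `(g, c) ↦ g_* (δ c)`

has trivial right kernel, and its left kernel is the image of `Hom_G(M₀, C)`.

Inputs from PT-A: `StmtTN'` (Tate–Nakayama in degree `(0, 2)`, `p`-part) and `StmtTNDual`
(every additive map from a subgroup of `H²(G, M)(p)` to `H²(G, C)` is a push-forward).
-/

set_option autoImplicit false

open CategoryTheory groupCohomology Fermat.Agent.PT

namespace Fermat.Agent.PT.F

variable {G : Type} [Group G]

/-- **(A-dual)**, a consequence of `StmtTN'` by Pontryagin duality for finite abelian `p`-groups: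
for `ℤ`-free `M` of finite rank, every additive map from a subgroup of `p`-primary classes of
`H²(G, M)` to `H²(G, C)` is `y ↦ g_* y` for some `g : M ⟶ C`. -/
def StmtTNDual : Prop :=
  ∀ (p : ℕ) [Fact p.Prime] (G : Type) [Group G] [Fintype G] (C : Rep.{0} ℤ G) (u : H2 C),
    IsPFundClass p C u →
    ∀ (M : Rep.{0} ℤ G), Module.Free ℤ M.V → Module.Finite ℤ M.V →
    ∀ (N : AddSubgroup (H2 M)), (∀ y ∈ N, IsPTors p y) → ∀ ψ : N →+ H2 C,
      ∃ g : M ⟶ C, ∀ y : N, (push₂ g).hom (y : H2 M) = ψ y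

/-- The `p`-primary classes form a subgroup. -/
def pPrimary (p : ℕ) (X : Type*) [AddCommGroup X] : AddSubgroup X where
  carrier := {x | IsPTors p x}
  zero_mem' := ⟨0, by simp⟩
  add_mem' := by
    rintro x y ⟨k, hk⟩ ⟨l, hl⟩
    refine ⟨k + l, ?_⟩
    have hx : p ^ (k + l) • x = 0 := by rw [pow_add, mul_comm, mul_smul, hk, smul_zero]
    have hy : p ^ (k + l) • y = 0 := by rw [pow_add, mul_smul, hl, smul_zero]
    rw [smul_add, hx, hy, add_zero]
  neg_mem' := by
    rintro x ⟨k, hk⟩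
    exact ⟨k, by rw [smul_neg, hk, neg_zero]⟩

theorem mem_pPrimary {p : ℕ} {X : Type*} [AddCommGroup X] {x : X} :
    x ∈ pPrimary p X ↔ IsPTors p x := Iff.rfl

/-- Multiplication by `p` on `M₀` factors through `M₁` when `p` kills `A'`. -/
theorem exists_mulP {X : ShortComplex (Rep.{0} ℤ G)} (hX : X.ShortExact) (p : ℕ)
    (hp : ∀ a : X.X₃.V, p • a = 0) :
    ∃ P : X.X₂ ⟶ X.X₁, P ≫ X.f = p • 𝟙 X.X₂ ∧ X.f ≫ P = p • 𝟙 X.X₁ := by
  have := hX.mono_f
  have hk : (p • 𝟙 X.X₂) ≫ X.g = 0 := rep_hom_ext' fun a => by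
    simp only [rep_comp_apply, rep_nsmul_apply, rep_id_apply, map_nsmul, rep_zero_apply]
    exact hp _
  refine ⟨hX.exact.lift _ hk, hX.exact.lift_f _ hk, ?_⟩
  rw [← cancel_mono X.f, Category.assoc, hX.exact.lift_f _ hk]
  exact rep_hom_ext' fun a => by simp

/-- `M₁` is free of finite rank when `M₀` is. -/
theorem free_finite_of_mono {A B : Rep.{0} ℤ G} (f : A ⟶ B) [Mono f]
    [Module.Free ℤ B.V] [Module.Finite ℤ B.V] : Module.Free ℤ A.V ∧ Module.Finite ℤ A.V := by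
  have hinj : Function.Injective f.hom := (Rep.mono_iff_injective f).1 inferInstance
  let fa : A.V →+ B.V := AddMonoidHom.mk' (fun a => f.hom a) (fun a b => map_add f.hom a b)
  let fl : A.V →ₗ[ℤ] B.V := fa.toIntLinearMap
  have hinj' : Function.Injective fl := fun a b h => hinj h
  let e : A.V ≃ₗ[ℤ] LinearMap.range fl := LinearEquiv.ofInjective fl hinj'
  exact ⟨Module.Free.of_equiv e.symm, Module.Finite.equiv e.symm⟩

/-- **F-Dual.** -/
theorem ext_duality (hTN : StmtTN') (hD : StmtTNDual)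
    (p : ℕ) [Fact p.Prime] [Fintype G]
    (C : Rep.{0} ℤ G) (u : H2 C) (hu : IsPFundClass p C u)
    (X : ShortComplex (Rep.{0} ℤ G)) (hX : X.ShortExact)
    [Module.Free ℤ X.X₂.V] [Module.Finite ℤ X.X₂.V]
    (hp : ∀ a : X.X₃.V, p • a = 0)
    (hH1 : Subsingleton (H1 X.X₂))
    (hexist : ∀ h : X.X₁.V →ₗ[ℤ] C.V, ∃ g₁ : X.X₁ ⟶ C,
      ∀ m, normHom X.X₁ C h m = p • g₁.hom m) :
    (∀ c : H1 X.X₃, (∀ g : X.X₁ ⟶ C, (push₂ g).hom ((δ hX 1 2 rfl).hom c) = 0) → c = 0) ∧
    (∀ g : X.X₁ ⟶ C, (∀ c : H1 X.X₃, (push₂ g).hom ((δ hX 1 2 rfl).hom c) = 0) →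
        ∃ g₀ : X.X₂ ⟶ C, X.f ≫ g₀ = g) := by
  have := hX.mono_f
  obtain ⟨hfree, hfin⟩ := free_finite_of_mono X.f
  have hTN₁ := hTN p G C u hu X.X₁ hfree hfin
  constructor
  · -- right kernel
    intro c hc
    have hpt : IsPTors p ((δ hX 1 2 rfl).hom c) := by
      refine ⟨1, ?_⟩
      rw [pow_one, ← map_nsmul, nsmul_eq_zero_of_forall p hp 1 c, map_zero]
    have h0 : (δ hX 1 2 rfl).hom c = 0 := hTN₁.1 _ hpt hc
    have : Mono (δ hX 1 2 rfl) :=
      mono_δ_of_isZero hX 1 (ModuleCat.isZero_of_iff_subsingleton.2 hH1)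
    have hinj : Function.Injective (δ hX 1 2 rfl).hom :=
      (ModuleCat.mono_iff_injective _).1 inferInstance
    exact hinj (by rw [h0, map_zero])
  · -- left kernel
    intro g hg
    -- the two restricted maps on the `p`-primary part of `H²(G, M₁)`
    let Y₁ : AddSubgroup (H2 X.X₁) := pPrimary p (H2 X.X₁)
    let f₁ : Y₁ →+ H2 X.X₂ := ((push₂ X.f).hom : H2 X.X₁ →ₗ[ℤ] H2 X.X₂).toAddMonoidHom.comp Y₁.subtype
    let g₁ : Y₁ →+ H2 C := ((push₂ g).hom : H2 X.X₁ →ₗ[ℤ] H2 C).toAddMonoidHom.comp Y₁.subtype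
    have hker : f₁.rangeRestrict.ker ≤ g₁.ker := by
      intro y hy
      have hy' : (push₂ X.f).hom (y : H2 X.X₁) = 0 :=
        congrArg Subtype.val (AddMonoidHom.mem_ker.1 hy)
      have hex := (ShortComplex.moduleCat_exact_iff _).1
        (mapShortComplex₁_exact hX (i := 1) (j := 2) rfl) (y : H2 X.X₁) hy'
      obtain ⟨c, hc⟩ := hex
      rw [AddMonoidHom.mem_ker]
      show (push₂ g).hom (y : H2 X.X₁) = 0
      rw [← hc]
      exact hg c
    let ψ : f₁.range →+ H2 C :=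
      f₁.rangeRestrict.liftOfSurjective f₁.rangeRestrict_surjective ⟨g₁, hker⟩
    have hψ : ∀ y : Y₁, ψ (f₁.rangeRestrict y) = g₁ y := fun y =>
      AddMonoidHom.liftOfRightInverse_comp_apply _ _ _ ⟨g₁, hker⟩ y
    have hN : ∀ y ∈ f₁.range, IsPTors p y := by
      rintro _ ⟨y, rfl⟩
      obtain ⟨k, hk⟩ := y.2
      exact ⟨k, by
        show p ^ k • (push₂ X.f).hom (y : H2 X.X₁) = 0
        rw [← map_nsmul, hk, map_zero]⟩
    obtain ⟨g₀, hg₀⟩ := hD p G C u hu X.X₂ inferInstance inferInstance f₁.range hN ψ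
    -- `g' = g - f ≫ g₀` kills all `p`-primary classes
    have hg' : ∀ y : H2 X.X₁, IsPTors p y → (push₂ (g - X.f ≫ g₀)).hom y = 0 := by
      intro y hy
      have h1 : push₂ (g - X.f ≫ g₀) = push₂ g - push₂ X.f ≫ push₂ g₀ := by
        show groupCohomology.map _ _ _ = _
        rw [map_id_sub, map_id_comp]
      rw [h1]
      have h2 := hg₀ (f₁.rangeRestrict ⟨y, hy⟩)
      rw [hψ] at h2
      show (push₂ g).hom y - (push₂ g₀).hom ((push₂ X.f).hom y) = 0
      rw [sub_eq_zero]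
      exact h2.symm
    obtain ⟨n, h, hn, hnh⟩ := hTN₁.2 (g - X.f ≫ g₀) hg'
    obtain ⟨g₁', hg₁'⟩ := hexist h
    obtain ⟨P, hP₁, hP₂⟩ := exists_mulP hX p hp
    have hPf : ∀ m : X.X₁.V, P.hom (X.f.hom m) = p • m := fun m => by
      have := congrArg (fun φ : X.X₁ ⟶ X.X₁ => φ.hom m) hP₂
      simpa using this
    have hcop : IsCoprime (n : ℤ) (p : ℤ) := by
      rw [Nat.isCoprime_iff_coprime]
      exact (Nat.Coprime.symm ((Nat.Prime.coprime_iff_not_dvd Fact.out).2 hn))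
    obtain ⟨a, b, hab⟩ := hcop
    refine ⟨a • (P ≫ g₁' + n • g₀) + b • (P ≫ g), rep_hom_ext' fun m => ?_⟩
    have e1 : n • (g.hom m - g₀.hom (X.f.hom m)) = p • g₁'.hom m := by
      have := hnh m
      rw [hg₁' m] at this
      simpa using this
    simp only [rep_comp_apply, rep_add_apply, rep_zsmul_apply, rep_nsmul_apply, hPf, map_nsmul]
    have e2 : (p : ℕ) • g₁'.hom m + n • g₀.hom (X.f.hom m) = n • g.hom m := by
      rw [← e1, smul_sub]; abel
    rw [e2]
    have e3 : a • (n • g.hom m) + b • (p • g.hom m) = (a * n + b * p) • g.hom m := by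
      rw [add_smul, mul_smul, mul_smul]
      simp
    rw [e3, hab, one_smul]

end Fermat.Agent.PT.F
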