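import Mathlib

/-!
# PT-F / glue (helper68): the Sha pairing from an exact sequence and two dualities

Pure linear algebra over a field `k`.  Given

* maps `loc₁ : H1 → H1loc`, `a : Eloc → E`, `del : E → H2`, `loc₂ : H2 → H2loc`,
* a pairing `P : E × H1 → k`, nondegenerate on both sides,
* a pairing `Ploc : Eloc × H1loc → k` such that every functional on `H1loc` is of the form
  `Ploc e'`,
* the compatibility `P (a e') c = Ploc e' (loc₁ c)`,
* exactness of `Eloc → E → H2 → H2loc` at `E` and at `H2`,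

there is a pairing `ker loc₁ × ker loc₂ → k` which is nondegenerate on both sides.
No finiteness is needed.
-/

set_option autoImplicit false

namespace Fermat.Agent.PT.F

variable {k : Type*} [Field k]
  {H1 H1loc E Eloc H2 H2loc : Type*}
  [AddCommGroup H1] [Module k H1] [AddCommGroup H1loc] [Module k H1loc]
  [AddCommGroup E] [Module k E] [AddCommGroup Eloc] [Module k Eloc]
  [AddCommGroup H2] [Module k H2] [AddCommGroup H2loc] [Module k H2loc]

/-- A functional on `H1` vanishing on `ker loc₁` is `φ ∘ loc₁` for a functional `φ` on `H1loc`. -/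
theorem glue_exists_factor (loc₁ : H1 →ₗ[k] H1loc) (f : H1 →ₗ[k] k)
    (hf : ∀ c, loc₁ c = 0 → f c = 0) : ∃ φ : H1loc →ₗ[k] k, ∀ c, φ (loc₁ c) = f c := by
  have hle : LinearMap.ker loc₁ ≤ LinearMap.ker f := fun c hc =>
    LinearMap.mem_ker.2 (hf c (LinearMap.mem_ker.1 hc))
  let ψ : LinearMap.range loc₁ →ₗ[k] k :=
    ((LinearMap.ker loc₁).liftQ f hle) ∘ₗ (loc₁.quotKerEquivRange.symm : _ →ₗ[k] _)
  obtain ⟨φ, hφ⟩ := LinearMap.exists_extend ψ
  refine ⟨φ, fun c => ?_⟩
  have h1 : φ (loc₁ c) = ψ ⟨loc₁ c, LinearMap.mem_range_self loc₁ c⟩ := by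
    rw [← hφ]; rfl
  rw [h1]
  have h2 : loc₁.quotKerEquivRange.symm ⟨loc₁ c, LinearMap.mem_range_self loc₁ c⟩ =
      Submodule.Quotient.mk c := by
    rw [LinearEquiv.symm_apply_eq]
    rfl
  simp only [ψ, LinearMap.coe_comp, LinearEquiv.coe_coe, Function.comp_apply, h2]
  rfl

/-- The abstract glue: from the exact sequence `Eloc → E → H2 → H2loc` and the two dualities
to the perfect pairing between `ker loc₁` and `ker loc₂`. -/
theorem glue_sha_pairing
    (loc₁ : H1 →ₗ[k] H1loc) (a : Eloc →ₗ[k] E) (del : E →ₗ[k] H2) (loc₂ : H2 →ₗ[k] H2loc)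
    (P : E →ₗ[k] H1 →ₗ[k] k) (Ploc : Eloc →ₗ[k] H1loc →ₗ[k] k)
    (hPl : ∀ e, (∀ c, P e c = 0) → e = 0)
    (hPr : ∀ c, (∀ e, P e c = 0) → c = 0)
    (hPloc : ∀ φ : H1loc →ₗ[k] k, ∃ e', ∀ c, Ploc e' c = φ c)
    (hcmp : ∀ e' c, P (a e') c = Ploc e' (loc₁ c))
    (hex₁ : ∀ e, del e = 0 → ∃ e', a e' = e) (hex₁' : ∀ e', del (a e') = 0)
    (hex₂ : ∀ x, loc₂ x = 0 → ∃ e, del e = x) (hex₂' : ∀ e, loc₂ (del e) = 0) :
    ∃ B : (LinearMap.ker loc₁) →ₗ[k] (LinearMap.ker loc₂) →ₗ[k] k,
      (∀ y, (∀ x, B y x = 0) → y = 0) ∧ (∀ x, (∀ y, B y x = 0) → x = 0) := by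
  classical
  -- a linear section `t` of `del` over `ker loc₂`
  have hsurj : Function.Surjective del.rangeRestrict := LinearMap.surjective_rangeRestrict del
  obtain ⟨s, hs⟩ := LinearMap.exists_rightInverse_of_surjective del.rangeRestrict
    (LinearMap.range_eq_top.2 hsurj)
  have hle : LinearMap.ker loc₂ ≤ LinearMap.range del := by
    intro x hx
    obtain ⟨e, he⟩ := hex₂ x (LinearMap.mem_ker.1 hx)
    exact ⟨e, he⟩
  let t : LinearMap.ker loc₂ →ₗ[k] E := s ∘ₗ Submodule.inclusion hle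
  have ht : ∀ x : LinearMap.ker loc₂, del (t x) = (x : H2) := by
    intro x
    have h1 : del.rangeRestrict (s (Submodule.inclusion hle x)) = Submodule.inclusion hle x :=
      LinearMap.congr_fun hs (Submodule.inclusion hle x)
    exact congrArg Subtype.val h1
  -- the pairing
  let B : (LinearMap.ker loc₁) →ₗ[k] (LinearMap.ker loc₂) →ₗ[k] k :=
    LinearMap.mk₂ k (fun y x => P (t x) (y : H1))
      (fun y₁ y₂ x => by simp [map_add])
      (fun c y x => by simp [map_smul])
      (fun y x₁ x₂ => by simp [map_add])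
      (fun c y x => by simp [map_smul])
  have hB : ∀ y x, B y x = P (t x) (y : H1) := fun y x => rfl
  -- independence of the choice of the preimage
  have hindep : ∀ (e : E) (x : LinearMap.ker loc₂), del e = (x : H2) →
      ∀ y : LinearMap.ker loc₁, P e (y : H1) = B y x := by
    intro e x he y
    have h0 : del (e - t x) = 0 := by rw [map_sub, he, ht x, sub_self]
    obtain ⟨e', he'⟩ := hex₁ _ h0
    have h1 : P (e - t x) (y : H1) = 0 := by
      rw [← he', hcmp, LinearMap.mem_ker.1 y.2, map_zero]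
    have h2 : P (e - t x) (y : H1) = P e (y : H1) - P (t x) (y : H1) := by
      rw [map_sub, LinearMap.sub_apply]
    rw [h2] at h1
    rw [hB]
    exact sub_eq_zero.1 h1
  refine ⟨B, ?_, ?_⟩
  · -- nondegenerate in `y`
    intro y hy
    have h1 : ∀ e, P e (y : H1) = 0 := by
      intro e
      have hx : del e ∈ LinearMap.ker loc₂ := LinearMap.mem_ker.2 (hex₂' e)
      rw [hindep e ⟨del e, hx⟩ rfl y]
      exact hy _
    exact Subtype.ext (hPr _ h1)
  · -- nondegenerate in `x`
    intro x hx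
    have hvan : ∀ c, loc₁ c = 0 → P (t x) c = 0 := fun c hc =>
      hx ⟨c, LinearMap.mem_ker.2 hc⟩
    obtain ⟨φ, hφ⟩ := glue_exists_factor loc₁ (P (t x)) hvan
    obtain ⟨e', he'⟩ := hPloc φ
    have h1 : a e' = t x := by
      have : a e' - t x = 0 := by
        apply hPl
        intro c
        rw [map_sub, LinearMap.sub_apply, hcmp, he', hφ, sub_self]
      exact sub_eq_zero.1 this
    apply Subtype.ext
    rw [← ht x, ← h1, hex₁']
    rfl

end Fermat.Agent.PT.F
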