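/-
PT-F §6 piece S1 `StmtDelExists` (helper55): every `g : M₁ ⟶ C` has a level 2-cocycle `w`
with `IsDel g w`.

`stmtDelExists_of : StmtM1Free → StmtDelExists`  (uses `stmtKappa`, `stmtExt`).

Proof: lift `g` to an additive `g̃ : M₁ → J` on a basis of `M₁` (`π` is surjective);
`σ ↦ σ g̃ σ⁻¹ - g̃` has values in `ker π = im i`, so it is `i ∘ z₁(σ)`, `z₁` a level 1-cochain in
`Hom(M₁, E)`; extend `z₁(σ)` to `z̃(σ) : M₀ → E` (S0a; `E` is `p`-divisible and `p M₀ ⊆ M₁`),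
by a choice depending only on `z₁(σ)`, so that `z̃` is level; `d z̃` vanishes on `M₁`, hence is
`κ ∘ w` for a unique `w`, which is a level 2-cocycle because `κ` is injective and equivariant.
-/
import Fermat.Agent.PT.F.SeqExactH2
import Fermat.Agent.PT.F.SeqKappa
import Fermat.Agent.PT.F.SeqExt
import Fermat.Agent.PT.F.SeqInPlan

set_option autoImplicit false
set_option linter.unusedSectionVars false

noncomputable section

namespace Fermat.Agent.PT.F

open CategoryTheory groupCohomology Fermat.Agent.PT ExactH2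

attribute [local instance 1100] Rep.hV2

namespace DelExists

section General

variable {G : Type} [Group G]

/-- `d¹ ∘ d¹ = 0` in the form of the 2-cocycle identity. -/
lemma dOne_cocycle (M Y : Rep.{0} ℤ G) (t : G → (M.V →+ Y.V)) (g h j : G) :
    dOne M Y t (g * h, j) + dOne M Y t (g, h) =
      conjAdd M Y g (dOne M Y t (h, j)) + dOne M Y t (g, h * j) := by
  simp only [dOne, map_add, map_sub, conjAdd_mul, mul_assoc]
  abel

end General

variable {p : ℕ} {G : Type} [Group G] {ι : Type} {Gloc : ι → Type}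
  [∀ v, Group (Gloc v)] (D : PTDatum p G ι Gloc)

lemma e_isDiscrete : IsDiscrete D.𝒯 D.E := D.E_discrete

variable {k : Type} [CommRing k] {A' : Rep.{0} k G} (P : Presentation D.𝒯 A')

/-- `M₁` is trivial on `U₀`. -/
lemma triv₁ (s : G) (hs : s ∈ P.U₀) (m : P.M₁.V) : P.M₁.ρ s m = m := by
  apply P.inc_injective
  rw [Rep.hom_comm_apply, P.triv₀ s hs]

/-- `d¹` of a level 1-cochain with values in `Hom(M₀, Y)`, `Y` discrete, is a level 2-cochain. -/
lemma isLevel₂_dOne {Y : Rep.{0} ℤ G} (hY : IsDiscrete D.𝒯 Y) (t : G → (P.M₀.V →+ Y.V))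
    (ht : IsLevel₁ D.𝒯 t) : IsLevel₂ D.𝒯 (dOne P.M₀ Y t) := by
  obtain ⟨U₁, hU₁, h₁⟩ := ht
  have hfin : (Set.range (fun x : G × Fin P.n => t x.1 (P.basis₀ x.2))).Finite := by
    have h1 : (Set.range t).Finite := isLevel₁_finite_range (𝒯 := D.𝒯) ⟨U₁, hU₁, h₁⟩
    have h2 : Set.range (fun x : G × Fin P.n => t x.1 (P.basis₀ x.2)) ⊆
        (fun y : (P.M₀.V →+ Y.V) × Fin P.n => y.1 (P.basis₀ y.2)) ''
          ((Set.range t) ×ˢ (Set.univ : Set (Fin P.n))) := by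
      rintro _ ⟨⟨σ, j⟩, rfl⟩
      exact ⟨(t σ, j), ⟨⟨σ, rfl⟩, Set.mem_univ _⟩, rfl⟩
    exact ((h1.prod Set.finite_univ).image _).subset h2
  obtain ⟨U₂, hU₂, h₂⟩ := hY.exists_level_of_finite hfin
  obtain ⟨V, hV, hVle, hVn⟩ := D.𝒯.exists_normal _
    (D.𝒯.inf_mem _ _ (D.𝒯.inf_mem _ _ hU₁ hU₂) P.U₀_mem)
  refine ⟨V, hV, fun g g' s s' hs hs' => ?_⟩
  have hs1 : s ∈ U₁ := (hVle hs).1.1
  have hs2 : s ∈ U₂ := (hVle hs).1.2
  have hs0 : s ∈ P.U₀ := (hVle hs).2
  have hs'1 : s' ∈ U₁ := (hVle hs').1.1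
  have hconj : ∀ τ, conjAdd P.M₀ Y s (t τ) = t τ := by
    intro τ
    refine (P.basis₀_spec Y.V (fun j => t τ (P.basis₀ j))).unique (fun j => ?_) (fun _ => rfl)
    rw [conjAdd_apply, P.triv₀ s⁻¹ (P.U₀.inv_mem hs0)]
    exact h₂ _ ⟨(τ, j), rfl⟩ s hs2
  have e1 : g * s * (g' * s') = g * g' * (g'⁻¹ * s * g' * s') := by group
  have e2 : g'⁻¹ * s * g' * s' ∈ U₁ := by
    have h3 : g'⁻¹ * s * g' ∈ V := by
      have := hVn.conj_mem s hs g'⁻¹
      simpa using this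
    exact (hVle (V.mul_mem h3 hs')).1.1
  show conjAdd P.M₀ Y (g * s) (t (g' * s')) - t (g * s * (g' * s')) + t (g * s) =
    conjAdd P.M₀ Y g (t g') - t (g * g') + t g
  rw [h₁ g' s' hs'1, h₁ g s hs1, e1, h₁ (g * g') _ e2, conjAdd_mul, hconj]

end DelExists

open DelExists

theorem stmtDelExists_of (hfree : StmtM1Free) : StmtDelExists := by
  intro p _ G _ ι _ Gloc _ D A _ P g
  obtain ⟨κadd, κaddm, κeq, κinj, κsurj⟩ := stmtKappa p G ι Gloc D A P
  have hk : KFacts D A P := ⟨κadd, κaddm, κeq⟩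
  have hp : p.Prime := Fact.out
  have kinj : Function.Injective (kap hk) := by
    intro a b hab
    rw [← sub_eq_zero]
    apply κinj
    intro m
    have h1 : kap hk (a - b) m = 0 := by
      rw [map_sub, hab, sub_self]
      rfl
    exact h1
  -- Step 1: lift `g` to `g̃`
  obtain ⟨n, b, hb⟩ := hfree G D.𝒯 (ZMod p) (A.dualTwist D.χ) P
  have bext : ∀ {Y : Type} [AddCommGroup Y] {h h' : P.M₁.V →+ Y},
      (∀ j, h (b j) = h' (b j)) → h = h' := fun {Y} _ {h h'} hh =>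
    (hb Y (fun j => h' (b j))).unique hh (fun _ => rfl)
  choose x hx using fun j => D.π_surj (g.hom (b j))
  obtain ⟨gt, hgt, -⟩ := hb (PTJ D).V x
  have hπgt : (homAdd D.π).comp gt = homAdd g := by
    apply bext
    intro j
    show D.π.hom (gt (b j)) = g.hom (b j)
    rw [hgt, hx]
  -- Step 2: `d⁰ g̃` has values in `im i`
  have hz : ∀ σ, (homAdd D.π).comp (dZero P.M₁ (PTJ D) gt σ) = 0 := by
    intro σ
    rw [comp_dZero, hπgt]
    ext m
    rw [dZero_apply, homAdd_apply, homAdd_apply, ← Rep.hom_comm_apply, ← Module.End.mul_apply,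
      ← map_mul, mul_inv_cancel, map_one, Module.End.one_apply, sub_self]
    rfl
  choose z₁ hz₁ using fun σ => exists_lift_i (D := D) (dZero P.M₁ (PTJ D) gt σ) (hz σ)
  -- Step 3: `z₁` is level
  have hlev : IsLevel₁ D.𝒯 (dZero P.M₁ (PTJ D) gt) := by
    obtain ⟨U, hU, hUx⟩ := (ptj_isDiscrete D).exists_level_of_finite
      (Set.finite_range (fun j => gt (b j)))
    refine ⟨P.U₀ ⊓ U, D.𝒯.inf_mem _ _ P.U₀_mem hU, fun σ s hs => ?_⟩
    have h1 : conjAdd P.M₁ (PTJ D) s gt = gt := by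
      apply bext
      intro j
      rw [conjAdd_apply, triv₁ D P s⁻¹ (P.U₀.inv_mem hs.1)]
      exact hUx _ ⟨j, rfl⟩ s hs.2
    unfold dZero
    rw [conjAdd_mul, h1]
  have hz₁lev : IsLevel₁ D.𝒯 z₁ := by
    obtain ⟨U, hU, h⟩ := hlev
    refine ⟨U, hU, fun σ s hs => i_comp_injective (D := D) ?_⟩
    rw [hz₁, hz₁, h σ s hs]
  -- Step 4: extend to `M₀`
  have hpM : ∀ m : P.M₀.V, ∃ m₁ : P.M₁.V, homAdd P.inc m₁ = p • m := by
    intro m
    apply (P.exact (p • m)).1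
    rw [map_nsmul]
    exact ZModModule.char_nsmul_eq_zero p _
  choose ext hext using fun z : P.M₁.V →+ D.E.V =>
    stmtExt p hp P.M₀.V P.M₁.V D.E.V (homAdd P.inc) P.inc_injective hpM D.E_div z
  obtain ⟨zt, hztdef⟩ : ∃ zt : G → (P.M₀.V →+ D.E.V), ∀ σ, zt σ = ext (z₁ σ) :=
    ⟨fun σ => ext (z₁ σ), fun _ => rfl⟩
  have hzt : ∀ σ, (zt σ).comp (homAdd P.inc) = z₁ σ := by
    intro σ
    ext m₁
    rw [hztdef]
    exact hext (z₁ σ) m₁
  have hztlev : IsLevel₁ D.𝒯 zt := by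
    obtain ⟨U, hU, h⟩ := hz₁lev
    refine ⟨U, hU, fun σ s hs => ?_⟩
    rw [hztdef, hztdef, h σ s hs]
  -- Step 5: `d z̃` vanishes on `M₁`
  have hd : ∀ στ, (dOne P.M₀ D.E zt στ).comp (homAdd P.inc) = 0 := by
    intro στ
    rw [dOne_comp]
    apply i_comp_injective (D := D)
    rw [comp_dOne, AddMonoidHom.comp_zero]
    have h1 : (fun σ => (homAdd D.i).comp ((zt σ).comp (homAdd P.inc))) =
        dZero P.M₁ (PTJ D) gt := by
      funext σ
      rw [hzt, hz₁]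
    rw [h1]
    exact dOne_dZero _ _ gt στ
  choose w hw using fun στ => κsurj (dOne P.M₀ D.E zt στ)
    (fun m₁ => DFunLike.congr_fun (hd στ) m₁)
  have hw' : ∀ στ, kap hk (w στ) = dOne P.M₀ D.E zt στ := by
    intro στ
    ext m
    exact hw στ m
  refine ⟨w, (mem_levCocycles₂_iff D.𝒯 A w).2 ⟨?_, ?_⟩, gt, zt, ?_, hztlev, ?_, ?_⟩
  · -- cocycle
    rw [mem_cocycles₂_iff]
    intro g' h j
    apply kinj
    rw [map_add, map_add, kap_conj, hw', hw', hw', hw']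
    exact dOne_cocycle _ _ zt g' h j
  · -- level
    obtain ⟨U, hU, h⟩ := isLevel₂_dOne D P (e_isDiscrete D) zt hztlev
    refine ⟨U, hU, fun g' g'' s s' hs hs' => kinj ?_⟩
    rw [hw', hw', h g' g'' s s' hs hs']
  · intro m
    exact DFunLike.congr_fun hπgt m
  · intro σ m
    have h1 := DFunLike.congr_fun (hz₁ σ) m
    have h2 := DFunLike.congr_fun (hzt σ) m
    show D.i.hom (zt σ (P.inc.hom m)) = _
    rw [← h1]
    show D.i.hom (zt σ (P.inc.hom m)) = D.i.hom (z₁ σ m)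
    rw [← h2]
    rfl
  · intro στ m
    exact hw στ m

end Fermat.Agent.PT.F

end
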