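/-
PT-F §6 inputs, piece M1Free (helper81): the relation module of a presentation is `ℤ`-free of
finite rank.  `stmtM1Free : StmtM1Free`.
-/
import Fermat.Agent.PT.F.SeqInPlan

set_option autoImplicit false

noncomputable section

namespace Fermat.Agent.PT.F

open CategoryTheory groupCohomology Fermat.Agent.PT

/-- A group with a finite "basis" in the sense of the universal property is isomorphic to
`Fin n → ℤ`. -/
theorem m1free_equiv_of_univ (M₀ : Type) [AddCommGroup M₀] (n : ℕ) (b₀ : Fin n → M₀)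
    (hb : ∀ (Y : Type) [AddCommGroup Y] (f : Fin n → Y), ∃! h : M₀ →+ Y, ∀ j, h (b₀ j) = f j) :
    Nonempty (M₀ ≃+ (Fin n → ℤ)) := by
  classical
  obtain ⟨ψ, hψ, -⟩ := hb (Fin n → ℤ) (fun j => Pi.single j (1 : ℤ))
  let φL : (Fin n → ℤ) →ₗ[ℤ] M₀ := Fintype.linearCombination ℤ b₀
  let φ : (Fin n → ℤ) →+ M₀ := φL.toAddMonoidHom
  have hφ : ∀ j, φ (Pi.single j (1 : ℤ)) = b₀ j := fun j => by
    show Fintype.linearCombination ℤ b₀ (Pi.single j (1 : ℤ)) = b₀ j
    rw [Fintype.linearCombination_apply_single, one_smul]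
  have h1 : φ.comp ψ = AddMonoidHom.id M₀ := by
    refine (hb M₀ b₀).unique (fun j => ?_) (fun j => rfl)
    rw [AddMonoidHom.comp_apply, hψ, hφ]
  have h2 : ψ.comp φ = AddMonoidHom.id (Fin n → ℤ) := by
    ext i j
    show ψ (φ (Pi.single i (1 : ℤ))) j = (Pi.single i (1 : ℤ) : Fin n → ℤ) j
    rw [hφ, hψ]
  exact ⟨{ toFun := ψ
           invFun := φ
           left_inv := fun x => DFunLike.congr_fun h1 x
           right_inv := fun x => DFunLike.congr_fun h2 x
           map_add' := ψ.map_add }⟩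

/-- A free `ℤ`-module of finite rank has a finite "basis" in the sense of the universal
property. -/
theorem m1free_univ_of_free (M : Type) [AddCommGroup M] [Module.Free ℤ M] [Module.Finite ℤ M] :
    ∃ (n : ℕ) (b : Fin n → M), ∀ (Y : Type) [AddCommGroup Y] (f : Fin n → Y),
      ∃! h : M →+ Y, ∀ j, h (b j) = f j := by
  classical
  let B := Module.finBasis ℤ M
  refine ⟨Module.finrank ℤ M, B, fun Y _ f => ?_⟩
  refine ⟨(B.constr ℤ f).toAddMonoidHom, fun j => ?_, fun h hh => ?_⟩
  · show B.constr ℤ f (B j) = f j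
    exact B.constr_basis ℤ f j
  · have : h.toIntLinearMap = B.constr ℤ f := by
      refine B.ext fun j => ?_
      rw [B.constr_basis]
      exact hh j
    ext x
    exact DFunLike.congr_fun this x

/-- Subgroups of groups with a finite basis have a finite basis. -/
theorem m1free_aux (M₀ M₁ : Type) [AddCommGroup M₀] [AddCommGroup M₁] (inc : M₁ →+ M₀)
    (hinc : Function.Injective inc) (n : ℕ) (b₀ : Fin n → M₀)
    (hb : ∀ (Y : Type) [AddCommGroup Y] (f : Fin n → Y), ∃! h : M₀ →+ Y, ∀ j, h (b₀ j) = f j) :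
    ∃ (n' : ℕ) (b : Fin n' → M₁), ∀ (Y : Type) [AddCommGroup Y] (f : Fin n' → Y),
      ∃! h : M₁ →+ Y, ∀ j, h (b j) = f j := by
  classical
  obtain ⟨e⟩ := m1free_equiv_of_univ M₀ n b₀ hb
  let g : M₁ →ₗ[ℤ] (Fin n → ℤ) := (e.toAddMonoidHom.comp inc).toIntLinearMap
  have hg : Function.Injective g := fun x y hxy => hinc (e.injective hxy)
  let E : M₁ ≃ₗ[ℤ] LinearMap.range g := LinearEquiv.ofInjective g hg
  have : Module.Finite ℤ M₁ := Module.Finite.equiv E.symm
  have : Module.Free ℤ M₁ := Module.Free.of_equiv E.symm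
  exact m1free_univ_of_free M₁

/-- **M1Free**: the relation module of a presentation is `ℤ`-free of finite rank. -/
theorem stmtM1Free : StmtM1Free := by
  intro G _ 𝒯 k _ A' P
  exact m1free_aux P.M₀.V P.M₁.V (AddMonoidHom.mk' (fun a => P.inc.hom a)
    (fun a b => map_add P.inc.hom a b)) P.inc_injective P.n P.basis₀ P.basis₀_spec

end Fermat.Agent.PT.F

end
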