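/-
PT-F §6 inputs, helper for In2a (helper32): the explicit Shapiro homotopy in degree 2, in
HOMOGENEOUS form, for an abstract group homomorphism `r : H → G` and a normal subgroup `U` of `G`
(pure group theory: no representations).

`shapiro₂`: an `H`-equivariant, right-`U`-invariant homogeneous 2-cocycle `Φ : G³ → X` whose
restriction to `r(H)³` is `dΨ` (`Ψ` equivariant, right-`r⁻¹U`-invariant) is `dΘ` with `Θ`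
equivariant and right-`U`-invariant:
`Θ(g₀, g₁) = Ψ(πg₀, πg₁) + Φ(rπg₀, g₀, g₁) - Φ(rπg₀, rπg₁, g₁)`, `π : G → H` a choice of
`H`-components with respect to representatives of `r(H) \ G / U`.
Dictionary for In2a: `Φ(g₀,g₁,g₂) = ev_v ∘ (g₀ • y(g₀⁻¹g₁, g₁⁻¹g₂))`, `Ψ(d₀,d₁) = d₀ • t_v(d₀⁻¹d₁)`,
`T(σ)(m)(v)(g) = Θ_v(g, gσ)(g m)`.
-/
import Mathlib

set_option autoImplicit false

namespace Fermat.Agent.PT.F.ShapiroHtpy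

variable {G H X : Type} [Group G] [Group H] [AddCommGroup X]

/-- the orbit relation of `H × U` acting on `G` by `g ↦ r(d) g u` -/
def dcSetoid (r : H →* G) (U : Subgroup G) : Setoid G where
  r g g' := ∃ (d : H) (u : G), u ∈ U ∧ g' = r d * g * u
  iseqv :=
    { refl := fun g => ⟨1, 1, U.one_mem, by simp⟩
      symm := by
        rintro g g' ⟨d, u, hu, rfl⟩
        exact ⟨d⁻¹, u⁻¹, U.inv_mem hu, by simp [mul_assoc]⟩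
      trans := by
        rintro g g' g'' ⟨d, u, hu, rfl⟩ ⟨d', u', hu', rfl⟩
        exact ⟨d' * d, u * u', U.mul_mem hu hu', by simp [mul_assoc]⟩ }

/-- A choice of `H`-components: `π : G → H` with `π (r d · g · u) ∈ d · π g · r⁻¹(U)`. -/
lemma exists_proj (r : H →* G) (U : Subgroup G) [hU : U.Normal] :
    ∃ π : G → H, ∀ (d : H) (g u : G), u ∈ U → r ((d * π g)⁻¹ * π (r d * g * u)) ∈ U := by
  classical
  let s := dcSetoid r U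
  let ρ : G → G := fun g => (Quotient.out (s := s) (Quotient.mk s g))
  have hρ : ∀ g, ∃ (d : H) (u : G), u ∈ U ∧ g = r d * ρ g * u := fun g =>
    Quotient.exact (s := s) (Quotient.out_eq (s := s) (Quotient.mk s g))
  choose π u hu hπ using hρ
  refine ⟨π, fun d g u₀ hu₀ => ?_⟩
  have hcls : ρ (r d * g * u₀) = ρ g := by
    have : Quotient.mk s (r d * g * u₀) = Quotient.mk s g :=
      Quotient.sound (s := s) (Setoid.symm' s ⟨d, u₀, hu₀, rfl⟩)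
    simp only [ρ, this]
  have h1 := hπ (r d * g * u₀)
  rw [hcls] at h1
  have h2 := hπ g
  -- r(π g') ρ u₂ = r d r(π g) ρ u₁ u₀
  have h3 : r (π (r d * g * u₀)) * ρ g * u (r d * g * u₀) = r d * (r (π g) * ρ g * u g) * u₀ := by
    rw [← h1, ← h2]
  have h4 : r ((d * π g)⁻¹ * π (r d * g * u₀)) =
      ρ g * (u g * u₀ * (u (r d * g * u₀))⁻¹) * (ρ g)⁻¹ := by
    rw [map_mul, map_inv, map_mul]
    have h5 : r (π (r d * g * u₀)) =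
        r d * (r (π g) * ρ g * u g) * u₀ * (u (r d * g * u₀))⁻¹ * (ρ g)⁻¹ := by
      rw [← h3]
      group
    rw [h5]
    group
  rw [h4]
  exact hU.conj_mem _ (U.mul_mem (U.mul_mem (hu g) hu₀) (U.inv_mem (hu _))) _

/-- **Explicit Shapiro homotopy in degree 2** (homogeneous form). -/
theorem shapiro₂ (r : H →* G) (act : H → X →+ X) (U : Subgroup G) [U.Normal]
    (Φ : G → G → G → X) (Ψ : H → H → X)
    (hΦ1 : ∀ d g₀ g₁ g₂, Φ (r d * g₀) (r d * g₁) (r d * g₂) = act d (Φ g₀ g₁ g₂))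
    (hΦ2 : ∀ g₀ g₁ g₂ g₃, Φ g₁ g₂ g₃ - Φ g₀ g₂ g₃ + Φ g₀ g₁ g₃ - Φ g₀ g₁ g₂ = 0)
    (hΦ3 : ∀ g₀ g₁ g₂ u₀ u₁ u₂, u₀ ∈ U → u₁ ∈ U → u₂ ∈ U →
      Φ (g₀ * u₀) (g₁ * u₁) (g₂ * u₂) = Φ g₀ g₁ g₂)
    (hΨ1 : ∀ d d₀ d₁, Ψ (d * d₀) (d * d₁) = act d (Ψ d₀ d₁))
    (hΨ3 : ∀ d₀ d₁ w₀ w₁, r w₀ ∈ U → r w₁ ∈ U → Ψ (d₀ * w₀) (d₁ * w₁) = Ψ d₀ d₁)
    (hΦΨ : ∀ d₀ d₁ d₂, Φ (r d₀) (r d₁) (r d₂) = Ψ d₁ d₂ - Ψ d₀ d₂ + Ψ d₀ d₁) :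
    ∃ Θ : G → G → X,
      (∀ d g₀ g₁, Θ (r d * g₀) (r d * g₁) = act d (Θ g₀ g₁)) ∧
      (∀ g₀ g₁ u₀ u₁, u₀ ∈ U → u₁ ∈ U → Θ (g₀ * u₀) (g₁ * u₁) = Θ g₀ g₁) ∧
      (∀ g₀ g₁ g₂, Φ g₀ g₁ g₂ = Θ g₁ g₂ - Θ g₀ g₂ + Θ g₀ g₁) := by
  obtain ⟨π, hπ⟩ := exists_proj r U
  -- `π (r d g u) = d π(g) w` with `r w ∈ U`
  have hπ' : ∀ (d : H) (g u : G), u ∈ U → ∃ w : H, r w ∈ U ∧ π (r d * g * u) = d * π g * w :=
    fun d g u hu => ⟨(d * π g)⁻¹ * π (r d * g * u), hπ d g u hu, by group⟩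
  refine ⟨fun g₀ g₁ => Ψ (π g₀) (π g₁) + Φ (r (π g₀)) g₀ g₁ - Φ (r (π g₀)) (r (π g₁)) g₁,
    ?_, ?_, ?_⟩
  · intro d g₀ g₁
    obtain ⟨w₀, hw₀, e₀⟩ := hπ' d g₀ 1 U.one_mem
    obtain ⟨w₁, hw₁, e₁⟩ := hπ' d g₁ 1 U.one_mem
    rw [mul_one] at e₀ e₁
    simp only [e₀, e₁]
    rw [hΨ3 _ _ _ _ hw₀ hw₁, hΨ1]
    have h1 : Φ (r (d * π g₀ * w₀)) (r d * g₀) (r d * g₁) = act d (Φ (r (π g₀)) g₀ g₁) := by
      have := hΦ3 (r d * r (π g₀)) (r d * g₀) (r d * g₁) (r w₀) 1 1 hw₀ U.one_mem U.one_mem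
      rw [mul_one, mul_one] at this
      rw [map_mul, map_mul, this, hΦ1]
    have h2 : Φ (r (d * π g₀ * w₀)) (r (d * π g₁ * w₁)) (r d * g₁) =
        act d (Φ (r (π g₀)) (r (π g₁)) g₁) := by
      have := hΦ3 (r d * r (π g₀)) (r d * r (π g₁)) (r d * g₁) (r w₀) (r w₁) 1 hw₀ hw₁ U.one_mem
      rw [mul_one] at this
      rw [map_mul, map_mul, map_mul, map_mul, this, hΦ1]
    rw [h1, h2, map_sub, map_add]
  · intro g₀ g₁ u₀ u₁ hu₀ hu₁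
    obtain ⟨w₀, hw₀, e₀⟩ := hπ' 1 g₀ u₀ hu₀
    obtain ⟨w₁, hw₁, e₁⟩ := hπ' 1 g₁ u₁ hu₁
    rw [map_one, one_mul, one_mul] at e₀ e₁
    simp only [e₀, e₁]
    rw [hΨ3 _ _ _ _ hw₀ hw₁]
    have h1 : Φ (r (π g₀ * w₀)) (g₀ * u₀) (g₁ * u₁) = Φ (r (π g₀)) g₀ g₁ := by
      rw [map_mul]
      exact hΦ3 _ _ _ _ _ _ hw₀ hu₀ hu₁
    have h2 : Φ (r (π g₀ * w₀)) (r (π g₁ * w₁)) (g₁ * u₁) = Φ (r (π g₀)) (r (π g₁)) g₁ := by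
      rw [map_mul, map_mul]
      exact hΦ3 _ _ _ _ _ _ hw₀ hw₁ hu₁
    rw [h1, h2]
  · intro g₀ g₁ g₂
    have c1 := hΦ2 (r (π g₀)) g₀ g₁ g₂
    have c2 := hΦ2 (r (π g₀)) (r (π g₁)) g₁ g₂
    have c3 := hΦ2 (r (π g₀)) (r (π g₁)) (r (π g₂)) g₂
    have c4 := hΦΨ (π g₀) (π g₁) (π g₂)
    have e1 : Φ g₀ g₁ g₂ = Φ (r (π g₀)) g₁ g₂ - Φ (r (π g₀)) g₀ g₂ + Φ (r (π g₀)) g₀ g₁ := by
      rw [← sub_eq_zero, ← c1]
      abel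
    have e2 : Φ (r (π g₁)) g₁ g₂ =
        Φ (r (π g₀)) g₁ g₂ - Φ (r (π g₀)) (r (π g₁)) g₂ + Φ (r (π g₀)) (r (π g₁)) g₁ := by
      rw [← sub_eq_zero, ← c2]
      abel
    have e3 : Φ (r (π g₁)) (r (π g₂)) g₂ =
        Φ (r (π g₀)) (r (π g₂)) g₂ - Φ (r (π g₀)) (r (π g₁)) g₂ +
          Φ (r (π g₀)) (r (π g₁)) (r (π g₂)) := by
      rw [← sub_eq_zero, ← c3]
      abel
    beta_reduce
    rw [e1, e2, e3, c4]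
    abel

end Fermat.Agent.PT.F.ShapiroHtpy
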